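import Mathlib

/-! S18: a generic construction of field automorphisms permuting a set of generators. -/

set_option autoImplicit false

open IntermediateField

noncomputable section

namespace FA18

variable {K F ι : Type*} [Field K] [Field F] [Algebra K F] (gen : ι → F) (σ : ι → ι)

/-- evaluation of polynomials at the generators -/
def evG : MvPolynomial ι K →+* F := (MvPolynomial.aeval (R := K) gen).toRingHom

/-- renaming of the variables -/
def rnG : MvPolynomial ι K →+* MvPolynomial ι K := (MvPolynomial.rename (R := K) σ).toRingHom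

/-- the hypotheses -/
structure FrData (K : Type*) {F ι : Type*} [Field K] [Field F] [Algebra K F] (gen : ι → F)
    (σ : ι → ι) : Prop where
  inv : ∀ i, σ (σ i) = i
  ker : ∀ P : MvPolynomial ι K, evG gen (rnG σ P) = 0 ↔ evG gen P = 0
  frac : ∀ f : F, ∃ P : MvPolynomial ι K × MvPolynomial ι K,
    evG gen P.2 ≠ 0 ∧ f * evG gen P.2 = evG gen P.1

variable {gen σ}

lemma evG_X (i : ι) : evG (K := K) gen (MvPolynomial.X i) = gen i := by
  simp [evG]

lemma evG_C (a : K) : evG (K := K) gen (MvPolynomial.C a) = algebraMap K F a := by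
  simp [evG]

lemma rnG_X (i : ι) : rnG (K := K) σ (MvPolynomial.X i) = MvPolynomial.X (σ i) := by
  simp [rnG]

lemma rnG_C (a : K) : rnG (K := K) σ (MvPolynomial.C a) = MvPolynomial.C a := by
  simp [rnG]

namespace FrData

variable (h : FrData K gen σ)
include h

lemma rnG_rnG (P : MvPolynomial ι K) : rnG σ (rnG σ P) = P := by
  show MvPolynomial.rename σ (MvPolynomial.rename σ P) = P
  rw [MvPolynomial.rename_rename]
  have : (σ ∘ σ : ι → ι) = id := funext fun d => h.inv d
  rw [this, MvPolynomial.rename_id_apply]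

/-- the automorphism as a function -/
def toFun (f : F) : F :=
  evG gen (rnG σ (h.frac f).choose.1) / evG gen (rnG σ (h.frac f).choose.2)

lemma toFun_eq {f : F} {A B : MvPolynomial ι K} (hB : evG gen B ≠ 0)
    (hf : f * evG gen B = evG gen A) : h.toFun f = evG gen (rnG σ A) / evG gen (rnG σ B) := by
  obtain ⟨h0, h1⟩ := (h.frac f).choose_spec
  set P := (h.frac f).choose with hP
  have hB' : evG gen (rnG σ B) ≠ 0 := fun h' => hB ((h.ker _).mp h')
  have h0' : evG gen (rnG σ P.2) ≠ 0 := fun h' => h0 ((h.ker _).mp h')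
  have key : evG gen (P.1 * B - A * P.2) = 0 := by
    rw [map_sub, map_mul, map_mul, ← hf, ← h1]
    ring
  have key' := (h.ker _).mpr key
  rw [map_sub, map_mul, map_mul, map_sub, map_mul, map_mul, sub_eq_zero] at key'
  show evG gen (rnG σ P.1) / evG gen (rnG σ P.2) = _
  rw [div_eq_div_iff h0' hB']
  exact key'

/-- the automorphism as a ring homomorphism -/
def toHom : F →+* F where
  toFun := h.toFun
  map_one' := by
    rw [h.toFun_eq (f := 1) (A := 1) (B := 1) (by simp) (by simp)]
    simp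
  map_zero' := by
    rw [h.toFun_eq (f := 0) (A := 0) (B := 1) (by simp) (by simp)]
    simp
  map_mul' f g := by
    obtain ⟨P, hP0, hP⟩ := h.frac f
    obtain ⟨Q, hQ0, hQ⟩ := h.frac g
    rw [h.toFun_eq hP0 hP, h.toFun_eq hQ0 hQ,
      h.toFun_eq (f := f * g) (A := P.1 * Q.1) (B := P.2 * Q.2)
        (by rw [map_mul]; exact mul_ne_zero hP0 hQ0)
        (by rw [map_mul, map_mul, ← hP, ← hQ]; ring)]
    simp only [map_mul]
    rw [div_mul_div_comm]
  map_add' f g := by
    obtain ⟨P, hP0, hP⟩ := h.frac f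
    obtain ⟨Q, hQ0, hQ⟩ := h.frac g
    have hP0' : evG gen (rnG σ P.2) ≠ 0 := fun h' => hP0 ((h.ker _).mp h')
    have hQ0' : evG gen (rnG σ Q.2) ≠ 0 := fun h' => hQ0 ((h.ker _).mp h')
    rw [h.toFun_eq hP0 hP, h.toFun_eq hQ0 hQ,
      h.toFun_eq (f := f + g) (A := P.1 * Q.2 + P.2 * Q.1) (B := P.2 * Q.2)
        (by rw [map_mul]; exact mul_ne_zero hP0 hQ0)
        (by simp only [map_mul, map_add]; rw [← hP, ← hQ]; ring)]
    simp only [map_mul, map_add]
    rw [div_add_div _ _ hP0' hQ0']

lemma toHom_evG (P : MvPolynomial ι K) : h.toHom (evG gen P) = evG gen (rnG σ P) := by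
  show h.toFun (evG gen P) = _
  rw [h.toFun_eq (A := P) (B := 1) (by simp) (by simp)]
  simp

lemma toHom_gen (i : ι) : h.toHom (gen i) = gen (σ i) := by
  rw [← evG_X (K := K) (gen := gen) i, h.toHom_evG, rnG_X, evG_X]

lemma toHom_algebraMap (a : K) : h.toHom (algebraMap K F a) = algebraMap K F a := by
  rw [← evG_C (gen := gen), h.toHom_evG, rnG_C, evG_C]

lemma toHom_toHom (f : F) : h.toHom (h.toHom f) = f := by
  obtain ⟨P, hP0, hP⟩ := h.frac f
  have : f = evG gen P.1 / evG gen P.2 := by rw [← hP, mul_div_cancel_right₀ _ hP0]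
  rw [this, map_div₀, map_div₀, h.toHom_evG, h.toHom_evG, h.toHom_evG, h.toHom_evG,
    h.rnG_rnG, h.rnG_rnG]

/-- the automorphism -/
def toEquiv : F ≃+* F where
  toFun := h.toHom
  invFun := h.toHom
  left_inv := h.toHom_toHom
  right_inv := h.toHom_toHom
  map_mul' := map_mul h.toHom
  map_add' := map_add h.toHom

theorem exists_aut : ∃ W : F ≃ₐ[K] F, (∀ i, W (gen i) = gen (σ i)) ∧ ∀ f, W (W f) = f :=
  ⟨AlgEquiv.ofRingEquiv (f := h.toEquiv) h.toHom_algebraMap, h.toHom_gen, h.toHom_toHom⟩

end FrData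

/-- the hypotheses, from a generating family. -/
theorem FrData.of_adjoin (hσ : ∀ i, σ (σ i) = i) (hgen : adjoin K (Set.range gen) = ⊤)
    (hker : ∀ P : MvPolynomial ι K, MvPolynomial.aeval gen P = 0 →
      MvPolynomial.aeval gen (MvPolynomial.rename σ P) = 0) : FrData K gen σ where
  inv := hσ
  ker P := by
    refine ⟨fun h => ?_, hker P⟩
    have := hker _ h
    change MvPolynomial.aeval gen (MvPolynomial.rename σ (MvPolynomial.rename σ P)) = 0 at this
    rw [MvPolynomial.rename_rename] at this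
    have e : (σ ∘ σ : ι → ι) = id := funext fun d => hσ d
    rwa [e, MvPolynomial.rename_id_apply] at this
  frac f := by
    have hf : f ∈ adjoin K (Set.range gen) := hgen ▸ mem_top
    obtain ⟨P₁, P₂, rfl⟩ := (mem_adjoin_range_iff K gen f).mp hf
    by_cases h : MvPolynomial.aeval gen P₂ = 0
    · exact ⟨(0, 1), by simp, by simp [h]⟩
    · exact ⟨(P₁, P₂), h, div_mul_cancel₀ _ h⟩

end FA18
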