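import Mathlib
import Fermat.Prelude.Def_ModularCurve_LaurentCoeff

/-!
# S18 / M1, part 1: the ring `W ⊂ K((q))` of fractions of integral series and its reduction map
-/

set_option autoImplicit false

open ModularCurve

noncomputable section

namespace FA18.M1

variable {K : Type*} [Field K] (A : ValuationSubring K) {k : Type*} [Field k] (π : A →+* k)

/-- the inclusion `A((q)) → K((q))` -/
abbrev iotaA : LaurentSeries A →+* LaurentSeries K := coeffMap A.subtype

/-- the reduction `A((q)) → k((q))` -/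
abbrev redA : LaurentSeries A →+* LaurentSeries k := coeffMap π

variable {A}

lemma iotaA_injective : Function.Injective (iotaA A) := by
  intro a b h
  ext n
  have := congrArg (fun f : LaurentSeries K => f.coeff n) h
  simpa using this

variable (A)

/-- membership predicate of the ring of fractions -/
def IsW (f : LaurentSeries K) : Prop :=
  ∃ a b : LaurentSeries A, redA A π b ≠ 0 ∧ f * iotaA A b = iotaA A a

/-- the ring of fractions with denominator of nonzero reduction, as a subring of `K((q))` -/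
def WS : Subring (LaurentSeries K) where
  carrier := {f | IsW A π f}
  mul_mem' := by
    rintro f g ⟨a, b, hb, h⟩ ⟨a', b', hb', h'⟩
    refine ⟨a * a', b * b', ?_, ?_⟩
    · rw [map_mul]; exact mul_ne_zero hb hb'
    · rw [map_mul, map_mul, ← h, ← h']; ring
  one_mem' := ⟨1, 1, by simp, by simp⟩
  add_mem' := by
    rintro f g ⟨a, b, hb, h⟩ ⟨a', b', hb', h'⟩
    refine ⟨a * b' + a' * b, b * b', ?_, ?_⟩
    · rw [map_mul]; exact mul_ne_zero hb hb'
    · rw [map_mul, map_add, map_mul, map_mul, ← h, ← h']; ring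
  zero_mem' := ⟨0, 1, by simp, by simp⟩
  neg_mem' := by
    rintro f ⟨a, b, hb, h⟩
    exact ⟨-a, b, hb, by rw [map_neg, ← h]; ring⟩

variable {A π}

lemma mem_WS_iff {f : LaurentSeries K} : f ∈ WS A π ↔ IsW A π f := Iff.rfl

lemma iotaA_mem_WS (a : LaurentSeries A) : iotaA A a ∈ WS A π :=
  ⟨a, 1, by simp, by simp⟩

variable (A π)

open Classical in
/-- the reduction of an element of `W` (junk value `0` outside `W`) -/
def redFun (f : LaurentSeries K) : LaurentSeries k :=
  if h : IsW A π f then redA A π h.choose / redA A π h.choose_spec.choose else 0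

variable {A π}

lemma redFun_eq {f : LaurentSeries K} {a b : LaurentSeries A} (hb : redA A π b ≠ 0)
    (h : f * iotaA A b = iotaA A a) : redFun A π f = redA A π a / redA A π b := by
  have hW : IsW A π f := ⟨a, b, hb, h⟩
  rw [redFun, dif_pos hW]
  obtain ⟨hb', h'⟩ := hW.choose_spec.choose_spec
  set a' := hW.choose
  set b' := hW.choose_spec.choose
  rw [div_eq_div_iff hb' hb, ← map_mul, ← map_mul]
  congr 1
  apply iotaA_injective
  rw [map_mul, map_mul, ← h, ← h']
  ring

lemma redFun_iotaA (a : LaurentSeries A) : redFun A π (iotaA A a) = redA A π a := by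
  rw [redFun_eq (a := a) (b := 1) (by simp) (by simp)]
  simp

variable (A π)

/-- the reduction map `W → k((q))` -/
def redW : WS A π →+* LaurentSeries k where
  toFun f := redFun A π f.1
  map_one' := by
    show redFun A π 1 = 1
    rw [redFun_eq (a := 1) (b := 1) (by simp) (by simp)]
    simp
  map_zero' := by
    show redFun A π 0 = 0
    rw [redFun_eq (a := 0) (b := 1) (by simp) (by simp)]
    simp
  map_mul' := by
    rintro ⟨f, a, b, hb, h⟩ ⟨g, a', b', hb', h'⟩
    show redFun A π (f * g) = redFun A π f * redFun A π g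
    rw [redFun_eq hb h, redFun_eq hb' h', redFun_eq (a := a * a') (b := b * b')
      (by rw [map_mul]; exact mul_ne_zero hb hb')
      (by rw [map_mul, map_mul, ← h, ← h']; ring), map_mul, map_mul]
    field_simp
  map_add' := by
    rintro ⟨f, a, b, hb, h⟩ ⟨g, a', b', hb', h'⟩
    show redFun A π (f + g) = redFun A π f + redFun A π g
    rw [redFun_eq hb h, redFun_eq hb' h', redFun_eq (a := a * b' + a' * b) (b := b * b')
      (by rw [map_mul]; exact mul_ne_zero hb hb')
      (by rw [map_mul, map_add, map_mul, map_mul, ← h, ← h']; ring), map_mul, map_add, map_mul,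
      map_mul]
    field_simp

variable {A π}

lemma redW_apply (f : WS A π) : redW A π f = redFun A π f.1 := rfl

/-- elements with nonzero reduction are units of `W` -/
lemma inv_mem_of_redFun_ne_zero {f : LaurentSeries K} (hf : f ∈ WS A π)
    (h0 : redFun A π f ≠ 0) : f⁻¹ ∈ WS A π := by
  obtain ⟨a, b, hb, h⟩ := hf
  rw [redFun_eq hb h] at h0
  have ha : redA A π a ≠ 0 := fun h => h0 (by rw [h, zero_div])
  have hf0 : f ≠ 0 := by
    rintro rfl
    rw [zero_mul] at h
    have : a = 0 := iotaA_injective (by rw [← h, map_zero])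
    exact ha (by rw [this, map_zero])
  exact ⟨b, a, ha, by rw [← h, inv_mul_cancel_left₀ hf0]⟩

/-- constants -/
lemma iotaA_C (a : A) : iotaA A (HahnSeries.C a) = HahnSeries.C (a : K) := by
  rw [HahnSeries.C_apply, coeffMap_single]; rfl

lemma redA_C (a : A) : redA A π (HahnSeries.C a) = HahnSeries.C (π a) := by
  rw [HahnSeries.C_apply, coeffMap_single]; rfl

lemma C_mem_WS {a : K} (ha : a ∈ A) : (HahnSeries.C a : LaurentSeries K) ∈ WS A π := by
  have := iotaA_mem_WS (π := π) (HahnSeries.C (⟨a, ha⟩ : A))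
  rwa [iotaA_C] at this

lemma redFun_C {a : K} (ha : a ∈ A) :
    redFun A π (HahnSeries.C a : LaurentSeries K) = HahnSeries.C (π ⟨a, ha⟩) := by
  have := redFun_iotaA (π := π) (HahnSeries.C (⟨a, ha⟩ : A))
  rwa [iotaA_C, redA_C] at this

/-- `W ∩ K = A` provided `π` kills the nonunits. -/
lemma mem_of_C_mem_WS (hπ : ∀ a : A, ¬ IsUnit a → π a = 0) {a : K}
    (h : (HahnSeries.C a : LaurentSeries K) ∈ WS A π) : a ∈ A := by
  by_contra ha
  have ha' : a⁻¹ ∈ A := (A.mem_or_inv_mem a).resolve_left ha
  have ha0 : a ≠ 0 := by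
    rintro rfl
    exact ha A.zero_mem
  have hnu : ¬ IsUnit (⟨a⁻¹, ha'⟩ : A) := by
    intro hu
    obtain ⟨u, hu⟩ := hu
    have h1 : (((u⁻¹ : Aˣ) : A) : K) * a⁻¹ = 1 := by
      have : ((u⁻¹ : Aˣ) : A) * (u : A) = 1 := by simp
      rw [hu] at this
      exact congrArg Subtype.val this
    have h2 : (((u⁻¹ : Aˣ) : A) : K) = a := by
      field_simp at h1
      exact h1
    exact ha (h2 ▸ ((u⁻¹ : Aˣ) : A).2)
  have h1 := (redW A π).map_mul ⟨_, h⟩ ⟨_, C_mem_WS (π := π) ha'⟩
  have h2 : (⟨_, h⟩ * ⟨_, C_mem_WS (π := π) ha'⟩ : WS A π) = 1 := by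
    apply Subtype.ext
    show (HahnSeries.C a : LaurentSeries K) * HahnSeries.C a⁻¹ = 1
    rw [← map_mul, mul_inv_cancel₀ ha0, map_one]
  rw [h2, map_one] at h1
  have h3 : redW A π ⟨_, C_mem_WS (π := π) ha'⟩ = 0 := by
    rw [redW_apply, redFun_C ha', hπ _ hnu, map_zero]
  rw [h3, mul_zero] at h1
  exact one_ne_zero h1

end FA18.M1
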