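/-
S18: shared definitions (abstract reduction data).
-/
import Mathlib
import Fermat.Prelude.Def_AlgebraicCurve_Repartitions
import Fermat.Agent.X0Genus.DefsAlg

set_option autoImplicit false

open AlgebraicCurve IntermediateField

namespace FA18

/-- Abstract "constant reduction" of a function field `F/K` to `Fb/k`, along a valuation ring `A`
of `K` with residue map `π : A → k`. -/
structure RedData {K k : Type*} [Field K] [Field k] (A : ValuationSubring K) (π : A →+* k)
    (F Fb : Type*) [Field F] [Algebra K F] [Field Fb] [Algebra k Fb] where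
  /-- the residue map of the constants is onto -/
  π_surj : Function.Surjective π
  /-- the valuation ring of the "Gauss valuation" -/
  O : ValuationSubring F
  /-- the reduction map -/
  ρ : O →+* Fb
  ρ_surj : Function.Surjective ρ
  /-- `O ∩ K = A` -/
  algebraMap_mem_iff : ∀ a : K, algebraMap K F a ∈ O ↔ a ∈ A
  /-- `ρ` is compatible with `π` -/
  ρ_algebraMap : ∀ (a : A) (h : algebraMap K F (a : K) ∈ O),
    ρ ⟨algebraMap K F (a : K), h⟩ = algebraMap k Fb (π a)
  /-- the value group of `O` is that of `A` -/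
  scale : ∀ x : F, x ≠ 0 → ∃ c : K, c ≠ 0 ∧
    ∃ h : algebraMap K F c * x ∈ O, ρ ⟨algebraMap K F c * x, h⟩ ≠ 0
  /-- a regular function: the degree does not drop -/
  deg : ∃ x0 : O, Transcendental k (ρ x0) ∧
    Module.finrank K⟮(x0 : F)⟯ F ≤ Module.finrank k⟮ρ x0⟯ Fb

namespace RedData

variable {K k : Type*} [Field K] [Field k] {A : ValuationSubring K} {π : A →+* k}
  {F Fb : Type*} [Field F] [Algebra K F] [Field Fb] [Algebra k Fb] (R : RedData A π F Fb)

theorem algebraMap_mem (a : A) : algebraMap K F (a : K) ∈ R.O :=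
  (R.algebraMap_mem_iff a).mpr a.2

/-- the constants of `A`, inside `O`. -/
def const (a : A) : R.O := ⟨algebraMap K F (a : K), R.algebraMap_mem a⟩

@[simp] theorem coe_const (a : A) : ((R.const a : R.O) : F) = algebraMap K F (a : K) := rfl

@[simp] theorem ρ_const (a : A) : R.ρ (R.const a) = algebraMap k Fb (π a) :=
  R.ρ_algebraMap a _

theorem isUnit_iff (x : R.O) : IsUnit x ↔ R.ρ x ≠ 0 := by
  constructor
  · intro h
    exact (h.map R.ρ).ne_zero
  · intro h
    by_contra hx
    have hx' : x ∈ IsLocalRing.maximalIdeal R.O := hx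
    have hker : RingHom.ker R.ρ = IsLocalRing.maximalIdeal R.O :=
      IsLocalRing.eq_maximalIdeal (RingHom.ker_isMaximal_of_surjective R.ρ R.ρ_surj)
    rw [← hker] at hx'
    exact h hx'

theorem ρ_eq_zero_iff (x : R.O) : R.ρ x = 0 ↔ x ∈ IsLocalRing.maximalIdeal R.O := by
  rw [IsLocalRing.mem_maximalIdeal, mem_nonunits_iff, R.isUnit_iff, not_not]

/-- if `ρ x ≠ 0` then `x⁻¹ ∈ O`. -/
theorem inv_mem {x : R.O} (hx : R.ρ x ≠ 0) : ((x : F))⁻¹ ∈ R.O := by
  obtain ⟨u, hu⟩ := (R.isUnit_iff x).mpr hx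
  have h : ((u⁻¹ : R.Oˣ) : R.O) * x = 1 := by rw [← hu]; simp
  have h' : (((u⁻¹ : R.Oˣ) : R.O) : F) * (x : F) = 1 := by exact_mod_cast congrArg Subtype.val h
  rw [← eq_inv_of_mul_eq_one_left h']
  exact (((u⁻¹ : R.Oˣ) : R.O)).2

theorem ρ_inv {x : R.O} (hx : R.ρ x ≠ 0) : R.ρ ⟨((x : F))⁻¹, R.inv_mem hx⟩ = (R.ρ x)⁻¹ := by
  have hx0 : (x : F) ≠ 0 := by
    intro h
    apply hx
    have : x = 0 := Subtype.ext h
    rw [this, map_zero]
  have h : (⟨((x : F))⁻¹, R.inv_mem hx⟩ : R.O) * x = 1 := by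
    apply Subtype.ext
    show ((x : F))⁻¹ * (x : F) = 1
    exact inv_mul_cancel₀ hx0
  have h2 := congrArg R.ρ h
  rw [map_mul, map_one] at h2
  exact eq_inv_of_mul_eq_one_left h2

/-- The reduction of a `K`-subspace `V` of `F`: the `k`-subspace `ρ (V ∩ O)` of `Fb`. -/
def redSub (V : Submodule K F) : Submodule k Fb where
  carrier := {y | ∃ x : R.O, (x : F) ∈ V ∧ R.ρ x = y}
  zero_mem' := ⟨0, by simp, map_zero _⟩
  add_mem' := by
    rintro _ _ ⟨x, hx, rfl⟩ ⟨y, hy, rfl⟩
    exact ⟨x + y, V.add_mem hx hy, map_add _ _ _⟩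
  smul_mem' := by
    rintro c _ ⟨x, hx, rfl⟩
    obtain ⟨a, rfl⟩ := R.π_surj c
    refine ⟨R.const a * x, ?_, ?_⟩
    · have : ((R.const a * x : R.O) : F) = (a : K) • (x : F) := by
        rw [Algebra.smul_def]; rfl
      rw [this]
      exact V.smul_mem _ hx
    · rw [map_mul, ρ_const, Algebra.smul_def]

theorem mem_redSub {V : Submodule K F} {y : Fb} :
    y ∈ R.redSub V ↔ ∃ x : R.O, (x : F) ∈ V ∧ R.ρ x = y := Iff.rfl

end RedData

/-- the effective divisor `∑_{P ∈ S} P`. -/
noncomputable def sumDiv {K F : Type*} [Field K] [Field F] [Algebra K F] (S : Finset (Place K F)) :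
    Divisor K F := ∑ P ∈ S, Finsupp.single P (1 : ℤ)

/-- the auxiliary level: `X₀(M)` has at most one (tame) orbifold value in characteristic `ℓ`. -/
def auxLevel (ℓ : ℕ) : ℕ := if ℓ = 2 then 3 else if ℓ = 3 then 2 else 1

end FA18
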