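import Fermat.Agent.Red.Step2
import Fermat.Agent.Red.Defs

/-!
# S18, Step 2, final shape: descent of `m`-th roots from the auxiliary level (norm argument)
-/

open FA24 ModularCurve AlgebraicCurve IntermediateField
open scoped LaurentSeries

set_option autoImplicit false

namespace FA18.St2

/-- descent of roots by norms. -/
theorem exists_root_of_coprime {K T : Type*} [Field K] [Field T] [Algebra K T]
    (B : IntermediateField K T) (d : ℕ) (hB : Module.finrank B T = d) (m : ℕ)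
    (hcop : Nat.Coprime d m) (x : T) (hx : x ∈ B) (s : T) (hs : s ^ m = x) :
    ∃ t ∈ B, t ^ m = x := by
  rcases eq_or_ne x 0 with rfl | hx0
  · refine ⟨0, B.zero_mem, zero_pow ?_⟩
    rintro rfl
    simp at hs
  set n : B := Algebra.norm B s with hn
  have h1 : n ^ m = (⟨x, hx⟩ : B) ^ d := by
    rw [hn, ← map_pow, hs, ← hB]
    exact Algebra.norm_algebraMap (⟨x, hx⟩ : B)
  have h2 : (n : T) ^ m = x ^ d := by
    have := congrArg (Subtype.val) h1
    simpa using this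
  have hbez : (1 : ℤ) = d * Nat.gcdA d m + m * Nat.gcdB d m := by
    have := Nat.gcd_eq_gcd_ab d m
    rw [hcop] at this
    exact_mod_cast this
  refine ⟨(n : T) ^ (Nat.gcdA d m) * x ^ (Nat.gcdB d m),
    B.mul_mem (zpow_mem n.2 _) (zpow_mem hx _), ?_⟩
  rw [mul_pow, ← zpow_natCast, ← zpow_natCast, ← zpow_mul, ← zpow_mul, mul_comm (Nat.gcdA d m),
    zpow_mul, zpow_natCast, h2, ← zpow_natCast, ← zpow_mul, ← zpow_add₀ hx0,
    mul_comm (Nat.gcdB d m), ← hbez, zpow_one]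

theorem descend (N : ℕ) [NeZero N] {l : ℕ} [Fact l.Prime] (hlN : ¬ l ∣ N) (m : ℕ) (hm : ¬ l ∣ m)
    (f : FN N) (s : LaurentSeries Kb)
    (hs : s ∈ modularFunctionFieldBar (Nat.lcm N (auxLevel l)))
    (hsf : s ^ m = (f : LaurentSeries Kb)) : ∃ t : FN N, t ^ m = f := by
  by_cases hdvd : auxLevel l ∣ N
  · rw [Nat.lcm_eq_left hdvd] at hs
    exact ⟨⟨s, hs⟩, Subtype.ext hsf⟩
  -- now `auxLevel l` is a prime `p ∤ N` and `p + 1` is a power of `l`
  obtain ⟨p, hp, hpl, hcop⟩ : ∃ p : ℕ, p.Prime ∧ auxLevel l = p ∧ Nat.Coprime (p + 1) m := by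
    unfold auxLevel at hdvd ⊢
    split_ifs at hdvd ⊢ with h2 h3
    · subst h2
      refine ⟨3, by norm_num, rfl, ?_⟩
      have : Nat.Coprime 2 m := (Nat.Prime.coprime_iff_not_dvd Nat.prime_two).2 hm
      exact Nat.Coprime.pow_left 2 this
    · subst h3
      exact ⟨2, by norm_num, rfl, (Nat.Prime.coprime_iff_not_dvd Nat.prime_three).2 hm⟩
    · exact absurd (one_dvd N) hdvd
  rw [hpl] at hdvd hs
  have hlcm : Nat.lcm N p = N * p :=
    Nat.Coprime.lcm_eq_mul ((Nat.Prime.coprime_iff_not_dvd hp).2 hdvd).symm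
  rw [hlcm] at hs
  have : NeZero p := ⟨hp.ne_zero⟩
  obtain ⟨t, ht, htm⟩ := exists_root_of_coprime (incl (dvd_mul_right N p)).fieldRange (p + 1)
    (finrank_range_incl p hp hdvd) m hcop (incl (dvd_mul_right N p) f)
    (AlgHom.mem_fieldRange.2 ⟨f, rfl⟩) ⟨s, hs⟩ (Subtype.ext (by
      rw [coe_incl, ← hsf]; rfl))
  obtain ⟨t0, rfl⟩ := AlgHom.mem_fieldRange.1 ht
  refine ⟨t0, (incl (dvd_mul_right N p)).injective ?_⟩
  show incl (dvd_mul_right N p) (t0 ^ m) = incl (dvd_mul_right N p) f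
  rw [map_pow, htm]

end FA18.St2
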