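import Fermat.Agent.Red.G2Sub

/-! S18 / G2: consequences of `(deg)`: orthonormal `K(x0)`-basis, `finrank (redSub V) = finrank V`,
`(scale)`. -/

namespace FA18

open Module IntermediateField Polynomial

variable {K F k Fb : Type*} [Field K] [Field F] [Algebra K F] [Field k] [Field Fb] [Algebra k Fb]
variable {A : ValuationSubring K} {O : ValuationSubring F} {π : A →+* k} {ρ : O →+* Fb}

/-- `(deg)` at `x0`. -/
def HasDeg (K k : Type*) {F Fb : Type*} [Field K] [Field F] [Algebra K F] [Field k] [Field Fb]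
    [Algebra k Fb] {O : ValuationSubring F} (ρ : O →+* Fb) (x0 : F) : Prop :=
  x0 ∈ O ∧ Transcendental k (ext0 O ρ x0) ∧ FiniteDimensional K⟮x0⟯ F ∧
    finrank K⟮x0⟯ F ≤ finrank k⟮ext0 O ρ x0⟯ Fb

/-- scaling a nonzero combination of an orthonormal family to a unit -/
theorem RedBase.exists_scale_linComb (hB : RedBase A O π ρ) {ι : Type*} {e : ι → F}
    (he : ∀ i, e i ∈ O) (hli : LinearIndependent k fun i => ext0 O ρ (e i)) {u : ι →₀ K}
    (hu : u ≠ 0) : ∃ c : K, c ≠ 0 ∧ ext0 O ρ (c • Finsupp.linearCombination K e u) ≠ 0 := by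
  obtain ⟨i0, h0, hn⟩ := RedBase.exists_normal A hu
  refine ⟨(u i0)⁻¹, inv_ne_zero h0, ?_⟩
  rw [← map_smul]
  exact hB.ext0_linComb_ne_zero he hli (u := (u i0)⁻¹ • u) (fun i => by simpa using hn i)
    (i0 := i0) (by simp [h0])

theorem RedBase.exists_scale_aeval (hB : RedBase A O π ρ) {x : F} (hx : x ∈ O)
    (ht : Transcendental k (ext0 O ρ x)) {q : K[X]} (hq : q ≠ 0) :
    ∃ c : K, c ≠ 0 ∧ ext0 O ρ (c • aeval x q) ≠ 0 := by
  have h1 : LinearIndependent k fun j : ℕ => ext0 O ρ (x ^ j) := by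
    simp only [ext0_pow ρ hx]
    exact linearIndependent_pow_of_transcendental ht
  rw [aeval_eq_linComb]
  exact hB.exists_scale_linComb (fun j : ℕ => pow_mem hx j) h1 (by simpa using hq)

/-- basis from an independent family of the right cardinality (no nonemptiness needed) -/
noncomputable def basisOfLI {K V ι : Type*} [Field K] [AddCommGroup V] [Module K V] [Fintype ι]
    [FiniteDimensional K V] {b : ι → V} (h : LinearIndependent K b)
    (hc : Fintype.card ι = finrank K V) : Basis ι K V :=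
  Basis.mk h (h.span_eq_top_of_card_eq_finrank' hc).ge

@[simp] theorem basisOfLI_apply {K V ι : Type*} [Field K] [AddCommGroup V] [Module K V] [Fintype ι]
    [FiniteDimensional K V] {b : ι → V} (h : LinearIndependent K b)
    (hc : Fintype.card ι = finrank K V) (i : ι) : basisOfLI h hc i = b i := by
  simp [basisOfLI]

/-- The orthonormal `K(x0)`-basis of `F`. -/
theorem exists_orthonormal_basis (hB : RedBase A O π ρ) {x0 : F} (h0 : HasDeg K k ρ x0) :
    ∃ (n : ℕ) (b : Basis (Fin n) K⟮x0⟯ F), (∀ i, b i ∈ O) ∧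
      LinearIndependent k⟮ext0 O ρ x0⟯ (fun i => ext0 O ρ (b i)) := by
  obtain ⟨hx, ht, hfd, hdeg⟩ := h0
  obtain ⟨bb, hbb⟩ := exists_linearIndependent_of_le_finrank hdeg
  have hch : ∀ i, ∃ y : F, y ∈ O ∧ ext0 O ρ y = bb i := fun i => hB.exists_lift _
  choose y hyO hy using hch
  have h1 : LinearIndependent k fun p : ℕ × Fin (finrank K⟮x0⟯ F) =>
      ext0 O ρ (x0 ^ p.1 * y p.2) := by
    have := linearIndependent_pow_mul ht hbb
    have hfun : (fun p : ℕ × Fin (finrank K⟮x0⟯ F) => ext0 O ρ (x0 ^ p.1 * y p.2)) =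
        fun p : ℕ × Fin (finrank K⟮x0⟯ F) => ext0 O ρ x0 ^ p.1 * bb p.2 := by
      ext p
      rw [ext0_mul ρ (pow_mem hx _) (hyO _), ext0_pow ρ hx, hy]
    rw [hfun]; exact this
  have h2 := hB.linearIndependent_of_ext0
    (fun p : ℕ × Fin (finrank K⟮x0⟯ F) => O.mul_mem _ _ (pow_mem hx p.1) (hyO p.2)) h1
  have h3 := linearIndependent_adjoin_of_pow_mul h2
  refine ⟨_, basisOfLI h3 (by simp), ?_, ?_⟩
  · intro i; simpa using hyO i
  · simpa [hy] using hbb

section Denominators

variable {x0 : F} {n : ℕ} (b : Basis (Fin n) K⟮x0⟯ F)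

/-- the `K`-span of the `x0 ^ j * b i` -/
def polySpan (K : Type*) {F : Type*} [Field K] [Field F] [Algebra K F] {x0 : F} {n : ℕ}
    (b : Basis (Fin n) K⟮x0⟯ F) : Submodule K F :=
  Submodule.span K (Set.range fun p : ℕ × Fin n => x0 ^ p.1 * b p.2)

theorem aeval_mul_mem_polySpan (q : K[X]) {m : F} (hm : m ∈ polySpan K b) :
    aeval x0 q * m ∈ polySpan K b := by
  have hX : ∀ m ∈ polySpan K b, x0 * m ∈ polySpan K b := by
    intro m hm
    induction hm using Submodule.span_induction with
    | mem z hz =>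
      obtain ⟨p, rfl⟩ := hz
      refine Submodule.subset_span ⟨(p.1 + 1, p.2), ?_⟩
      simp only [pow_succ']; ring
    | zero => simp
    | add y z _ _ hy hz => rw [mul_add]; exact Submodule.add_mem _ hy hz
    | smul a y _ hy => rw [mul_smul_comm]; exact Submodule.smul_mem _ _ hy
  have hXn : ∀ (j : ℕ), ∀ m ∈ polySpan K b, x0 ^ j * m ∈ polySpan K b := by
    intro j
    induction j with
    | zero => intro m hm; simpa using hm
    | succ j ih => intro m hm; rw [pow_succ', mul_assoc]; exact hX _ (ih m hm)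
  induction q using Polynomial.induction_on' with
  | add p q hp hq => rw [map_add, add_mul]; exact Submodule.add_mem _ hp hq
  | monomial j a =>
    rw [aeval_monomial, ← Algebra.smul_def, smul_mul_assoc]
    exact Submodule.smul_mem _ _ (hXn j m hm)

theorem exists_denominator (y : F) : ∃ q : K[X], q ≠ 0 ∧ aeval x0 q * y ∈ polySpan K b := by
  have hy : y ∈ Submodule.span K⟮x0⟯ (Set.range b) := b.mem_span y
  induction hy using Submodule.span_induction with
  | mem z hz =>
    obtain ⟨i, rfl⟩ := hz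
    exact ⟨1, one_ne_zero, Submodule.subset_span ⟨(0, i), by simp⟩⟩
  | zero => exact ⟨1, one_ne_zero, by simp⟩
  | add y z _ _ hy hz =>
    obtain ⟨q1, h1, h1'⟩ := hy
    obtain ⟨q2, h2, h2'⟩ := hz
    refine ⟨q1 * q2, mul_ne_zero h1 h2, ?_⟩
    have : aeval x0 (q1 * q2) * (y + z) =
        aeval x0 q2 * (aeval x0 q1 * y) + aeval x0 q1 * (aeval x0 q2 * z) := by
      rw [map_mul]; ring
    rw [this]
    exact Submodule.add_mem _ (aeval_mul_mem_polySpan b q2 h1') (aeval_mul_mem_polySpan b q1 h2')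
  | smul r y _ hy =>
    obtain ⟨q, hq, hq'⟩ := hy
    obtain ⟨p, s, hr⟩ := (IntermediateField.mem_adjoin_simple_iff K _).1 r.2
    by_cases hs : aeval x0 s = 0
    · refine ⟨1, one_ne_zero, ?_⟩
      have : r • y = 0 := by
        rw [IntermediateField.smul_def, hr, hs, div_zero, smul_eq_mul, zero_mul]
      rw [this, mul_zero]; exact Submodule.zero_mem _
    · have hs0 : s ≠ 0 := by rintro rfl; simp at hs
      refine ⟨q * s, mul_ne_zero hq hs0, ?_⟩
      have : aeval x0 (q * s) * (r • y) = aeval x0 p * (aeval x0 q * y) := by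
        rw [IntermediateField.smul_def, hr, smul_eq_mul, map_mul]
        field_simp
      rw [this]
      exact aeval_mul_mem_polySpan b p hq'

theorem exists_denominator_sub (V : Submodule K F) (hV : V.FG) :
    ∃ q : K[X], q ≠ 0 ∧ ∀ y ∈ V, aeval x0 q * y ∈ polySpan K b := by
  induction V, hV using Submodule.fg_induction with
  | singleton y =>
    obtain ⟨q, hq, hq'⟩ := exists_denominator b y
    refine ⟨q, hq, fun z hz => ?_⟩
    obtain ⟨a, rfl⟩ := Submodule.mem_span_singleton.1 hz
    rw [mul_smul_comm]; exact Submodule.smul_mem _ _ hq'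
  | sup V1 V2 _ _ h1 h2 =>
    obtain ⟨q1, h1, h1'⟩ := h1
    obtain ⟨q2, h2, h2'⟩ := h2
    refine ⟨q1 * q2, mul_ne_zero h1 h2, fun y hy => ?_⟩
    obtain ⟨y1, hy1, y2, hy2, rfl⟩ := Submodule.mem_sup.1 hy
    have : aeval x0 (q1 * q2) * (y1 + y2) =
        aeval x0 q2 * (aeval x0 q1 * y1) + aeval x0 q1 * (aeval x0 q2 * y2) := by
      rw [map_mul]; ring
    rw [this]
    exact Submodule.add_mem _ (aeval_mul_mem_polySpan b q2 (h1' _ hy1))
      (aeval_mul_mem_polySpan b q1 (h2' _ hy2))

end Denominators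

/-- (f): the reduction of a finite-dimensional subspace has the same dimension. -/
theorem finrank_redSub (hB : RedBase A O π ρ) {x0 : F} (h0 : HasDeg K k ρ x0)
    (V : Submodule K F) [FiniteDimensional K V] : finrank k (redSub hB V) = finrank K V := by
  refine le_antisymm (finrank_redSub_le hB V) ?_
  obtain ⟨n, b, hbO, hbli⟩ := exists_orthonormal_basis hB h0
  obtain ⟨hx, ht, hfd, hdeg⟩ := h0
  obtain ⟨q, hq, hqV⟩ := exists_denominator_sub b V ((Submodule.fg_iff_finiteDimensional V).2 inferInstance)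
  obtain ⟨c, hc, hcu⟩ := hB.exists_scale_aeval hx ht hq
  set d : F := c • aeval x0 q with hd
  have hdO : d ∈ O := mem_of_ext0_ne_zero _ hcu
  have hdO' : d⁻¹ ∈ O := inv_mem_of_ext0_ne_zero ρ hB.rho_surj hcu
  have hd0 : d ≠ 0 := by
    intro h; rw [h] at hcu; exact hcu (ext0_zero ρ)
  set e : ℕ × Fin n → F := fun p => x0 ^ p.1 * b p.2 with he
  have heO : ∀ p, e p ∈ O := fun p => O.mul_mem _ _ (pow_mem hx p.1) (hbO p.2)
  have heli : LinearIndependent k fun p => ext0 O ρ (e p) := by
    have := linearIndependent_pow_mul ht hbli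
    have hfun : (fun p => ext0 O ρ (e p)) =
        fun p : ℕ × Fin n => ext0 O ρ x0 ^ p.1 * ext0 O ρ (b p.2) := by
      ext p
      rw [he, ext0_mul ρ (pow_mem hx _) (hbO _), ext0_pow ρ hx]
    rw [hfun]; exact this
  have hinj : Function.Injective (Finsupp.linearCombination K e) :=
    hB.linearIndependent_of_ext0 heO heli
  set V' : Submodule K F := V.map (LinearMap.mulLeft K d) with hV'
  have hV'le : V' ≤ LinearMap.range (Finsupp.linearCombination K e) := by
    rw [Finsupp.range_linearCombination]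
    rintro _ ⟨y, hy, rfl⟩
    rw [LinearMap.mulLeft_apply, hd, smul_mul_assoc]
    exact Submodule.smul_mem _ _ (hqV y hy)
  set W : Submodule K (ℕ × Fin n →₀ K) := V'.comap (Finsupp.linearCombination K e) with hW
  have hmap : W.map (Finsupp.linearCombination K e) = V' := by
    rw [hW, Submodule.map_comap_eq, inf_eq_right.2 hV'le]
  have hfV' : finrank K V' = finrank K V :=
    finrank_map_of_injective _ (fun a b hab => mul_left_cancel₀ hd0 hab) V
  have hfW : finrank K W = finrank K V' := by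
    rw [← hmap]; exact (finrank_map_of_injective _ hinj W).symm
  have hWfd : FiniteDimensional K W := by
    have e1 := Submodule.equivMapOfInjective _ hinj W
    rw [hmap] at e1
    exact Module.Finite.equiv e1.symm
  have key := le_finrank_redSub_map hB heO heli (finrank K W) W hWfd le_rfl
  rw [hmap] at key
  have key2 : finrank k (redSub hB V') ≤ finrank k (redSub hB V) :=
    finrank_redSub_mulLeft_le hB hd0 hdO hdO' V
  omega

/-- `(scale)` is a consequence of `(deg)`. -/
theorem exists_scale (hB : RedBase A O π ρ) {x0 : F} (h0 : HasDeg K k ρ x0) {x : F}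
    (hx0 : x ≠ 0) : ∃ c : K, c ≠ 0 ∧ ext0 O ρ (c • x) ≠ 0 := by
  obtain ⟨n, b, hbO, hbli⟩ := exists_orthonormal_basis hB h0
  obtain ⟨hx, ht, hfd, hdeg⟩ := h0
  obtain ⟨q, hq, hqx⟩ := exists_denominator b x
  obtain ⟨c, hc, hcu⟩ := hB.exists_scale_aeval hx ht hq
  set d : F := c • aeval x0 q with hd
  have hdO : d ∈ O := mem_of_ext0_ne_zero _ hcu
  have hdO' : d⁻¹ ∈ O := inv_mem_of_ext0_ne_zero ρ hB.rho_surj hcu
  have hd0 : d ≠ 0 := by
    intro h; rw [h] at hcu; exact hcu (ext0_zero ρ)
  set e : ℕ × Fin n → F := fun p => x0 ^ p.1 * b p.2 with he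
  have heO : ∀ p, e p ∈ O := fun p => O.mul_mem _ _ (pow_mem hx p.1) (hbO p.2)
  have heli : LinearIndependent k fun p => ext0 O ρ (e p) := by
    have := linearIndependent_pow_mul ht hbli
    have hfun : (fun p => ext0 O ρ (e p)) =
        fun p : ℕ × Fin n => ext0 O ρ x0 ^ p.1 * ext0 O ρ (b p.2) := by
      ext p
      rw [he, ext0_mul ρ (pow_mem hx _) (hbO _), ext0_pow ρ hx]
    rw [hfun]; exact this
  have hmem : d * x ∈ LinearMap.range (Finsupp.linearCombination K e) := by
    rw [Finsupp.range_linearCombination, hd, smul_mul_assoc]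
    exact Submodule.smul_mem _ _ hqx
  obtain ⟨u, hu⟩ := hmem
  have hu0 : u ≠ 0 := by
    rintro rfl
    rw [map_zero] at hu
    exact mul_ne_zero hd0 hx0 hu.symm
  obtain ⟨c', hc', hc'u⟩ := hB.exists_scale_linComb heO heli hu0
  refine ⟨c', hc', ?_⟩
  rw [hu] at hc'u
  have h1 : c' • x = d⁻¹ * (c' • (d * x)) := by
    rw [mul_smul_comm, ← mul_assoc, inv_mul_cancel₀ hd0, one_mul]
  rw [h1, ext0_mul ρ hdO' (mem_of_ext0_ne_zero _ hc'u)]
  exact mul_ne_zero (ext0_ne_zero_of_inv_mem ρ (inv_ne_zero hd0) hdO' (by rwa [inv_inv])) hc'u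

/-- orthonormal basis of a finite-dimensional subspace -/
theorem exists_basis_redSub (hB : RedBase A O π ρ) {x0 : F} (h0 : HasDeg K k ρ x0)
    (V : Submodule K F) [FiniteDimensional K V] :
    ∃ b : Basis (Fin (finrank K V)) K V, (∀ i, (b i : F) ∈ O) ∧
      LinearIndependent k (fun i => ext0 O ρ (b i : F)) ∧
      Submodule.span k (Set.range fun i => ext0 O ρ (b i : F)) = redSub hB V := by
  have hfr := finrank_redSub hB h0 V
  set bb := Module.finBasisOfFinrankEq k (redSub hB V) hfr with hbb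
  have hch : ∀ i, ∃ y : F, y ∈ O ∧ y ∈ V ∧ ext0 O ρ y = (bb i : Fb) := fun i => (bb i).2
  choose y hyO hyV hy using hch
  have hli : LinearIndependent k fun i => ext0 O ρ (y i) := by
    have h1 : LinearIndependent k fun i => ((bb i : redSub hB V) : Fb) :=
      bb.linearIndependent.map' (redSub hB V).subtype (Submodule.ker_subtype _)
    simpa only [hy] using h1
  have hK := hB.linearIndependent_of_ext0 hyO hli
  have hK' : LinearIndependent K fun i => (⟨y i, hyV i⟩ : V) := by
    apply LinearIndependent.of_comp V.subtype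
    exact hK
  refine ⟨basisOfLI hK' (by simp), ?_, ?_, ?_⟩
  · intro i; simpa using hyO i
  · simpa using hli
  · have h2 : (fun i => ext0 O ρ ((basisOfLI hK' (by simp) i : V) : F))
        = fun i => ((bb i : redSub hB V) : Fb) := by
      ext i; simp [hy]
    rw [h2]
    have h3 : (Set.range fun i => ((bb i : redSub hB V) : Fb)) =
        (redSub hB V).subtype '' (Set.range bb) := by
      rw [← Set.range_comp]; rfl
    rw [h3, ← Submodule.map_span, bb.span_eq, Submodule.map_top, Submodule.range_subtype]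

end FA18
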