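import Fermat.Agent.Red.Defs
import Fermat.Agent.Red.G2Deg
import Fermat.Agent.FF.Exchange

/-! S18 / G2: glue between `RedData` and the `RedBase` layer. -/

namespace FA18

open Module IntermediateField

namespace RedData

variable {K k : Type*} [Field K] [Field k] {A : ValuationSubring K} {π : A →+* k}
  {F Fb : Type*} [Field F] [Algebra K F] [Field Fb] [Algebra k Fb] (R : RedData A π F Fb)

theorem toRedBase : RedBase A R.O π R.ρ where
  pi_surj := R.π_surj
  rho_surj := R.ρ_surj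
  mem_iff := R.algebraMap_mem_iff
  compat := fun a ha h => R.ρ_algebraMap ⟨a, ha⟩ h

theorem redSub_eq (V : Submodule K F) : R.redSub V = FA18.redSub R.toRedBase V := by
  ext y
  rw [R.mem_redSub, FA18.mem_redSub]
  constructor
  · rintro ⟨x, hx, rfl⟩; exact ⟨x, x.2, hx, rfl⟩
  · rintro ⟨x, h, hx, rfl⟩; exact ⟨⟨x, h⟩, hx, rfl⟩

theorem transcendental_coe (x : R.O) (hx : Transcendental k (R.ρ x)) :
    Transcendental K (x : F) := by
  apply transcendental_of_ext0 R.toRedBase x.2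
  rwa [ext0_coe]

theorem finDim_coe (hF : FA24.IsFF K F) (x : R.O) (hx : Transcendental k (R.ρ x)) :
    FiniteDimensional K⟮(x : F)⟯ F := by
  obtain ⟨t, -, ht⟩ := hF
  exact FAFF.finiteDimensional_adjoin_of_transcendental t _ (R.transcendental_coe x hx)

/-- `(deg)` in the `HasDeg` form -/
theorem hasDeg_of (hF : FA24.IsFF K F) (x : R.O) (hx : Transcendental k (R.ρ x))
    (hd : finrank K⟮(x : F)⟯ F ≤ finrank k⟮R.ρ x⟯ Fb) : HasDeg K k R.ρ (x : F) := by
  refine ⟨x.2, ?_, R.finDim_coe hF x hx, ?_⟩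
  · rwa [ext0_coe]
  · rwa [ext0_coe]

theorem exists_hasDeg (hF : FA24.IsFF K F) : ∃ x0 : F, HasDeg K k R.ρ x0 := by
  obtain ⟨x0, h1, h2⟩ := R.deg
  exact ⟨x0, R.hasDeg_of hF x0 h1 h2⟩

/-- (f) for `RedData`. -/
theorem finrank_redSub (hF : FA24.IsFF K F) (V : Submodule K F) (hV : FiniteDimensional K V) :
    finrank k (R.redSub V) = finrank K V := by
  obtain ⟨x0, h0⟩ := R.exists_hasDeg hF
  rw [R.redSub_eq]
  exact FA18.finrank_redSub R.toRedBase h0 V

/-- (g) = (FI) for `RedData`. -/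
theorem FI (hF : FA24.IsFF K F) (x : R.O) (hx : Transcendental k (R.ρ x)) :
    Transcendental K (x : F) ∧ finrank k⟮R.ρ x⟯ Fb ≤ finrank K⟮(x : F)⟯ F := by
  refine ⟨R.transcendental_coe x hx, ?_⟩
  have _ := R.finDim_coe hF x hx
  have h := finrank_adjoin_ext0_le R.toRedBase x.2 (by rwa [ext0_coe])
  rwa [ext0_coe] at h

end RedData

end FA18
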