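import Mathlib
import Fermat.Prelude.Def_AlgebraicCurve_Repartitions
import Fermat.Agent.FF.Place

/-!
# S18, package G3 (Deuring reduction), part A: lemmas on a single function field

Everything is proved from the explicit list `RFacts` of consequences of Riemann's theorem (G1).
-/

set_option autoImplicit false

namespace FA18

open AlgebraicCurve IntermediateField

/-- The consequences of Riemann's theorem (package G1) used in the Deuring reduction (G3). -/
structure RFacts (K F : Type*) [Field K] [Field F] [Algebra K F] (gR c : ℤ) : Prop where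
  deg_one : ∀ v : Place K F, v.deg = 1
  exists_div : ∀ x : F, x ≠ 0 →
    ∃ D : Divisor K F, (∀ v, D v = v.ord x) ∧ Divisor.degree D = 0
  deg_poles : ∀ x : F, Transcendental K x → ∀ D : Divisor K F,
    (∀ v, D v = max 0 (-(v.ord x))) → Divisor.degree D = (Module.finrank K⟮x⟯ F : ℤ)
  finDim : ∀ B : Divisor K F, FiniteDimensional K (riemannRochSpace B)
  ell_le : ∀ B : Divisor K F, 0 ≤ B →
    (Module.finrank K (riemannRochSpace B) : ℤ) ≤ Divisor.degree B + 1
  riemann : ∀ B : Divisor K F,
    Divisor.degree B + 1 - gR ≤ (Module.finrank K (riemannRochSpace B) : ℤ)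
  riemann_eq : ∀ B : Divisor K F, c ≤ Divisor.degree B →
    (Module.finrank K (riemannRochSpace B) : ℤ) = Divisor.degree B + 1 - gR

variable {K F : Type*} [Field K] [Field F] [Algebra K F]

section Degree

variable (h1 : ∀ v : Place K F, v.deg = 1)
include h1

theorem degree_eq_sum' (D : Divisor K F) : Divisor.degree D = D.sum fun _ n => n := by
  induction D using Finsupp.induction_linear with
  | zero => simp
  | add f g hf hg =>
    rw [map_add, hf, hg, Finsupp.sum_add_index' (by simp) (by simp)]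
  | single v n => simp [h1]

theorem degree_nonneg' {D : Divisor K F} (hD : 0 ≤ D) : 0 ≤ Divisor.degree D := by
  rw [degree_eq_sum' h1]
  exact Finset.sum_nonneg fun v _ => hD v

theorem degree_mono' {D D' : Divisor K F} (hD : D ≤ D') :
    Divisor.degree D ≤ Divisor.degree D' := by
  have := degree_nonneg' h1 (sub_nonneg.2 hD)
  rw [map_sub] at this
  omega

theorem eq_zero_of_degree_eq_zero' {D : Divisor K F} (hD : 0 ≤ D)
    (h0 : Divisor.degree D = 0) : D = 0 := by
  rw [degree_eq_sum' h1] at h0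
  ext v
  by_cases hv : v ∈ D.support
  · exact (Finset.sum_eq_zero_iff_of_nonneg (fun w _ => hD w)).1 h0 v hv
  · simpa using hv

theorem eq_of_le_of_degree_eq' {D D' : Divisor K F} (hD : D ≤ D')
    (h0 : Divisor.degree D = Divisor.degree D') : D = D' := by
  have := eq_zero_of_degree_eq_zero' h1 (sub_nonneg.2 hD) (by rw [map_sub]; omega)
  exact (sub_eq_zero.1 this).symm

theorem eq_single_of_degree_eq_one' {D : Divisor K F} (hD : 0 ≤ D)
    (h0 : Divisor.degree D = 1) : ∃ v : Place K F, D = Finsupp.single v 1 := by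
  have hne : D ≠ 0 := by rintro rfl; simp at h0
  obtain ⟨v, hv⟩ := Finsupp.ne_iff.1 hne
  have hv1 : 1 ≤ D v := by
    have := hD v
    simp only [Finsupp.coe_zero, Pi.zero_apply] at this hv
    omega
  have hle : Finsupp.single v 1 ≤ D := by
    intro w
    by_cases hw : w = v
    · subst hw; simpa using hv1
    · rw [Finsupp.single_eq_of_ne hw]; exact hD w
  refine ⟨v, (eq_of_le_of_degree_eq' h1 hle ?_).symm⟩
  rw [h0, Divisor.degree_single, h1]; simp

end Degree

section LSpace

theorem mem_L_iff {D : Divisor K F} {f : F} (hf : f ≠ 0) :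
    f ∈ riemannRochSpace D ↔ ∀ v : Place K F, -D v ≤ v.ord f := by
  rw [mem_riemannRochSpace_iff]
  exact forall_congr' fun v => by simp [hf]

theorem L_mono {D D' : Divisor K F} (h : D ≤ D') :
    riemannRochSpace D ≤ riemannRochSpace D' := by
  intro f hf
  rw [mem_riemannRochSpace_iff] at hf ⊢
  intro v
  rcases hf v with h0 | h0
  · exact Or.inl h0
  · have := h v
    exact Or.inr (by omega)

theorem one_mem_L {D : Divisor K F} (h : 0 ≤ D) : (1 : F) ∈ riemannRochSpace D := by
  rw [mem_L_iff one_ne_zero]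
  intro v
  have := h v
  simp only [Finsupp.coe_zero, Pi.zero_apply] at this
  rw [Place.ord_one]; omega

theorem mul_mem_L {D D' : Divisor K F} {f g : F} (hf : f ∈ riemannRochSpace D)
    (hg : g ∈ riemannRochSpace D') : f * g ∈ riemannRochSpace (D + D') := by
  rcases eq_or_ne f 0 with rfl | hf0
  · simp
  rcases eq_or_ne g 0 with rfl | hg0
  · simp
  rw [mem_L_iff hf0] at hf
  rw [mem_L_iff hg0] at hg
  rw [mem_L_iff (mul_ne_zero hf0 hg0)]
  intro v
  rw [v.ord_mul hf0 hg0, Finsupp.add_apply]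
  have := hf v
  have := hg v
  omega

/-- An element of `L(C)` which is not in `L(C - Q)` has order exactly `-C(Q)` at `Q`. -/
theorem ord_eq_of_mem_of_notMem {C : Divisor K F} {Q : Place K F} {y : F}
    (hy : y ∈ riemannRochSpace C) (hy' : y ∉ riemannRochSpace (C - Finsupp.single Q 1)) :
    y ≠ 0 ∧ Q.ord y = -C Q := by
  have hy0 : y ≠ 0 := by rintro rfl; exact hy' (Submodule.zero_mem _)
  refine ⟨hy0, ?_⟩
  rw [mem_L_iff hy0] at hy hy'
  push Not at hy'
  obtain ⟨v, hv⟩ := hy'
  by_cases hvQ : v = Q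
  · subst hvQ
    have := hy v
    simp only [Finsupp.coe_sub, Pi.sub_apply, Finsupp.single_eq_same] at hv
    omega
  · exfalso
    have := hy v
    simp only [Finsupp.coe_sub, Pi.sub_apply, Finsupp.single_eq_of_ne hvQ] at hv
    omega

theorem mem_L_sub_single {C : Divisor K F} {Q : Place K F} {y : F}
    (hy : y ∈ riemannRochSpace C) (hQ : y = 0 ∨ Q.ord y ≠ -C Q) :
    y ∈ riemannRochSpace (C - Finsupp.single Q 1) := by
  by_contra h
  obtain ⟨h0, h1⟩ := ord_eq_of_mem_of_notMem hy h
  rcases hQ with hQ | hQ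
  · exact h0 hQ
  · exact hQ h1

end LSpace

section Riemann

variable {gR c : ℤ} (H : RFacts K F gR c)
include H

theorem RFacts.degree_nonneg_of_mem {B : Divisor K F} {y : F} (hy0 : y ≠ 0)
    (hy : y ∈ riemannRochSpace B) : 0 ≤ Divisor.degree B := by
  obtain ⟨D, hD, hD0⟩ := H.exists_div y hy0
  rw [mem_L_iff hy0] at hy
  have h : 0 ≤ D + B := by
    intro v
    have := hy v
    simp only [Finsupp.coe_zero, Pi.zero_apply, Finsupp.coe_add, Pi.add_apply, hD]
    omega
  have := degree_nonneg' H.deg_one h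
  rw [map_add, hD0] at this
  omega

/-- Pole divisor. -/
theorem RFacts.exists_poleDiv (x : F) (hx : x ≠ 0) :
    ∃ P : Divisor K F, ∀ v, P v = max 0 (-(v.ord x)) := by
  obtain ⟨D, hD, -⟩ := H.exists_div x hx
  exact ⟨D.mapRange (fun n => max 0 (-n)) (by simp), fun v => by
    rw [Finsupp.mapRange_apply, hD]⟩

/-- Divisors of large degree are base point free. -/
theorem RFacts.sharp {C : Divisor K F} (hC : c + 1 ≤ Divisor.degree C) (Q : Place K F) :
    ∃ y ∈ riemannRochSpace C, y ≠ 0 ∧ Q.ord y = -C Q := by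
  have h1 := H.riemann_eq C (by omega)
  have h2 := H.riemann_eq (C - Finsupp.single Q 1) (by
    rw [map_sub, Divisor.degree_single, H.deg_one]; simp; omega)
  rw [map_sub, Divisor.degree_single, H.deg_one] at h2
  have hlt : Module.finrank K (riemannRochSpace (C - Finsupp.single Q 1)) <
      Module.finrank K (riemannRochSpace C) := by
    have : (Module.finrank K (riemannRochSpace (C - Finsupp.single Q 1)) : ℤ) <
      (Module.finrank K (riemannRochSpace C) : ℤ) := by
      rw [h1, h2]; simp
    exact_mod_cast this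
  have hnle : ¬ riemannRochSpace C ≤ riemannRochSpace (C - Finsupp.single Q 1) := by
    intro hle
    haveI := H.finDim (C - Finsupp.single Q 1)
    have := Submodule.finrank_mono hle
    omega
  obtain ⟨y, hy, hy'⟩ := SetLike.not_le_iff_exists.1 hnle
  exact ⟨y, hy, ord_eq_of_mem_of_notMem hy hy'⟩

theorem RFacts.le_of_L_le {C C' : Divisor K F} (hC : c + 1 ≤ Divisor.degree C)
    (h : riemannRochSpace C ≤ riemannRochSpace C') : C ≤ C' := by
  intro Q
  obtain ⟨y, hy, hy0, hyQ⟩ := H.sharp hC Q
  have := (mem_L_iff hy0).1 (h hy) Q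
  omega

/-- `L(C)` determines `C` in large degree. -/
theorem RFacts.L_injective {C C' : Divisor K F} (hC : c + 1 ≤ Divisor.degree C)
    (hC' : c + 1 ≤ Divisor.degree C') (h : riemannRochSpace C = riemannRochSpace C') :
    C = C' :=
  le_antisymm (H.le_of_L_le hC h.le) (H.le_of_L_le hC' h.ge)

theorem RFacts.exists_le_L (W : Submodule K F) (hW : W.FG) :
    ∃ C : Divisor K F, 0 ≤ C ∧ W ≤ riemannRochSpace C := by
  induction W, hW using Submodule.fg_induction with
  | singleton x =>
    rcases eq_or_ne x 0 with rfl | hx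
    · exact ⟨0, le_rfl, by simp⟩
    obtain ⟨P, hP⟩ := H.exists_poleDiv x hx
    refine ⟨P, fun v => by rw [hP]; simp, ?_⟩
    rw [Submodule.span_singleton_le_iff_mem, mem_L_iff hx]
    intro v
    rw [hP]
    omega
  | sup M₁ M₂ _ _ h₁ h₂ =>
    obtain ⟨C₁, h₁0, h₁⟩ := h₁
    obtain ⟨C₂, h₂0, h₂⟩ := h₂
    exact ⟨C₁ + C₂, add_nonneg h₁0 h₂0,
      sup_le (h₁.trans (L_mono (le_add_of_nonneg_right h₂0)))
        (h₂.trans (L_mono (le_add_of_nonneg_left h₁0)))⟩

/-- The supremum of the pole divisors of the elements of a finite-dimensional space of functions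
containing the constants. -/
theorem RFacts.exists_minDiv (W : Submodule K F) (hW : W.FG) (h1 : (1 : F) ∈ W) :
    ∃ C : Divisor K F, 0 ≤ C ∧ W ≤ riemannRochSpace C ∧
      ∀ Q : Place K F, ∃ y ∈ W, y ≠ 0 ∧ Q.ord y = -C Q := by
  obtain ⟨n, ⟨C, hC0, hWC, rfl⟩, hmin⟩ := Int.exists_least_of_bdd
    (P := fun n => ∃ C : Divisor K F, 0 ≤ C ∧ W ≤ riemannRochSpace C ∧ Divisor.degree C = n)
    ⟨0, by rintro z ⟨C, hC, -, rfl⟩; exact degree_nonneg' H.deg_one hC⟩
    (by obtain ⟨C, hC, hWC⟩ := H.exists_le_L W hW; exact ⟨_, C, hC, hWC, rfl⟩)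
  refine ⟨C, hC0, hWC, fun Q => ?_⟩
  by_contra hcon
  push Not at hcon
  have hW' : W ≤ riemannRochSpace (C - Finsupp.single Q 1) := by
    intro y hy
    refine mem_L_sub_single (hWC hy) ?_
    rcases eq_or_ne y 0 with h0 | h0
    · exact Or.inl h0
    · exact Or.inr (hcon y hy h0)
  have hCQ : 0 ≤ C - Finsupp.single Q 1 := by
    intro v
    have h2 := (mem_L_iff one_ne_zero).1 (hW' h1) v
    rw [Place.ord_one] at h2
    simp only [Finsupp.coe_zero, Pi.zero_apply]
    omega
  have := hmin _ ⟨_, hCQ, hW', rfl⟩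
  rw [map_sub, Divisor.degree_single, H.deg_one] at this
  simp at this

/-- A generic element of `W` has pole divisor exactly `C`. -/
theorem RFacts.exists_generic [Infinite K] (W : Submodule K F) (h1 : (1 : F) ∈ W)
    (C : Divisor K F) (hC0 : 0 ≤ C) (hWC : W ≤ riemannRochSpace C)
    (hsharp : ∀ Q : Place K F, ∃ y ∈ W, y ≠ 0 ∧ Q.ord y = -C Q) :
    ∃ y ∈ W, y ≠ 0 ∧ ∀ Q : Place K F, C Q = max 0 (-(Q.ord y)) := by
  classical
  let p : Place K F → Subspace K W := fun Q =>
    Submodule.comap W.subtype (riemannRochSpace (C - Finsupp.single Q 1))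
  have hp : ∀ Q, p Q ≠ ⊤ := by
    intro Q hQ
    obtain ⟨y, hy, hy0, hyQ⟩ := hsharp Q
    have : (⟨y, hy⟩ : W) ∈ p Q := by rw [hQ]; trivial
    have h2 := (mem_L_iff hy0).1 (show y ∈ riemannRochSpace (C - Finsupp.single Q 1) from this) Q
    simp only [Finsupp.coe_sub, Pi.sub_apply, Finsupp.single_eq_same] at h2
    omega
  have hbot : (⊥ : Subspace K W) ≠ ⊤ := by
    intro h
    have : (⟨1, h1⟩ : W) ∈ (⊥ : Subspace K W) := by rw [h]; trivial
    rw [Submodule.mem_bot] at this
    exact one_ne_zero (congrArg Subtype.val this)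
  let s : Finset (Subspace K W) := insert ⊥ (C.support.image p)
  have hs : ⊤ ∉ s := by
    intro h
    rcases Finset.mem_insert.1 h with h | h
    · exact hbot h.symm
    · obtain ⟨Q, -, hQ⟩ := Finset.mem_image.1 h
      exact hp Q hQ
  have hne := Subspace.biUnion_ne_univ_of_top_notMem hs
  obtain ⟨y, hy⟩ := (Set.ne_univ_iff_exists_notMem _).1 hne
  simp only [Set.mem_iUnion, not_exists] at hy
  have hy0 : (y : F) ≠ 0 := by
    intro h
    exact hy ⊥ (Finset.mem_insert_self _ _) (by
      simp only [SetLike.mem_coe, Submodule.mem_bot]; exact Subtype.ext h)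
  refine ⟨y, y.2, hy0, fun Q => ?_⟩
  by_cases hQ : Q ∈ C.support
  · have h3 : (y : F) ∉ riemannRochSpace (C - Finsupp.single Q 1) := fun h =>
      hy (p Q) (Finset.mem_insert_of_mem (Finset.mem_image_of_mem _ hQ)) h
    have h4 := (ord_eq_of_mem_of_notMem (hWC y.2) h3).2
    have := hC0 Q
    simp only [Finsupp.coe_zero, Pi.zero_apply] at this
    omega
  · have h5 : C Q = 0 := by simpa using hQ
    have := (mem_L_iff hy0).1 (hWC y.2) Q
    omega

end Riemann

end FA18
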