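import Fermat.Agent.Red.RSpecial
import Fermat.Agent.Red.DeuringA

/-!
# S18: G1 provides the structure `FA18.RFacts` consumed by G3
-/

set_option autoImplicit false

namespace FAR

open AlgebraicCurve IntermediateField FA24

variable {K F : Type*} [Field K] [Field F] [Algebra K F] [IsAlgClosed K]

theorem rfacts_of_isFF (h : IsFF K F) : ∃ c : ℤ, FA18.RFacts K F (gR h) c := by
  obtain ⟨c, hc⟩ := exists_riemann_eq h
  refine ⟨c, ?_⟩
  exact
    { deg_one := place_deg h
      exists_div := fun x _ => ⟨divOf h x, fun _ => rfl, degree_divOf h x⟩
      deg_poles := by
        intro x hx D hD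
        have : D = poleDiv h x := by
          ext v
          rw [hD v, poleDiv_apply, max_comm]
        rw [this]
        exact degree_poleDiv h x hx
      finDim := L_finiteDimensional h
      ell_le := fun B hB => ell_le_degree_add_one h hB
      riemann := riemann_ineq h
      riemann_eq := hc }

end FAR
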