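import Fermat.Agent.Red.G4Of
import Fermat.Agent.Red.RFactsOf
import Fermat.Agent.Red.G2Glue

/-!
# S18: Theorem G (abstract good reduction ⇒ injectivity of reduction on prime-to-`ℓ` torsion)
-/

set_option autoImplicit false

open AlgebraicCurve IntermediateField FA24

namespace FA18

theorem thmG {K k : Type*} [Field K] [Field k] [IsAlgClosed K] [IsAlgClosed k]
    {A : ValuationSubring K} {π : A →+* k}
    {F Fb : Type*} [Field F] [Algebra K F] [Field Fb] [Algebra k Fb] (R : RedData A π F Fb)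
    (hF : IsFF K F) (hFb : IsFF k Fb) (g : ℕ)
    (I2 : ∀ B : Divisor K F,
      Divisor.degree B + 1 - g ≤ (Module.finrank K (riemannRochSpace B) : ℤ))
    (I3 : ∃ S : Finset (Place k Fb), S.card = g ∧
      Module.finrank k (riemannRochSpace (sumDiv S)) = 1)
    (m : ℕ) (hm : (m : k) ≠ 0) (f : R.O) (hf : R.ρ f = 1)
    (hdiv : ∀ P : Place K F, (m : ℤ) ∣ P.ord (f : F)) :
    ∃ s : F, s ^ m = (f : F) := by
  obtain ⟨cF, HF⟩ := FAR.rfacts_of_isFF hF
  obtain ⟨cb, Hb⟩ := FAR.rfacts_of_isFF hFb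
  exact G4.thmG_of R HF Hb (R.finrank_redSub hF) (R.FI hF) g I2 I3 m hm f hf hdiv

end FA18
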