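import Fermat.Agent.Red.Bridge

/-! S18, package BR: the bridge in the exact form consumed by package I2. -/

set_option autoImplicit false

open UpperHalfPlane ModularForm Function CongruenceSubgroup FA_IS FA24 FAIg ModularCurve Polynomial
open Matrix.SpecialLinearGroup AlgebraicCurve
open scoped Manifold MatrixGroups

namespace FA18

variable {N : ℕ} [NeZero N]

/-- a form of weight `0` vanishing at all cusps is zero. -/
theorem weight_zero_eq_zero {F : Type*} [FunLike F ℍ ℂ] [ModularFormClass F (Gamma0 N) 0] (Φ : F)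
    (hc : ∀ γ : SL(2, ℤ), IsZeroAtImInfty (⇑Φ ∣[(0 : ℤ)] γ)) : (⇑Φ : ℍ → ℂ) = 0 := by
  set 𝒢 : Subgroup (GL (Fin 2) ℝ) := (Gamma0 N : Subgroup (GL (Fin 2) ℝ)) with h𝒢
  have hz : ∀ q : Q 𝒢, IsZeroAtImInfty (tr Φ q) := fun q => by
    obtain ⟨γ, -, h⟩ := exists_tr_eq Φ q
    rw [h]
    exact hc γ⁻¹
  have he : ∀ m : ℕ, 0 < m → esym (tr (𝒢 := 𝒢) Φ) m = 0 := by
    intro m hm
    obtain ⟨G, hG⟩ := esym_mem_MFfun (𝒢 := 𝒢) Φ m (m := 0) (by simp)
    obtain ⟨c, hc'⟩ := ModularFormClass.levelOne_weight_zero_const G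
    have h0 : IsZeroAtImInfty (esym (tr (𝒢 := 𝒢) Φ) m) := esym_zeroAt hz hm
    rw [← hG, hc'] at h0 ⊢
    have : c = 0 := tendsto_nhds_unique tendsto_const_nhds h0
    rw [this]
    rfl
  have h := esym_monic (tr (𝒢 := 𝒢) Φ) ⟦⟨mapGL ℝ 1, 1, rfl⟩⟧
  rw [Finset.sum_eq_zero (fun i hi => by
    rw [he _ (by have := Finset.mem_range.mp hi; omega), mul_zero, zero_mul]), add_zero,
    tr_one] at h
  exact pow_eq_zero_iff (Fintype.card_pos.ne') |>.mp h

/-- **BR** in the form used for the Riemann inequality. -/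
theorem bridge_for_I2 (b : ℕ) (Φ : CuspForm (Gamma0 N) (12 * (b : ℤ))) (s : PowerSeries Kb)
    (hs : s.map iota = qExpansion 1 Φ) : ∃ y : FN N,
      (y : LaurentSeries Kb) = HahnSeries.ofPowerSeries ℤ Kb s * FAIg.deltaInvL Kb ^ b ∧
      ∀ v : Place Kb (FN N), y = 0 ∨ ((0 ≤ v.ord (xN N) → 0 ≤ v.ord y) ∧
        (v.ord (xN N) < 0 → (b : ℤ) * v.ord (xN N) < v.ord y)) := by
  rcases Nat.eq_zero_or_pos b with rfl | hb
  · have h0 : (⇑Φ : ℍ → ℂ) = 0 := by
      have e : (12 * ((0 : ℕ) : ℤ)) = 0 := by simp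
      have := weight_zero_eq_zero (N := N) (CuspForm.mcast e Φ)
        (fun γ => CuspFormClass.zero_at_infty_slash (CuspForm.mcast e Φ) γ)
      exact this
    have hs0 : s = 0 := by
      apply PowerSeries.map_injective iota iota_injective
      rw [hs, h0, map_zero]
      exact qExpansion_zero 1
    refine ⟨0, ?_, fun v => Or.inl rfl⟩
    rw [hs0, map_zero, zero_mul]
    rfl
  · obtain ⟨hy, hrel⟩ := BR_cuspForm Φ b rfl hb s hs
    refine ⟨⟨brS Kb s b, hy⟩, rfl, fun v => ?_⟩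
    by_cases h0 : (⟨brS Kb s b, hy⟩ : FN N) = 0
    · exact Or.inl h0
    · exact Or.inr ⟨fun hj => hrel.ord_nonneg v hj h0, fun hj => hrel.ord_gt v hj h0⟩

end FA18
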