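/-
S18: the two modular definitions used by the top-level statements (`FbN`, `gN`).
-/
import Fermat.Agent.Red.Defs
import Fermat.Agent.X0Genus.Theta
import Fermat.Prelude.Def_ModularCurve_ReductionModL
import Fermat.Prelude.Def_EllipticCurve_FrobeniusTrace

set_option autoImplicit false

open AlgebraicCurve IntermediateField ModularCurve FA24

namespace FA18

/-- the function field of `X₀(N)` over `k`. -/
abbrev FbN (k : Type) [Field k] (N : ℕ) : Type := ↥(modularFunctionFieldFullC k N)

/-- the genus, as `dim S₂(Γ₀(N))`. -/
noncomputable def gN (N : ℕ) : ℕ :=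
  Module.finrank ℂ (CuspForm (CongruenceSubgroup.Gamma0 N) 2)

end FA18
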