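import Fermat.Agent.Red.I2B
import Fermat.Agent.Red.BridgeI2
import Fermat.Agent.Red.ModDefs

/-! S18, package I2: the Riemann inequality on `X₀(N)` over `Kb` with `g = dim S₂(Γ₀(N))`. -/

set_option autoImplicit false

open AlgebraicCurve IntermediateField ModularCurve FA24

namespace FA18

variable (N : ℕ) [NeZero N]

/-- I2: the Riemann inequality for the function field of `X₀(N)`. -/
theorem I2 (B : Divisor Kb (FN N)) :
    Divisor.degree B + 1 - gN N ≤ (Module.finrank Kb (riemannRochSpace B) : ℤ) :=
  riemann_ineq_of_bridge bridge_for_I2 B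

end FA18
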