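import Fermat.Agent.Red.M1D

/-!
# S18 / M1: the reduction data of `X₀(N)` (final statements)
-/

set_option autoImplicit false

open AlgebraicCurve IntermediateField ModularCurve FA24

namespace FA18

variable (N : ℕ) [NeZero N] {ℓ : ℕ} [Fact ℓ.Prime] (hℓN : ¬ ℓ ∣ N)
  (A : ValuationSubring Kb) (hA : A.LiesOverPrime ℓ)
  {k : Type} [Field k] (π : A →+* k) (hπ : Function.Surjective π)

include hA hℓN hπ in
/-- M1 -/
theorem isFF_FbN : IsFF k (FbN k N) := by
  obtain ⟨B, H⟩ := M1.exists_hyp1 N hℓN A hA π hπ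
  exact ⟨H.yE, H.tr_yE, H.fd_yE⟩

include hA hℓN hπ in
/-- M1: the reduction data of level `N`; integral `q`-series lie in `O` and are reduced
coefficientwise; moreover `(deg)` holds at `j`. -/
theorem exists_redData_mod_deg :
    ∃ R : RedData A π (FN N) (FbN k N),
      (∀ (y : LaurentSeries A) (hy : coeffMap A.subtype y ∈ modularFunctionFieldBar N),
        ∃ h : (⟨coeffMap A.subtype y, hy⟩ : FN N) ∈ R.O,
          ((R.ρ ⟨_, h⟩ : FbN k N) : LaurentSeries k) = coeffMap π y) ∧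
      HasDeg Kb k R.ρ (xN N) ∧
      ∀ jO : R.O, (jO : FN N) = xN N →
        Transcendental k (R.ρ jO) ∧
        Module.finrank Kb⟮xN N⟯ (FN N) ≤ Module.finrank k⟮R.ρ jO⟯ (FbN k N) := by
  obtain ⟨B, H⟩ := M1.exists_hyp1 N hℓN A hA π hπ
  have hdeg : HasDeg Kb k H.ρ (xN N) := by
    obtain ⟨W, hW⟩ := exists_frickeBar N
    have : NeZero (N / 1) := ⟨by rw [Nat.div_one]; exact NeZero.ne N⟩
    have h1 : W (xN N) = Jd N (dvd_refl N) := by
      have := hW 1 (one_dvd N)
      rw [xN, this]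
      apply Subtype.ext
      show coeffEmb Kb (qExpand ℚ (N / 1) jq) = coeffEmb Kb (qExpand ℚ N jq)
      simp only [Nat.div_one]
    have h2 : H.yF = Jd N (dvd_refl N) := by
      apply Subtype.ext
      show M1.iotaA A (FAIg.jdT A N) = _
      rw [M1.Jd_val, M1.coeffMap_jdT']
    have h3 : M1.iotaA A (FAIg.jdT A 1) = ((xN N : FN N) : LaurentSeries Kb) := by
      rw [xN, M1.Jd_val, M1.coeffMap_jdT']
    have h3m : M1.iotaA A (FAIg.jdT A 1) ∈ modularFunctionFieldBar N := by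
      rw [h3]; exact (xN N).2
    have h4 : (⟨M1.iotaA A (FAIg.jdT A 1), h3m⟩ : FN N) = xN N := Subtype.ext h3
    have hx : xN N ∈ H.O := by
      rw [← h4]; exact H.iotaA_mem_O _ h3m
    refine hasDeg_of_aut H.redBase W (x := xN N) ?_ hx ?_
    · rw [h1, ← h2]
      exact H.hasDeg_yF
    · intro halg
      have h5 := halg.algebraMap (A := LaurentSeries k)
      have h6 : algebraMap (FbN k N) (LaurentSeries k) (ext0 H.O H.ρ (xN N)) = jqNModC k 1 := by
        rw [ext0_of_mem _ hx]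
        have h7 := H.coe_ρ_iotaA _ h3m
        have h8 : M1.redA A π (FAIg.jdT A 1) = jqNModC k 1 := by
          rw [M1.coeffMap_jdT', FAIg.jdT_eq, jqNModC]
        rw [← h8, ← h7]
        have h9 : (⟨xN N, hx⟩ : H.O) = ⟨⟨M1.iotaA A (FAIg.jdT A 1), h3m⟩, H.iotaA_mem_O _ h3m⟩ :=
          Subtype.ext h4.symm
        rw [h9]
        rfl
      rw [h6] at h5
      exact FAIg.transcendental_jqNModC k 1 h5
  refine ⟨H.redData, ?_, hdeg, ?_⟩
  · intro y hy
    exact ⟨H.iotaA_mem_O y hy, H.coe_ρ_iotaA y hy⟩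
  · intro jO hjO
    obtain ⟨h1, h2, -, h4⟩ := hdeg
    have h5 : ext0 H.O H.ρ (xN N) = H.redData.ρ jO := by
      rw [← hjO]
      exact ext0_coe _ _
    rw [h5] at h2 h4
    exact ⟨h2, h4⟩

include hA hℓN hπ in
/-- M1: the reduction data of level `N`; integral `q`-series lie in `O` and are reduced
coefficientwise. -/
theorem exists_redData_mod :
    ∃ R : RedData A π (FN N) (FbN k N),
      ∀ (y : LaurentSeries A) (hy : coeffMap A.subtype y ∈ modularFunctionFieldBar N),
        ∃ h : (⟨coeffMap A.subtype y, hy⟩ : FN N) ∈ R.O,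
          ((R.ρ ⟨_, h⟩ : FbN k N) : LaurentSeries k) = coeffMap π y := by
  obtain ⟨R, h, -⟩ := exists_redData_mod_deg N hℓN A hA π hπ
  exact ⟨R, h⟩

end FA18
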