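import Fermat.Agent.Red.I3Rel
import Fermat.Agent.Red.M1

/-! S18: I3 (final statement). -/

set_option autoImplicit false

open AlgebraicCurve IntermediateField ModularCurve FA24

namespace FA18

variable (N : ℕ) [NeZero N] {ℓ : ℕ} [Fact ℓ.Prime] (hℓN : ¬ ℓ ∣ N)
  (A : ValuationSubring Kb) (hA : A.LiesOverPrime ℓ)
  {k : Type} [Field k] (π : A →+* k) (hπ : Function.Surjective π)

include hA hℓN hπ in
/-- I3 = NS + CERT + M1 -/
theorem I3 (hM : auxLevel ℓ ∣ N) :
    ∃ S : Finset (Place k (FbN k N)), S.card = gN N ∧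
      Module.finrank k (riemannRochSpace (sumDiv S)) = 1 := by
  obtain ⟨R, hR, -, hdeg⟩ := exists_redData_mod_deg N hℓN A hA π hπ
  exact I3_of_M1 N A hA π hπ hM (isFF_FbN N hℓN A hA π hπ) R hR (fun jO h => (hdeg jO h).2)

end FA18
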