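import Mathlib

/-! S18, package M1 (a): the residue field of a valuation ring of an algebraically closed field is
algebraically closed. -/

set_option autoImplicit false

open Polynomial

namespace FA18

theorem isAlgClosed_of_surj_gen {K : Type*} [Field K] [IsAlgClosed K] (A : ValuationSubring K)
    {k : Type*} [Field k] (π : A →+* k) (hπ : Function.Surjective π) : IsAlgClosed k := by
  apply IsAlgClosed.of_exists_root
  intro p hp hirr
  have hl : p ∈ lifts π := by
    rw [mem_lifts]
    exact map_surjective π hπ p
  obtain ⟨P, hPp, hPd, hPm⟩ := lifts_and_natDegree_eq_and_monic hl hp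
  have hdeg : (P.map (algebraMap A K)).degree ≠ 0 := by
    rw [hPm.degree_map, degree_eq_natDegree hPm.ne_zero, hPd]
    have := hirr.natDegree_pos
    exact_mod_cast this.ne'
  obtain ⟨x, hx⟩ := IsAlgClosed.exists_root _ hdeg
  have hint : IsIntegral A x := ⟨P, hPm, by rwa [IsRoot.def, eval_map] at hx⟩
  obtain ⟨a, rfl⟩ := IsIntegrallyClosed.algebraMap_eq_of_integral hint
  refine ⟨π a, ?_⟩
  rw [← hPp, eval_map, eval₂_hom]
  have h0 : P.eval a = 0 := by
    apply IsFractionRing.injective A K
    rw [map_zero, ← eval₂_hom, ← eval_map]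
    exact hx
  rw [h0, map_zero]

/-- M1 (a), in the form of the interface. -/
theorem isAlgClosed_of_surj (A : ValuationSubring (AlgebraicClosure ℚ)) {k : Type} [Field k]
    (π : A →+* k) (hπ : Function.Surjective π) : IsAlgClosed k :=
  isAlgClosed_of_surj_gen A π hπ

end FA18
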