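import Fermat.Agent.Red.RLSpace

/-!
# S18-G1 (f): `deg (x)_∞ = [F : K(x)]`, `deg (x) = 0`, Riemann's theorem
(any characteristic, `K` algebraically closed)
-/

set_option autoImplicit false

namespace FAR

open AlgebraicCurve IntermediateField Polynomial FA24

variable {K F : Type*} [Field K] [Field F] [Algebra K F]

theorem linearIndependent_gen_pow {x : F} (hx : Transcendental K x) (l : ℕ) :
    LinearIndependent K fun i : Fin l => (AdjoinSimple.gen K x) ^ (i : ℕ) := by
  have hg : Transcendental K (AdjoinSimple.gen K x) := by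
    intro halg
    apply hx
    have := halg.algebraMap (A := F)
    rwa [AdjoinSimple.algebraMap_gen] at this
  have hinj : Function.Injective (aeval (R := K) (AdjoinSimple.gen K x)) :=
    transcendental_iff_injective.1 hg
  have h1 := (Polynomial.basisMonomials K).linearIndependent
  have h2 := h1.map' (aeval (R := K) (AdjoinSimple.gen K x)).toLinearMap
    (LinearMap.ker_eq_bot.2 hinj)
  have h3 : (fun i : ℕ => (AdjoinSimple.gen K x) ^ i) =
      (aeval (R := K) (AdjoinSimple.gen K x)).toLinearMap ∘ (Polynomial.basisMonomials K) := by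
    funext i
    simp [aeval_monomial]
  rw [← h3] at h2
  exact h2.comp _ Fin.val_injective

variable [IsAlgClosed K]

/-- the key lower bound: there is `C ≥ 0` with `l(l (x)_∞ + C) ≥ (l+1) [F : K(x)]`. -/
theorem exists_lower_bound (h : IsFF K F) (x : F) (hx : Transcendental K x) :
    ∃ C : Divisor K F, 0 ≤ C ∧ ∀ l : ℕ,
      (l + 1) * Module.finrank K⟮x⟯ F ≤ ell (l • poleDiv h x + C) := by
  classical
  have hfin := finDim_of_transcendental h x hx
  set n := Module.finrank K⟮x⟯ F with hn
  let u := Module.finBasis K⟮x⟯ F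
  let C : Divisor K F := ∑ j, poleDiv h (u j)
  have hC0 : 0 ≤ C := Finset.sum_nonneg fun j _ => poleDiv_nonneg h _
  have hCj : ∀ j, poleDiv h (u j) ≤ C := fun j =>
    Finset.single_le_sum (f := fun j => poleDiv h (u j)) (fun j _ => poleDiv_nonneg h _)
      (Finset.mem_univ j)
  refine ⟨C, hC0, fun l => ?_⟩
  have hli := linearIndependent_smul (linearIndependent_gen_pow hx (l + 1)) u.linearIndependent
  have hmem : ∀ p : Fin (l + 1) × Fin n,
      (AdjoinSimple.gen K x) ^ (p.1 : ℕ) • u p.2 ∈ riemannRochSpace (l • poleDiv h x + C) := by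
    intro p
    have h1 : (AdjoinSimple.gen K x) ^ (p.1 : ℕ) • u p.2 = x ^ (p.1 : ℕ) * u p.2 := by
      rw [Algebra.smul_def, map_pow, AdjoinSimple.algebraMap_gen]
    rw [h1, mem_L_iff]
    intro v
    have h2 : OrdGE v (x ^ (p.1 : ℕ)) (-(l • poleDiv h x) v) := by
      refine Or.inr ?_
      rw [ord_pow, Finsupp.smul_apply, poleDiv_apply, nsmul_eq_mul]
      have hp : ((p.1 : ℕ) : ℤ) ≤ l := by
        have := p.1.2
        exact_mod_cast Nat.lt_succ_iff.1 this
      have hp0 : (0 : ℤ) ≤ ((p.1 : ℕ) : ℤ) := Int.natCast_nonneg _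
      rcases le_total (v.ord x) 0 with hle | hle
      · rw [max_eq_left (by omega)]
        nlinarith
      · rw [max_eq_right (by omega)]
        nlinarith
    have h3 : OrdGE v (u p.2) (-C v) := by
      refine Or.inr ?_
      have h4 := hCj p.2 v
      rw [poleDiv_apply] at h4
      have := le_max_left (-v.ord (u p.2)) 0
      omega
    have := h2.mul h3
    exact this.mono (by rw [Finsupp.add_apply]; omega)
  have hli' : LinearIndependent K fun p : Fin (l + 1) × Fin n =>
      (⟨_, hmem p⟩ : riemannRochSpace (l • poleDiv h x + C)) :=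
    LinearIndependent.of_comp (riemannRochSpace (l • poleDiv h x + C)).subtype hli
  have := L_finiteDimensional h (l • poleDiv h x + C)
  have h5 := hli'.fintype_card_le_finrank
  rw [Fintype.card_prod, Fintype.card_fin, Fintype.card_fin] at h5
  exact h5

/-- `deg (x)_∞ = [F : K(x)]` (Stichtenoth 1.4.11). -/
theorem degree_poleDiv (h : IsFF K F) (x : F) (hx : Transcendental K x) :
    Divisor.degree (poleDiv h x) = (Module.finrank K⟮x⟯ F : ℤ) := by
  refine le_antisymm (degree_poleDiv_le h x hx) ?_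
  obtain ⟨C, hC0, hC⟩ := exists_lower_bound h x hx
  by_contra hcon
  push Not at hcon
  set n := Module.finrank K⟮x⟯ F with hn
  set d := Divisor.degree (poleDiv h x) with hd
  let l : ℕ := (Divisor.degree C).toNat + 1
  have h1 := hC l
  have h2 : 0 ≤ l • poleDiv h x + C := add_nonneg (nsmul_nonneg (poleDiv_nonneg h x) l) hC0
  have h3 := ell_le_degree_add_one h h2
  rw [map_add, map_nsmul, ← hd, nsmul_eq_mul] at h3
  have h4 : ((l + 1 : ℕ) : ℤ) * n ≤ ell (l • poleDiv h x + C) := by exact_mod_cast h1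
  have h5 : (l : ℤ) = Divisor.degree C + 1 := by
    simp only [l]
    push_cast
    rw [Int.toNat_of_nonneg (degree_nonneg h hC0)]
  have h6 : (0 : ℤ) ≤ l := Int.natCast_nonneg _
  have h7 : (1 : ℤ) ≤ n := by
    have := finDim_of_transcendental h x hx
    have h8 : 0 < Module.finrank K⟮x⟯ F := Module.finrank_pos
    exact_mod_cast h8
  push_cast at h4
  have h9 : (l : ℤ) * d ≤ l * (n - 1) := mul_le_mul_of_nonneg_left (by omega) h6
  nlinarith

theorem degree_zeroDiv (h : IsFF K F) (x : F) (hx : Transcendental K x) :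
    Divisor.degree (zeroDiv h x) = (Module.finrank K⟮x⟯ F : ℤ) := by
  have h1 := degree_poleDiv h x⁻¹ (transcendental_inv hx)
  rw [adjoin_inv_eq, ← zeroDiv_inv, inv_inv] at h1
  exact h1

/-- principal divisors have degree `0`. -/
theorem degree_divOf (h : IsFF K F) (f : F) : Divisor.degree (divOf h f) = 0 := by
  by_cases hfK : f ∈ Set.range (algebraMap K F)
  · obtain ⟨c, rfl⟩ := hfK
    rw [divOf_algebraMap, map_zero]
  have hft : Transcendental K f := FAFF.transcendental_of_notMem_range hfK
  rw [divOf_eq_sub, map_sub, degree_zeroDiv h f hft, degree_poleDiv h f hft, sub_self]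

theorem hasPrincipalDivisors' (h : IsFF K F) : HasPrincipalDivisors K F :=
  ⟨fun f _ => ⟨divOf h f, fun _ => rfl, degree_divOf h f⟩⟩

/-- a function without zeros and poles is constant. -/
theorem mem_range_of_ord_eq_zero (h : IsFF K F) {f : F} (hf : ∀ v : Place K F, 0 ≤ v.ord f) :
    f ∈ Set.range (algebraMap K F) := by
  rw [← mem_L_zero_iff h, mem_L_iff]
  exact fun v => Or.inr (by simpa using hf v)

theorem ell_eq_zero_of_degree_neg (h : IsFF K F) {B : Divisor K F} (hB : Divisor.degree B < 0) :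
    ell B = 0 := by
  by_contra hne
  obtain ⟨z, hz0, hz⟩ := (ell_pos_iff h B).1 (Nat.pos_of_ne_zero hne)
  have h1 := degree_nonneg h ((mem_L_iff_divOf h B hz0).1 hz)
  rw [map_add, degree_divOf, add_zero] at h1
  omega

theorem finrank_pos_of_transcendental (h : IsFF K F) (x : F) (hx : Transcendental K x) :
    0 < Module.finrank K⟮x⟯ F := by
  have := finDim_of_transcendental h x hx
  exact Module.finrank_pos

/-- Riemann: `deg A - l(A)` is bounded above (Stichtenoth 1.4.14). -/
theorem exists_riemann_bound (h : IsFF K F) :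
    ∃ γ : ℤ, ∀ A : Divisor K F, Divisor.degree A - ell A ≤ γ := by
  obtain ⟨x, hx, -⟩ := id h
  obtain ⟨C, hC0, hC⟩ := exists_lower_bound h x hx
  set n := Module.finrank K⟮x⟯ F with hn
  have hn1 : (1 : ℤ) ≤ n := by exact_mod_cast finrank_pos_of_transcendental h x hx
  set B := poleDiv h x with hB
  have hdB : Divisor.degree B = n := degree_poleDiv h x hx
  set γ : ℤ := Divisor.degree C - n with hγ
  have hl : ∀ l : ℕ, Divisor.degree (l • B) - ell (l • B) ≤ γ := by
    intro l
    have h1 := ell_add_le h (l • B) C hC0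
    have h2 : ((l + 1 : ℕ) : ℤ) * n ≤ ell (l • B + C) := by exact_mod_cast hC l
    rw [map_nsmul, hdB, nsmul_eq_mul]
    push_cast at h2
    nlinarith
  refine ⟨γ, fun A => ?_⟩
  set A1 : Divisor K F := A ⊔ 0 with hA1
  have hA1nn : 0 ≤ A1 := le_sup_right
  have hAA1 : A ≤ A1 := le_sup_left
  let l : ℕ := (γ + Divisor.degree A1 + 1).toNat
  have hll : γ + Divisor.degree A1 + 1 ≤ l := Int.self_le_toNat _
  have h1 := ell_add_le h (l • B - A1) A1 hA1nn
  rw [sub_add_cancel] at h1
  have h2 := hl l
  rw [map_nsmul, hdB, nsmul_eq_mul] at h2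
  have h3 : 0 < ell (l • B - A1) := by
    have h4 : (l : ℤ) ≤ l * n := by
      have : (0 : ℤ) ≤ l := Int.natCast_nonneg _
      nlinarith
    have : (0 : ℤ) < ell (l • B - A1) := by linarith
    exact_mod_cast this
  obtain ⟨z, hz0, hz⟩ := (ell_pos_iff h _).1 h3
  have h5 := (mem_L_iff_divOf h _ hz0).1 hz
  -- `D = A1 - (z) ≤ l B`
  have h6 : A1 + divOf h z⁻¹ ≤ l • B := by
    rw [divOf_inv]
    have : l • B - (A1 + -divOf h z) = l • B - A1 + divOf h z := by abel
    rw [← sub_nonneg, this]
    exact h5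
  have h7 := degree_sub_ell_mono h h6
  rw [ell_add_divOf h A1 (inv_ne_zero hz0), map_add, degree_divOf, add_zero] at h7
  have h8 := degree_sub_ell_mono h hAA1
  have h9 := hl l
  omega

/-- existence of the genus (in Riemann's sense). -/
theorem exists_genus (h : IsFF K F) : ∃ g : ℕ,
    (∀ A : Divisor K F, Divisor.degree A + 1 - g ≤ ell A) ∧
      ∃ A0 : Divisor K F, Divisor.degree A0 + 1 - g = ell A0 := by
  obtain ⟨γ, hγ⟩ := exists_riemann_bound h
  obtain ⟨g, ⟨A0, hA0⟩, hmax⟩ := Int.exists_greatest_of_bdd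
    (P := fun z => ∃ A : Divisor K F, Divisor.degree A - ell A + 1 = z)
    ⟨γ + 1, by
      rintro z ⟨A, rfl⟩
      have := hγ A
      omega⟩
    ⟨0, 0, by rw [map_zero, ell_zero h]; norm_num⟩
  have hg0 : 0 ≤ g := hmax 0 ⟨0, by rw [map_zero, ell_zero h]; norm_num⟩
  refine ⟨g.toNat, fun A => ?_, A0, ?_⟩
  · rw [Int.toNat_of_nonneg hg0]
    have := hmax _ ⟨A, rfl⟩
    omega
  · rw [Int.toNat_of_nonneg hg0]
    omega

/-- The genus of `F/K` in Riemann's sense: `max (deg A - l(A) + 1)`. -/
noncomputable def gR (h : IsFF K F) : ℕ := (exists_genus h).choose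

/-- Riemann's inequality. -/
theorem riemann_ineq (h : IsFF K F) (A : Divisor K F) :
    Divisor.degree A + 1 - gR h ≤ ell A :=
  (exists_genus h).choose_spec.1 A

theorem exists_riemann_eq_one (h : IsFF K F) :
    ∃ A0 : Divisor K F, Divisor.degree A0 + 1 - gR h = ell A0 :=
  (exists_genus h).choose_spec.2

/-- Riemann's theorem: equality for divisors of large degree (Stichtenoth 1.4.17). -/
theorem exists_riemann_eq (h : IsFF K F) :
    ∃ c : ℤ, ∀ A : Divisor K F, c ≤ Divisor.degree A → (ell A : ℤ) = Divisor.degree A + 1 - gR h := by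
  obtain ⟨A0, hA0⟩ := exists_riemann_eq_one h
  refine ⟨Divisor.degree A0 + gR h, fun A hA => le_antisymm ?_ (riemann_ineq h A)⟩
  have h1 := riemann_ineq h (A - A0)
  rw [map_sub] at h1
  have h2 : 0 < ell (A - A0) := by
    have : (0 : ℤ) < ell (A - A0) := by omega
    exact_mod_cast this
  obtain ⟨z, hz0, hz⟩ := (ell_pos_iff h _).1 h2
  have h3 := (mem_L_iff_divOf h _ hz0).1 hz
  have h4 : A0 ≤ A + divOf h z := by
    have : A + divOf h z - A0 = A - A0 + divOf h z := by abel
    rw [← sub_nonneg, this]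
    exact h3
  have h5 := degree_sub_ell_mono h h4
  rw [ell_add_divOf h A hz0, map_add, degree_divOf, add_zero] at h5
  omega

/-- characterisation of `gR` from below: a divisor with `l(A) = deg A + 1 - g` and Riemann's
inequality with `g` determine `gR`. -/
theorem gR_eq_of (h : IsFF K F) (g : ℕ)
    (h1 : ∀ A : Divisor K F, Divisor.degree A + 1 - g ≤ ell A)
    (h2 : ∃ A0 : Divisor K F, Divisor.degree A0 + 1 - g = ell A0) : gR h = g := by
  obtain ⟨A0, hA0⟩ := h2
  obtain ⟨A1, hA1⟩ := exists_riemann_eq_one h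
  have h3 := riemann_ineq h A0
  have h4 := h1 A1
  omega

theorem le_gR_of (h : IsFF K F) (g : ℤ) (A0 : Divisor K F)
    (h2 : (ell A0 : ℤ) ≤ Divisor.degree A0 + 1 - g) : g ≤ gR h := by
  have h3 := riemann_ineq h A0
  omega

theorem gR_le_of (h : IsFF K F) (g : ℤ)
    (h1 : ∀ A : Divisor K F, Divisor.degree A + 1 - g ≤ ell A) : (gR h : ℤ) ≤ g := by
  obtain ⟨A1, hA1⟩ := exists_riemann_eq_one h
  have h4 := h1 A1
  omega

end FAR
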