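/-
S18, Step 1: from the hypothesis `ReductionInputsAlong` to a function `f = Y₃ / Y₄` of level `N`,
quotient of two integral `q`-series with the same non-zero reduction, with `div f = m • D'`,
`D' ∼ D`.
-/
import Fermat.Agent.Red.ModDefs
import Fermat.Agent.Red.RRiemann
import Fermat.Agent.X0Genus.Degree

set_option autoImplicit false

open AlgebraicCurve IntermediateField ModularCurve FA24

namespace FA18

section Step1

variable (N : ℕ) (A : ValuationSubring Kb) {k : Type} [Field k] (π : A →+* k)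

/-- the integral `q`-series of level `N`. -/
noncomputable def IntSer : Subring (LaurentSeries A) :=
  (modularFunctionFieldBar N).toSubring.comap (coeffMap A.subtype) ⊓
    (modularFunctionFieldFullC k N).toSubring.comap (coeffMap π)

variable {N A π}

theorem mem_IntSer {Y : LaurentSeries A} :
    Y ∈ IntSer N A π ↔ coeffMap A.subtype Y ∈ modularFunctionFieldBar N ∧
      coeffMap π Y ∈ modularFunctionFieldFullC k N := Iff.rfl

theorem gen_mem_IntSer {d : ℕ} [NeZero d] (hd : d ∣ N) :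
    qExpand A d (jqModC A) ∈ IntSer N A π := by
  rw [mem_IntSer]
  constructor
  · rw [coeffMap_qExpand, coeffMap_jqModC]
    have h := coeffEmb_mem_laurentBaseChange Kb (jqd_mem_full N hd)
    rw [coeffEmb, coeffMap_qExpand, ← jqModC_rat, coeffMap_jqModC] at h
    exact h
  · rw [coeffMap_qExpand, coeffMap_jqModC]
    exact jqModCd_mem_full k N hd

theorem const_mem_IntSer (a : A) : HahnSeries.single 0 a ∈ IntSer N A π := by
  rw [mem_IntSer]
  constructor
  · rw [coeffMap_single, ← algebraMap_laurentSeries_eq_single]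
    exact IntermediateField.algebraMap_mem _ _
  · rw [coeffMap_single, ← algebraMap_laurentSeries_eq_single]
    exact IntermediateField.algebraMap_mem _ _

theorem coeffMap_subtype_injective : Function.Injective (coeffMap A.subtype) := by
  intro x y h
  ext n
  have := congrArg (fun z => z.coeff n) h
  simpa using this

theorem coeffMap_subtype_ne_zero {Y : LaurentSeries A} (h : coeffMap π Y ≠ 0) :
    coeffMap A.subtype Y ≠ 0 := by
  intro h0
  apply h
  have : Y = 0 := coeffMap_subtype_injective (by rw [h0, map_zero])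
  rw [this, map_zero]

theorem adjoin_le_map_IntSer (hπ : Function.Surjective π) {x : LaurentSeries k}
    (hx : x ∈ Algebra.adjoin k (divisorExpansionsC k N)) :
    ∃ Y ∈ IntSer N A π, coeffMap π Y = x := by
  induction hx using Algebra.adjoin_induction with
  | mem x hx =>
    obtain ⟨d, hd, hdN, rfl⟩ := hx
    exact ⟨qExpand A d (jqModC A), gen_mem_IntSer hdN, by rw [coeffMap_qExpand, coeffMap_jqModC]⟩
  | algebraMap c =>
    obtain ⟨a, rfl⟩ := hπ c
    exact ⟨HahnSeries.single 0 a, const_mem_IntSer a, by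
      rw [coeffMap_single, ← algebraMap_laurentSeries_eq_single]⟩
  | add x y _ _ hx hy =>
    obtain ⟨X, hX, rfl⟩ := hx
    obtain ⟨Y, hY, rfl⟩ := hy
    exact ⟨X + Y, add_mem hX hY, map_add _ _ _⟩
  | mul x y _ _ hx hy =>
    obtain ⟨X, hX, rfl⟩ := hx
    obtain ⟨Y, hY, rfl⟩ := hy
    exact ⟨X * Y, mul_mem hX hY, map_mul _ _ _⟩

/-- every non-zero element of the function field mod `ℓ` is a quotient of reductions. -/
theorem exists_lift_quot (hπ : Function.Surjective π) {x : LaurentSeries k}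
    (hx : x ∈ modularFunctionFieldFullC k N) (hx0 : x ≠ 0) :
    ∃ Y₁ ∈ IntSer N A π, ∃ Y₂ ∈ IntSer N A π, coeffMap π Y₁ ≠ 0 ∧ coeffMap π Y₂ ≠ 0 ∧
      x * coeffMap π Y₂ = coeffMap π Y₁ := by
  obtain ⟨r, hr, s, hs, rfl⟩ := mem_adjoin_iff_div.1 hx
  obtain ⟨Y₁, h1, rfl⟩ := adjoin_le_map_IntSer (A := A) (π := π) hπ hr
  obtain ⟨Y₂, h2, rfl⟩ := adjoin_le_map_IntSer (A := A) (π := π) hπ hs
  have hs0 : coeffMap π Y₂ ≠ 0 := by
    intro h
    rw [h, div_zero] at hx0
    exact hx0 rfl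
  have hr0 : coeffMap π Y₁ ≠ 0 := by
    intro h
    rw [h, zero_div] at hx0
    exact hx0 rfl
  exact ⟨Y₁, h1, Y₂, h2, hr0, hs0, div_mul_cancel₀ _ hs0⟩

end Step1

section Main

variable {N : ℕ} {A : ValuationSubring Kb} {k : Type} [Field k] {π : A →+* k}

/-- an integral series as an element of the function field in characteristic `0`. -/
noncomputable def up : IntSer N A π →+* FN N where
  toFun Y := ⟨coeffMap A.subtype Y.1, Y.2.1⟩
  map_one' := Subtype.ext (map_one _)
  map_mul' _ _ := Subtype.ext (map_mul _ _ _)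
  map_zero' := Subtype.ext (map_zero _)
  map_add' _ _ := Subtype.ext (map_add _ _ _)

/-- the reduction of an integral series as an element of the function field over `k`. -/
noncomputable def dn : IntSer N A π →+* FbN k N where
  toFun Y := ⟨coeffMap π Y.1, Y.2.2⟩
  map_one' := Subtype.ext (map_one _)
  map_mul' _ _ := Subtype.ext (map_mul _ _ _)
  map_zero' := Subtype.ext (map_zero _)
  map_add' _ _ := Subtype.ext (map_add _ _ _)

theorem coe_up (Y : IntSer N A π) : ((up Y : FN N) : LaurentSeries Kb) = coeffMap A.subtype Y.1 :=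
  rfl

theorem coe_dn (Y : IntSer N A π) : ((dn Y : FbN k N) : LaurentSeries k) = coeffMap π Y.1 := rfl

theorem up_ne_zero {Y : IntSer N A π} (h : dn Y ≠ 0) : up Y ≠ 0 := by
  intro h0
  exact coeffMap_subtype_ne_zero (π := π) (Y := Y.1) (fun h1 => h (Subtype.ext h1))
    (congrArg Subtype.val h0)

/-- constants -/
noncomputable def cst' (a : A) : IntSer N A π := ⟨HahnSeries.single 0 a, const_mem_IntSer a⟩

theorem up_cst' (a : A) : up (cst' a : IntSer N A π) = algebraMap Kb (FN N) (a : Kb) := by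
  apply Subtype.ext
  rw [coe_up]
  show coeffMap A.subtype (HahnSeries.single 0 a) = algebraMap Kb (LaurentSeries Kb) (a : Kb)
  rw [coeffMap_single, ← algebraMap_laurentSeries_eq_single]
  rfl

theorem dn_cst' (a : A) : dn (cst' a : IntSer N A π) = algebraMap k (FbN k N) (π a) := by
  apply Subtype.ext
  rw [coe_dn]
  show coeffMap π (HahnSeries.single 0 a) = algebraMap k (LaurentSeries k) (π a)
  rw [coeffMap_single, ← algebraMap_laurentSeries_eq_single]

variable [NeZero N]

/-- the divisor of an integral series -/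
noncomputable def dv (Y : IntSer N A π) : Divisor Kb (FN N) := FAR.divOf isFF_FN (up Y)

theorem dv_apply (Y : IntSer N A π) (P : Place Kb (FN N)) : dv Y P = P.ord (up Y) := rfl

theorem dv_mul {Y Y' : IntSer N A π} (h : dn Y ≠ 0) (h' : dn Y' ≠ 0) :
    dv (Y * Y') = dv Y + dv Y' := by
  rw [dv, map_mul, FAR.divOf_mul _ (up_ne_zero h) (up_ne_zero h')]
  rfl

theorem dv_mem_principal {Y : IntSer N A π} (h : dn Y ≠ 0) :
    dv Y ∈ Divisor.principal (K := Kb) (F := FN N) :=
  ⟨up Y, up_ne_zero h, fun _ => rfl⟩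

theorem mapDomain_dv {r : Place Kb (FN N) → Place k (FbN k N)}
    (hr : IsPlaceReductionAlong A π N r) {Y : IntSer N A π} (h : dn Y ≠ 0)
    (Q : Place k (FbN k N)) : Finsupp.mapDomain r (dv Y) Q = Q.ord (dn Y) :=
  hr.2 Y.1 Y.2.1 Y.2.2 (fun h0 => h (Subtype.ext h0)) (dv Y) (fun _ => rfl) Q

theorem exists_quot_of_mem_closure {E : Divisor Kb (FN N)}
    (hE : E ∈ AddSubgroup.closure (integralPrincipalDivisors A π N)) :
    ∃ Y₃ Y₄ : IntSer N A π, dn Y₃ ≠ 0 ∧ dn Y₄ ≠ 0 ∧ E = dv Y₃ - dv Y₄ := by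
  induction hE using AddSubgroup.closure_induction with
  | mem E hE =>
    obtain ⟨y, hy, hyk, hne, hD⟩ := hE
    refine ⟨⟨y, hy, hyk⟩, 1, fun h => hne (congrArg Subtype.val h), ?_, ?_⟩
    · rw [map_one]; exact one_ne_zero
    · ext P
      rw [Finsupp.sub_apply, dv_apply, dv_apply, map_one, Place.ord_one, sub_zero, hD P]
      rfl
  | zero => exact ⟨1, 1, by rw [map_one]; exact one_ne_zero, by rw [map_one]; exact one_ne_zero,
      (sub_self _).symm⟩
  | add E E' _ _ hE hE' =>
    obtain ⟨Y₃, Y₄, h3, h4, rfl⟩ := hE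
    obtain ⟨Y₃', Y₄', h3', h4', rfl⟩ := hE'
    refine ⟨Y₃ * Y₃', Y₄ * Y₄', ?_, ?_, ?_⟩
    · rw [map_mul]; exact mul_ne_zero h3 h3'
    · rw [map_mul]; exact mul_ne_zero h4 h4'
    · rw [dv_mul h3 h3', dv_mul h4 h4']; abel
  | neg E _ hE =>
    obtain ⟨Y₃, Y₄, h3, h4, rfl⟩ := hE
    exact ⟨Y₄, Y₃, h4, h3, by abel⟩

/-- **Step 1.** -/
theorem step1 [IsAlgClosed k] (hπ : Function.Surjective π) (hFb : IsFF k (FbN k N))
    (h : ReductionInputsAlong A π N) (m : ℕ) (z : JZero N) (hmz : m • z = 0)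
    (hz : reductionAlong A π N z = 0) :
    ∃ (Y₃ Y₄ : IntSer N A π) (D' : Divisor Kb (FN N)), dn Y₃ = dn Y₄ ∧ dn Y₃ ≠ 0 ∧
      m • D' = dv Y₃ - dv Y₄ ∧
      (D' ∈ Divisor.principal (K := Kb) (F := FN N) → z = 0) := by
  obtain ⟨D, rfl⟩ := Pic0.mk_surjective z
  have hr := h.choose_spec.1
  have hgen := h.choose_spec.2
  set r := h.choose with hrdef
  -- the reduction of `D` is principal
  rw [reductionAlong_mk h D] at hz
  have hz' : Finsupp.mapDomain r (D : Divisor Kb (FN N)) ∈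
      Divisor.principal (K := k) (F := FbN k N) := by
    have := (QuotientAddGroup.eq_zero_iff _).1 hz
    rwa [AddSubgroup.mem_addSubgroupOf] at this
  obtain ⟨gb, hgb0, hgb⟩ := hz'
  obtain ⟨Y₁, h1, Y₂, h2, h10, h20, h12⟩ := exists_lift_quot (A := A) (π := π) hπ gb.2
    (fun h0 => hgb0 (Subtype.ext h0))
  set Z₁ : IntSer N A π := ⟨Y₁, h1⟩
  set Z₂ : IntSer N A π := ⟨Y₂, h2⟩
  have hZ1 : dn Z₁ ≠ 0 := fun h0 => h10 (congrArg Subtype.val h0)
  have hZ2 : dn Z₂ ≠ 0 := fun h0 => h20 (congrArg Subtype.val h0)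
  have hZ12 : gb * dn Z₂ = dn Z₁ := Subtype.ext h12
  set D' : Divisor Kb (FN N) := (D : Divisor Kb (FN N)) - (dv Z₁ - dv Z₂) with hD'
  have hD'0 : Finsupp.mapDomain r D' = 0 := by
    ext Q
    rw [hD', Finsupp.mapDomain_sub, Finsupp.mapDomain_sub, Finsupp.sub_apply, Finsupp.sub_apply,
      mapDomain_dv hr hZ1, mapDomain_dv hr hZ2, hgb Q, ← hZ12, Place.ord_mul _ hgb0 hZ2]
    simp
  -- `m • D` is principal
  have hmD : m • (D : Divisor Kb (FN N)) ∈ Divisor.principal (K := Kb) (F := FN N) := by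
    have h0 : Pic0.mk (m • D) = 0 := hmz
    have := (QuotientAddGroup.eq_zero_iff _).1 h0
    rwa [AddSubgroup.mem_addSubgroupOf] at this
  have hmD' : m • D' ∈ Divisor.principal (K := Kb) (F := FN N) := by
    rw [hD', smul_sub]
    exact sub_mem hmD (nsmul_mem (sub_mem (dv_mem_principal hZ1) (dv_mem_principal hZ2)) m)
  obtain ⟨Y₃, Y₄, h3, h4, h34⟩ := exists_quot_of_mem_closure (hgen hmD')
  have hord : ∀ Q : Place k (FbN k N), Q.ord (dn Y₃) = Q.ord (dn Y₄) := by
    intro Q
    have h0 : Finsupp.mapDomain r (m • D') Q = 0 := by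
      rw [Finsupp.mapDomain_smul, hD'0, smul_zero]; rfl
    rw [h34, Finsupp.mapDomain_sub, Finsupp.sub_apply, mapDomain_dv hr h3, mapDomain_dv hr h4]
      at h0
    omega
  obtain ⟨c, hc⟩ := FAR.mem_range_of_ord_eq_zero hFb (f := dn Y₃ * (dn Y₄)⁻¹) (fun Q => by
    rw [Place.ord_mul _ h3 (inv_ne_zero h4), Place.ord_inv, hord Q]; simp)
  obtain ⟨a, rfl⟩ := hπ c
  have ha0 : π a ≠ 0 := by
    intro h0
    rw [h0, map_zero] at hc
    exact mul_ne_zero h3 (inv_ne_zero h4) hc.symm
  have hca : dn (cst' a : IntSer N A π) ≠ 0 := by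
    rw [dn_cst']
    exact fun h0 => ha0 ((map_eq_zero _).1 h0)
  refine ⟨Y₃, cst' a * Y₄, D', ?_, h3, ?_, ?_⟩
  · rw [map_mul, dn_cst', hc, mul_assoc, inv_mul_cancel₀ h4, mul_one]
  · rw [dv_mul hca h4, h34]
    have : dv (cst' a : IntSer N A π) = 0 := by
      rw [dv, up_cst', FAR.divOf_algebraMap]
    rw [this, zero_add]
  · intro hp
    have hD : (D : Divisor Kb (FN N)) ∈ Divisor.principal (K := Kb) (F := FN N) := by
      have : (D : Divisor Kb (FN N)) = D' + (dv Z₁ - dv Z₂) := by rw [hD']; abel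
      rw [this]
      exact add_mem hp (sub_mem (dv_mem_principal hZ1) (dv_mem_principal hZ2))
    refine (QuotientAddGroup.eq_zero_iff _).2 ?_
    rwa [AddSubgroup.mem_addSubgroupOf]

end Main

end FA18
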