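/-
S18: the final assembly (for an arbitrary residue map `π : A →+* k`).
-/
import Fermat.Agent.Red.Step1
import Fermat.Agent.Red.M1a
import Fermat.Agent.Red.I2Final
import Fermat.Agent.Red.G4
import Fermat.Agent.Red.M1
import Fermat.Agent.Red.I3
import Fermat.Agent.Red.Descend

set_option autoImplicit false

open AlgebraicCurve IntermediateField ModularCurve FA24

namespace FA18

theorem bar_mono {N N' : ℕ} [NeZero N] [NeZero N'] (h : N ∣ N') :
    modularFunctionFieldBar N ≤ modularFunctionFieldBar N' :=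
  IntermediateField.adjoin.mono _ _ _ (Set.image_mono (full_degeneracy_le h))

theorem coe_incl {N N' : ℕ} (hle : modularFunctionFieldBar N ≤ modularFunctionFieldBar N')
    (x : FN N) :
    ((IntermediateField.inclusion hle x : FN N') : LaurentSeries Kb) = (x : LaurentSeries Kb) :=
  IntermediateField.coe_inclusion hle x

theorem auxLevel_ne_zero (ℓ : ℕ) : auxLevel ℓ ≠ 0 := by
  unfold auxLevel
  split_ifs <;> norm_num

theorem not_dvd_auxLevel {ℓ : ℕ} (hℓ : ℓ.Prime) : ¬ ℓ ∣ auxLevel ℓ := by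
  unfold auxLevel
  split_ifs with h2 h3
  · subst h2; norm_num
  · subst h3; norm_num
  · exact hℓ.one_lt.ne' ∘ Nat.dvd_one.1

theorem not_dvd_lcm_auxLevel {N ℓ : ℕ} (hℓ : ℓ.Prime) (hℓN : ¬ ℓ ∣ N) :
    ¬ ℓ ∣ Nat.lcm N (auxLevel ℓ) := by
  intro h
  have h2 : ℓ ∣ N * auxLevel ℓ := h.trans (Nat.lcm_dvd_mul _ _)
  rcases (Nat.Prime.dvd_mul hℓ).1 h2 with h3 | h3
  · exact hℓN h3
  · exact not_dvd_auxLevel hℓ h3

/-- the residue characteristic -/
theorem natCast_ne_zero_of_not_dvd {ℓ : ℕ} (hℓ : ℓ.Prime) {A : ValuationSubring Kb}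
    (hA : A.LiesOverPrime ℓ) {k : Type} [Field k] (π : A →+* k) (hπ : Function.Surjective π)
    {m : ℕ} (hm : ¬ ℓ ∣ m) : (m : k) ≠ 0 := by
  intro h0
  have hker : RingHom.ker π = IsLocalRing.maximalIdeal A :=
    IsLocalRing.eq_maximalIdeal (RingHom.ker_isMaximal_of_surjective π hπ)
  have hℓ0 : (ℓ : k) = 0 := by
    have h1 : (ℓ : A) ∈ IsLocalRing.maximalIdeal A := by
      have h2 : (ℓ : Kb) ∈ A.nonunits := hA
      rw [ValuationSubring.mem_nonunits_iff_exists_mem_maximalIdeal] at h2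
      obtain ⟨ha, h3⟩ := h2
      have : (⟨(ℓ : Kb), ha⟩ : A) = (ℓ : A) := Subtype.ext (by simp)
      rwa [this] at h3
    rw [← hker, RingHom.mem_ker, map_natCast] at h1
    exact h1
  have hcop : Nat.Coprime ℓ m := (Nat.Prime.coprime_iff_not_dvd hℓ).2 hm
  have h1 : ((Nat.gcd ℓ m : ℤ) : k) = 0 := by
    rw [Nat.gcd_eq_gcd_ab]
    push_cast
    rw [hℓ0, h0]
    ring
  rw [hcop] at h1
  simp at h1

section Main

variable (N : ℕ) [NeZero N] {ℓ : ℕ} [Fact ℓ.Prime] (hℓN : ¬ ℓ ∣ N)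
  (A : ValuationSubring Kb) (hA : A.LiesOverPrime ℓ)
  {k : Type} [Field k] (π : A →+* k) (hπ : Function.Surjective π)

/-- abstract: the quotient of two elements of `O` with the same non-zero reduction. -/
theorem RedData.exists_quot {K k : Type*} [Field K] [Field k] {A : ValuationSubring K}
    {π : A →+* k} {F Fb : Type*} [Field F] [Algebra K F] [Field Fb] [Algebra k Fb]
    (R : RedData A π F Fb) (y3 y4 : R.O) (h : R.ρ y3 = R.ρ y4) (h4 : R.ρ y4 ≠ 0) :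
    ∃ f : R.O, R.ρ f = 1 ∧ (f : F) = (y3 : F) * ((y4 : F))⁻¹ :=
  ⟨y3 * ⟨((y4 : F))⁻¹, R.inv_mem h4⟩, by rw [map_mul, R.ρ_inv h4, h, mul_inv_cancel₀ h4], rfl⟩

/-- an integral series of level `N` inside the valuation ring of level `N'`. -/
theorem exists_lift_O {N N' : ℕ} [NeZero N] [NeZero N'] {A : ValuationSubring Kb}
    {k : Type} [Field k] {π : A →+* k}
    (hle : modularFunctionFieldBar N ≤ modularFunctionFieldBar N')
    (R : RedData A π (FN N') (FbN k N'))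
    (hR : ∀ (y : LaurentSeries A) (hy : coeffMap A.subtype y ∈ modularFunctionFieldBar N'),
        ∃ h : (⟨coeffMap A.subtype y, hy⟩ : FN N') ∈ R.O,
          ((R.ρ ⟨_, h⟩ : FbN k N') : LaurentSeries k) = coeffMap π y)
    (Y : IntSer N A π) :
    ∃ y : R.O, (y : FN N') = IntermediateField.inclusion hle (up Y) ∧
      ((R.ρ y : FbN k N') : LaurentSeries k) = ((dn Y : FbN k N) : LaurentSeries k) := by
  obtain ⟨m3, e3⟩ := hR Y.1 (hle Y.2.1)
  refine ⟨⟨⟨coeffMap A.subtype Y.1, hle Y.2.1⟩, m3⟩, Subtype.ext ?_, ?_⟩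
  · rw [coe_incl, coe_up]
  · rw [coe_dn]
    exact e3

/-- the quotient of two integral series with the same non-zero reduction lies in `O` and reduces
to `1`. -/
theorem exists_quot_mem {N N' : ℕ} [NeZero N] [NeZero N'] {A : ValuationSubring Kb}
    {k : Type} [Field k] {π : A →+* k}
    (hle : modularFunctionFieldBar N ≤ modularFunctionFieldBar N')
    (R : RedData A π (FN N') (FbN k N'))
    (hR : ∀ (y : LaurentSeries A) (hy : coeffMap A.subtype y ∈ modularFunctionFieldBar N'),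
        ∃ h : (⟨coeffMap A.subtype y, hy⟩ : FN N') ∈ R.O,
          ((R.ρ ⟨_, h⟩ : FbN k N') : LaurentSeries k) = coeffMap π y)
    (Y₃ Y₄ : IntSer N A π) (h34 : dn Y₃ = dn Y₄) (h3 : dn Y₃ ≠ 0) :
    ∃ f : R.O, R.ρ f = 1 ∧ (f : FN N') = IntermediateField.inclusion hle (up Y₃) *
      (IntermediateField.inclusion hle (up Y₄))⁻¹ := by
  have h4 : dn Y₄ ≠ 0 := h34 ▸ h3
  obtain ⟨y3, hc3, e3⟩ := exists_lift_O hle R hR Y₃
  obtain ⟨y4, hc4, e4⟩ := exists_lift_O hle R hR Y₄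
  have hρ34 : R.ρ y3 = R.ρ y4 := by
    apply Subtype.ext
    rw [e3, e4, h34]
  have hρ4 : R.ρ y4 ≠ 0 := by
    intro h0
    apply h4
    apply Subtype.ext
    rw [← e4, h0, ZeroMemClass.coe_zero, ZeroMemClass.coe_zero]
  obtain ⟨f, hf1, hf2⟩ := R.exists_quot y3 y4 hρ34 hρ4
  exact ⟨f, hf1, by rw [hf2, hc3, hc4]⟩

theorem dvd_ord_quot {N N' : ℕ} [NeZero N] [NeZero N'] {A : ValuationSubring Kb}
    {k : Type} [Field k] {π : A →+* k}
    (hNN' : N ∣ N') (hle : modularFunctionFieldBar N ≤ modularFunctionFieldBar N')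
    (Y₃ Y₄ : IntSer N A π) (h3 : dn Y₃ ≠ 0) (h4 : dn Y₄ ≠ 0) (m : ℕ) (D' : Divisor Kb (FN N))
    (hD' : m • D' = dv Y₃ - dv Y₄) (P' : Place Kb (FN N')) :
    (m : ℤ) ∣ P'.ord (IntermediateField.inclusion hle (up Y₃) *
      (IntermediateField.inclusion hle (up Y₄))⁻¹) := by
  obtain ⟨P, e, -, hP⟩ : ∃ (P : Place Kb (FN N)) (e : ℤ), 0 < e ∧ ∀ f : FN N,
      P'.ord (IntermediateField.inclusion hle f) = e * P.ord f :=
    St2.exists_place_restrict hNN' P'
  have hu3 : IntermediateField.inclusion hle (up Y₃) ≠ 0 :=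
    (map_ne_zero (IntermediateField.inclusion hle)).2 (up_ne_zero h3)
  have hu4 : IntermediateField.inclusion hle (up Y₄) ≠ 0 :=
    (map_ne_zero (IntermediateField.inclusion hle)).2 (up_ne_zero h4)
  rw [Place.ord_mul _ hu3 (inv_ne_zero hu4), Place.ord_inv, hP, hP]
  have h1 := DFunLike.congr_fun hD' P
  rw [Finsupp.smul_apply, Finsupp.sub_apply, dv_apply, dv_apply, nsmul_eq_mul] at h1
  refine ⟨e * D' P, ?_⟩
  linear_combination (-e) * h1

theorem principal_of_pow_eq {N : ℕ} [NeZero N] {A : ValuationSubring Kb}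
    {k : Type} [Field k] {π : A →+* k}
    (Y₃ Y₄ : IntSer N A π) (h3 : dn Y₃ ≠ 0) (h4 : dn Y₄ ≠ 0) (m : ℕ) (hm0 : m ≠ 0)
    (D' : Divisor Kb (FN N)) (hD' : m • D' = dv Y₃ - dv Y₄) (t : FN N)
    (ht : t ^ m = up Y₃ * (up Y₄)⁻¹) : D' ∈ Divisor.principal (K := Kb) (F := FN N) := by
  have ht0 : t ≠ 0 := by
    rintro rfl
    rw [zero_pow hm0] at ht
    exact mul_ne_zero (up_ne_zero h3) (inv_ne_zero (up_ne_zero h4)) ht.symm
  refine ⟨t, ht0, fun P => ?_⟩
  have h1 := DFunLike.congr_fun hD' P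
  rw [Finsupp.smul_apply, Finsupp.sub_apply, dv_apply, dv_apply, nsmul_eq_mul] at h1
  have h2 : P.ord (t ^ m) = (m : ℤ) * P.ord t := by
    rw [← zpow_natCast, Place.ord_zpow]
  rw [ht, Place.ord_mul _ (up_ne_zero h3) (inv_ne_zero (up_ne_zero h4)), Place.ord_inv] at h2
  have h5 : (m : ℤ) * D' P = (m : ℤ) * P.ord t := by rw [h1, ← h2]; ring
  exact mul_left_cancel₀ (by exact_mod_cast hm0) h5

include hA hπ in
/-- the `m`-th root at the auxiliary level. -/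
theorem exists_root_aux (N' : ℕ) [NeZero N'] (hℓN' : ¬ ℓ ∣ N') (hM : auxLevel ℓ ∣ N')
    (hNN' : N ∣ N') (hle : modularFunctionFieldBar N ≤ modularFunctionFieldBar N')
    (Y₃ Y₄ : IntSer N A π) (h34 : dn Y₃ = dn Y₄) (h3 : dn Y₃ ≠ 0) (m : ℕ) (hm : ¬ ℓ ∣ m)
    (D' : Divisor Kb (FN N)) (hD' : m • D' = dv Y₃ - dv Y₄) :
    ∃ s : FN N', s ^ m = IntermediateField.inclusion hle (up Y₃ * (up Y₄)⁻¹) := by
  have hℓ : ℓ.Prime := Fact.out
  have : IsAlgClosed k := isAlgClosed_of_surj A π hπ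
  have h4 : dn Y₄ ≠ 0 := h34 ▸ h3
  obtain ⟨R, hR⟩ := exists_redData_mod N' hℓN' A hA π hπ
  obtain ⟨f, hρf, hfcoe⟩ := exists_quot_mem hle R hR Y₃ Y₄ h34 h3
  obtain ⟨s, hs⟩ := thmG R isFF_FN (isFF_FbN N' hℓN' A hA π hπ) (gN N') (I2 N')
    (I3 N' hℓN' A hA π hπ hM) m (natCast_ne_zero_of_not_dvd hℓ hA π hπ hm) f hρf (fun P' => by
      rw [hfcoe]
      exact dvd_ord_quot hNN' hle Y₃ Y₄ h3 h4 m D' hD' P')
  exact ⟨s, by rw [hs, hfcoe, map_mul, map_inv₀]⟩

end Main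

end FA18
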