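import Fermat.Agent.X0Genus.OrdAPI

/-! S18, package CERT, part 0: the local condition (T) from the `u⁶`-certificates. -/

set_option autoImplicit false

open AlgebraicCurve

namespace FA18

section

variable {k F : Type*} [Field k] [Field F] [Algebra k F]

/-- valuation rings containing `k` and `x` contain everything integral over `k[x]`. -/
theorem mem_of_isIntegral_adjoin (B : ValuationSubring F) (hB : ∀ a : k, algebraMap k F a ∈ B)
    {x z : F} (hx : x ∈ B) (hz : IsIntegral (Algebra.adjoin k {x}) z) : z ∈ B := by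
  have hle : ∀ y ∈ Algebra.adjoin k {x}, y ∈ B := by
    intro y hy
    induction hy using Algebra.adjoin_induction with
    | mem y hy => rw [Set.mem_singleton_iff.mp hy]; exact hx
    | algebraMap a => exact hB a
    | add y y' _ _ h h' => exact B.add_mem _ _ h h'
    | mul y y' _ _ h h' => exact B.mul_mem _ _ h h'
  obtain ⟨p, hp, he⟩ := hz
  let φ : Algebra.adjoin k {x} →+* B :=
    { toFun := fun y => ⟨y.1, hle _ y.2⟩
      map_one' := rfl
      map_mul' := fun _ _ => rfl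
      map_zero' := rfl
      map_add' := fun _ _ => rfl }
  have h1 : IsIntegral B z := by
    refine ⟨p.map φ, hp.map φ, ?_⟩
    rw [Polynomial.eval₂_map]
    exact he
  obtain ⟨y, hy⟩ := IsIntegrallyClosed.isIntegral_iff.mp h1
  rw [← hy]
  exact y.2

variable (P : Place k F)

theorem ord_nonneg_of_isIntegral {x z : F} (hx : x = 0 ∨ 0 ≤ P.ord x) (hz0 : z ≠ 0)
    (hz : IsIntegral (Algebra.adjoin k {x}) z) : 0 ≤ P.ord z := by
  rw [← FA24.mem_place_iff P hz0]
  refine mem_of_isIntegral_adjoin P.toValuationSubring P.algebraMap_mem' ?_ hz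
  rcases hx with rfl | hx
  · exact P.toValuationSubring.zero_mem
  · by_cases h0 : x = 0
    · rw [h0]; exact P.toValuationSubring.zero_mem
    · exact (FA24.mem_place_iff P h0).mpr hx

theorem ne_zero_of_ord_ne {t : F} (ht : P.ord t ≠ 0) : t ≠ 0 := by
  rintro rfl
  exact ht P.ord_zero

theorem ord_add_const_of_pos {t : F} (ht : 0 < P.ord t) {a : k} (ha : a ≠ 0) :
    t + algebraMap k F a ≠ 0 ∧ P.ord (t + algebraMap k F a) = 0 := by
  have hw := FA24.isOrd_place P
  have ht0 : t ≠ 0 := ne_zero_of_ord_ne P ht.ne'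
  have ha0 : algebraMap k F a ≠ 0 := (map_ne_zero _).mpr ha
  have h1 : P.ord (algebraMap k F a) = 0 := FA24.ord_algebraMap P ha
  have h2 : P.ord (algebraMap k F a) < P.ord t := by omega
  rw [add_comm]
  exact ⟨hw.add_ne_zero_of_lt ha0 h2, (hw.add_eq_of_lt ha0 ht0 h2).trans h1⟩

theorem ord_add_const_of_neg {t : F} (ht : P.ord t < 0) (a : k) :
    t + algebraMap k F a ≠ 0 ∧ P.ord (t + algebraMap k F a) = P.ord t := by
  have hw := FA24.isOrd_place P
  have ht0 : t ≠ 0 := ne_zero_of_ord_ne P ht.ne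
  by_cases ha : a = 0
  · subst ha
    simpa using ht0
  have ha0 : algebraMap k F a ≠ 0 := (map_ne_zero _).mpr ha
  have h1 : P.ord (algebraMap k F a) = 0 := FA24.ord_algebraMap P ha
  have h2 : P.ord t < P.ord (algebraMap k F a) := by omega
  exact ⟨hw.add_ne_zero_of_lt ht0 h2, hw.add_eq_of_lt ht0 ha0 h2⟩

theorem ord_add_const_nonneg {t : F} (ht : 0 ≤ P.ord t) (a : k) (h0 : t + algebraMap k F a ≠ 0) :
    0 ≤ P.ord (t + algebraMap k F a) := by
  rw [← FA24.mem_place_iff P h0]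
  refine P.toValuationSubring.add_mem _ _ ?_ (P.algebraMap_mem' a)
  by_cases h : t = 0
  · rw [h]; exact P.toValuationSubring.zero_mem
  · exact (FA24.mem_place_iff P h).mpr ht

/-- positivity of `ord w` from integrality of `wⁿ j` over `k[1/j]` at a pole of `j`. -/
theorem ord_pos_of_cusp {j w : F} {n : ℕ} (hj : P.ord j < 0) (hw0 : w ≠ 0)
    (hw : IsIntegral (Algebra.adjoin k {j⁻¹}) (w ^ n * j)) : 0 < P.ord w := by
  have ho := FA24.isOrd_place P
  have hj0 : j ≠ 0 := ne_zero_of_ord_ne P hj.ne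
  have h1 : 0 ≤ P.ord (w ^ n * j) :=
    ord_nonneg_of_isIntegral P (Or.inr (by rw [P.ord_inv]; omega))
      (mul_ne_zero (pow_ne_zero n hw0) hj0) hw
  rw [ho.mul _ _ (pow_ne_zero n hw0) hj0, ho.pow hw0] at h1
  by_contra hneg
  have h2 : P.ord w ≤ 0 := not_lt.mp hneg
  have h3 : (n : ℤ) * P.ord w ≤ 0 := mul_nonpos_of_nonneg_of_nonpos (Int.natCast_nonneg n) h2
  omega

/-- the condition (T) at the place `P` -/
def CondT (h u : F) : Prop :=
  (∀ c : k, 0 < P.ord (h - algebraMap k F c) → 0 < P.ord (u * (h - algebraMap k F c))) ∧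
    (P.ord h < 0 → 0 < P.ord (u * h))

/-- **(T), auxiliary level `2`** (residue characteristic `≠ 2`). -/
theorem condT_two (h2 : (2 : k) ≠ 0) {j h u w : F} {n : ℕ} (hu : u ≠ 0)
    (hR : j * h ^ 2 = (h + 256) ^ 3)
    (hy : IsIntegral (Algebra.adjoin k {j}) (u ^ 6 * (h + 64) ^ 3))
    (hw : IsIntegral (Algebra.adjoin k {j⁻¹}) (w ^ n * j))
    (huw : w * j * (h - 512) = -(u * h * (j - 1728) * (h + 256))) : CondT P h u := by
  have ho := FA24.isOrd_place P
  have e256 : (256 : F) = algebraMap k F 256 := (map_ofNat _ 256).symm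
  have e64 : (64 : F) = algebraMap k F 64 := (map_ofNat _ 64).symm
  have e512 : (-512 : F) = algebraMap k F (-512) := by rw [map_neg, map_ofNat]
  have e1728 : (-1728 : F) = algebraMap k F (-1728) := by rw [map_neg, map_ofNat]
  have h256 : (256 : k) ≠ 0 := by
    have : (256 : k) = 2 ^ 8 := by norm_num
    rw [this]; exact pow_ne_zero 8 h2
  -- the cusps
  have cusp : P.ord h ≠ 0 → 0 < P.ord (u * h) := by
    intro hh
    have hh0 : h ≠ 0 := ne_zero_of_ord_ne P hh
    have hA : h + 256 ≠ 0 ∧ (P.ord (h + 256) = 0 ∧ 0 < P.ord h ∨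
        P.ord (h + 256) = P.ord h ∧ P.ord h < 0) := by
      rw [e256]
      rcases lt_or_gt_of_ne hh with h1 | h1
      · exact ⟨(ord_add_const_of_neg P h1 _).1, Or.inr ⟨(ord_add_const_of_neg P h1 _).2, h1⟩⟩
      · exact ⟨(ord_add_const_of_pos P h1 h256).1, Or.inl ⟨(ord_add_const_of_pos P h1 h256).2, h1⟩⟩
    obtain ⟨hA0, hA⟩ := hA
    have hj0 : j ≠ 0 := by
      rintro rfl
      rw [zero_mul] at hR
      exact pow_ne_zero 3 hA0 hR.symm
    have hRo := congrArg P.ord hR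
    rw [ho.mul _ _ hj0 (pow_ne_zero 2 hh0), ho.pow hh0, ho.pow hA0] at hRo
    push_cast at hRo
    have hj : P.ord j < 0 := by rcases hA with hA | hA <;> omega
    have hB : j - 1728 ≠ 0 ∧ P.ord (j - 1728) = P.ord j := by
      rw [sub_eq_add_neg, e1728]
      exact ord_add_const_of_neg P hj _
    have hrhs : u * h * (j - 1728) * (h + 256) ≠ 0 :=
      mul_ne_zero (mul_ne_zero (mul_ne_zero hu hh0) hB.1) hA0
    have hlhs : w * j * (h - 512) ≠ 0 := by rw [huw]; exact neg_ne_zero.mpr hrhs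
    have hw0 : w ≠ 0 := left_ne_zero_of_mul (left_ne_zero_of_mul hlhs)
    have hC0 : h - 512 ≠ 0 := right_ne_zero_of_mul hlhs
    have hwpos := ord_pos_of_cusp P hj hw0 hw
    have hE := congrArg P.ord huw
    rw [ho.neg hrhs, ho.mul _ _ (mul_ne_zero hw0 hj0) hC0, ho.mul _ _ hw0 hj0,
      ho.mul _ _ (mul_ne_zero (mul_ne_zero hu hh0) hB.1) hA0,
      ho.mul _ _ (mul_ne_zero hu hh0) hB.1, hB.2] at hE
    have hC : (0 < P.ord h → 0 ≤ P.ord (h - 512)) ∧ (P.ord h < 0 → P.ord (h - 512) = P.ord h) := by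
      rw [sub_eq_add_neg, e512]
      refine ⟨fun h1 => ord_add_const_nonneg P h1.le _ ?_, fun h1 => (ord_add_const_of_neg P h1 _).2⟩
      rw [← e512, ← sub_eq_add_neg]; exact hC0
    rcases hA with hA | hA
    · have := hC.1 hA.2
      omega
    · have := hC.2 hA.2
      omega
  refine ⟨fun c hc => ?_, fun hh => cusp hh.ne⟩
  by_cases hc0 : c = 0
  · subst hc0
    rw [map_zero, sub_zero] at hc ⊢
    exact cusp hc.ne'
  set t := h - algebraMap k F c with ht
  have ht0 : t ≠ 0 := ne_zero_of_ord_ne P hc.ne'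
  have hht : h = t + algebraMap k F c := by rw [ht]; ring
  have hh := ord_add_const_of_pos P hc hc0
  rw [← hht] at hh
  -- `j` is regular
  have hj : j = 0 ∨ 0 ≤ P.ord j := by
    by_cases hj0 : j = 0
    · exact Or.inl hj0
    right
    have hA0 : h + 256 ≠ 0 := by
      intro h0
      rw [h0] at hR
      exact mul_ne_zero hj0 (pow_ne_zero 2 hh.1) (by rw [hR]; ring)
    have hRo := congrArg P.ord hR
    rw [ho.mul _ _ hj0 (pow_ne_zero 2 hh.1), ho.pow hh.1, ho.pow hA0, hh.2] at hRo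
    have : 0 ≤ P.ord (h + 256) := by
      rw [e256]
      exact ord_add_const_nonneg P hh.2.ge _ (by rw [← e256]; exact hA0)
    push_cast at hRo
    omega
  have hD : h + 64 ≠ 0 ∧ (P.ord (h + 64) = 0 ∨ P.ord (h + 64) = P.ord t) := by
    have e : h + 64 = t + algebraMap k F (c + 64) := by rw [map_add, ← e64, hht]; ring
    by_cases hc64 : c + 64 = 0
    · rw [e, hc64, map_zero, add_zero]
      exact ⟨ht0, Or.inr rfl⟩
    · rw [e]
      exact ⟨(ord_add_const_of_pos P hc hc64).1, Or.inl (ord_add_const_of_pos P hc hc64).2⟩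
  have hy0 : u ^ 6 * (h + 64) ^ 3 ≠ 0 := mul_ne_zero (pow_ne_zero 6 hu) (pow_ne_zero 3 hD.1)
  have hyo := ord_nonneg_of_isIntegral P hj hy0 hy
  rw [ho.mul _ _ (pow_ne_zero 6 hu) (pow_ne_zero 3 hD.1), ho.pow hu, ho.pow hD.1] at hyo
  rw [ho.mul _ _ hu ht0]
  push_cast at hyo
  rcases hD.2 with h1 | h1 <;> omega

/-- **(T), auxiliary level `3`** (residue characteristic `≠ 3`). -/
theorem condT_three (h3 : (3 : k) ≠ 0) {j h u w : F} {n : ℕ} (hu : u ≠ 0)
    (hR : j * h ^ 3 = (h + 27) * (h + 243) ^ 3)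
    (hy : IsIntegral (Algebra.adjoin k {j}) (u ^ 6 * (h + 27) ^ 4))
    (hw : IsIntegral (Algebra.adjoin k {j⁻¹}) (w ^ n * j))
    (huw : w * j * (h * (h - 486) - 19683) = -(u * h * (j - 1728) * ((h + 27) * (h + 243)))) :
    CondT P h u := by
  have ho := FA24.isOrd_place P
  have e27 : (27 : F) = algebraMap k F 27 := (map_ofNat _ 27).symm
  have e243 : (243 : F) = algebraMap k F 243 := (map_ofNat _ 243).symm
  have e486 : (-486 : F) = algebraMap k F (-486) := by rw [map_neg, map_ofNat]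
  have e19683 : (-19683 : F) = algebraMap k F (-19683) := by rw [map_neg, map_ofNat]
  have e1728 : (-1728 : F) = algebraMap k F (-1728) := by rw [map_neg, map_ofNat]
  have h27 : (27 : k) ≠ 0 := by
    have : (27 : k) = 3 ^ 3 := by norm_num
    rw [this]; exact pow_ne_zero 3 h3
  have h243 : (243 : k) ≠ 0 := by
    have : (243 : k) = 3 ^ 5 := by norm_num
    rw [this]; exact pow_ne_zero 5 h3
  -- the cusps
  have cusp : P.ord h ≠ 0 → 0 < P.ord (u * h) := by
    intro hh
    have hh0 : h ≠ 0 := ne_zero_of_ord_ne P hh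
    have hA : h + 27 ≠ 0 ∧ (P.ord (h + 27) = 0 ∧ 0 < P.ord h ∨
        P.ord (h + 27) = P.ord h ∧ P.ord h < 0) := by
      rw [e27]
      rcases lt_or_gt_of_ne hh with h1 | h1
      · exact ⟨(ord_add_const_of_neg P h1 _).1, Or.inr ⟨(ord_add_const_of_neg P h1 _).2, h1⟩⟩
      · exact ⟨(ord_add_const_of_pos P h1 h27).1, Or.inl ⟨(ord_add_const_of_pos P h1 h27).2, h1⟩⟩
    have hA' : h + 243 ≠ 0 ∧ (P.ord (h + 243) = 0 ∧ 0 < P.ord h ∨
        P.ord (h + 243) = P.ord h ∧ P.ord h < 0) := by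
      rw [e243]
      rcases lt_or_gt_of_ne hh with h1 | h1
      · exact ⟨(ord_add_const_of_neg P h1 _).1, Or.inr ⟨(ord_add_const_of_neg P h1 _).2, h1⟩⟩
      · exact ⟨(ord_add_const_of_pos P h1 h243).1, Or.inl ⟨(ord_add_const_of_pos P h1 h243).2, h1⟩⟩
    obtain ⟨hA0, hA⟩ := hA
    obtain ⟨hA0', hA'⟩ := hA'
    have hj0 : j ≠ 0 := by
      rintro rfl
      rw [zero_mul] at hR
      exact mul_ne_zero hA0 (pow_ne_zero 3 hA0') hR.symm
    have hRo := congrArg P.ord hR
    rw [ho.mul _ _ hj0 (pow_ne_zero 3 hh0), ho.pow hh0, ho.mul _ _ hA0 (pow_ne_zero 3 hA0'),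
      ho.pow hA0'] at hRo
    push_cast at hRo
    have hj : P.ord j < 0 := by rcases hA with hA | hA <;> rcases hA' with hA' | hA' <;> omega
    have hB : j - 1728 ≠ 0 ∧ P.ord (j - 1728) = P.ord j := by
      rw [sub_eq_add_neg, e1728]
      exact ord_add_const_of_neg P hj _
    have hrhs : u * h * (j - 1728) * ((h + 27) * (h + 243)) ≠ 0 :=
      mul_ne_zero (mul_ne_zero (mul_ne_zero hu hh0) hB.1) (mul_ne_zero hA0 hA0')
    have hlhs : w * j * (h * (h - 486) - 19683) ≠ 0 := by rw [huw]; exact neg_ne_zero.mpr hrhs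
    have hw0 : w ≠ 0 := left_ne_zero_of_mul (left_ne_zero_of_mul hlhs)
    have hC0 : h * (h - 486) - 19683 ≠ 0 := right_ne_zero_of_mul hlhs
    have hwpos := ord_pos_of_cusp P hj hw0 hw
    have hE := congrArg P.ord huw
    rw [ho.neg hrhs, ho.mul _ _ (mul_ne_zero hw0 hj0) hC0, ho.mul _ _ hw0 hj0,
      ho.mul _ _ (mul_ne_zero (mul_ne_zero hu hh0) hB.1) (mul_ne_zero hA0 hA0'),
      ho.mul _ _ (mul_ne_zero hu hh0) hB.1, hB.2, ho.mul _ _ hA0 hA0'] at hE
    have hC : (0 < P.ord h → 0 ≤ P.ord (h * (h - 486) - 19683)) ∧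
        (P.ord h < 0 → P.ord (h * (h - 486) - 19683) = 2 * P.ord h) := by
      constructor
      · intro h1
        rw [← FA24.mem_place_iff P hC0]
        have hm : h ∈ P.toValuationSubring := (FA24.mem_place_iff P hh0).mpr h1.le
        rw [sub_eq_add_neg, sub_eq_add_neg, e486, e19683]
        exact P.toValuationSubring.add_mem _ _ (P.toValuationSubring.mul_mem _ _ hm
          (P.toValuationSubring.add_mem _ _ hm (P.algebraMap_mem' _))) (P.algebraMap_mem' _)
      · intro h1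
        have h4 := ord_add_const_of_neg P h1 (-486)
        rw [← e486, ← sub_eq_add_neg] at h4
        have h5 : P.ord (h * (h - 486)) = 2 * P.ord h := by
          rw [ho.mul _ _ hh0 h4.1, h4.2]; ring
        have h6 := ord_add_const_of_neg P (t := h * (h - 486)) (by omega) (-19683)
        rw [← e19683, ← sub_eq_add_neg] at h6
        rw [h6.2, h5]
    rcases hA with hA | hA <;> rcases hA' with hA' | hA'
    · have := hC.1 hA.2
      omega
    · omega
    · omega
    · have := hC.2 hA.2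
      omega
  refine ⟨fun c hc => ?_, fun hh => cusp hh.ne⟩
  by_cases hc0 : c = 0
  · subst hc0
    rw [map_zero, sub_zero] at hc ⊢
    exact cusp hc.ne'
  set t := h - algebraMap k F c with ht
  have ht0 : t ≠ 0 := ne_zero_of_ord_ne P hc.ne'
  have hht : h = t + algebraMap k F c := by rw [ht]; ring
  have hh := ord_add_const_of_pos P hc hc0
  rw [← hht] at hh
  -- `j` is regular
  have hj : j = 0 ∨ 0 ≤ P.ord j := by
    by_cases hj0 : j = 0
    · exact Or.inl hj0
    right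
    have hne : (h + 27) * (h + 243) ^ 3 ≠ 0 := by
      rw [← hR]; exact mul_ne_zero hj0 (pow_ne_zero 3 hh.1)
    have hA0 : h + 27 ≠ 0 := left_ne_zero_of_mul hne
    have hA0' : h + 243 ≠ 0 := fun h0 => right_ne_zero_of_mul hne (by rw [h0]; ring)
    have hRo := congrArg P.ord hR
    rw [ho.mul _ _ hj0 (pow_ne_zero 3 hh.1), ho.pow hh.1, ho.mul _ _ hA0 (pow_ne_zero 3 hA0'),
      ho.pow hA0', hh.2] at hRo
    have h1 : 0 ≤ P.ord (h + 27) := by
      rw [e27]
      exact ord_add_const_nonneg P hh.2.ge _ (by rw [← e27]; exact hA0)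
    have h2 : 0 ≤ P.ord (h + 243) := by
      rw [e243]
      exact ord_add_const_nonneg P hh.2.ge _ (by rw [← e243]; exact hA0')
    push_cast at hRo
    omega
  have hD : h + 27 ≠ 0 ∧ (P.ord (h + 27) = 0 ∨ P.ord (h + 27) = P.ord t) := by
    have e : h + 27 = t + algebraMap k F (c + 27) := by rw [map_add, ← e27, hht]; ring
    by_cases hc27 : c + 27 = 0
    · rw [e, hc27, map_zero, add_zero]
      exact ⟨ht0, Or.inr rfl⟩
    · rw [e]
      exact ⟨(ord_add_const_of_pos P hc hc27).1, Or.inl (ord_add_const_of_pos P hc hc27).2⟩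
  have hy0 : u ^ 6 * (h + 27) ^ 4 ≠ 0 := mul_ne_zero (pow_ne_zero 6 hu) (pow_ne_zero 4 hD.1)
  have hyo := ord_nonneg_of_isIntegral P hj hy0 hy
  rw [ho.mul _ _ (pow_ne_zero 6 hu) (pow_ne_zero 4 hD.1), ho.pow hu, ho.pow hD.1] at hyo
  rw [ho.mul _ _ hu ht0]
  push_cast at hyo
  rcases hD.2 with h1 | h1 <;> omega

/-- **(T), level `1`** (residue characteristic `≠ 2, 3`). -/
theorem condT_one (h1728 : (1728 : k) ≠ 0) {j u w : F} {n : ℕ} (hu : u ≠ 0)
    (hy : IsIntegral (Algebra.adjoin k {j}) (u ^ 6 * (j ^ 4 * (j - 1728) ^ 3)))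
    (hw : IsIntegral (Algebra.adjoin k {j⁻¹}) (w ^ n * j))
    (huw : w * j = -(u * j * (j - 1728))) : CondT P j u := by
  have ho := FA24.isOrd_place P
  have e1728 : (-1728 : F) = algebraMap k F (-1728) := by rw [map_neg, map_ofNat]
  refine ⟨fun c hc => ?_, fun hj => ?_⟩
  · set t := j - algebraMap k F c with ht
    have ht0 : t ≠ 0 := ne_zero_of_ord_ne P hc.ne'
    have hjt : j = t + algebraMap k F c := by rw [ht]; ring
    have hA : j ≠ 0 ∧ (P.ord j = 0 ∧ c ≠ 0 ∨ P.ord j = P.ord t ∧ c = 0) := by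
      by_cases hc0 : c = 0
      · rw [hjt, hc0, map_zero, add_zero]
        exact ⟨ht0, Or.inr ⟨rfl, rfl⟩⟩
      · rw [hjt]
        exact ⟨(ord_add_const_of_pos P hc hc0).1, Or.inl ⟨(ord_add_const_of_pos P hc hc0).2, hc0⟩⟩
    have hB : j - 1728 ≠ 0 ∧ (P.ord (j - 1728) = 0 ∧ c ≠ 1728 ∨
        P.ord (j - 1728) = P.ord t ∧ c = 1728) := by
      have e : j - 1728 = t + algebraMap k F (c - 1728) := by
        rw [map_sub, map_ofNat, hjt]; ring
      by_cases hc0 : c = 1728
      · rw [e, hc0, sub_self, map_zero, add_zero]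
        exact ⟨ht0, Or.inr ⟨rfl, rfl⟩⟩
      · rw [e]
        have hc1 : c - 1728 ≠ 0 := sub_ne_zero.mpr hc0
        exact ⟨(ord_add_const_of_pos P hc hc1).1, Or.inl ⟨(ord_add_const_of_pos P hc hc1).2, hc0⟩⟩
    have hj : j = 0 ∨ 0 ≤ P.ord j := by
      right
      rcases hA.2 with h | h <;> omega
    have hy0 : u ^ 6 * (j ^ 4 * (j - 1728) ^ 3) ≠ 0 :=
      mul_ne_zero (pow_ne_zero 6 hu) (mul_ne_zero (pow_ne_zero 4 hA.1) (pow_ne_zero 3 hB.1))
    have hyo := ord_nonneg_of_isIntegral P hj hy0 hy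
    rw [ho.mul _ _ (pow_ne_zero 6 hu) (mul_ne_zero (pow_ne_zero 4 hA.1) (pow_ne_zero 3 hB.1)),
      ho.mul _ _ (pow_ne_zero 4 hA.1) (pow_ne_zero 3 hB.1), ho.pow hu, ho.pow hA.1,
      ho.pow hB.1] at hyo
    rw [ho.mul _ _ hu ht0]
    push_cast at hyo
    rcases hA.2 with h | h <;> rcases hB.2 with h' | h'
    · omega
    · omega
    · omega
    · exact absurd (h.2.symm.trans h'.2).symm h1728
  · have hj0 : j ≠ 0 := ne_zero_of_ord_ne P hj.ne
    have hB : j - 1728 ≠ 0 ∧ P.ord (j - 1728) = P.ord j := by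
      rw [sub_eq_add_neg, e1728]
      exact ord_add_const_of_neg P hj _
    have hrhs : u * j * (j - 1728) ≠ 0 := mul_ne_zero (mul_ne_zero hu hj0) hB.1
    have hlhs : w * j ≠ 0 := by rw [huw]; exact neg_ne_zero.mpr hrhs
    have hw0 : w ≠ 0 := left_ne_zero_of_mul hlhs
    have hwpos := ord_pos_of_cusp P hj hw0 hw
    have hE := congrArg P.ord huw
    rw [ho.neg hrhs, ho.mul _ _ hw0 hj0, ho.mul _ _ (mul_ne_zero hu hj0) hB.1, hB.2] at hE
    omega

end

end FA18
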