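import Fermat.Agent.Red.Defs
import Fermat.Agent.Red.CertPlace

/-! S18, package CERT, part 2: transport of the certificates through an abstract reduction. -/

set_option autoImplicit false

open AlgebraicCurve IntermediateField

namespace FA18

variable {K k : Type*} [Field K] [Field k] {A : ValuationSubring K} {π : A →+* k}
  {F Fb : Type*} [Field F] [Algebra K F] [Field Fb] [Algebra k Fb] (R : RedData A π F Fb)

/-- the two integrality transfers (G2 (L')) at `j` and `1/j`. -/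
structure JTransfer (jO : R.O) : Prop where
  tr : Transcendental k (R.ρ jO)
  fin : ∀ y : R.O, IsIntegral (Algebra.adjoin K {(jO : F)}) (y : F) →
    IsIntegral (Algebra.adjoin k {R.ρ jO}) (R.ρ y)
  inf : ∀ y : R.O, IsIntegral (Algebra.adjoin K {((jO : F))⁻¹}) (y : F) →
    IsIntegral (Algebra.adjoin k {(R.ρ jO)⁻¹}) (R.ρ y)

variable {R}

theorem transcendental_ne_const {x : Fb} (hx : Transcendental k x) (c : k) :
    x ≠ algebraMap k Fb c := by
  rintro rfl
  exact hx (isAlgebraic_algebraMap c)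

theorem mem_O_of_div {a b : R.O} (hb : R.ρ b ≠ 0) {w : F} (h : w * (b : F) = (a : F)) :
    ∃ wO : R.O, (wO : F) = w ∧ wO * b = a := by
  have hb0 : (b : F) ≠ 0 := by
    intro h0
    apply hb
    have : b = 0 := Subtype.ext h0
    rw [this, map_zero]
  refine ⟨a * ⟨((b : F))⁻¹, R.inv_mem hb⟩, ?_, ?_⟩
  · show (a : F) * ((b : F))⁻¹ = w
    rw [← h]; field_simp
  · apply Subtype.ext
    show (a : F) * ((b : F))⁻¹ * (b : F) = (a : F)
    field_simp

/-- **auxiliary level `2`.** -/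
theorem cert_red_two {jO : R.O} (J : JTransfer R jO) (h2 : (2 : k) ≠ 0) {h : F}
    (hR : (jO : F) * h ^ 2 = (h + 256) ^ 3) (V : Submodule K F)
    (hV : ∀ u ∈ V, IsIntegral (Algebra.adjoin K {(jO : F)}) (u ^ 6 * (h + 64) ^ 3) ∧
      ∃ (w : F) (n : ℕ), IsIntegral (Algebra.adjoin K {((jO : F))⁻¹}) (w ^ n * (jO : F)) ∧
        w * (jO : F) * (h - 512) = -(u * h * ((jO : F) - 1728) * (h + 256))) :
    ∃ hO : R.O, (hO : F) = h ∧ Transcendental k (R.ρ hO) ∧
      R.ρ jO * R.ρ hO ^ 2 = (R.ρ hO + 256) ^ 3 ∧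
      ∀ u ∈ R.redSub V, u ≠ 0 → ∀ P : Place k Fb, CondT P (R.ρ hO) u := by
  have h256 : (256 : Fb) ≠ 0 := by
    have e : (256 : Fb) = algebraMap k Fb (2 ^ 8) := by rw [map_pow, map_ofNat]; norm_num
    rw [e]
    exact (map_ne_zero _).mpr (pow_ne_zero 8 h2)
  -- `h ∈ O`
  have hmem : h ∈ R.O := by
    rcases R.O.mem_or_inv_mem h with hm | hm
    · exact hm
    by_cases h0 : h = 0
    · rw [h0]; exact R.O.zero_mem
    by_cases hx : R.ρ ⟨h⁻¹, hm⟩ = 0
    · exfalso
      have e : jO * (⟨h⁻¹, hm⟩ : R.O) = (1 + 256 * ⟨h⁻¹, hm⟩) ^ 3 := by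
        apply Subtype.ext
        show (jO : F) * h⁻¹ = (1 + 256 * h⁻¹) ^ 3
        field_simp
        linear_combination hR
      have e2 := congrArg R.ρ e
      rw [map_mul, map_pow, map_add, map_mul, hx] at e2
      simp at e2
    · have := R.inv_mem hx
      simpa using this
  refine ⟨⟨h, hmem⟩, rfl, ?_⟩
  set hO : R.O := ⟨h, hmem⟩ with hhO
  have hRO : jO * hO ^ 2 = (hO + 256) ^ 3 := Subtype.ext hR
  have hRb : R.ρ jO * R.ρ hO ^ 2 = (R.ρ hO + 256) ^ 3 := by
    have := congrArg R.ρ hRO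
    simpa only [map_mul, map_pow, map_add, map_ofNat] using this
  have hb0 : R.ρ hO ≠ 0 := by
    intro h0
    rw [h0] at hRb
    simp only [ne_eq, OfNat.ofNat_ne_zero, not_false_eq_true, zero_pow, mul_zero, zero_add] at hRb
    exact pow_ne_zero 3 h256 hRb.symm
  have htr : Transcendental k (R.ρ hO) := by
    intro halg
    apply J.tr
    have e : R.ρ jO = (R.ρ hO + algebraMap k Fb 256) ^ 3 * (R.ρ hO ^ 2)⁻¹ := by
      rw [map_ofNat, ← hRb]
      field_simp
    rw [e]
    exact ((halg.add (isAlgebraic_algebraMap _)).pow 3).mul (halg.pow 2).inv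
  refine ⟨htr, hRb, ?_⟩
  rintro ub ⟨uO, huV, rfl⟩ hub P
  obtain ⟨hy, w, n, hw, huw⟩ := hV _ huV
  have hj0 : R.ρ jO ≠ 0 := by
    have := transcendental_ne_const J.tr 0
    simpa using this
  have hc0 : R.ρ (hO - 512) ≠ 0 := by
    have := transcendental_ne_const htr 512
    rw [map_ofNat] at this
    rw [map_sub, map_ofNat, sub_ne_zero]
    exact this
  obtain ⟨wO, hwO, hwrel⟩ := mem_O_of_div (R := R) (a := -(uO * hO * (jO - 1728) * (hO + 256)))
    (b := jO * (hO - 512)) (by rw [map_mul]; exact mul_ne_zero hj0 hc0) (w := w)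
    (by
      show w * ((jO : F) * (h - 512)) = -((uO : F) * h * ((jO : F) - 1728) * (h + 256))
      rw [← mul_assoc]; exact huw)
  subst hwO
  refine condT_two P h2 hub hRb (w := R.ρ wO) (n := n) ?_ ?_ ?_
  · have := J.fin (uO ^ 6 * (hO + 64) ^ 3) hy
    simpa only [map_mul, map_pow, map_add, map_ofNat] using this
  · have := J.inf (wO ^ n * jO) hw
    simpa only [map_mul, map_pow] using this
  · have := congrArg R.ρ hwrel
    simp only [map_mul, map_neg, map_sub, map_add, map_ofNat] at this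
    rw [← mul_assoc] at this
    exact this

theorem transcendental_quadratic_ne {x : Fb} (hx : Transcendental k x) (a b : k) :
    x * (x - algebraMap k Fb a) - algebraMap k Fb b ≠ 0 := by
  intro h0
  have hm : (Polynomial.X ^ (1 + 1) - (Polynomial.C a * Polynomial.X + Polynomial.C b) :
      Polynomial k).Monic := Polynomial.monic_X_pow_sub
        (lt_of_le_of_lt Polynomial.degree_linear_le (by norm_num))
  apply hm.ne_zero
  apply transcendental_iff.mp hx
  simp only [map_sub, map_pow, Polynomial.aeval_X, map_add, map_mul, Polynomial.aeval_C]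
  linear_combination h0

/-- **auxiliary level `3`.** -/
theorem cert_red_three {jO : R.O} (J : JTransfer R jO) (h3 : (3 : k) ≠ 0) {h : F}
    (hR : (jO : F) * h ^ 3 = (h + 27) * (h + 243) ^ 3) (V : Submodule K F)
    (hV : ∀ u ∈ V, IsIntegral (Algebra.adjoin K {(jO : F)}) (u ^ 6 * (h + 27) ^ 4) ∧
      ∃ (w : F) (n : ℕ), IsIntegral (Algebra.adjoin K {((jO : F))⁻¹}) (w ^ n * (jO : F)) ∧
        w * (jO : F) * (h * (h - 486) - 19683) =
          -(u * h * ((jO : F) - 1728) * ((h + 27) * (h + 243)))) :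
    ∃ hO : R.O, (hO : F) = h ∧ Transcendental k (R.ρ hO) ∧
      R.ρ jO * R.ρ hO ^ 3 = (R.ρ hO + 27) * (R.ρ hO + 243) ^ 3 ∧
      ∀ u ∈ R.redSub V, u ≠ 0 → ∀ P : Place k Fb, CondT P (R.ρ hO) u := by
  have h27 : (27 : Fb) ≠ 0 := by
    have e : (27 : Fb) = algebraMap k Fb (3 ^ 3) := by rw [map_pow, map_ofNat]; norm_num
    rw [e]
    exact (map_ne_zero _).mpr (pow_ne_zero 3 h3)
  have h243 : (243 : Fb) ≠ 0 := by
    have e : (243 : Fb) = algebraMap k Fb (3 ^ 5) := by rw [map_pow, map_ofNat]; norm_num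
    rw [e]
    exact (map_ne_zero _).mpr (pow_ne_zero 5 h3)
  -- `h ∈ O`
  have hmem : h ∈ R.O := by
    rcases R.O.mem_or_inv_mem h with hm | hm
    · exact hm
    by_cases h0 : h = 0
    · rw [h0]; exact R.O.zero_mem
    by_cases hx : R.ρ ⟨h⁻¹, hm⟩ = 0
    · exfalso
      have e : jO * (⟨h⁻¹, hm⟩ : R.O) =
          (1 + 27 * ⟨h⁻¹, hm⟩) * (1 + 243 * ⟨h⁻¹, hm⟩) ^ 3 := by
        apply Subtype.ext
        show (jO : F) * h⁻¹ = (1 + 27 * h⁻¹) * (1 + 243 * h⁻¹) ^ 3
        field_simp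
        linear_combination hR
      have e2 := congrArg R.ρ e
      rw [map_mul, map_mul, map_pow, map_add, map_add, map_mul, map_mul, hx] at e2
      simp at e2
    · have := R.inv_mem hx
      simpa using this
  refine ⟨⟨h, hmem⟩, rfl, ?_⟩
  set hO : R.O := ⟨h, hmem⟩ with hhO
  have hRO : jO * hO ^ 3 = (hO + 27) * (hO + 243) ^ 3 := Subtype.ext hR
  have hRb : R.ρ jO * R.ρ hO ^ 3 = (R.ρ hO + 27) * (R.ρ hO + 243) ^ 3 := by
    have := congrArg R.ρ hRO
    simpa only [map_mul, map_pow, map_add, map_ofNat] using this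
  have hb0 : R.ρ hO ≠ 0 := by
    intro h0
    rw [h0] at hRb
    simp only [ne_eq, OfNat.ofNat_ne_zero, not_false_eq_true, zero_pow, mul_zero, zero_add] at hRb
    exact mul_ne_zero h27 (pow_ne_zero 3 h243) hRb.symm
  have htr : Transcendental k (R.ρ hO) := by
    intro halg
    apply J.tr
    have e : R.ρ jO = (R.ρ hO + algebraMap k Fb 27) * (R.ρ hO + algebraMap k Fb 243) ^ 3 *
        (R.ρ hO ^ 3)⁻¹ := by
      rw [map_ofNat, map_ofNat, ← hRb]
      field_simp
    rw [e]
    exact ((halg.add (isAlgebraic_algebraMap _)).mul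
      ((halg.add (isAlgebraic_algebraMap _)).pow 3)).mul (halg.pow 3).inv
  refine ⟨htr, hRb, ?_⟩
  rintro ub ⟨uO, huV, rfl⟩ hub P
  obtain ⟨hy, w, n, hw, huw⟩ := hV _ huV
  have hj0 : R.ρ jO ≠ 0 := by
    have := transcendental_ne_const J.tr 0
    simpa using this
  have hc0 : R.ρ (hO * (hO - 486) - 19683) ≠ 0 := by
    have := transcendental_quadratic_ne htr 486 19683
    rw [map_ofNat, map_ofNat] at this
    rw [map_sub, map_mul, map_sub, map_ofNat, map_ofNat]
    exact this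
  obtain ⟨wO, hwO, hwrel⟩ := mem_O_of_div (R := R)
    (a := -(uO * hO * (jO - 1728) * ((hO + 27) * (hO + 243))))
    (b := jO * (hO * (hO - 486) - 19683)) (by rw [map_mul]; exact mul_ne_zero hj0 hc0) (w := w)
    (by
      show w * ((jO : F) * (h * (h - 486) - 19683)) =
        -((uO : F) * h * ((jO : F) - 1728) * ((h + 27) * (h + 243)))
      rw [← mul_assoc]; exact huw)
  subst hwO
  refine condT_three P h3 hub hRb (w := R.ρ wO) (n := n) ?_ ?_ ?_
  · have := J.fin (uO ^ 6 * (hO + 27) ^ 4) hy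
    simpa only [map_mul, map_pow, map_add, map_ofNat] using this
  · have := J.inf (wO ^ n * jO) hw
    simpa only [map_mul, map_pow] using this
  · have := congrArg R.ρ hwrel
    simp only [map_mul, map_neg, map_sub, map_add, map_ofNat] at this
    rw [← mul_assoc] at this
    exact this

/-- **level `1`.** -/
theorem cert_red_one {jO : R.O} (J : JTransfer R jO) (h1728 : (1728 : k) ≠ 0) (V : Submodule K F)
    (hV : ∀ u ∈ V,
      IsIntegral (Algebra.adjoin K {(jO : F)}) (u ^ 6 * ((jO : F) ^ 4 * ((jO : F) - 1728) ^ 3)) ∧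
      ∃ (w : F) (n : ℕ), IsIntegral (Algebra.adjoin K {((jO : F))⁻¹}) (w ^ n * (jO : F)) ∧
        w * (jO : F) = -(u * (jO : F) * ((jO : F) - 1728))) :
    ∀ u ∈ R.redSub V, u ≠ 0 → ∀ P : Place k Fb, CondT P (R.ρ jO) u := by
  rintro ub ⟨uO, huV, rfl⟩ hub P
  obtain ⟨hy, w, n, hw, huw⟩ := hV _ huV
  have hj0 : R.ρ jO ≠ 0 := by
    have := transcendental_ne_const J.tr 0
    simpa using this
  obtain ⟨wO, hwO, hwrel⟩ := mem_O_of_div (R := R) (a := -(uO * jO * (jO - 1728)))
    (b := jO) hj0 (w := w) huw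
  subst hwO
  refine condT_one P h1728 hub (w := R.ρ wO) (n := n) ?_ ?_ ?_
  · have := J.fin (uO ^ 6 * (jO ^ 4 * (jO - 1728) ^ 3)) hy
    simpa only [map_mul, map_pow, map_sub, map_ofNat] using this
  · have := J.inf (wO ^ n * jO) hw
    simpa only [map_mul, map_pow] using this
  · have := congrArg R.ρ hwrel
    simpa only [map_mul, map_neg, map_sub, map_ofNat] using this

end FA18
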