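import Fermat.Agent.Red.G2Deg

/-! S18 / G2 (L'): integrality over `K[x]` survives reduction, when `(deg)` holds at `x`. -/

namespace FA18

open Module IntermediateField Polynomial

variable {K F k Fb : Type*} [Field K] [Field F] [Algebra K F] [Field k] [Field Fb] [Algebra k Fb]
variable {A : ValuationSubring K} {O : ValuationSubring F} {π : A →+* k} {ρ : O →+* Fb}

theorem ext0_aeval_mem_adjoin (hB : RedBase A O π ρ) {x : F} (hx : x ∈ O)
    (ht : Transcendental k (ext0 O ρ x)) (q : K[X]) (h : aeval x q ∈ O) :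
    ext0 O ρ (aeval x q) ∈ Algebra.adjoin k {ext0 O ρ x} := by
  have h1 : LinearIndependent k fun j : ℕ => ext0 O ρ (x ^ j) := by
    simp only [ext0_pow ρ hx]
    exact linearIndependent_pow_of_transcendental ht
  rw [aeval_eq_linComb] at h ⊢
  have hA := hB.coeff_mem_of_linComb_mem (fun j : ℕ => pow_mem hx j) h1 h
  rw [hB.ext0_linComb (fun j : ℕ => pow_mem hx j) hA, Finsupp.linearCombination_apply, Finsupp.sum]
  refine Subalgebra.sum_mem _ fun j _ => Subalgebra.smul_mem _ ?_ _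
  rw [ext0_pow ρ hx]
  exact pow_mem (Algebra.self_mem_adjoin_singleton _ _) _

/-- the Gauss valuation ring of `K(x)` reduces into `k(ρ x)` -/
theorem ext0_mem_adjoin (hB : RedBase A O π ρ) {x : F} (hx : x ∈ O)
    (ht : Transcendental k (ext0 O ρ x)) {r : F} (hr : r ∈ K⟮x⟯) (hrO : r ∈ O) :
    ext0 O ρ r ∈ k⟮ext0 O ρ x⟯ := by
  obtain ⟨p, s, rfl⟩ := (IntermediateField.mem_adjoin_simple_iff K r).1 hr
  by_cases hs : aeval x s = 0
  · rw [hs, div_zero, ext0_zero]; exact zero_mem _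
  by_cases hp : p = 0
  · rw [hp, map_zero, zero_div, ext0_zero]; exact zero_mem _
  have hs0 : s ≠ 0 := by rintro rfl; simp at hs
  obtain ⟨c1, hc1, hu1⟩ := hB.exists_scale_aeval hx ht hp
  obtain ⟨c2, hc2, hu2⟩ := hB.exists_scale_aeval hx ht hs0
  set P : F := c1 • aeval x p with hP
  set S : F := c2 • aeval x s with hS
  have hPO : P ∈ O := mem_of_ext0_ne_zero _ hu1
  have hSO : S ∈ O := mem_of_ext0_ne_zero _ hu2
  have hPO' : P⁻¹ ∈ O := inv_mem_of_ext0_ne_zero ρ hB.rho_surj hu1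
  have hSO' : S⁻¹ ∈ O := inv_mem_of_ext0_ne_zero ρ hB.rho_surj hu2
  have hP0 : P ≠ 0 := by intro h; rw [h] at hu1; exact hu1 (ext0_zero ρ)
  have hS0 : S ≠ 0 := by intro h; rw [h] at hu2; exact hu2 (ext0_zero ρ)
  have hc1' : algebraMap K F c1 ≠ 0 := by simpa using hc1
  have hc2' : algebraMap K F c2 ≠ 0 := by simpa using hc2
  have hp0 : aeval x p ≠ 0 := by
    intro h; rw [hP, h, smul_zero] at hP0; exact hP0 rfl
  have e1 : aeval x p / aeval x s = (c2 / c1) • (P * S⁻¹) := by
    rw [hP, hS, Algebra.smul_def, Algebra.smul_def, Algebra.smul_def, map_div₀]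
    field_simp
  have e2 : algebraMap K F (c2 / c1) = (aeval x p / aeval x s) * (S * P⁻¹) := by
    rw [hP, hS, Algebra.smul_def, Algebra.smul_def, map_div₀]
    field_simp
  have ha : c2 / c1 ∈ A := by
    rw [← hB.mem_iff, e2]
    exact O.mul_mem _ _ hrO (O.mul_mem _ _ hSO hPO')
  rw [e1, hB.ext0_smul ha (O.mul_mem _ _ hPO hSO'), ext0_mul ρ hPO hSO', ext0_inv ρ hS0 hSO hSO']
  have hmemP : ext0 O ρ P ∈ k⟮ext0 O ρ x⟯ := by
    apply IntermediateField.algebra_adjoin_le_adjoin
    have : P = aeval x (c1 • p) := by rw [hP, map_smul]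
    rw [this] at hPO ⊢
    exact ext0_aeval_mem_adjoin hB hx ht _ hPO
  have hmemS : ext0 O ρ S ∈ k⟮ext0 O ρ x⟯ := by
    apply IntermediateField.algebra_adjoin_le_adjoin
    have : S = aeval x (c2 • s) := by rw [hS, map_smul]
    rw [this] at hSO ⊢
    exact ext0_aeval_mem_adjoin hB hx ht _ hSO
  exact IntermediateField.smul_mem _ (mul_mem hmemP (inv_mem hmemS))

/-- orthonormality over `K(x)` -/
theorem coeff_mem_of_sum_mem (hB : RedBase A O π ρ) {x : F} (hx : x ∈ O)
    (ht : Transcendental k (ext0 O ρ x)) {n : ℕ} {b : Fin n → F} (hbO : ∀ i, b i ∈ O)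
    (hbli : LinearIndependent k⟮ext0 O ρ x⟯ fun i => ext0 O ρ (b i)) (r : Fin n → K⟮x⟯)
    (h : ∑ i, r i • b i ∈ O) (i : Fin n) : (r i : F) ∈ O := by
  classical
  by_contra hi1
  obtain ⟨i0, -, hmax⟩ := Finset.exists_max_image Finset.univ
    (fun i => O.valuation (r i : F)) ⟨i, Finset.mem_univ _⟩
  have h0 : (r i0 : F) ≠ 0 := by
    intro h0
    have := hmax i (Finset.mem_univ _)
    simp only [h0, map_zero, le_zero_iff, map_eq_zero] at this
    rw [this] at hi1
    exact hi1 O.zero_mem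
  have hr' : ∀ j, ((r i0)⁻¹ * r j : K⟮x⟯).1 ∈ O := by
    intro j
    rw [← ValuationSubring.valuation_le_one_iff]
    push_cast
    rw [map_mul, map_inv₀]
    have hv : O.valuation (r i0 : F) ≠ 0 := (Valuation.ne_zero_iff _).2 h0
    rw [inv_mul_le_iff₀ (zero_lt_iff.2 hv), mul_one]
    exact hmax j (Finset.mem_univ _)
  set z : F := ∑ j, ((r i0)⁻¹ * r j) • b j with hz
  have hzO : z ∈ O := sum_mem fun j _ => by
    rw [IntermediateField.smul_def, smul_eq_mul]; exact O.mul_mem _ _ (hr' j) (hbO j)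
  have hzr : ∑ j, r j • b j = (r i0 : F) * z := by
    rw [hz, Finset.mul_sum]
    refine Finset.sum_congr rfl fun j _ => ?_
    rw [IntermediateField.smul_def, IntermediateField.smul_def, smul_eq_mul, smul_eq_mul]
    push_cast
    field_simp
  have hzne : ext0 O ρ z ≠ 0 := by
    intro hz0
    rw [hz, ext0_sum ρ _ _ fun j _ => by
      rw [IntermediateField.smul_def, smul_eq_mul]; exact O.mul_mem _ _ (hr' j) (hbO j)] at hz0
    have hz1 : ∑ j, (⟨ext0 O ρ ((r i0)⁻¹ * r j : K⟮x⟯).1,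
        ext0_mem_adjoin hB hx ht ((r i0)⁻¹ * r j : K⟮x⟯).2 (hr' j)⟩ : k⟮ext0 O ρ x⟯) •
        ext0 O ρ (b j) = 0 := by
      rw [← hz0]
      refine Finset.sum_congr rfl fun j _ => ?_
      rw [IntermediateField.smul_def, IntermediateField.smul_def, smul_eq_mul, smul_eq_mul,
        ext0_mul ρ (hr' j) (hbO j)]
    have h2 := Fintype.linearIndependent_iff.1 hbli _ hz1 i0
    have h3 := congrArg Subtype.val h2
    have h4 : ((r i0)⁻¹ * r i0 : K⟮x⟯).1 = 1 := by
      push_cast
      exact inv_mul_cancel₀ h0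
    simp only [h4, ext0_one] at h3
    exact one_ne_zero h3
  have hzinv := inv_mem_of_ext0_ne_zero ρ hB.rho_surj hzne
  have hz0 : z ≠ 0 := by intro h; rw [h] at hzne; exact hzne (ext0_zero ρ)
  have hri0 : (r i0 : F) ∈ O := by
    have : (r i0 : F) = (∑ j, r j • b j) * z⁻¹ := by
      rw [hzr, mul_assoc, mul_inv_cancel₀ hz0, mul_one]
    rw [this]; exact O.mul_mem _ _ h hzinv
  apply hi1
  rw [← ValuationSubring.valuation_le_one_iff] at hri0 ⊢
  exact le_trans (hmax i (Finset.mem_univ _)) hri0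

theorem minpoly_coeff_mem_range {R L E : Type*} [CommRing R] [IsDomain R] [IsIntegrallyClosed R]
    [Field L] [Algebra R L] [IsFractionRing R L] [Field E] [Algebra L E] [Algebra R E]
    [IsScalarTower R L E] {y : E} (hy : IsIntegral R y) (i : ℕ) :
    (minpoly L y).coeff i ∈ Set.range (algebraMap R L) := by
  rw [minpoly.isIntegrallyClosed_eq_field_fractions' L hy, Polynomial.coeff_map]
  exact ⟨_, rfl⟩

theorem isIntegrallyClosed_adjoin_of_transcendental {K E : Type*} [Field K] [Field E] [Algebra K E]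
    {x : E} (hx : Transcendental K x) : IsIntegrallyClosed (Algebra.adjoin K {x}) := by
  set g : Algebra.adjoin K {x} := ⟨x, Algebra.self_mem_adjoin_singleton K x⟩ with hg
  have hval : ∀ p : K[X], ((aeval g p : Algebra.adjoin K {x}) : E) = aeval x p := by
    intro p
    exact (Subalgebra.aeval_coe _ g p).symm
  have hbij : Function.Bijective (aeval g : K[X] →ₐ[K] Algebra.adjoin K {x}) := by
    constructor
    · intro p q hpq
      apply transcendental_iff_injective.1 hx
      rw [← hval, ← hval, hpq]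
    · rintro ⟨a, ha⟩
      have ha' := ha
      rw [Algebra.adjoin_singleton_eq_range_aeval] at ha'
      obtain ⟨p, hp⟩ := ha'
      exact ⟨p, Subtype.ext ((hval p).trans hp)⟩
  exact IsIntegrallyClosed.of_equiv (RingEquiv.ofBijective (aeval g : K[X] →ₐ[K] _) hbij)

open scoped IntermediateField.algebraAdjoinAdjoin in
/-- (L') -/
theorem isIntegral_ext0 (hB : RedBase A O π ρ) {x : F} (h0 : HasDeg K k ρ x) {y : F} (hy : y ∈ O)
    (hint : IsIntegral (Algebra.adjoin K {x}) y) :
    IsIntegral (Algebra.adjoin k {ext0 O ρ x}) (ext0 O ρ y) := by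
  obtain ⟨n, b, hbO, hbli⟩ := exists_orthonormal_basis hB h0
  obtain ⟨hx, ht, hfd, hdeg⟩ := h0
  have htK := transcendental_of_ext0 hB hx ht
  set OG : ValuationSubring K⟮x⟯ := O.comap (algebraMap K⟮x⟯ F) with hOG
  have hint2 : IsIntegral OG y := by
    set N : Submodule OG F := Submodule.span OG (Set.range b) with hN
    have hNO : ∀ z, z ∈ N → z ∈ O := by
      intro z hz
      induction hz using Submodule.span_induction with
      | mem z hz => obtain ⟨i, rfl⟩ := hz; exact hbO i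
      | zero => exact O.zero_mem
      | add y z _ _ hy hz => exact O.add_mem _ _ hy hz
      | smul a y _ hy => exact O.mul_mem _ _ a.2 hy
    have hON : ∀ z, z ∈ O → z ∈ N := by
      intro z hz
      have hsum := b.sum_repr z
      have hcoef := coeff_mem_of_sum_mem hB hx ht hbO hbli (fun i => b.repr z i)
        (by rw [hsum]; exact hz)
      rw [← hsum]
      refine sum_mem fun i _ => ?_
      have : (b.repr z i) • b i = (⟨b.repr z i, hcoef i⟩ : OG) • b i := rfl
      rw [this]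
      exact Submodule.smul_mem _ _ (Submodule.subset_span ⟨i, rfl⟩)
    refine isIntegral_of_smul_mem_submodule N ?_ (Submodule.fg_span (Set.finite_range b)) y ?_
    · intro hbot
      have h1 : (1 : F) ∈ N := hON 1 O.one_mem
      rw [hbot, Submodule.mem_bot] at h1
      exact one_ne_zero h1
    · intro z hz
      exact hON _ (O.mul_mem _ _ hy (hNO z hz))
  have _ := isIntegrallyClosed_adjoin_of_transcendental htK
  set μ := minpoly K⟮x⟯ y with hμ
  have hc1 : ∀ i, (μ.coeff i : F) ∈ O := by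
    intro i
    obtain ⟨a, ha⟩ := minpoly_coeff_mem_range (L := K⟮x⟯) hint2 i
    rw [← ha]; exact a.2
  have hc2 : ∀ i, ∃ p : K[X], (μ.coeff i : F) = aeval x p := by
    intro i
    obtain ⟨a, ha⟩ := minpoly_coeff_mem_range (L := K⟮x⟯) hint i
    obtain ⟨a, ha2⟩ := a
    have ha3 := ha2
    rw [Algebra.adjoin_singleton_eq_range_aeval] at ha3
    obtain ⟨p, hp⟩ := ha3
    refine ⟨p, ?_⟩
    rw [← ha]
    exact hp.symm
  have hc3 : ∀ i, ext0 O ρ (μ.coeff i : F) ∈ Algebra.adjoin k {ext0 O ρ x} := by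
    intro i
    obtain ⟨p, hp⟩ := hc2 i
    have := hc1 i
    rw [hp] at this ⊢
    exact ext0_aeval_mem_adjoin hB hx ht p this
  have hyint : IsIntegral K⟮x⟯ y := IsIntegral.of_finite _ _
  have hmonic : μ.Monic := minpoly.monic hyint
  set d := μ.natDegree with hd
  have hroot : y ^ d + ∑ i : Fin d, (μ.coeff i : F) * y ^ (i : ℕ) = 0 := by
    have h1 : aeval y μ = 0 := minpoly.aeval _ _
    rw [hmonic.as_sum, map_add, map_pow, aeval_X, map_sum, ← Fin.sum_univ_eq_sum_range
      (fun i => aeval y (C (μ.coeff i) * X ^ i))] at h1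
    rw [← h1]
    congr 1
    refine Finset.sum_congr rfl fun i _ => ?_
    rw [map_mul, aeval_C, map_pow, aeval_X]
    rfl
  have hroot2 : ext0 O ρ y ^ d + ∑ i : Fin d, ext0 O ρ (μ.coeff i : F) * ext0 O ρ y ^ (i : ℕ) = 0 := by
    have h1 := congrArg (ext0 O ρ) hroot
    have hmem : ∀ i : Fin d, (μ.coeff i : F) * y ^ (i : ℕ) ∈ O :=
      fun i => O.mul_mem _ _ (hc1 i) (pow_mem hy _)
    rw [ext0_zero, ext0_add ρ (pow_mem hy d) (sum_mem fun i _ => hmem i), ext0_pow ρ hy,
      ext0_sum ρ _ _ (fun i _ => hmem i)] at h1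
    rw [← h1]
    congr 1
    refine Finset.sum_congr rfl fun i _ => ?_
    rw [ext0_mul ρ (hc1 i) (pow_mem hy _), ext0_pow ρ hy]
  refine ⟨X ^ d + ∑ i : Fin d, C (⟨ext0 O ρ (μ.coeff i : F), hc3 i⟩ :
    Algebra.adjoin k {ext0 O ρ x}) * X ^ (i : ℕ), ?_, ?_⟩
  · exact monic_X_pow_add (degree_sum_fin_lt _)
  · rw [← hroot2]
    simp [eval₂_finsetSum]

theorem adjoin_simple_inv_eq (K : Type*) {E : Type*} [Field K] [Field E] [Algebra K E] (x : E) :
    K⟮x⁻¹⟯ = K⟮x⟯ := by
  apply le_antisymm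
  · rw [IntermediateField.adjoin_simple_le_iff]
    exact inv_mem (IntermediateField.mem_adjoin_simple_self K x)
  · rw [IntermediateField.adjoin_simple_le_iff]
    have := inv_mem (IntermediateField.mem_adjoin_simple_self K x⁻¹)
    rwa [inv_inv] at this

/-- `(deg)` at `x` implies `(deg)` at `x⁻¹`. -/
theorem HasDeg.inv (hB : RedBase A O π ρ) {x : F} (h0 : HasDeg K k ρ x) : HasDeg K k ρ x⁻¹ := by
  obtain ⟨hx, ht, hfd, hdeg⟩ := h0
  have hne : ext0 O ρ x ≠ 0 := by
    intro h; rw [h] at ht; exact ht (isAlgebraic_zero)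
  have hx0 : x ≠ 0 := by
    intro h; rw [h] at hne; exact hne (ext0_zero ρ)
  have hinv := inv_mem_of_ext0_ne_zero ρ hB.rho_surj hne
  have he : ext0 O ρ x⁻¹ = (ext0 O ρ x)⁻¹ := ext0_inv ρ hx0 hx hinv
  refine ⟨hinv, ?_, ?_, ?_⟩
  · rw [he]
    intro h
    exact ht (IsAlgebraic.inv_iff.1 h)
  · rw [adjoin_simple_inv_eq]; exact hfd
  · rw [he, adjoin_simple_inv_eq, adjoin_simple_inv_eq]; exact hdeg

end FA18
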