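import Fermat.Agent.Red.G2Glue
import Fermat.Agent.Red.G2Int
import Fermat.Agent.Red.CertRed

/-! S18 / G2 (L') for `RedData`, and helper1's `JTransfer`. -/

namespace FA18

open Module IntermediateField

namespace RedData

variable {K k : Type*} [Field K] [Field k] {A : ValuationSubring K} {π : A →+* k}
  {F Fb : Type*} [Field F] [Algebra K F] [Field Fb] [Algebra k Fb] (R : RedData A π F Fb)

/-- (L') at `x`. -/
theorem isIntegral_ρ (hF : FA24.IsFF K F) (x : R.O) (hx : Transcendental k (R.ρ x))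
    (hd : finrank K⟮(x : F)⟯ F ≤ finrank k⟮R.ρ x⟯ Fb) (y : R.O)
    (hy : IsIntegral (Algebra.adjoin K {(x : F)}) (y : F)) :
    IsIntegral (Algebra.adjoin k {R.ρ x}) (R.ρ y) := by
  have h := isIntegral_ext0 R.toRedBase (R.hasDeg_of hF x hx hd) y.2 hy
  rwa [ext0_coe, ext0_coe] at h

/-- (L') at `x⁻¹`. -/
theorem isIntegral_ρ_inv (hF : FA24.IsFF K F) (x : R.O) (hx : Transcendental k (R.ρ x))
    (hd : finrank K⟮(x : F)⟯ F ≤ finrank k⟮R.ρ x⟯ Fb) (y : R.O)
    (hy : IsIntegral (Algebra.adjoin K {((x : F))⁻¹}) (y : F)) :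
    IsIntegral (Algebra.adjoin k {(R.ρ x)⁻¹}) (R.ρ y) := by
  have h0 := R.hasDeg_of hF x hx hd
  have h := isIntegral_ext0 R.toRedBase (HasDeg.inv R.toRedBase h0) y.2 hy
  have hne : R.ρ x ≠ 0 := by
    intro h; rw [h] at hx; exact hx isAlgebraic_zero
  have he : ext0 R.O R.ρ ((x : F))⁻¹ = (R.ρ x)⁻¹ := by
    rw [ext0_of_mem _ (R.inv_mem hne)]
    exact R.ρ_inv hne
  rwa [he, ext0_coe] at h

theorem jTransfer (hF : FA24.IsFF K F) (jO : R.O) (hx : Transcendental k (R.ρ jO))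
    (hd : finrank K⟮(jO : F)⟯ F ≤ finrank k⟮R.ρ jO⟯ Fb) : JTransfer R jO where
  tr := hx
  fin := R.isIntegral_ρ hF jO hx hd
  inf := R.isIntegral_ρ_inv hF jO hx hd

end RedData

end FA18
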