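import Fermat.Agent.Red.RIndep

/-!
# S18-G1 (b): valuation rings of a function field are discrete; existence of places
(any characteristic, `K` algebraically closed)
-/

set_option autoImplicit false

namespace FAR

open AlgebraicCurve IntermediateField Polynomial FA24

variable {K F : Type*} [Field K] [Field F] [Algebra K F]

section Val

variable (B : ValuationSubring F) (hK : ∀ a : K, algebraMap K F a ∈ B)

include hK in
theorem val_algebraMap {a : K} (ha : a ≠ 0) : B.valuation (algebraMap K F a) = 1 := by
  have h1 : B.valuation (algebraMap K F a) ≤ 1 := (B.valuation_le_one_iff _).2 (hK a)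
  have h2 : B.valuation (algebraMap K F a⁻¹) ≤ 1 := (B.valuation_le_one_iff _).2 (hK a⁻¹)
  have h3 : B.valuation (algebraMap K F a) * B.valuation (algebraMap K F a⁻¹) = 1 := by
    rw [← map_mul, ← map_mul, mul_inv_cancel₀ ha, map_one, map_one]
  refine le_antisymm h1 ?_
  calc (1 : B.ValueGroup) = B.valuation (algebraMap K F a) * B.valuation (algebraMap K F a⁻¹) := h3.symm
    _ ≤ B.valuation (algebraMap K F a) * 1 := by gcongr
    _ = _ := mul_one _

include hK in
theorem val_aeval_le_one {x : F} (hx : x ∈ B) (p : K[X]) : B.valuation (aeval x p) ≤ 1 := by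
  rw [B.valuation_le_one_iff]
  let S : Subalgebra K F := { B.toSubring.toSubsemiring with algebraMap_mem' := hK }
  have h : Algebra.adjoin K {x} ≤ S := Algebra.adjoin_le (Set.singleton_subset_iff.2 hx)
  exact h (aeval_mem_adjoin_singleton K x)

include hK in
theorem val_aeval_le {x : F} (hx : x ∈ B) (p : K[X]) (hp : p.coeff 0 = 0) :
    B.valuation (aeval x p) ≤ B.valuation x := by
  have h1 : p = divX p * X := by
    conv_lhs => rw [← divX_mul_X_add p, hp, C_0, add_zero]
  rw [h1, map_mul, aeval_X, map_mul]
  calc B.valuation (aeval x (divX p)) * B.valuation x ≤ 1 * B.valuation x := by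
        gcongr
        exact val_aeval_le_one B hK hx _
    _ = _ := one_mul _

include hK in
theorem val_aeval_eq_one {x : F} (hx : B.valuation x < 1) (p : K[X]) (hp : p.coeff 0 ≠ 0) :
    B.valuation (aeval x p) = 1 := by
  have hxB : x ∈ B := (B.valuation_le_one_iff _).1 hx.le
  have h1 : aeval x p = algebraMap K F (p.coeff 0) + aeval x (divX p * X) := by
    conv_lhs => rw [← divX_mul_X_add p, map_add, aeval_C, add_comm]
  have h2 : B.valuation (aeval x (divX p * X)) < 1 :=
    (val_aeval_le B hK hxB _ (by simp)).trans_lt hx
  rw [h1, Valuation.map_add_eq_of_lt_left, val_algebraMap B hK hp]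
  rw [val_algebraMap B hK hp]
  exact h2

end Val

/-- Every valuation ring of `F/K` is a principal ideal ring (Stichtenoth 1.1.6). -/
theorem isPrincipalIdealRing_valuationSubring [IsAlgClosed K] (h : IsFF K F)
    (B : ValuationSubring F) (hK : ∀ a : K, algebraMap K F a ∈ B) : IsPrincipalIdealRing B := by
  classical
  have hwf : WfDvdMonoid B := by
    refine ⟨wellFounded_iff_isEmpty_descending_chain.2 ⟨?_⟩⟩
    rintro ⟨f, hf⟩
    set w := B.valuation with hw
    let z : ℕ → F := fun i => (f (i + 1) : F)
    have hz0 : ∀ i, z i ≠ 0 := by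
      intro i
      have := (hf i).1
      simpa [z] using this
    have hw0 : ∀ i, w (z i) ≠ 0 := fun i => (Valuation.ne_zero_iff _).2 (hz0 i)
    have hstep : ∀ i, w (z i) < w (z (i + 1)) := by
      intro i
      obtain ⟨-, t, ht, he⟩ := hf (i + 1)
      have h1 : z i = z (i + 1) * (t : F) := by
        have := congrArg (Subtype.val) he
        simpa [z] using this
      have h2 : w (t : F) < 1 := by
        rcases B.valuation_lt_one_or_eq_one t with h | h
        · exact h
        · exact absurd ((B.valuation_eq_one_iff t).2 h) ht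
      rw [h1, map_mul]
      exact mul_lt_of_lt_one_right (zero_lt_iff.2 (hw0 (i + 1))) h2
    have hmono : StrictMono fun i => w (z i) := strictMono_nat_of_lt_succ hstep
    have hlt1 : ∀ i, w (z i) < 1 := fun i =>
      (hstep i).trans_le (B.valuation_le_one (f (i + 1 + 1)))
    set x := z 0 with hx
    have hxK : x ∉ Set.range (algebraMap K F) := by
      rintro ⟨a, ha⟩
      have ha0 : a ≠ 0 := by
        rintro rfl
        exact hz0 0 (by rw [← hx, ← ha, map_zero])
      have := val_algebraMap B hK ha0
      rw [ha] at this
      exact (hlt1 0).ne this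
    have hxt : Transcendental K x := FAFF.transcendental_of_notMem_range hxK
    have hfin : FiniteDimensional K⟮x⟯ F := by
      obtain ⟨x0, -, hx0⟩ := h
      exact FAFF.finiteDimensional_adjoin_of_transcendental x0 x hxt
    have hxB : x ∈ B := (B.valuation_le_one_iff _).1 (hlt1 0).le
    set n := Module.finrank K⟮x⟯ F with hn
    have hcard := card_le_finrank_of_aeval_ne_zero (K := K) (ι := Fin (n + 1)) x (hz0 0)
      (fun i => z i) (by
        intro c hc hsum
        -- the largest index with nonzero constant term
        have hne : (Finset.univ.filter fun i : Fin (n + 1) => (c i).coeff 0 ≠ 0).Nonempty := by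
          obtain ⟨i, hi⟩ := hc
          exact ⟨i, by simp [hi]⟩
        set j := (Finset.univ.filter fun i : Fin (n + 1) => (c i).coeff 0 ≠ 0).max' hne with hj
        have hjmem := Finset.max'_mem _ hne
        rw [← hj] at hjmem
        have hj0 : (c j).coeff 0 ≠ 0 := by simpa using hjmem
        have hTj : w (aeval x (c j) * z j) = w (z j) := by
          rw [map_mul, val_aeval_eq_one B hK (hlt1 0) _ hj0, one_mul]
        have key := Valuation.map_sum_eq_of_lt w (s := Finset.univ)
          (f := fun i : Fin (n + 1) => aeval x (c i) * z i) (j := j) (Finset.mem_univ j) (by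
            intro i hi
            have hij : i ≠ j := by simpa using hi
            show w (aeval x (c i) * z i) < w (aeval x (c j) * z j)
            rw [hTj, map_mul]
            rcases lt_or_gt_of_ne hij with hlt | hgt
            · calc w (aeval x (c i)) * w (z i) ≤ 1 * w (z i) := by
                    gcongr
                    exact val_aeval_le_one B hK hxB _
                _ = w (z i) := one_mul _
                _ < w (z j) := hmono hlt
            · have hi0 : (c i).coeff 0 = 0 := by
                by_contra hne0
                have : i ≤ j := Finset.le_max' _ i (by simp [hne0])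
                exact absurd hgt (not_lt.2 this)
              calc w (aeval x (c i)) * w (z i) ≤ w x * w (z i) := by
                    gcongr
                    exact val_aeval_le B hK hxB _ hi0
                _ < w x := mul_lt_of_lt_one_right (zero_lt_iff.2 (hw0 0)) (hlt1 i)
                _ ≤ w (z j) := hmono.monotone (Nat.zero_le _))
        rw [hsum, map_zero, hTj] at key
        exact hw0 j key.symm)
    rw [Fintype.card_fin] at hcard
    omega
  exact ((IsBezout.TFAE (R := B)).out 3 1).1 hwf

/-- A valuation ring of `F/K` different from `F` is a place. -/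
noncomputable def placeOfValuationSubring [IsAlgClosed K] (h : IsFF K F)
    (B : ValuationSubring F) (hK : ∀ a : K, algebraMap K F a ∈ B) (hB : B ≠ ⊤) : Place K F :=
  ⟨B, hK, hB, isPrincipalIdealRing_valuationSubring h B hK⟩

/-- Every nonconstant function has a zero. -/
theorem exists_place_pos [IsAlgClosed K] (h : IsFF K F) (x : F) (hx : Transcendental K x) :
    ∃ v : Place K F, 0 < v.ord x := by
  have hx0 : x ≠ 0 := fun h0 => hx (h0 ▸ isAlgebraic_zero)
  let A : Subring F := (Algebra.adjoin K {x}).toSubring
  have hxA : x ∈ A := Algebra.self_mem_adjoin_singleton K x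
  let I : Ideal A := Ideal.span {⟨x, hxA⟩}
  have hI : I ≠ ⊤ := by
    intro htop
    rw [Ideal.span_singleton_eq_top] at htop
    obtain ⟨⟨b, hb⟩, hb1⟩ := isUnit_iff_exists_inv.1 htop
    have hb' : b ∈ Algebra.adjoin K {x} := hb
    rw [Algebra.adjoin_singleton_eq_range_aeval] at hb'
    obtain ⟨q, rfl⟩ := hb'
    have h1 : x * aeval x q = 1 := congrArg Subtype.val hb1
    have h2 : aeval x (X * q - 1) = 0 := by
      rw [map_sub, map_mul, aeval_X, map_one, h1, sub_self]
    have h3 := transcendental_iff.1 hx _ h2
    have h4 := congrArg (fun p => p.coeff 0) h3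
    simp at h4
  obtain ⟨B, hAB, hIB⟩ := Ideal.image_subset_nonunits_valuationSubring I hI
  have hK : ∀ a : K, algebraMap K F a ∈ B := fun a => hAB ((Algebra.adjoin K {x}).algebraMap_mem a)
  have hxlt : B.valuation x < 1 := by
    rw [← ValuationSubring.mem_nonunits_iff]
    exact hIB ⟨⟨x, hxA⟩, Ideal.mem_span_singleton_self _, rfl⟩
  have hinv : x⁻¹ ∉ B := by
    intro hmem
    have h1 := (B.valuation_le_one_iff _).2 hmem
    rw [map_inv₀] at h1
    have h2 : B.valuation x ≠ 0 := (Valuation.ne_zero_iff _).2 hx0
    have h3 : (1 : B.ValueGroup) = B.valuation x * (B.valuation x)⁻¹ := (mul_inv_cancel₀ h2).symm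
    have h4 : B.valuation x * (B.valuation x)⁻¹ ≤ B.valuation x * 1 := by gcongr
    rw [← h3, mul_one] at h4
    exact absurd hxlt (not_lt.2 h4)
  have hB : B ≠ ⊤ := fun htop => hinv (htop ▸ ValuationSubring.mem_top _)
  refine ⟨placeOfValuationSubring h B hK hB, ?_⟩
  set v := placeOfValuationSubring h B hK hB with hv
  have h1 : 0 ≤ v.ord x := (FAFF.mem_iff_ord_nonneg v hx0).1 ((B.valuation_le_one_iff _).1 hxlt.le)
  rcases h1.lt_or_eq with h2 | h2
  · exact h2
  · exfalso
    apply hinv
    have h3 : 0 ≤ v.ord x⁻¹ := by rw [v.ord_inv, ← h2]; simp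
    exact (FAFF.mem_iff_ord_nonneg v (inv_ne_zero hx0)).2 h3

/-- Every nonconstant function has a pole. -/
theorem exists_place_neg [IsAlgClosed K] (h : IsFF K F) (x : F) (hx : Transcendental K x) :
    ∃ v : Place K F, v.ord x < 0 := by
  obtain ⟨v, hv⟩ := exists_place_pos h x⁻¹ (transcendental_inv hx)
  exact ⟨v, by rw [v.ord_inv] at hv; omega⟩

/-- the residue field of a place is `K` (any characteristic). -/
theorem exists_const [IsAlgClosed K] (h : IsFF K F) (v : Place K F) (y : F) (hy : 0 ≤ v.ord y) :
    ∃ a : K, y = algebraMap K F a ∨ 0 < v.ord (y - algebraMap K F a) := by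
  obtain ⟨x, hx, hfin⟩ := h
  rcases eq_or_ne y 0 with rfl | hy0
  · exact ⟨0, Or.inl (by simp)⟩
  · exact FAFF.exists_const_sub x v ((FAFF.mem_iff_ord_nonneg v hy0).2 hy)

theorem place_deg [IsAlgClosed K] (h : IsFF K F) (v : Place K F) : v.deg = 1 := by
  have hsurj : Function.Surjective (algebraMap K v.ResidueField) := by
    intro r
    obtain ⟨y, rfl⟩ := IsLocalRing.residue_surjective r
    obtain ⟨x, hx, hfin⟩ := h
    obtain ⟨c, hc | hc⟩ := FAFF.exists_const_sub x v y.2
    · refine ⟨c, ?_⟩
      have : y = algebraMap K v.toValuationSubring c := Subtype.ext hc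
      rw [this]; rfl
    · refine ⟨c, ?_⟩
      have h1 : algebraMap K v.ResidueField c
          = IsLocalRing.residue _ (algebraMap K v.toValuationSubring c) := rfl
      rw [h1, eq_comm, ← sub_eq_zero, ← map_sub, IsLocalRing.residue_eq_zero_iff,
        IsLocalRing.mem_maximalIdeal, mem_nonunits_iff]
      intro hu
      have h2 := v.ord_coe_unit hu.unit
      rw [IsUnit.unit_spec] at h2
      have h3 : ((y - algebraMap K v.toValuationSubring c : v.toValuationSubring) : F)
          = (y : F) - algebraMap K F c := rfl
      rw [h3] at h2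
      omega
  have hbij : Function.Bijective (algebraMap K v.ResidueField) :=
    ⟨(algebraMap K v.ResidueField).injective, hsurj⟩
  show Module.finrank K v.ResidueField = 1
  rw [← Module.finrank_self K]
  exact ((AlgEquiv.ofBijective (Algebra.ofId K v.ResidueField) hbij).toLinearEquiv.finrank_eq).symm

theorem finDim_of_transcendental (h : IsFF K F) (y : F) (hy : Transcendental K y) :
    FiniteDimensional K⟮y⟯ F := by
  obtain ⟨x, -, hx⟩ := h
  exact FAFF.finiteDimensional_adjoin_of_transcendental x y hy

end FAR
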