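import Fermat.Agent.Red.Sep
import Fermat.Agent.Igusa.DefsA

/-!
# S18-SEP, application: subfields of `k((q))`
-/

set_option autoImplicit false

namespace FAR

open IntermediateField

variable {k : Type*} [Field k] [PerfectField k] (p : ℕ) [hp : Fact p.Prime] [hchar : CharP k p]

omit [PerfectField k] in
theorem thetaL_ne_zero_of_order {x : LaurentSeries k} (hx0 : x ≠ 0) (hx : (x.order : k) ≠ 0) :
    FAIg.thetaL x ≠ 0 := by
  intro h0
  have h1 := congrArg (fun y : LaurentSeries k => y.coeff x.order) h0
  simp only [FAIg.coeff_thetaL, HahnSeries.coeff_zero] at h1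
  rcases mul_eq_zero.1 h1 with h2 | h2
  · exact hx h2
  · exact hx0 (HahnSeries.coeff_order_eq_zero.1 h2)

include p hp hchar in
/-- a subfield `E` of `k((q))` is separable over `k(h)` as soon as `q dh/dq ≠ 0`. -/
theorem isSeparable_of_thetaL_ne_zero (E : IntermediateField k (LaurentSeries k)) (h : E)
    (hθ : FAIg.thetaL (h : LaurentSeries k) ≠ 0) [Algebra.IsAlgebraic k⟮h⟯ E] :
    Algebra.IsSeparable k⟮h⟯ E := by
  let T : LaurentSeries k → LaurentSeries k := fun x => FAIg.thetaL x
  have hadd : ∀ x y, T (x + y) = T x + T y := fun x y => map_add FAIg.thetaL x y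
  have hmul : ∀ x y, T (x * y) = x * T y + y * T x := fun x y => Derivation.leibniz _ x y
  have hconst : ∀ r : k, T (algebraMap k (LaurentSeries k) r) = 0 :=
    fun r => Derivation.map_algebraMap (FAIg.thetaL (R := k)) r
  have hone : T 1 = 0 := Derivation.map_one_eq_zero (FAIg.thetaL (R := k))
  have hT : T (h : LaurentSeries k) ≠ 0 := hθ
  clear_value T
  let inst : Module k (LaurentSeries k) := Algebra.toModule
  let D : Derivation k (LaurentSeries k) (LaurentSeries k) :=
    { toFun := T
      map_add' := hadd
      map_smul' := fun r x => by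
        rw [Algebra.smul_def, hmul, hconst, mul_zero, add_zero, RingHom.id_apply,
          Algebra.smul_def]
      map_one_eq_zero' := hone
      leibniz' := fun x y => hmul x y }
  have hθ' : D (E.val h) ≠ 0 := hT
  exact sep_algebra_isSeparable (L := LaurentSeries k) p E.val D h hθ'

include p hp hchar in
/-- a subfield `E` of `k((q))` is separable over `k(h)` if `h` has a simple pole at `q = 0`. -/
theorem isSeparable_of_order_eq_neg_one (E : IntermediateField k (LaurentSeries k)) (h : E)
    (hord : (h : LaurentSeries k).order = -1) [Algebra.IsAlgebraic k⟮h⟯ E] :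
    Algebra.IsSeparable k⟮h⟯ E := by
  refine isSeparable_of_thetaL_ne_zero p E h (thetaL_ne_zero_of_order ?_ ?_)
  · intro h0
    rw [h0, HahnSeries.order_zero] at hord
    omega
  · rw [hord]
    simp

end FAR
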