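import Fermat.Agent.Red.CertGlue
import Fermat.Agent.Red.G2J
import Fermat.Agent.Red.SepApp
import Fermat.Agent.Red.ModDefs
import Fermat.Agent.Red.M1a
import Fermat.Agent.Igusa.LemmaA
import Fermat.Agent.X0Genus.Degree
import Fermat.Agent.Red.RPlace

/-! S18: I3 from NS, M1 and CERT (assembly, relative to the statements of NS and M1). -/

set_option autoImplicit false

open AlgebraicCurve IntermediateField ModularCurve FA24

namespace FA18

/-- the residue characteristic -/
theorem charP_of_liesOver {ℓ : ℕ} [Fact ℓ.Prime] (A : ValuationSubring Kb) (hA : A.LiesOverPrime ℓ)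
    {k : Type} [Field k] (π : A →+* k) (hπ : Function.Surjective π) : CharP k ℓ := by
  have hmem : (ℓ : Kb) ∈ A := A.nonunits_le hA
  have h1 : (⟨(ℓ : Kb), hmem⟩ : A) ∈ IsLocalRing.maximalIdeal A := by
    rw [IsLocalRing.mem_maximalIdeal, mem_nonunits_iff]
    intro hu
    have h2 := (ValuationSubring.valuation_eq_one_iff A _).mp hu
    have h3 := (ValuationSubring.mem_nonunits_iff A).mp hA
    rw [h2] at h3
    exact lt_irrefl _ h3
  have hker : RingHom.ker π = IsLocalRing.maximalIdeal A :=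
    IsLocalRing.eq_maximalIdeal (RingHom.ker_isMaximal_of_surjective π hπ)
  rw [← hker, RingHom.mem_ker] at h1
  have h4 : (⟨(ℓ : Kb), hmem⟩ : A) = ((ℓ : ℕ) : A) := Subtype.ext (by simp)
  rw [h4, map_natCast] at h1
  exact (CharP.charP_iff_prime_eq_zero (Fact.out : ℓ.Prime)).mpr h1

section theta

variable {k : Type} [Field k]

lemma thetaL_jqModC_ne_zero : FAIg.thetaL (jqModC k) ≠ 0 := by
  intro h
  have h1 := congrArg (fun y : LaurentSeries k => y.coeff (-1)) h
  simp only [FAIg.coeff_thetaL, HahnSeries.coeff_zero, coeff_jqModC_neg_one] at h1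
  simp at h1

lemma thetaL_ofNat (n : ℕ) [n.AtLeastTwo] :
    FAIg.thetaL (OfNat.ofNat n : LaurentSeries k) = 0 := by
  rw [← Nat.cast_ofNat (R := LaurentSeries k)]
  exact Derivation.map_natCast _ n

/-- `θ h ≠ 0` from `j h² = (h + 256)³`. -/
lemma thetaL_ne_zero_two {h : LaurentSeries k} (h0 : h ≠ 0)
    (hR : jqModC k * h ^ 2 = (h + 256) ^ 3) : FAIg.thetaL h ≠ 0 := by
  intro hθ
  have h1 := congrArg FAIg.thetaL hR
  rw [Derivation.leibniz, Derivation.leibniz_pow, Derivation.leibniz_pow, map_add, hθ,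
    thetaL_ofNat] at h1
  simp only [smul_zero, add_zero, zero_add, smul_eq_mul, mul_zero] at h1
  rcases mul_eq_zero.mp h1 with h2 | h2
  · exact pow_ne_zero 2 h0 h2
  · exact thetaL_jqModC_ne_zero h2

/-- `θ h ≠ 0` from `j h³ = (h + 27)(h + 243)³`. -/
lemma thetaL_ne_zero_three {h : LaurentSeries k} (h0 : h ≠ 0)
    (hR : jqModC k * h ^ 3 = (h + 27) * (h + 243) ^ 3) : FAIg.thetaL h ≠ 0 := by
  intro hθ
  have h1 := congrArg FAIg.thetaL hR
  rw [Derivation.leibniz, Derivation.leibniz_pow, Derivation.leibniz, Derivation.leibniz_pow,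
    map_add, map_add, hθ, thetaL_ofNat, thetaL_ofNat] at h1
  simp only [smul_zero, add_zero, zero_add, smul_eq_mul, mul_zero] at h1
  rcases mul_eq_zero.mp h1 with h2 | h2
  · exact pow_ne_zero 3 h0 h2
  · exact thetaL_jqModC_ne_zero h2

end theta

/-- the statement of NS for the field `Fb/k`. -/
def NSStatement (k Fb : Type*) [Field k] [Field Fb] [Algebra k Fb] : Prop :=
  ∀ (h : Fb) (_ : Transcendental k h) [FiniteDimensional k⟮h⟯ Fb] [Algebra.IsSeparable k⟮h⟯ Fb]
    (U : Submodule k Fb) (g : ℕ) (_ : Module.finrank k U = g)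
    (_ : ∀ u ∈ U, ∀ (P : Place k Fb) (c : k), 0 < P.ord (h - algebraMap k Fb c) →
      u = 0 ∨ 0 < P.ord (u * (h - algebraMap k Fb c)))
    (_ : ∀ u ∈ U, ∀ P : Place k Fb, P.ord h < 0 → u = 0 ∨ 0 < P.ord (u * h)),
    ∃ S : Finset (Place k Fb), S.card = g ∧
      Module.finrank k (riemannRochSpace (sumDiv S)) = 1

section

variable (N : ℕ) [NeZero N] {ℓ : ℕ} [Fact ℓ.Prime]
  (A : ValuationSubring Kb) (hA : A.LiesOverPrime ℓ)
  {k : Type} [Field k] (π : A →+* k) (hπ : Function.Surjective π)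

/-- common final step: apply NS. -/
theorem I3_aux [IsAlgClosed k] [CharP k ℓ] (hFb : IsFF k (FbN k N)) (hNS : NSStatement k (FbN k N))
    (R : RedData A π (FN N) (FbN k N)) (V : Submodule Kb (FN N)) (hVfd : FiniteDimensional Kb V)
    (hV : Module.finrank Kb V = gN N) (hb : FbN k N) (htr : Transcendental k hb)
    (hθ : FAIg.thetaL (hb : LaurentSeries k) ≠ 0)
    (hT : ∀ u ∈ R.redSub V, u ≠ 0 → ∀ P : Place k (FbN k N), CondT P hb u) :
    ∃ S : Finset (Place k (FbN k N)), S.card = gN N ∧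
      Module.finrank k (riemannRochSpace (sumDiv S)) = 1 := by
  have : FiniteDimensional k⟮hb⟯ (FbN k N) := FAR.finDim_of_transcendental hFb hb htr
  have : Algebra.IsAlgebraic k⟮hb⟯ (modularFunctionFieldFullC k N) :=
    Algebra.IsAlgebraic.of_finite _ _
  have : Algebra.IsSeparable k⟮hb⟯ (FbN k N) :=
    FAR.isSeparable_of_thetaL_ne_zero ℓ (modularFunctionFieldFullC k N) hb hθ
  refine hNS hb htr (R.redSub V) (gN N) ((R.finrank_redSub isFF_FN V hVfd).trans hV) ?_ ?_
  · intro u hu P c hc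
    by_cases h0 : u = 0
    · exact Or.inl h0
    · exact Or.inr ((hT u hu h0 P).1 c hc)
  · intro u hu P hP
    by_cases h0 : u = 0
    · exact Or.inl h0
    · exact Or.inr ((hT u hu h0 P).2 hP)

include hA hπ in
/-- **I3**, relative to NS and M1. -/
theorem I3_of (hM : auxLevel ℓ ∣ N) (hFb : IsFF k (FbN k N)) (hNS : NSStatement k (FbN k N))
    (R : RedData A π (FN N) (FbN k N))
    (hR : ∀ (y : LaurentSeries A) (hy : coeffMap A.subtype y ∈ modularFunctionFieldBar N),
      ∃ h : (⟨coeffMap A.subtype y, hy⟩ : FN N) ∈ R.O,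
        ((R.ρ ⟨_, h⟩ : FbN k N) : LaurentSeries k) = coeffMap π y)
    (hdeg : ∀ jO : R.O, (jO : FN N) = xN N →
      Module.finrank Kb⟮xN N⟯ (FN N) ≤ Module.finrank k⟮R.ρ jO⟯ (FbN k N)) :
    ∃ S : Finset (Place k (FbN k N)), S.card = gN N ∧
      Module.finrank k (riemannRochSpace (sumDiv S)) = 1 := by
  have : IsAlgClosed k := isAlgClosed_of_surj_gen A π hπ
  have : CharP k ℓ := charP_of_liesOver A hA π hπ
  have hℓ : ℓ.Prime := Fact.out
  -- `j`
  have hjA : coeffMap A.subtype (jqModC A) = ((xN N : FN N) : LaurentSeries Kb) := by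
    rw [coeffMap_jqModC, xN_coe]
  obtain ⟨hjmem, hjρ⟩ := hR (jqModC A) (by rw [hjA]; exact (xN N).2)
  replace hjρ := hjρ.trans (coeffMap_jqModC π)
  set jO : R.O := ⟨⟨coeffMap A.subtype (jqModC A), by rw [hjA]; exact (xN N).2⟩, hjmem⟩ with hjO
  have hjx : (jO : FN N) = xN N := Subtype.ext hjA
  have hjtr : Transcendental k (R.ρ jO) := by
    intro halg
    apply FAIg.LemA.transcendental_jqModC k
    have := halg.algHom (modularFunctionFieldFullC k N).val
    rwa [IntermediateField.coe_val, hjρ] at this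
  have J : JTransfer R jO := R.jTransfer isFF_FN jO hjtr (by rw [hjx]; exact hdeg jO hjx)
  have hcast : ∀ n : ℕ, ¬ ℓ ∣ n → ((n : ℕ) : k) ≠ 0 := fun n hn h0 =>
    hn ((CharP.cast_eq_zero_iff k ℓ n).mp h0)
  by_cases h2 : ℓ = 2
  · -- auxiliary level `3`
    have h3N : 3 ∣ N := by simpa [auxLevel, h2] using hM
    have h3k : (3 : k) ≠ 0 := by
      have := hcast 3 (by rw [h2]; norm_num)
      exact_mod_cast this
    obtain ⟨h, V, hVfd, hV, hRel, hVp⟩ := cert_zero_three N (brHyp N) h3N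
    rw [← hjx] at hRel hVp
    obtain ⟨hO, -, htr, hRb, hT⟩ := cert_red_three J h3k hRel V hVp
    refine I3_aux (ℓ := ℓ) N A π hFb hNS R V hVfd hV (R.ρ hO) htr ?_ hT
    apply thetaL_ne_zero_three
    · intro h0
      apply htr
      have : R.ρ hO = 0 := Subtype.ext h0
      rw [this]
      exact isAlgebraic_zero
    · have := congrArg Subtype.val hRb
      push_cast at this
      rw [hjρ] at this
      exact this
  by_cases h3 : ℓ = 3
  · -- auxiliary level `2`
    have h2N : 2 ∣ N := by simpa [auxLevel, h3] using hM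
    have h2k : (2 : k) ≠ 0 := by
      have := hcast 2 (by rw [h3]; norm_num)
      exact_mod_cast this
    obtain ⟨h, V, hVfd, hV, hRel, hVp⟩ := cert_zero_two N (brHyp N) h2N
    rw [← hjx] at hRel hVp
    obtain ⟨hO, -, htr, hRb, hT⟩ := cert_red_two J h2k hRel V hVp
    refine I3_aux (ℓ := ℓ) N A π hFb hNS R V hVfd hV (R.ρ hO) htr ?_ hT
    apply thetaL_ne_zero_two
    · intro h0
      apply htr
      have : R.ρ hO = 0 := Subtype.ext h0
      rw [this]
      exact isAlgebraic_zero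
    · have := congrArg Subtype.val hRb
      push_cast at this
      rw [hjρ] at this
      exact this
  · -- level `1`
    have h1728 : (1728 : k) ≠ 0 := by
      have h2' : ¬ ℓ ∣ 2 := fun h => h2 ((Nat.prime_dvd_prime_iff_eq hℓ Nat.prime_two).mp h)
      have h3' : ¬ ℓ ∣ 3 := fun h => h3 ((Nat.prime_dvd_prime_iff_eq hℓ Nat.prime_three).mp h)
      have := hcast 1728 (by
        intro h
        have e : 1728 = 2 ^ 6 * 3 ^ 3 := by norm_num
        rw [e] at h
        rcases (Nat.Prime.dvd_mul hℓ).mp h with h | h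
        · exact h2' (hℓ.dvd_of_dvd_pow h)
        · exact h3' (hℓ.dvd_of_dvd_pow h))
      exact_mod_cast this
    obtain ⟨V, hVfd, hV, hVp⟩ := cert_zero_one N (brHyp N)
    rw [← hjx] at hVp
    have hT := cert_red_one J h1728 V hVp
    refine I3_aux (ℓ := ℓ) N A π hFb hNS R V hVfd hV (R.ρ jO) hjtr ?_ hT
    rw [hjρ]
    exact thetaL_jqModC_ne_zero

end

end FA18
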