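import Fermat.Agent.Red.RRiemann

/-!
# S18-G1 (g): special divisors: `l(B+P) = l(B)` for all but finitely many `P`
-/

set_option autoImplicit false

namespace FAR

open AlgebraicCurve IntermediateField Polynomial FA24

variable {K F : Type*} [Field K] [Field F] [Algebra K F] [IsAlgClosed K]

/-- the sum of the places of a finite set. -/
noncomputable def sumPl (t : Finset (Place K F)) : Divisor K F := ∑ P ∈ t, Finsupp.single P 1

theorem sumPl_apply (t : Finset (Place K F)) (v : Place K F) [Decidable (v ∈ t)] :
    sumPl t v = if v ∈ t then 1 else 0 := by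
  classical
  rw [sumPl, Finsupp.finset_sum_apply]
  simp only [Finsupp.single_apply]
  rw [Finset.sum_ite_eq']
  congr

theorem sumPl_nonneg (t : Finset (Place K F)) : 0 ≤ sumPl t :=
  Finset.sum_nonneg fun P _ => Finsupp.single_nonneg.2 zero_le_one

theorem degree_sumPl (h : IsFF K F) (t : Finset (Place K F)) :
    Divisor.degree (sumPl t) = t.card := by
  rw [sumPl, map_sum]
  simp [degree_single' h]

theorem sumPl_insert {t : Finset (Place K F)} {P : Place K F} [DecidableEq (Place K F)]
    (hP : P ∉ t) : sumPl (insert P t) = sumPl t + Finsupp.single P 1 := by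
  rw [sumPl, Finset.sum_insert hP, add_comm]
  rfl

/-- if `l(B+P) > l(B)` for all `P ∈ t` then `l(B + ∑_{P ∈ t} P) ≥ l(B) + #t`. -/
theorem ell_add_sumPl_ge (h : IsFF K F) (B : Divisor K F) (t : Finset (Place K F))
    (ht : ∀ P ∈ t, ell (B + Finsupp.single P 1) ≠ ell B) :
    ell B + t.card ≤ ell (B + sumPl t) := by
  classical
  induction t using Finset.induction_on with
  | empty => simp [sumPl]
  | insert P t hP ih =>
    have ih' := ih fun Q hQ => ht Q (Finset.mem_insert_of_mem hQ)
    have hPne := ht P (Finset.mem_insert_self P t)
    -- a function in `L(B+P) \ L(B)`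
    have hex : ∃ f, f ∈ riemannRochSpace (B + Finsupp.single P 1) ∧ f ∉ riemannRochSpace B := by
      by_contra hcon
      push Not at hcon
      apply hPne
      have hle : riemannRochSpace (B + Finsupp.single P 1) ≤ riemannRochSpace B := hcon
      have hge : riemannRochSpace B ≤ riemannRochSpace (B + Finsupp.single P 1) :=
        L_mono (le_add_of_nonneg_right (Finsupp.single_nonneg.2 zero_le_one))
      rw [ell, ell, le_antisymm hle hge]
    obtain ⟨f, hf1, hf2⟩ := hex
    have hf0 : f ≠ 0 := by
      rintro rfl
      exact hf2 (Submodule.zero_mem _)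
    -- `ord_P f < - B P`
    have hfP : P.ord f < -B P := by
      by_contra hcon
      push Not at hcon
      apply hf2
      rw [mem_L_iff] at hf1 ⊢
      intro v
      by_cases hv : v = P
      · subst hv; exact Or.inr hcon
      · have := hf1 v
        rwa [Finsupp.add_apply, Finsupp.single_apply, if_neg (Ne.symm hv), add_zero] at this
    have hlt : riemannRochSpace (B + sumPl t) < riemannRochSpace (B + sumPl (insert P t)) := by
      rw [sumPl_insert hP, ← add_assoc]
      refine lt_of_le_of_ne
        (L_mono (le_add_of_nonneg_right (Finsupp.single_nonneg.2 zero_le_one))) ?_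
      intro heq
      have h1 : f ∈ riemannRochSpace (B + sumPl t + Finsupp.single P 1) := by
        refine L_mono ?_ hf1
        have : B + sumPl t + Finsupp.single P 1 = B + Finsupp.single P 1 + sumPl t := by abel
        rw [this]
        exact le_add_of_nonneg_right (sumPl_nonneg t)
      rw [← heq, mem_L_iff] at h1
      have h2 := (h1 P).le hf0
      rw [Finsupp.add_apply, sumPl_apply, if_neg hP, add_zero] at h2
      omega
    have := L_finiteDimensional h (B + sumPl (insert P t))
    have h3 := Submodule.finrank_lt_finrank_of_lt hlt
    rw [Finset.card_insert_of_notMem hP]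
    have h4 : ell (B + sumPl t) < ell (B + sumPl (insert P t)) := h3
    omega

/-- (G1, last item) if `B` is special (`l(B) > deg B + 1 - g`), then `l(B+P) = l(B)` for all but
finitely many places `P`. -/
theorem finite_ell_add_single_ne (h : IsFF K F) (B : Divisor K F)
    (hB : Divisor.degree B + 1 - gR h < ell B) :
    {P : Place K F | ell (B + Finsupp.single P 1) ≠ ell B}.Finite := by
  by_contra hinf
  obtain ⟨c, hc⟩ := exists_riemann_eq h
  obtain ⟨t, ht, hcard⟩ := Set.Infinite.exists_subset_card_eq hinf (c - Divisor.degree B).toNat
  have h1 := ell_add_sumPl_ge h B t fun P hP => ht hP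
  have h2 : c ≤ Divisor.degree (B + sumPl t) := by
    rw [map_add, degree_sumPl h, hcard]
    have := Int.self_le_toNat (c - Divisor.degree B)
    omega
  have h3 := hc _ h2
  rw [map_add, degree_sumPl h] at h3
  have h4 : ((ell B + t.card : ℕ) : ℤ) ≤ ell (B + sumPl t) := by exact_mod_cast h1
  push_cast at h4
  omega

/-- there are infinitely many places. -/
theorem infinite_places (h : IsFF K F) : (Set.univ : Set (Place K F)).Infinite := by
  intro hfin
  obtain ⟨x, hx, -⟩ := id h
  -- the map `a ↦ a zero of x - a` is injective
  have hex : ∀ a : K, ∃ v : Place K F, 0 < v.ord (x - algebraMap K F a) := by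
    intro a
    refine exists_place_pos h _ ?_
    intro halg
    apply hx
    have := halg.add (isAlgebraic_algebraMap (A := F) a)
    simpa using this
  choose φ hφ using hex
  have hinj : Function.Injective φ := by
    intro a b hab
    by_contra hne
    have h1 := hφ a
    have h2 := hφ b
    rw [← hab] at h2
    have h3 : OrdGE (φ a) ((x - algebraMap K F b) - (x - algebraMap K F a)) 1 :=
      OrdGE.sub (Or.inr (by omega)) (Or.inr (by omega))
    have h4 : (x - algebraMap K F b) - (x - algebraMap K F a) = algebraMap K F (a - b) := by
      rw [map_sub]; ring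
    rw [h4] at h3
    have h5 : algebraMap K F (a - b) ≠ 0 := by
      simpa [sub_eq_zero] using hne
    have := h3.le h5
    rw [FAFF.ord_algebraMap] at this
    omega
  have : Infinite K := IsAlgClosed.instInfinite
  have hfin' : Finite (Place K F) := Set.finite_univ_iff.1 hfin
  exact not_finite_iff_infinite.2 this (Finite.of_injective φ hinj)

end FAR
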