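import Fermat.Agent.Red.BridgeB

/-! S18, package BR, part M: a modular function for `Γ₀(N)` whose `q`-expansion has coefficients
in `ℚ̄` lies in the function field `ℚ̄(X₀(N))`. -/

set_option autoImplicit false

open UpperHalfPlane ModularForm Function CongruenceSubgroup FA_IS FA24 FAIg ModularCurve Polynomial
open IntermediateField
open scoped Manifold MatrixGroups

namespace FA18

variable {N : ℕ} [NeZero N]

/-- every element of the field of modular functions satisfies a relation of bounded degree. -/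
lemma exists_relation_FR_gen (t : FR N) :
    ∃ P : ℂ[X][X], P ≠ 0 ∧ P.natDegree ≤ Fintype.card (XN N) ∧
      P.eval₂ ((algebraMap (RN N) (FR N)).comp evR) t = 0 := by
  obtain ⟨g, h, hh, e⟩ := IsFractionRing.div_surjective (A := RN N) t
  have hh0 : h ≠ 0 := nonZeroDivisors.ne_zero hh
  have hr : t * algebraMap (RN N) (FR N) h = algebraMap (RN N) (FR N) g := by
    rw [← e]
    have : algebraMap (RN N) (FR N) h ≠ 0 := by simpa using hh0
    field_simp
  obtain ⟨P, hP0, hPd, hP⟩ := exists_lift_Psi g hh0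
  refine ⟨P, hP0, hPd, ?_⟩
  set k₀ : XN N := ((1 : SL(2, ℤ)) : XN N)
  set e : Expn N := expInf
  apply (IsFractionRing.lift (brR_injective e k₀)).injective
  rw [map_zero, hom_eval₂]
  have h1 : (IsFractionRing.lift (brR_injective e k₀)).comp
      ((algebraMap (RN N) (FR N)).comp evR) = e.ε.comp (inclM.comp evR) := by
    refine RingHom.ext fun p => ?_
    simp only [RingHom.comp_apply, IsFractionRing.lift_algebraMap, brR_apply]
    rw [trnM_one]
  rw [h1, ← eval₂_map, ← eval_map, hP, Psi, Polynomial.map_prod, eval_prod]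
  apply Finset.prod_eq_zero (Finset.mem_univ k₀)
  have h2 := congrArg (IsFractionRing.lift (brR_injective e k₀)) hr
  rw [map_mul, IsFractionRing.lift_algebraMap, IsFractionRing.lift_algebraMap] at h2
  simp only [Polynomial.map_sub, Polynomial.map_mul, Polynomial.map_C, Polynomial.map_X, eval_sub,
    eval_mul, eval_C, eval_X]
  rw [sub_eq_zero, mul_comm]
  exact h2

/-- the algebraic relation, for `q`-expansions -/
lemma exists_relation_lau_gen (W : LaurentSeries Kb) (hW : cm W ∈ (LamF (N := N)).fieldRange) :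
    ∃ P : ℂ[X][X], P ≠ 0 ∧ P.natDegree ≤ Fintype.card (XN N) ∧
      P.eval₂ (eval₂RingHom HahnSeries.C (cm (xN N).1)) (cm W) = 0 := by
  obtain ⟨t, ht⟩ := hW
  obtain ⟨P, hP0, hPd, hP⟩ := exists_relation_FR_gen t
  refine ⟨P, hP0, hPd, ?_⟩
  have := congrArg LamF hP
  rw [map_zero, hom_eval₂, ht] at this
  have h1 : LamF.comp ((algebraMap (RN N) (FR N)).comp evR) =
      eval₂RingHom HahnSeries.C (cm (xN N).1) := by
    apply Polynomial.ringHom_ext
    · intro a
      simp only [coe_eval₂RingHom, eval₂_C, RingHom.comp_apply, evR, LamF_algebraMap]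
      exact Lam_cst a
    · simp only [coe_eval₂RingHom, eval₂_X, RingHom.comp_apply, evR, LamF_algebraMap]
      rw [← LamF_Theta, Theta_xN, LamF_algebraMap]
  rw [h1] at this
  exact this

/-- the relation over `ℚ̄`. -/
lemma exists_relation_Kb (W : LaurentSeries Kb) (hW : cm W ∈ (LamF (N := N)).fieldRange) :
    ∃ Q : Kb[X][X], Q ≠ 0 ∧ Q.natDegree ≤ Fintype.card (XN N) ∧
      Q.eval₂ (eval₂RingHom HahnSeries.C (xN N).1) W = 0 := by
  obtain ⟨P, hP0, hPd, hP⟩ := exists_relation_lau_gen W hW
  obtain ⟨Q, hQ0, hQd, hQ⟩ := descent _ _ P hP0 hP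
  exact ⟨Q, hQ0, hQd.trans hPd, hQ⟩

/-- the field of `q`-series over `ℚ̄` which are expansions of modular functions. -/
noncomputable def modSer (N : ℕ) [NeZero N] : IntermediateField Kb (LaurentSeries Kb) :=
  Subfield.toIntermediateField ((LamF (N := N)).fieldRange.comap cm) fun a => by
    refine ⟨algebraMap (RN N) (FR N) (cst (iota a)), ?_⟩
    rw [LamF_algebraMap, Lam_cst, cm_algebraMap]

lemma mem_modSer {W : LaurentSeries Kb} : W ∈ modSer N ↔ cm W ∈ (LamF (N := N)).fieldRange :=
  Iff.rfl

lemma bar_le_modSer : modularFunctionFieldBar N ≤ modSer N := fun f hf => cm_mem_range f hf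

section generic

variable {K L : Type*} [Field K] [Field L] [Algebra K L]

lemma finrank_adjoin_eq_relfinrank (C : IntermediateField K L) (x : C) :
    Module.finrank K⟮x⟯ C = relfinrank K⟮(x : L)⟯ C := by
  rw [← relfinrank_top_right, ← relfinrank_map_map _ _ C.val, adjoin_map, Set.image_singleton,
    ← AlgHom.fieldRange_eq_map, fieldRange_val]
  rfl

lemma adjoin_preimage_eq_top (S : Set L) :
    adjoin K ((adjoin K S).val ⁻¹' S) = (⊤ : IntermediateField K (adjoin K S)) := by
  have hinj : Function.Injective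
      (fun A : IntermediateField K (adjoin K S) => A.map (adjoin K S).val) := by
    intro A B h
    ext x
    have h1 : ((adjoin K S).val x ∈ A.map (adjoin K S).val) ↔
        ((adjoin K S).val x ∈ B.map (adjoin K S).val) := by
      have h' : A.map (adjoin K S).val = B.map (adjoin K S).val := h
      rw [h']
    constructor
    · intro hx
      obtain ⟨y, hy, e⟩ := h1.mp ⟨x, hx, rfl⟩
      rwa [← (adjoin K S).val.injective e]
    · intro hx
      obtain ⟨y, hy, e⟩ := h1.mpr ⟨x, hx, rfl⟩
      rwa [← (adjoin K S).val.injective e]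
  apply hinj
  show (adjoin K ((adjoin K S).val ⁻¹' S)).map (adjoin K S).val = (⊤ : IntermediateField K _).map _
  rw [adjoin_map, ← AlgHom.fieldRange_eq_map, fieldRange_val, Set.image_preimage_eq_of_subset]
  intro s hs
  exact ⟨⟨s, subset_adjoin K S hs⟩, rfl⟩

end generic

/-- **BR1**: a `q`-series over `ℚ̄` which is the expansion of a modular function for `Γ₀(N)`
lies in the function field. -/
theorem mem_bar_of_mem_modSer (Y₀ : LaurentSeries Kb) (hY : Y₀ ∈ modSer N) :
    Y₀ ∈ modularFunctionFieldBar N := by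
  set FNf : IntermediateField Kb (LaurentSeries Kb) := modularFunctionFieldBar N with hFNf
  set SL : Set (LaurentSeries Kb) := (FNf.val '' gens N) ∪ {Y₀} with hSL
  set E : IntermediateField Kb (LaurentSeries Kb) := adjoin Kb SL with hE
  have hFE : FNf ≤ E := by
    have h1 : FNf = adjoin Kb (FNf.val '' gens N) := by
      rw [← adjoin_map, adjoin_gens, ← AlgHom.fieldRange_eq_map, fieldRange_val]
    rw [h1]
    exact adjoin.mono _ _ _ Set.subset_union_left
  have hEM : E ≤ modSer N := by
    rw [hE, adjoin_le_iff]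
    rintro w (⟨f, -, rfl⟩ | rfl)
    · exact bar_le_modSer f.2
    · exact hY
  have hSfin : SL.Finite := (finite_gens.image _).union (Set.finite_singleton _)
  set xE : E := ⟨(xN N).1, hFE (xN N).2⟩ with hxE
  have hxtr : Transcendental Kb xE := by
    intro halg
    apply transcendental_xN N
    have h1 : IsAlgebraic Kb (E.val xE) := (isAlgebraic_algHom_iff E.val E.val.injective).mpr halg
    exact (isAlgebraic_algHom_iff FNf.val FNf.val.injective).mp h1
  have hrel : ∀ f : E, ∃ Q : Kb⟮xE⟯[X], Q ≠ 0 ∧ Q.natDegree ≤ Fintype.card (XN N) ∧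
      aeval f Q = 0 := by
    intro f
    obtain ⟨Q, hQ0, hQd, hQ⟩ := exists_relation_Kb f.1 (hEM f.2)
    have hQ' : Q.eval₂ (aeval (R := Kb) xE).toRingHom f = 0 := by
      apply Subtype.val_injective
      have h1 := hom_eval₂ Q (aeval (R := Kb) xE).toRingHom E.val.toRingHom f
      have h2 : E.val.toRingHom.comp (aeval (R := Kb) xE).toRingHom =
          eval₂RingHom HahnSeries.C (xN N).1 := by
        apply Polynomial.ringHom_ext
        · intro a
          simp only [RingHom.comp_apply, AlgHom.toRingHom_eq_coe, RingHom.coe_coe, aeval_C,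
            coe_eval₂RingHom, eval₂_C, C_eq_algebraMap]
          rfl
        · simp only [RingHom.comp_apply, AlgHom.toRingHom_eq_coe, RingHom.coe_coe, aeval_X,
            coe_eval₂RingHom, eval₂_X]
          rfl
      rw [h2] at h1
      exact h1.trans hQ
    obtain ⟨Q', h0, hd, h⟩ := gen_relation xE hxtr f Q hQ0 hQ'
    exact ⟨Q', h0, hd.trans hQd, h⟩
  obtain ⟨hfd, hle⟩ := gen_finrank_le xE (Fintype.card (XN N)) (E.val ⁻¹' SL)
    (hSfin.preimage E.val.injective.injOn) (adjoin_preimage_eq_top SL) hrel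
  have hpos : 0 < Module.finrank Kb⟮xE⟯ E := Module.finrank_pos
  rw [finrank_adjoin_eq_relfinrank] at hle hpos
  have hμ := finrank_FN (N := N)
  rw [finrank_adjoin_eq_relfinrank] at hμ
  have hjF : Kb⟮((xN N : FN N) : LaurentSeries Kb)⟯ ≤ FNf := by
    rw [adjoin_simple_le_iff]
    exact (xN N).2
  have hmul := relfinrank_mul_relfinrank hjF hFE
  rw [hμ] at hmul
  have hx : ((xE : E) : LaurentSeries Kb) = ((xN N : FN N) : LaurentSeries Kb) := rfl
  rw [hx] at hle hpos
  rw [← hmul] at hle hpos
  have hr : relfinrank FNf E = 1 := by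
    have h1 : 0 < relfinrank FNf E := Nat.pos_of_mul_pos_left hpos  
    have h2 : 0 < Fintype.card (XN N) := Nat.pos_of_mul_pos_right hpos
    nlinarith
  exact relfinrank_eq_one_iff.mp hr (subset_adjoin Kb SL (Set.mem_union_right _ rfl))

theorem modSer_eq_bar : modSer N = modularFunctionFieldBar N :=
  le_antisymm (fun Y hY => mem_bar_of_mem_modSer Y hY) bar_le_modSer

variable {F : Type*} [FunLike F ℍ ℂ] {k : ℤ}

/-- **BR1** for `Φ / Δ ^ b`. -/
theorem brS_mem_bar [ModularFormClass F (Gamma0 N) k] (Φ : F) (b : ℕ) (hk : k = 12 * b)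
    (s : PowerSeries Kb) (hs : s.map iota = qExpansion 1 Φ) :
    brS Kb s b ∈ modularFunctionFieldBar N := by
  apply mem_bar_of_mem_modSer
  rw [mem_modSer]
  refine ⟨algebraMap (RN N) (FR N) ⟨brFun Φ b, brFun_mem_RN Φ b hk⟩, ?_⟩
  rw [LamF_algebraMap, Lam_apply, cm_brS Φ b hk s hs]

end FA18
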