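import Fermat.Agent.Red.RFactsOf

/-!
# S18-NS (a): the trace of a function that is regular (resp. vanishes) on a whole fibre
-/

set_option autoImplicit false

namespace FAR

open AlgebraicCurve IntermediateField Polynomial FA24

section V

variable {K M : Type*} [Field K] [Field M] [Algebra K M]

/-- Chevalley: a valuation ring of `M/K` in which the transcendental `x` is a non-unit. -/
theorem exists_valuationSubring_lt_one (x : M) (hx : Transcendental K x) :
    ∃ B : ValuationSubring M, (∀ a : K, algebraMap K M a ∈ B) ∧ B.valuation x < 1 := by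
  let A : Subring M := (Algebra.adjoin K {x}).toSubring
  have hxA : x ∈ A := Algebra.self_mem_adjoin_singleton K x
  let I : Ideal A := Ideal.span {⟨x, hxA⟩}
  have hI : I ≠ ⊤ := by
    intro htop
    rw [Ideal.span_singleton_eq_top] at htop
    obtain ⟨⟨b, hb⟩, hb1⟩ := isUnit_iff_exists_inv.1 htop
    have hb' : b ∈ Algebra.adjoin K {x} := hb
    rw [Algebra.adjoin_singleton_eq_range_aeval] at hb'
    obtain ⟨q, rfl⟩ := hb'
    have h1 : x * aeval x q = 1 := congrArg Subtype.val hb1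
    have h2 : aeval x (X * q - 1) = 0 := by
      rw [map_sub, map_mul, aeval_X, map_one, h1, sub_self]
    have h3 := transcendental_iff.1 hx _ h2
    have h4 := congrArg (fun p => p.coeff 0) h3
    simp at h4
  obtain ⟨B, hAB, hIB⟩ := Ideal.image_subset_nonunits_valuationSubring I hI
  refine ⟨B, fun a => hAB ((Algebra.adjoin K {x}).algebraMap_mem a), ?_⟩
  rw [← ValuationSubring.mem_nonunits_iff]
  exact hIB ⟨⟨x, hxA⟩, Ideal.mem_span_singleton_self _, rfl⟩

theorem val_lt_one_iff_inv_notMem (W : ValuationSubring M) {z : M} (hz : z ≠ 0) :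
    W.valuation z < 1 ↔ z⁻¹ ∉ W := by
  have h0 : 0 < W.valuation z := zero_lt_iff.2 ((Valuation.ne_zero_iff _).2 hz)
  rw [← W.valuation_le_one_iff, map_inv₀, inv_le_one₀ h0, not_le]

theorem exists_eq_X_pow_mul (p : K[X]) (hp : p ≠ 0) :
    ∃ (a : ℕ) (p' : K[X]), p = X ^ a * p' ∧ p'.coeff 0 ≠ 0 := by
  obtain ⟨q, hq, hnd⟩ := exists_eq_pow_rootMultiplicity_mul_and_not_dvd p hp 0
  refine ⟨_, q, by simpa using hq, ?_⟩
  intro h0
  apply hnd
  rw [C_0, sub_zero]
  exact X_dvd_iff.2 h0

theorem exists_normal_form {x r : M} (hx0 : x ≠ 0) (hr : r ≠ 0) (p q : K[X])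
    (h : r = aeval x p / aeval x q) :
    ∃ (m : ℤ) (p' q' : K[X]), p'.coeff 0 ≠ 0 ∧ q'.coeff 0 ≠ 0 ∧
      r = x ^ m * (aeval x p' / aeval x q') := by
  have hp : p ≠ 0 := by
    rintro rfl
    exact hr (by rw [h]; simp)
  have hq : q ≠ 0 := by
    rintro rfl
    exact hr (by rw [h]; simp)
  obtain ⟨a, p', rfl, hp'⟩ := exists_eq_X_pow_mul p hp
  obtain ⟨b, q', rfl, hq'⟩ := exists_eq_X_pow_mul q hq
  refine ⟨(a : ℤ) - b, p', q', hp', hq', ?_⟩
  rw [h, zpow_sub₀ hx0, zpow_natCast, zpow_natCast]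
  simp only [map_mul, map_pow, aeval_X]
  rw [mul_div_mul_comm]

theorem val_normal_form (B : ValuationSubring M) (hK : ∀ a : K, algebraMap K M a ∈ B) {x : M}
    (hx : B.valuation x < 1) (m : ℤ) (p q : K[X]) (hp : p.coeff 0 ≠ 0) (hq : q.coeff 0 ≠ 0) :
    B.valuation (x ^ m * (aeval x p / aeval x q)) = B.valuation x ^ m := by
  rw [map_mul, map_zpow₀, map_div₀, val_aeval_eq_one B hK hx p hp, val_aeval_eq_one B hK hx q hq,
    div_one, mul_one]

theorem ord_normal_form {v : Place K M} {x : M} (hx : 0 < v.ord x) (m : ℤ) (p q : K[X])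
    (hp : p.coeff 0 ≠ 0) (hq : q.coeff 0 ≠ 0) :
    v.ord (x ^ m * (aeval x p / aeval x q)) = m * v.ord x := by
  have hx0 : x ≠ 0 := by
    rintro rfl
    simp at hx
  obtain ⟨hp0, hp1⟩ := aeval_ord_eq_zero hx p hp
  obtain ⟨hq0, hq1⟩ := aeval_ord_eq_zero hx q hq
  rw [v.ord_mul (zpow_ne_zero _ hx0) (div_ne_zero hp0 hq0), v.ord_zpow, div_eq_mul_inv,
    v.ord_mul hp0 (inv_ne_zero hq0), v.ord_inv, hp1, hq1]
  ring

theorem map_normal_form {L : Type*} [Field L] [Algebra K L] [Algebra L M] [IsScalarTower K L M]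
    (x : L) (m : ℤ) (p q : K[X]) :
    algebraMap L M (x ^ m * (aeval x p / aeval x q)) =
      algebraMap L M x ^ m * (aeval (algebraMap L M x) p / aeval (algebraMap L M x) q) := by
  rw [map_mul, map_zpow₀, map_div₀, aeval_algebraMap_apply, aeval_algebraMap_apply]

theorem ord_pos_iff_inv_notMem (v : Place K M) {y : M} (hy : y ≠ 0) :
    0 < v.ord y ↔ y⁻¹ ∉ v.toValuationSubring := by
  rw [FAFF.mem_iff_ord_nonneg v (inv_ne_zero hy), v.ord_inv]
  omega

end V

section T

variable {k E : Type*} [Field k] [IsAlgClosed k] [Field E] [Algebra k E]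

/-- the key construction: a valuation ring `W` of an algebraic closure of `k(h)` centred at
`x = 0`; all its pull-backs along the embeddings of `E` are places over `x = 0`. -/
theorem exists_fibre_valuation (hFF : IsFF k E) (h x : E) (hx : Transcendental k x)
    (hxh : k⟮x⟯ = k⟮h⟯) :
    ∃ W : ValuationSubring (AlgebraicClosure k⟮h⟯),
      (∀ σ : E →ₐ[k⟮h⟯] AlgebraicClosure k⟮h⟯, ∃ P : Place k E, 0 < P.ord x ∧
        ∀ y : E, (OrdGE P y 0 → σ y ∈ W) ∧ (OrdGE P y 1 → σ y ∈ W.nonunits)) ∧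
      (∀ r : k⟮h⟯,
        (algebraMap k⟮h⟯ (AlgebraicClosure k⟮h⟯) r ∈ W →
          ∀ P : Place k E, 0 < P.ord x → OrdGE P (algebraMap k⟮h⟯ E r) 0) ∧
        (algebraMap k⟮h⟯ (AlgebraicClosure k⟮h⟯) r ∈ W.nonunits →
          ∀ P : Place k E, 0 < P.ord x → OrdGE P (algebraMap k⟮h⟯ E r) (P.ord x))) := by
  set L := k⟮h⟯ with hL
  set Ω := AlgebraicClosure L with hΩ
  have hx0 : x ≠ 0 := fun h0 => hx (h0 ▸ isAlgebraic_zero)
  have hxL : x ∈ L := hxh ▸ mem_adjoin_simple_self k x
  let xL : L := ⟨x, hxL⟩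
  have hxLE : algebraMap L E xL = x := rfl
  have hxLt : Transcendental k xL := by
    have : Transcendental k (algebraMap L E xL) := hx
    exact (transcendental_algebraMap_iff (algebraMap L E).injective).1 this
  have hxL0 : xL ≠ 0 := fun h0 => hxLt (h0 ▸ isAlgebraic_zero)
  set xΩ : Ω := algebraMap L Ω xL with hxΩ
  have hxΩt : Transcendental k xΩ :=
    (transcendental_algebraMap_iff (algebraMap L Ω).injective).2 hxLt
  have hxΩ0 : xΩ ≠ 0 := fun h0 => hxΩt (h0 ▸ isAlgebraic_zero)
  obtain ⟨W, hWK, hWx⟩ := exists_valuationSubring_lt_one (K := k) xΩ hxΩt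
  refine ⟨W, ?_, ?_⟩
  · intro σ
    let B : ValuationSubring E := W.comap (σ : E →+* Ω)
    have hmem : ∀ y : E, y ∈ B ↔ σ y ∈ W := fun y => Iff.rfl
    have hσx : σ x = xΩ := by
      rw [← hxLE, σ.commutes]
    have hK : ∀ a : k, algebraMap k E a ∈ B := by
      intro a
      rw [hmem, IsScalarTower.algebraMap_apply k L E, σ.commutes,
        ← IsScalarTower.algebraMap_apply]
      exact hWK a
    have hinv : x⁻¹ ∉ B := by
      rw [hmem, map_inv₀, hσx, ← val_lt_one_iff_inv_notMem W hxΩ0]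
      exact hWx
    have hB : B ≠ ⊤ := fun htop => hinv (htop ▸ ValuationSubring.mem_top _)
    refine ⟨placeOfValuationSubring hFF B hK hB, ?_, ?_⟩
    · rw [ord_pos_iff_inv_notMem _ hx0]
      exact hinv
    · intro y
      constructor
      · rintro (rfl | hy)
        · rw [map_zero]; exact W.zero_mem
        · rcases eq_or_ne y 0 with rfl | hy0
          · rw [map_zero]; exact W.zero_mem
          · exact (hmem y).1 ((FAFF.mem_iff_ord_nonneg _ hy0).2 hy)
      · rintro (rfl | hy)
        · rw [map_zero, ValuationSubring.mem_nonunits_iff, map_zero]; exact zero_lt_one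
        · have hy0 : y ≠ 0 := by
            rintro rfl
            simp at hy
          have h1 : 0 < (placeOfValuationSubring hFF B hK hB).ord y := by omega
          rw [ord_pos_iff_inv_notMem _ hy0] at h1
          have h2 : y⁻¹ ∉ B := h1
          rw [hmem, map_inv₀] at h2
          rw [ValuationSubring.mem_nonunits_iff,
            val_lt_one_iff_inv_notMem W ((map_ne_zero σ).2 hy0)]
          exact h2
  · intro r
    rcases eq_or_ne r 0 with rfl | hr0
    · simp only [map_zero]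
      exact ⟨fun _ P _ => OrdGE.zero P _, fun _ P _ => OrdGE.zero P _⟩
    have hrx : (r : E) ∈ k⟮x⟯ := by
      rw [hxh]
      exact r.2
    obtain ⟨p, q, hpq⟩ := (mem_adjoin_simple_iff k _).1 hrx
    have hpq' : r = aeval xL p / aeval xL q := by
      apply (algebraMap L E).injective
      rw [map_div₀, ← aeval_algebraMap_apply, ← aeval_algebraMap_apply, hxLE]
      exact hpq
    obtain ⟨m, p', q', hp', hq', hr⟩ := exists_normal_form hxL0 hr0 p q hpq'
    have hE : algebraMap L E r = x ^ m * (aeval x p' / aeval x q') := by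
      rw [hr, map_normal_form, hxLE]
    have hΩr : W.valuation (algebraMap L Ω r) = W.valuation xΩ ^ m := by
      rw [hr, map_normal_form, val_normal_form W hWK hWx m p' q' hp' hq']
    have hv0 : 0 < W.valuation xΩ := zero_lt_iff.2 ((Valuation.ne_zero_iff _).2 hxΩ0)
    constructor
    · intro hW P hP
      rw [← W.valuation_le_one_iff, hΩr, zpow_le_one_iff_right_of_lt_one₀ hv0 hWx] at hW
      refine Or.inr ?_
      rw [hE, ord_normal_form hP m p' q' hp' hq']
      positivity
    · intro hW P hP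
      rw [ValuationSubring.mem_nonunits_iff, hΩr, zpow_lt_one_iff_right_of_lt_one₀ hv0 hWx] at hW
      refine Or.inr ?_
      rw [hE, ord_normal_form hP m p' q' hp' hq']
      nlinarith

variable (hFF : IsFF k E) (h x : E) (hx : Transcendental k x) (hxh : k⟮x⟯ = k⟮h⟯)
  [FiniteDimensional k⟮h⟯ E] [Algebra.IsSeparable k⟮h⟯ E]

include hFF hx hxh in
/-- (reg0) the trace of a function regular on the fibre `x = 0` is regular on that fibre. -/
theorem trace_ordGE_zero (y : E) (hy : ∀ P : Place k E, 0 < P.ord x → OrdGE P y 0)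
    (P : Place k E) (hP : 0 < P.ord x) :
    OrdGE P (algebraMap k⟮h⟯ E (Algebra.trace k⟮h⟯ E y)) 0 := by
  obtain ⟨W, h1, h2⟩ := exists_fibre_valuation hFF h x hx hxh
  refine (h2 _).1 ?_ P hP
  rw [trace_eq_sum_embeddings (AlgebraicClosure k⟮h⟯)]
  refine sum_mem fun σ _ => ?_
  obtain ⟨Q, hQ, hQy⟩ := h1 σ
  exact (hQy y).1 (hy Q hQ)

include hFF hx hxh in
/-- (alpha0) the trace of a function vanishing on the fibre `x = 0` is divisible by `x` there. -/
theorem trace_ordGE_one (y : E) (hy : ∀ P : Place k E, 0 < P.ord x → OrdGE P y 1)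
    (P : Place k E) (hP : 0 < P.ord x) :
    OrdGE P (algebraMap k⟮h⟯ E (Algebra.trace k⟮h⟯ E y)) (P.ord x) := by
  obtain ⟨W, h1, h2⟩ := exists_fibre_valuation hFF h x hx hxh
  refine (h2 _).2 ?_ P hP
  rw [trace_eq_sum_embeddings (AlgebraicClosure k⟮h⟯)]
  refine sum_mem fun σ _ => ?_
  obtain ⟨Q, hQ, hQy⟩ := h1 σ
  exact (hQy y).2 (hy Q hQ)

end T

end FAR
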