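import Fermat.Agent.Red.FrickeA
import Fermat.Agent.X0Genus.BrPts

/-!
# S18, Step 2: the Fricke embedding and change of level; series fixed by `q ↦ ζ q`
-/

open FA24 ModularCurve
open scoped LaurentSeries

set_option autoImplicit false

namespace FA18.St2

local notation "oPS" => HahnSeries.ofPowerSeries ℤ ℂ

/-! ### change of level -/

theorem bar_mono {N N' : ℕ} (h : N ∣ N') :
    modularFunctionFieldBar N ≤ modularFunctionFieldBar N' := by
  intro f hf
  refine bar_le N (modularFunctionFieldBar N').toSubfield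
    (fun a => (modularFunctionFieldBar N').algebraMap_mem a) (fun d hd hdN => ?_) f hf
  exact coeffEmb_mem_laurentBaseChange _ (jqd_mem_full N' (hdN.trans h))

/-- the inclusion `ℚ̄(X₀(N)) ⊆ ℚ̄(X₀(N'))`. -/
noncomputable def incl {N N' : ℕ} (h : N ∣ N') : FN N →ₐ[Kb] FN N' :=
  IntermediateField.inclusion (bar_mono h)

@[simp] lemma coe_incl {N N' : ℕ} (h : N ∣ N') (f : FN N) :
    ((incl h f : FN N') : LaurentSeries Kb) = (f : LaurentSeries Kb) :=
  IntermediateField.coe_inclusion _ f

lemma incl_Jd {N N' : ℕ} (h : N ∣ N') {d : ℕ} [NeZero d] (hd : d ∣ N) :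
    incl h (Jd N hd) = Jd N' (hd.trans h) := Subtype.ext (coe_incl h _)

/-- the complex `q`-expansion of `j`. -/
noncomputable def JC : LaurentSeries ℂ := coeffMap (algebraMap ℚ ℂ) jq

lemma order_JC : JC.order = -1 := by
  have := order_lau_jf (N := 1)
  rw [lau_jf] at this
  rw [JC, this]
  simp

lemma JC_ne_zero : JC ≠ 0 := by
  intro h
  have := order_JC
  rw [h] at this
  simp at this

theorem frC_incl (N M : ℕ) [NeZero N] [NeZero M] (f : FN N) :
    frC (N * M) (incl (dvd_mul_right N M) f) = qExpand ℂ M (frC N f) := by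
  induction f using FN_induction with
  | hc a =>
    rw [AlgHom.commutes, frC_algebraMap, frC_algebraMap, qExpand_C]
  | hJ d hd hdN =>
    obtain ⟨c, hc⟩ := hdN
    have hc0 : c ≠ 0 := by
      rintro rfl
      exact NeZero.ne N (by simpa using hc)
    have : NeZero c := ⟨hc0⟩
    rw [incl_Jd]
    have h1 := frC_Jd (N := N) (d := d) (c := c) hc.symm
    have h2 := frC_Jd (N := N * M) (d := d) (c := M * c) (by rw [hc]; ring)
    rw [h1, h2, qExpand_qExpand]
  | hadd f g hf hg => rw [map_add, map_add, map_add, hf, hg, map_add]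
  | hneg f hf => rw [map_neg, map_neg, map_neg, hf, map_neg]
  | hmul f g hf hg => rw [map_mul, map_mul, map_mul, hf, hg, map_mul]
  | hinv f hf => rw [map_inv₀, map_inv₀, map_inv₀, hf, map_inv₀]

/-! ### the twist -/

lemma twist_add (ζ : ℂ) (x y : LaurentSeries ℂ) : twist ζ (x + y) = twist ζ x + twist ζ y := by
  ext n
  simp [mul_add]

lemma twist_neg (ζ : ℂ) (x : LaurentSeries ℂ) : twist ζ (-x) = -twist ζ x := by
  ext n
  simp

lemma twist_zero (ζ : ℂ) : twist ζ 0 = 0 := by
  ext n
  simp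

lemma twist_inv {ζ : ℂ} (hζ : ζ ≠ 0) (x : LaurentSeries ℂ) : twist ζ x⁻¹ = (twist ζ x)⁻¹ := by
  rcases eq_or_ne x 0 with rfl | hx
  · simp [twist_zero]
  · have h := twist_mul hζ x x⁻¹
    rw [mul_inv_cancel₀ hx, twist_one] at h
    exact eq_inv_of_mul_eq_one_right h.symm

/-- the field of series fixed by `q ↦ ζ q`. -/
def fixT (ζ : ℂ) (hζ : ζ ≠ 0) : Subfield (LaurentSeries ℂ) where
  carrier := {x | twist ζ x = x}
  mul_mem' := by
    intro x y hx hy
    show twist ζ (x * y) = x * y
    rw [twist_mul hζ, hx, hy]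
  one_mem' := twist_one ζ
  add_mem' := by
    intro x y hx hy
    show twist ζ (x + y) = x + y
    rw [twist_add, hx, hy]
  zero_mem' := twist_zero ζ
  neg_mem' := by
    intro x hx
    show twist ζ (-x) = -x
    rw [twist_neg, hx]
  inv_mem' := by
    intro x hx
    show twist ζ x⁻¹ = x⁻¹
    rw [twist_inv hζ, hx]

lemma mem_fixT {ζ : ℂ} {hζ : ζ ≠ 0} {x : LaurentSeries ℂ} : x ∈ fixT ζ hζ ↔ twist ζ x = x :=
  Iff.rfl

lemma twist_qExpand {ζ : ℂ} {M : ℕ} [NeZero M] (hζM : ζ ^ M = 1) (x : LaurentSeries ℂ) :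
    twist ζ (qExpand ℂ M x) = qExpand ℂ M x := by
  ext n
  rw [coeff_twist]
  by_cases hn : (M : ℤ) ∣ n
  · obtain ⟨k, rfl⟩ := hn
    rw [zpow_mul, zpow_natCast, hζM, one_zpow, one_mul]
  · rw [qExpand_coeff_of_not_dvd _ _ hn, mul_zero]

lemma zpow_order_eq_one {ζ : ℂ} {x : LaurentSeries ℂ} (hx : x ≠ 0) (h : twist ζ x = x) :
    ζ ^ x.order = 1 := by
  have h1 := congrArg (fun y => y.coeff x.order) h
  simp only [coeff_twist] at h1
  have h2 : x.coeff x.order ≠ 0 := fun h0 => hx (HahnSeries.coeff_order_eq_zero.1 h0)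
  exact mul_right_cancel₀ h2 (by rw [h1, one_mul])

/-- an `m`-th root of a fixed series is fixed, provided its order is. -/
theorem twist_eq_of_pow {ζ : ℂ} (hζ : ζ ≠ 0) {m : ℕ} (hm : 0 < m) {x : LaurentSeries ℂ}
    (hx : x ≠ 0) (h : twist ζ (x ^ m) = x ^ m) (hord : ζ ^ x.order = 1) : twist ζ x = x := by
  set p := x.powerSeriesPart with hp
  have hxp : (HahnSeries.single x.order 1 : LaurentSeries ℂ) * oPS p = x :=
    LaurentSeries.single_order_mul_powerSeriesPart x
  have hs : twist ζ (HahnSeries.single x.order 1 : LaurentSeries ℂ)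
      = HahnSeries.single x.order 1 := by
    ext n
    rw [coeff_twist, HahnSeries.coeff_single]
    split_ifs with hn
    · rw [hn, hord, one_mul]
    · rw [mul_zero]
  have hs0 : (HahnSeries.single x.order 1 : LaurentSeries ℂ) ≠ 0 := by simp
  have hy : twist ζ x = HahnSeries.single x.order 1 * oPS (PowerSeries.rescale ζ p) := by
    conv_lhs => rw [← hxp]
    rw [twist_mul hζ, hs, twist_oPS]
  have hpow : (PowerSeries.rescale ζ p) ^ m = p ^ m := by
    rw [twist_pow hζ, hy] at h
    conv_rhs at h => rw [← hxp]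
    rw [mul_pow, mul_pow] at h
    have h2 := mul_left_cancel₀ (pow_ne_zero m hs0) h
    rw [← map_pow (oPS), ← map_pow (oPS)] at h2
    exact HahnSeries.ofPowerSeries_injective h2
  have ha : PowerSeries.constantCoeff p ≠ 0 := by
    rw [← PowerSeries.coeff_zero_eq_constantCoeff_apply, hp, LaurentSeries.powerSeriesPart_coeff]
    simpa using fun h0 => hx (HahnSeries.coeff_order_eq_zero.1 h0)
  have ha' : PowerSeries.constantCoeff (PowerSeries.rescale ζ p) = PowerSeries.constantCoeff p := by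
    rw [← PowerSeries.coeff_zero_eq_constantCoeff_apply, PowerSeries.coeff_rescale]
    simp
  have hfac := geom_sum₂_mul (PowerSeries.rescale ζ p) p m
  rw [hpow, sub_self] at hfac
  have hsum : (∑ i ∈ Finset.range m, (PowerSeries.rescale ζ p) ^ i * p ^ (m - 1 - i)) ≠ 0 := by
    intro h0
    have h1 := congrArg PowerSeries.constantCoeff h0
    rw [map_sum, map_zero] at h1
    have h2 : ∀ i ∈ Finset.range m, PowerSeries.constantCoeff
        ((PowerSeries.rescale ζ p) ^ i * p ^ (m - 1 - i)) = PowerSeries.constantCoeff p ^ (m - 1) := by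
      intro i hi
      rw [map_mul, map_pow, map_pow, ha', ← pow_add]
      congr 1
      have := Finset.mem_range.1 hi
      omega
    rw [Finset.sum_congr rfl h2, Finset.sum_const, Finset.card_range, nsmul_eq_mul] at h1
    rcases mul_eq_zero.1 h1 with h3 | h3
    · exact hm.ne' (by exact_mod_cast h3)
    · exact pow_ne_zero _ ha h3
  have hpp : PowerSeries.rescale ζ p = p :=
    sub_eq_zero.1 ((mul_eq_zero.1 hfac).resolve_left hsum)
  rw [hy, hpp, hxp]

end FA18.St2
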