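import Fermat.Agent.Red.DeuringA
import Fermat.Agent.FF.Exchange

/-!
# S18, package G3 (Deuring reduction), part B: reduction of divisors

`F/K` and `Fb/k` are function fields, `O` a valuation subring of `F`, `ρ : O → Fb` a surjective ring
homomorphism.  From
* `hred`: reduction of finite-dimensional subspaces preserves the dimension (G2),
* `hFI` : the fundamental inequality `[Fb : k(ρ x)] ≤ [F : K(x)]` (G2),
* Riemann's theorem for `F` and `Fb` (G1), `l(B) ≥ deg B + 1 - g` on `F` (I2), `g ≤ gR(Fb)` (I3)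
we construct the reduction map of places.
-/

set_option autoImplicit false

namespace FA18

open AlgebraicCurve IntermediateField

variable {K F k Fb : Type*} [Field K] [Field F] [Algebra K F] [Field k] [Field Fb] [Algebra k Fb]

/-- `L(C)` is the reduction of `L(B)`. -/
def IsRed (O : ValuationSubring F) (ρ : O →+* Fb) (B : Divisor K F) (C : Divisor k Fb) : Prop :=
  ∀ yb : Fb, yb ∈ riemannRochSpace C ↔ ∃ y : O, (y : F) ∈ riemannRochSpace B ∧ ρ y = yb

/-- The hypotheses of the Deuring reduction. -/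
structure DeuringHyp (K F k Fb : Type*) [Field K] [Field F] [Algebra K F] [Field k] [Field Fb]
    [Algebra k Fb] (O : ValuationSubring F) (ρ : O →+* Fb) (g gF cF gb cb : ℤ) : Prop where
  HF : RFacts K F gF cF
  Hb : RFacts k Fb gb cb
  I2 : ∀ B : Divisor K F,
    Divisor.degree B + 1 - g ≤ (Module.finrank K (riemannRochSpace B) : ℤ)
  I3 : g ≤ gb
  surj : Function.Surjective ρ
  red : ∀ V : Submodule K F, FiniteDimensional K V → ∃ W : Submodule k Fb,
    (∀ yb : Fb, yb ∈ W ↔ ∃ y : O, (y : F) ∈ V ∧ ρ y = yb) ∧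
      Module.finrank k W = Module.finrank K V
  FI : ∀ x : O, Transcendental k (ρ x) → Transcendental K (x : F) ∧
    Module.finrank k⟮ρ x⟯ Fb ≤ Module.finrank K⟮(x : F)⟯ F

theorem mul_mem_L_sub_iff {x : F} (hx : x ≠ 0) {D : Divisor K F} (hD : ∀ v, D v = v.ord x)
    {C : Divisor K F} {w : F} :
    x * w ∈ riemannRochSpace (C - D) ↔ w ∈ riemannRochSpace C := by
  rcases eq_or_ne w 0 with rfl | hw
  · simp
  rw [mem_L_iff (mul_ne_zero hx hw), mem_L_iff hw]
  refine forall_congr' fun v => ?_
  rw [v.ord_mul hx hw, Finsupp.sub_apply, hD]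
  constructor <;> intro h <;> omega

theorem degree_mapDomain' (h1 : ∀ v : Place K F, v.deg = 1) (h2 : ∀ v : Place k Fb, v.deg = 1)
    (r : Place K F → Place k Fb) (D : Divisor K F) :
    Divisor.degree (Finsupp.mapDomain r D) = Divisor.degree D := by
  induction D using Finsupp.induction_linear with
  | zero => simp
  | add f g hf hg => rw [Finsupp.mapDomain_add, map_add, map_add, hf, hg]
  | single v n => rw [Finsupp.mapDomain_single, Divisor.degree_single, Divisor.degree_single, h1, h2]

theorem isUnit_of_map_ne_zero {O : ValuationSubring F} {ρ : O →+* Fb}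
    (hρ : Function.Surjective ρ) {x : O} (hx : ρ x ≠ 0) : IsUnit x := by
  have hmax : (RingHom.ker ρ).IsMaximal := RingHom.ker_isMaximal_of_surjective ρ hρ
  have := IsLocalRing.eq_maximalIdeal hmax
  by_contra hu
  have h1 : x ∈ IsLocalRing.maximalIdeal O := (IsLocalRing.mem_maximalIdeal x).2 hu
  rw [← this] at h1
  exact hx h1

variable {O : ValuationSubring F} {ρ : O →+* Fb} {g gF cF gb cb : ℤ}

section

variable [IsAlgClosed k] (H : DeuringHyp K F k Fb O ρ g gF cF gb cb)
include H

/-- The key step: for `B ≥ 0` of large degree the reduction of `L(B)` is `L(C)` with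
`deg C = deg B`; moreover the genera agree. -/
theorem DeuringHyp.key (B : Divisor K F) (hB0 : 0 ≤ B) (hB : cb + g ≤ Divisor.degree B) :
    gb = g ∧ ∃ C : Divisor k Fb, 0 ≤ C ∧ Divisor.degree C = Divisor.degree B ∧ IsRed O ρ B C := by
  haveI := H.HF.finDim B
  obtain ⟨W, hW, hWr⟩ := H.red (riemannRochSpace B) inferInstance
  have h1W : (1 : Fb) ∈ W := (hW 1).2 ⟨1, by simpa using one_mem_L hB0, map_one ρ⟩
  have hpos : 0 < Module.finrank k W := by
    rw [hWr]
    exact Module.finrank_pos_iff_exists_ne_zero.2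
      ⟨⟨1, one_mem_L hB0⟩, fun h => one_ne_zero (congrArg Subtype.val h)⟩
  haveI : FiniteDimensional k W := Module.finite_of_finrank_pos hpos
  have hWfg : W.FG := (Submodule.fg_iff_finiteDimensional W).2 inferInstance
  obtain ⟨C, hC0, hWC, hsharp⟩ := H.Hb.exists_minDiv W hWfg h1W
  obtain ⟨yb, hybW, hyb0, hyb⟩ := H.Hb.exists_generic W h1W C hC0 hWC hsharp
  -- `deg C ≤ deg B`
  have hdeg : Divisor.degree C ≤ Divisor.degree B := by
    by_cases hC : C = 0
    · rw [hC, map_zero]; exact degree_nonneg' H.HF.deg_one hB0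
    obtain ⟨Q, hQ⟩ := Finsupp.ne_iff.1 hC
    have htr : Transcendental k yb := by
      refine FAFF.transcendental_of_notMem_range ?_
      rintro ⟨a, rfl⟩
      apply hQ
      rw [hyb Q, FAFF.ord_algebraMap]; simp
    obtain ⟨y, hyB, rfl⟩ := (hW yb).1 hybW
    obtain ⟨htrF, hFI⟩ := H.FI y htr
    have hy0 : (y : F) ≠ 0 := by
      intro h
      apply hyb0
      have : y = 0 := Subtype.ext h
      rw [this, map_zero]
    obtain ⟨P, hP⟩ := H.HF.exists_poleDiv (y : F) hy0
    have h1 := H.Hb.deg_poles (ρ y) htr C hyb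
    have h2 := H.HF.deg_poles (y : F) htrF P hP
    have h3 : P ≤ B := by
      intro v
      have h4 := (mem_L_iff hy0).1 hyB v
      have h5 := hB0 v
      simp only [Finsupp.coe_zero, Pi.zero_apply] at h5
      rw [hP]
      omega
    have h4 := degree_mono' H.HF.deg_one h3
    have : (Module.finrank k⟮ρ y⟯ Fb : ℤ) ≤ (Module.finrank K⟮(y : F)⟯ F : ℤ) := by
      exact_mod_cast hFI
    omega
  haveI := H.Hb.finDim C
  have hle : (Module.finrank k W : ℤ) ≤ (Module.finrank k (riemannRochSpace C) : ℤ) := by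
    exact_mod_cast Submodule.finrank_mono hWC
  have hI2 := H.I2 B
  have hub := H.Hb.ell_le C hC0
  have hI3 := H.I3
  have hWr' : (Module.finrank k W : ℤ) = (Module.finrank K (riemannRochSpace B) : ℤ) := by
    exact_mod_cast hWr
  have heq := H.Hb.riemann_eq C (by omega)
  have hg : gb = g := by omega
  refine ⟨hg, C, hC0, by omega, ?_⟩
  have hWeq : W = riemannRochSpace C := by
    refine Submodule.eq_of_le_of_finrank_eq hWC ?_
    have : (Module.finrank k W : ℤ) = (Module.finrank k (riemannRochSpace C) : ℤ) := by omega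
    exact_mod_cast this
  intro zb
  rw [← hWeq]
  exact hW zb

/-- `C` is the reduction of the effective divisor `B` of large degree. -/
def Rel (O : ValuationSubring F) (ρ : O →+* Fb) (c0 : ℤ) (B : Divisor K F)
    (C : Divisor k Fb) : Prop :=
  0 ≤ B ∧ c0 ≤ Divisor.degree B ∧ Divisor.degree C = Divisor.degree B ∧ IsRed O ρ B C

variable {c0 : ℤ} (hc1 : cb + g ≤ c0) (hc2 : cb + 1 ≤ c0)

include hc1 in
theorem DeuringHyp.exists_rel {B : Divisor K F} (hB0 : 0 ≤ B) (hB : c0 ≤ Divisor.degree B) :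
    ∃ C : Divisor k Fb, Rel O ρ c0 B C := by
  obtain ⟨-, C, -, hC, hred⟩ := H.key B hB0 (by omega)
  exact ⟨C, hB0, hB, hC, hred⟩

include hc2 in
theorem DeuringHyp.rel_mono {B B' : Divisor K F} {C C' : Divisor k Fb}
    (h : Rel O ρ c0 B C) (h' : Rel O ρ c0 B' C') (hBB : B ≤ B') : C ≤ C' := by
  obtain ⟨-, h2, h3, h4⟩ := h
  obtain ⟨-, -, -, h4'⟩ := h'
  refine H.Hb.le_of_L_le (by omega) ?_
  intro yb hyb
  obtain ⟨y, hy, rfl⟩ := (h4 yb).1 hyb
  exact (h4' _).2 ⟨y, L_mono hBB hy, rfl⟩

include hc2 in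
theorem DeuringHyp.rel_unique {B : Divisor K F} {C C' : Divisor k Fb}
    (h : Rel O ρ c0 B C) (h' : Rel O ρ c0 B C') : C = C' :=
  le_antisymm (H.rel_mono hc2 h h' le_rfl) (H.rel_mono hc2 h' h le_rfl)

include hc1 hc2 in
theorem DeuringHyp.rel_add {B B' : Divisor K F} {C C' : Divisor k Fb}
    (h : Rel O ρ c0 B C) (h' : Rel O ρ c0 B' C') : Rel O ρ c0 (B + B') (C + C') := by
  have hB0 : 0 ≤ B + B' := add_nonneg h.1 h'.1
  have hdeg' : 0 ≤ Divisor.degree B' := degree_nonneg' H.HF.deg_one h'.1
  have hBd : c0 ≤ Divisor.degree (B + B') := by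
    rw [map_add]; have := h.2.1; omega
  obtain ⟨C'', hC''⟩ := H.exists_rel hc1 hB0 hBd
  have hle : C + C' ≤ C'' := by
    intro Q
    obtain ⟨yb, hyb, hyb0, hybQ⟩ := H.Hb.sharp (C := C) (by have := h.2.1; have := h.2.2.1; omega) Q
    obtain ⟨zb, hzb, hzb0, hzbQ⟩ :=
      H.Hb.sharp (C := C') (by have := h'.2.1; have := h'.2.2.1; omega) Q
    obtain ⟨y, hy, rfl⟩ := (h.2.2.2 yb).1 hyb
    obtain ⟨z, hz, rfl⟩ := (h'.2.2.2 zb).1 hzb
    have hmem : ρ y * ρ z ∈ riemannRochSpace C'' :=
      (hC''.2.2.2 _).2 ⟨y * z, by simpa using mul_mem_L hy hz, map_mul ρ y z⟩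
    have := (mem_L_iff (mul_ne_zero hyb0 hzb0)).1 hmem Q
    rw [Q.ord_mul hyb0 hzb0] at this
    rw [Finsupp.add_apply]
    omega
  have heq : C + C' = C'' := by
    refine eq_of_le_of_degree_eq' H.Hb.deg_one hle ?_
    rw [map_add, h.2.2.1, h'.2.2.1, hC''.2.2.1, map_add]
  rw [heq]; exact hC''

include hc1 hc2 in
/-- The reduction of a place. -/
theorem DeuringHyp.exists_place (hne : Nonempty (Place K F)) (P : Place K F) :
    ∃ Q : Place k Fb, ∀ (B : Divisor K F) (C : Divisor k Fb), Rel O ρ c0 B C →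
      Rel O ρ c0 (B + Finsupp.single P 1) (C + Finsupp.single Q 1) := by
  obtain ⟨P0⟩ := hne
  have hsP : (0 : Divisor K F) ≤ Finsupp.single P 1 := by
    intro v; simp only [Finsupp.coe_zero, Pi.zero_apply]
    exact Finsupp.single_nonneg.2 zero_le_one v
  have hdP : Divisor.degree (Finsupp.single P (1 : ℤ)) = 1 := by
    rw [Divisor.degree_single, H.HF.deg_one]; simp
  -- a big divisor
  have hB0 : (0 : Divisor K F) ≤ Finsupp.single P0 (c0.toNat : ℤ) := by
    intro v; simp only [Finsupp.coe_zero, Pi.zero_apply]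
    exact Finsupp.single_nonneg.2 (by positivity) v
  have hB0d : c0 ≤ Divisor.degree (Finsupp.single P0 (c0.toNat : ℤ)) := by
    rw [Divisor.degree_single, H.HF.deg_one]; simp
  obtain ⟨C0, hC0⟩ := H.exists_rel hc1 hB0 hB0d
  have key : ∀ (B : Divisor K F) (C : Divisor k Fb), Rel O ρ c0 B C →
      ∃ C1 : Divisor k Fb, Rel O ρ c0 (B + Finsupp.single P 1) C1 := by
    intro B C h
    refine H.exists_rel hc1 (add_nonneg h.1 hsP) ?_
    rw [map_add, hdP]; have := h.2.1; omega
  obtain ⟨C1, hC1⟩ := key _ _ hC0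
  have hle : C0 ≤ C1 := H.rel_mono hc2 hC0 hC1 (le_add_of_nonneg_right hsP)
  obtain ⟨Q, hQ⟩ := eq_single_of_degree_eq_one' H.Hb.deg_one (sub_nonneg.2 hle) (by
    rw [map_sub, hC1.2.2.1, hC0.2.2.1, map_add, hdP]; ring)
  have hC1' : C1 = C0 + Finsupp.single Q 1 := by rw [← hQ]; abel
  refine ⟨Q, fun B C h => ?_⟩
  obtain ⟨C2, hC2⟩ := key B C h
  have h1 := H.rel_add hc1 hc2 hC2 hC0
  have h2 := H.rel_add hc1 hc2 h hC1
  have hBB : B + Finsupp.single P 1 + Finsupp.single P0 (c0.toNat : ℤ) =
      B + (Finsupp.single P0 (c0.toNat : ℤ) + Finsupp.single P 1) := by abel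
  rw [hBB] at h1
  have h3 := H.rel_unique hc2 h1 h2
  have : C2 = C + Finsupp.single Q 1 := by
    rw [hC1'] at h3
    have h4 : C2 + C0 = (C + Finsupp.single Q 1) + C0 := by rw [h3]; abel
    exact add_right_cancel h4
  rw [← this]; exact hC2

include hc1 hc2 in
/-- **Deuring reduction** (package G3). -/
theorem DeuringHyp.main (hne : Nonempty (Place K F)) :
    ∃ r : Place K F → Place k Fb, Function.Surjective r ∧
      (∀ B : Divisor K F, 0 ≤ B → c0 ≤ Divisor.degree B →
        IsRed O ρ B (Finsupp.mapDomain r B)) ∧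
      (∀ x : O, IsUnit x → ∀ D : Divisor K F, (∀ P, D P = P.ord (x : F)) →
        ∀ Q : Place k Fb, Finsupp.mapDomain r D Q = Q.ord (ρ x)) := by
  choose r hr using H.exists_place hc1 hc2 hne
  have step_n : ∀ (P : Place K F) (n : ℕ) (B : Divisor K F) (C : Divisor k Fb), Rel O ρ c0 B C →
      Rel O ρ c0 (B + Finsupp.single P (n : ℤ)) (C + Finsupp.single (r P) (n : ℤ)) := by
    intro P n
    induction n with
    | zero => intro B C h; simpa using h
    | succ n ih =>
      intro B C h
      have := hr P _ _ (ih B C h)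
      rw [add_assoc, add_assoc, ← Finsupp.single_add, ← Finsupp.single_add] at this
      simpa using this
  have step_E : ∀ E : Divisor K F, 0 ≤ E → ∀ (B : Divisor K F) (C : Divisor k Fb),
      Rel O ρ c0 B C → Rel O ρ c0 (B + E) (C + Finsupp.mapDomain r E) := by
    intro E
    induction E using Finsupp.induction with
    | zero => intro _ B C h; simpa using h
    | single_add a b f ha hb ih =>
      intro hE B C h
      have hfa : f a = 0 := by simpa using ha
      have hb0 : 0 ≤ b := by
        have := hE a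
        simpa [hfa] using this
      have hf0 : 0 ≤ f := by
        intro v
        by_cases hv : v = a
        · subst hv; simp [hfa]
        · have := hE v
          simpa [Finsupp.single_eq_of_ne hv] using this
      obtain ⟨n, rfl⟩ := Int.eq_ofNat_of_zero_le hb0
      have := ih hf0 _ _ (step_n a n B C h)
      rw [Finsupp.mapDomain_add, Finsupp.mapDomain_single, ← add_assoc, ← add_assoc]
      exact this
  have eq_map : ∀ (B : Divisor K F) (C : Divisor k Fb), Rel O ρ c0 B C →
      C = Finsupp.mapDomain r B := by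
    intro B C h
    exact add_left_cancel (H.rel_unique hc2 (H.rel_add hc1 hc2 h h) (step_E B h.1 B C h))
  have lift : ∀ B : Divisor K F, 0 ≤ B → c0 ≤ Divisor.degree B →
      IsRed O ρ B (Finsupp.mapDomain r B) := by
    intro B hB0 hB
    obtain ⟨C, hC⟩ := H.exists_rel hc1 hB0 hB
    rw [← eq_map B C hC]
    exact hC.2.2.2
  have R1 : ∀ x : O, IsUnit x → ∀ D : Divisor K F, (∀ P, D P = P.ord (x : F)) →
      ∀ Q : Place k Fb, Finsupp.mapDomain r D Q = Q.ord (ρ x) := by
    intro x hx D hD Q
    obtain ⟨P0⟩ := hne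
    have hx0 : (x : F) ≠ 0 := by
      intro h
      have : x = 0 := Subtype.ext h
      rw [this] at hx
      exact not_isUnit_zero hx
    have hxb0 : ρ x ≠ 0 := (hx.map ρ).ne_zero
    have hDdeg : Divisor.degree D = 0 := by
      obtain ⟨D', hD', hD'0⟩ := H.HF.exists_div (x : F) hx0
      have : D = D' := by ext v; rw [hD, hD']
      rw [this, hD'0]
    obtain ⟨Db, hDb, -⟩ := H.Hb.exists_div (ρ x) hxb0
    set B1 : Divisor K F := Finsupp.single P0 (c0.toNat : ℤ) + D.mapRange (fun n => |n|) abs_zero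
      with hB1
    have hs0 : (0 : Divisor K F) ≤ Finsupp.single P0 (c0.toNat : ℤ) := by
      intro v; simp only [Finsupp.coe_zero, Pi.zero_apply]
      exact Finsupp.single_nonneg.2 (by positivity) v
    have hB1v : ∀ v, |D v| ≤ B1 v := by
      intro v
      have := hs0 v
      simp only [Finsupp.coe_zero, Pi.zero_apply] at this
      rw [hB1, Finsupp.add_apply, Finsupp.mapRange_apply]
      omega
    have hB10 : 0 ≤ B1 := by
      intro v
      have := hB1v v
      have := abs_nonneg (D v)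
      simp only [Finsupp.coe_zero, Pi.zero_apply]; omega
    have hB1D0 : 0 ≤ B1 + D := by
      intro v
      have := hB1v v
      have := neg_abs_le (D v)
      simp only [Finsupp.coe_zero, Pi.zero_apply, Finsupp.coe_add, Pi.add_apply]; omega
    have hB1deg : c0 ≤ Divisor.degree B1 := by
      have h1 : Finsupp.single P0 (c0.toNat : ℤ) ≤ B1 := by
        intro v
        rw [hB1, Finsupp.add_apply, Finsupp.mapRange_apply]
        have := abs_nonneg (D v)
        omega
      have h2 := degree_mono' H.HF.deg_one h1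
      rw [Divisor.degree_single, H.HF.deg_one] at h2
      have := Int.self_le_toNat c0
      simp only [Nat.cast_one, mul_one] at h2
      omega
    have h1 := lift B1 hB10 hB1deg
    have h2 := lift (B1 + D) hB1D0 (by rw [map_add, hDdeg]; omega)
    have hL : riemannRochSpace (Finsupp.mapDomain r (B1 + D) - Db) =
        riemannRochSpace (Finsupp.mapDomain r B1) := by
      ext zb
      have hz : zb = ρ x * (zb / ρ x) := by field_simp
      constructor
      · intro hzb
        rw [hz, mul_mem_L_sub_iff hxb0 hDb] at hzb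
        obtain ⟨y, hy, hyz⟩ := (h2 _).1 hzb
        refine (h1 zb).2 ⟨x * y, ?_, by rw [map_mul, hyz, ← hz]⟩
        have := (mul_mem_L_sub_iff hx0 hD (C := B1 + D) (w := (y : F))).2 hy
        simpa using this
      · intro hzb
        obtain ⟨y, hy, hyz⟩ := (h1 zb).1 hzb
        obtain ⟨u, rfl⟩ := hx
        rw [hz, mul_mem_L_sub_iff hxb0 hDb]
        refine (h2 _).2 ⟨((u⁻¹ : Oˣ) : O) * y, ?_, ?_⟩
        · refine (mul_mem_L_sub_iff hx0 hD (C := B1 + D)).1 ?_
          have : (((u : O) : F)) * ((((u⁻¹ : Oˣ) : O) * y : O) : F) = (y : F) := by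
            have h3 : (u : O) * (((u⁻¹ : Oˣ) : O) * y) = y := by
              rw [← mul_assoc, Units.mul_inv, one_mul]
            exact_mod_cast congrArg Subtype.val h3
          rw [this]
          simpa using hy
        · rw [map_mul, hyz]
          have h3 : ρ (u : O) * ρ ((u⁻¹ : Oˣ) : O) = 1 := by
            rw [← map_mul, Units.mul_inv, map_one]
          field_simp
          rw [mul_comm, ← mul_assoc, h3, one_mul]
    have hdm := degree_mapDomain' H.HF.deg_one H.Hb.deg_one r
    have hDbdeg : Divisor.degree Db = 0 := by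
      obtain ⟨D', hD', hD'0⟩ := H.Hb.exists_div (ρ x) hxb0
      have : Db = D' := by ext v; rw [hDb, hD']
      rw [this, hD'0]
    have hinj := H.Hb.L_injective (by rw [map_sub, hdm, map_add, hDdeg, hDbdeg]; omega)
      (by rw [hdm]; omega) hL
    rw [Finsupp.mapDomain_add] at hinj
    have : Finsupp.mapDomain r D = Db := by
      have h3 : Finsupp.mapDomain r B1 + Finsupp.mapDomain r D =
          Finsupp.mapDomain r B1 + Db := by
        conv_rhs => rw [← hinj]
        abel
      exact add_left_cancel h3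
    rw [this, hDb]
  refine ⟨r, ?_, lift, R1⟩
  intro Q
  obtain ⟨π, hπ⟩ := FAFF.exists_irreducible Q
  obtain ⟨x, hx⟩ := H.surj (π : Fb)
  have hπ0 := FAFF.coe_ne_zero_of_irreducible Q hπ
  have hxu : IsUnit x := isUnit_of_map_ne_zero H.surj (by rw [hx]; exact hπ0)
  have hx0 : (x : F) ≠ 0 := by
    intro h
    have : x = 0 := Subtype.ext h
    rw [this] at hxu
    exact not_isUnit_zero hxu
  obtain ⟨D, hD, -⟩ := H.HF.exists_div (x : F) hx0
  have h1 := R1 x hxu D hD Q
  rw [hx, Q.ord_coe_irreducible hπ] at h1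
  classical
  have h2 : Q ∈ (Finsupp.mapDomain r D).support := by
    rw [Finsupp.mem_support_iff, h1]; exact one_ne_zero
  obtain ⟨P, -, hP⟩ := Finset.mem_image.1 (Finsupp.mapDomain_support h2)
  exact ⟨P, hP⟩

include hc2 in
/-- Functions with a single simple pole in a residue disc (form (2) of helper7's G4 interface). -/
theorem DeuringHyp.exists_polar {r : Place K F → Place k Fb} (hsurj : Function.Surjective r)
    (lift : ∀ B : Divisor K F, 0 ≤ B → c0 ≤ Divisor.degree B →
      IsRed O ρ B (Finsupp.mapDomain r B)) (P : Place K F) :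
    ∃ S : O, (S : F) ≠ 0 ∧ -1 ≤ P.ord (S : F) ∧
      (∀ P' : Place K F, P' ≠ P → r P' = r P → 0 ≤ P'.ord (S : F)) ∧
      ρ S ≠ 0 ∧ (r P).ord (ρ S) = -1 := by
  classical
  -- a second place of `Fb`
  obtain ⟨Qb, hQb⟩ : ∃ Qb : Place k Fb, Qb ≠ r P := by
    obtain ⟨π, hπ⟩ := FAFF.exists_irreducible (r P)
    have hπ0 := FAFF.coe_ne_zero_of_irreducible (r P) hπ
    obtain ⟨D, hD, hD0⟩ := H.Hb.exists_div (π : Fb) hπ0
    by_contra hcon
    push Not at hcon
    have : D = Finsupp.single (r P) 1 := by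
      ext v
      rw [hcon v, hD, (r P).ord_coe_irreducible hπ]; simp
    rw [this, Divisor.degree_single, H.Hb.deg_one] at hD0
    simp at hD0
  obtain ⟨Y, hY⟩ := hsurj Qb
  have hYP : r Y ≠ r P := by rw [hY]; exact hQb
  have hYP' : Y ≠ P := fun h => hYP (by rw [h])
  set B : Divisor K F := Finsupp.single Y (c0.toNat : ℤ) + Finsupp.single P 1 with hB
  have hB0 : 0 ≤ B := by
    refine add_nonneg ?_ ?_ <;> intro v <;> simp only [Finsupp.coe_zero, Pi.zero_apply]
    · exact Finsupp.single_nonneg.2 (by positivity) v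
    · exact Finsupp.single_nonneg.2 zero_le_one v
  have hBdeg : Divisor.degree B = (c0.toNat : ℤ) + 1 := by
    rw [hB, map_add, Divisor.degree_single, Divisor.degree_single, H.HF.deg_one, H.HF.deg_one]
    simp
  have hc0 := Int.self_le_toNat c0
  have hred := lift B hB0 (by omega)
  have hdm := degree_mapDomain' H.HF.deg_one H.Hb.deg_one r B
  obtain ⟨Sb, hSb, hSb0, hSbQ⟩ := H.Hb.sharp (C := Finsupp.mapDomain r B) (by omega) (r P)
  obtain ⟨S, hS, rfl⟩ := (hred Sb).1 hSb
  have hS0 : (S : F) ≠ 0 := by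
    intro h
    have : S = 0 := Subtype.ext h
    rw [this, map_zero] at hSb0
    exact hSb0 rfl
  have hSv := (mem_L_iff hS0).1 hS
  refine ⟨S, hS0, ?_, ?_, hSb0, ?_⟩
  · have := hSv P
    rw [hB, Finsupp.add_apply, Finsupp.single_eq_of_ne hYP'.symm, Finsupp.single_eq_same] at this
    omega
  · intro P' hP' hrP'
    have hP'Y : P' ≠ Y := fun h => hYP (by rw [← h, hrP'])
    have := hSv P'
    rw [hB, Finsupp.add_apply, Finsupp.single_eq_of_ne hP'Y, Finsupp.single_eq_of_ne hP'] at this
    omega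
  · rw [hSbQ, hB, Finsupp.mapDomain_add, Finsupp.mapDomain_single, Finsupp.mapDomain_single,
      Finsupp.add_apply, Finsupp.single_eq_of_ne hYP.symm, Finsupp.single_eq_same]
    simp

end

end FA18
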