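import Fermat.Agent.Red.G4Main
import Fermat.Agent.Red.DeuringB

/-!
# S18: Theorem G = G3 (Deuring reduction) + G4 (injectivity)
-/

set_option autoImplicit false

namespace FA18.G4

open AlgebraicCurve

variable {K F k Fb : Type*} [Field K] [Field F] [Algebra K F] [Field k] [Field Fb] [Algebra k Fb]

/-- places of degree one have residue field `K`. -/
theorem hasValues_of_deg_one (h1 : ∀ v : Place K F, v.deg = 1) : HasValues K F := by
  intro P y hy
  rcases eq_or_ne y 0 with rfl | hy0
  · exact ⟨0, Or.inl (by simp)⟩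
  have hmem : y ∈ P.toValuationSubring := (FAFF.mem_iff_ord_nonneg P hy0).2 hy
  have hfr : Module.finrank K P.ResidueField = 1 := h1 P
  obtain ⟨c, hc⟩ := (finrank_eq_one_iff_of_nonzero' (1 : P.ResidueField) one_ne_zero).1 hfr
    (IsLocalRing.residue _ ⟨y, hmem⟩)
  refine ⟨c, ?_⟩
  by_cases hyc : y = algebraMap K F c
  · exact Or.inl hyc
  right
  have hne : y - algebraMap K F c ≠ 0 := sub_ne_zero.2 hyc
  have hmem' : y - algebraMap K F c ∈ P.toValuationSubring :=
    P.toValuationSubring.sub_mem hmem (P.algebraMap_mem' c)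
  have h0 : 0 ≤ P.ord (y - algebraMap K F c) := (FAFF.mem_iff_ord_nonneg P hne).1 hmem'
  rcases h0.lt_or_eq with h | h
  · exact h
  exfalso
  -- then `y - c` is a unit, but its residue is zero
  have hinv : (y - algebraMap K F c)⁻¹ ∈ P.toValuationSubring := by
    rw [FAFF.mem_iff_ord_nonneg P (inv_ne_zero hne), P.ord_inv, ← h]
    simp
  have hunit : IsUnit (⟨y - algebraMap K F c, hmem'⟩ : P.toValuationSubring) := by
    refine IsUnit.of_mul_eq_one ⟨(y - algebraMap K F c)⁻¹, hinv⟩ (Subtype.ext ?_)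
    show (y - algebraMap K F c) * (y - algebraMap K F c)⁻¹ = 1
    exact mul_inv_cancel₀ hne
  have hres : IsLocalRing.residue P.toValuationSubring ⟨y - algebraMap K F c, hmem'⟩ = 0 := by
    have e : (⟨y - algebraMap K F c, hmem'⟩ : P.toValuationSubring)
        = ⟨y, hmem⟩ - algebraMap K P.toValuationSubring c := Subtype.ext rfl
    rw [e, map_sub, ← hc, Algebra.smul_def, mul_one]
    exact sub_eq_zero.2 rfl
  rw [IsLocalRing.residue_eq_zero_iff] at hres
  exact (IsLocalRing.mem_maximalIdeal _).1 hres hunit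

theorem degree_sumPts (h1 : ∀ v : Place K F, v.deg = 1) (s : Finset (Place K F)) :
    Divisor.degree (sumPts s) = s.card := by
  rw [sumPts, map_sum]
  simp [h1]

theorem sumPts_nonneg (s : Finset (Place K F)) : 0 ≤ sumPts s := by
  classical
  intro v
  rw [sumPts_apply]
  split_ifs <;> simp

/-- there are places outside any finite set. -/
theorem exists_notMem_of_RFacts [Infinite K] {gR c : ℤ} (H : RFacts K F gR c)
    (hne : Nonempty (Place K F)) (s : Finset (Place K F)) : ∃ Q : Place K F, Q ∉ s := by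
  classical
  by_contra hcon
  push Not at hcon
  obtain ⟨Q0⟩ := hne
  have hcard : 1 ≤ s.card := Finset.card_pos.2 ⟨Q0, hcon Q0⟩
  set N : ℕ := (max (c + 1) 1).toNat with hN
  have hN1 : (1 : ℤ) ≤ N := by rw [hN]; omega
  have hNc : c + 1 ≤ (N : ℤ) := by rw [hN]; omega
  set C : Divisor K F := (N : ℤ) • sumPts s with hC
  have hC0 : 0 ≤ C := smul_nonneg (by omega) (sumPts_nonneg s)
  have hCdeg : Divisor.degree C = N * s.card := by
    rw [hC, map_zsmul, degree_sumPts H.deg_one, smul_eq_mul]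
  have hCdeg' : (N : ℤ) ≤ Divisor.degree C := by
    rw [hCdeg]
    have : (1 : ℤ) ≤ s.card := by exact_mod_cast hcard
    nlinarith
  obtain ⟨y, -, hy0, hy⟩ := H.exists_generic (riemannRochSpace C) (one_mem_L hC0) C hC0 le_rfl
    (fun Q => H.sharp (by omega) Q)
  obtain ⟨D, hD, hD0⟩ := H.exists_div y hy0
  have hDC : D = -C := by
    ext Q
    have h1 := hy Q
    have h2 : C Q = N := by
      rw [hC, Finsupp.smul_apply, sumPts_apply, if_pos (hcon Q)]
      simp
    rw [Finsupp.neg_apply, hD]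
    omega
  rw [hDC, map_neg] at hD0
  omega

variable {A : ValuationSubring K} {π : A →+* k} {O : ValuationSubring F} {ρ : O →+* Fb}

/-- **Theorem G** (abstract good reduction ⇒ injectivity of reduction on prime-to-`ℓ` torsion). -/
theorem theoremG [IsAlgClosed K] [IsAlgClosed k] {g gF cF gb cb : ℤ}
    (H : DeuringHyp K F k Fb O ρ g gF cF gb cb) (hB : GBase A π O ρ)
    (s : Finset (Place k Fb)) (hs : (s.card : ℤ) = g)
    (hI3 : Module.finrank k (riemannRochSpace (sumPts s)) = 1)
    (m : ℕ) (hm : (m : k) ≠ 0) {f : F} (hf : Rd O ρ f 1)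
    (hmf : ∀ P : Place K F, (m : ℤ) ∣ P.ord f) : ∃ t : F, t ^ m = f := by
  classical
  have hm0 : m ≠ 0 := by rintro rfl; simp at hm
  have hdiv : HasPrincipalDivisors K F := ⟨H.HF.exists_div⟩
  by_cases hne : Nonempty (Place K F)
  swap
  · -- no places: `F = L(0)` is finite over `K`
    have htop : riemannRochSpace (0 : Divisor K F) = ⊤ := by
      rw [eq_top_iff]
      intro x _
      rw [mem_riemannRochSpace_iff]
      intro v
      exact absurd ⟨v⟩ hne
    have := H.HF.finDim 0
    have : FiniteDimensional K F := by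
      have : FiniteDimensional K (⊤ : Submodule K F) := htop ▸ H.HF.finDim 0
      exact Module.Finite.equiv (Submodule.topEquiv (R := K) (M := F))
    have : Algebra.IsIntegral K F := Algebra.IsIntegral.of_finite K F
    obtain ⟨c, rfl⟩ := (IsAlgClosed.algebraMap_bijective_of_isIntegral (k := K) (K := F)).2 f
    obtain ⟨s1, hs1⟩ := IsAlgClosed.exists_pow_nat_eq c (Nat.pos_of_ne_zero hm0)
    exact ⟨algebraMap K F s1, by rw [← map_pow, hs1]⟩
  set c0 : ℤ := max (cb + g) (cb + 1) with hc0
  have hc1 : cb + g ≤ c0 := le_max_left _ _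
  have hc2 : cb + 1 ≤ c0 := le_max_right _ _
  obtain ⟨r, hr, hlift, hR1⟩ := H.main hc1 hc2 hne
  have hR : IsR1 O ρ r := by
    rintro x xb ⟨hx, rfl⟩ hxb D hD Q
    exact hR1 ⟨x, hx⟩ (isUnit_of_map_ne_zero H.surj hxb) D hD Q
  have hS : HasInvParam O ρ r := by
    intro P
    obtain ⟨S, -, h1, h2, -, h3⟩ := H.exists_polar hc2 hr hlift P
    exact ⟨S, ρ S, ⟨S.2, rfl⟩, h1, fun P' h h' => h2 P' h' h, by omega⟩
  have hneb : Nonempty (Place k Fb) := hne.map r
  refine G4_core hB hR hr (hasValues_of_deg_one H.HF.deg_one) hS H.HF.deg_one s ?_ ?_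
    (exists_notMem_of_RFacts H.Hb hneb s) m hm hf hmf
  · intro B hBdeg
    have h1 := H.I2 B
    have h2 : riemannRochSpace B ≠ ⊥ := by
      intro hbot
      rw [hbot, finrank_bot] at h1
      push_cast at h1
      omega
    obtain ⟨x, hx, hx0⟩ := Submodule.exists_mem_ne_zero_of_ne_bot h2
    exact ⟨x, hx, hx0⟩
  · intro y hy
    have h1 : (1 : Fb) ∈ riemannRochSpace (sumPts s) := one_mem_L (sumPts_nonneg s)
    obtain ⟨c, hc⟩ := (finrank_eq_one_iff_of_nonzero'
      (⟨1, h1⟩ : riemannRochSpace (sumPts s)) (by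
        intro h; exact one_ne_zero (congrArg Subtype.val h))).1 hI3 ⟨y, hy⟩
    refine ⟨c, ?_⟩
    have := congrArg Subtype.val hc
    simp only [Submodule.coe_smul] at this
    rw [← this, Algebra.smul_def, mul_one]

end FA18.G4
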