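import Fermat.Agent.Red.G4Basic

/-!
# S18, package G4: consequences of (R1)
-/

set_option autoImplicit false

namespace FA18.G4

open AlgebraicCurve

variable {K F k Fb : Type*} [Field K] [Field F] [Algebra K F] [Field k] [Field Fb] [Algebra k Fb]

/-- The basic reduction data used by G4 (in relational form). -/
structure GBase (A : ValuationSubring K) (π : A →+* k) (O : ValuationSubring F)
    (ρ : O →+* Fb) : Prop where
  surj : Function.Surjective ρ
  surjπ : Function.Surjective π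
  const : ∀ a : A, Rd O ρ (algebraMap K F a) (algebraMap k Fb (π a))
  inter : ∀ c : K, algebraMap K F c ∈ O → c ∈ A
  scale : ∀ x : F, x ≠ 0 → ∃ c : K, c ≠ 0 ∧ ∃ xb : Fb, xb ≠ 0 ∧ Rd O ρ (algebraMap K F c * x) xb

/-- (R1): the reduction map on places is compatible with divisors of units of `O`. -/
def IsR1 (O : ValuationSubring F) (ρ : O →+* Fb) (r : Place K F → Place k Fb) : Prop :=
  ∀ (x : F) (xb : Fb), Rd O ρ x xb → xb ≠ 0 → ∀ D : Divisor K F, (∀ P, D P = P.ord x) →
    ∀ Q, Finsupp.mapDomain r D Q = Q.ord xb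

variable {A : ValuationSubring K} {π : A →+* k} {O : ValuationSubring F} {ρ : O →+* Fb}

namespace GBase

theorem const_inv_of_notMem (hB : GBase A π O ρ) {c : K} (hc : c ∉ A) :
    Rd O ρ (algebraMap K F c⁻¹) 0 := by
  rw [map_inv₀]
  exact Rd.of_notMem hB.surj fun h => hc (hB.inter c h)

theorem const' (hB : GBase A π O ρ) {c : K} (hc : c ∈ A) :
    Rd O ρ (algebraMap K F c) (algebraMap k Fb (π ⟨c, hc⟩)) := hB.const ⟨c, hc⟩

/-- ultrametric lemma, asymmetric form. -/
theorem mem_of_indep_aux (hB : GBase A π O ρ) {H G : F} {Hb Gb φb : Fb} (hH : Rd O ρ H Hb)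
    (hG : Rd O ρ G Gb)
    (hind : ∀ d : k, Hb + algebraMap k Fb d * Gb ≠ 0)
    {α β : K} (hαβ : A.valuation β ≤ A.valuation α)
    (hφ : Rd O ρ (algebraMap K F α * H + algebraMap K F β * G) φb) : α ∈ A := by
  by_contra hα
  have hα0 : α ≠ 0 := fun h => hα (h ▸ A.zero_mem)
  have h1 : β * α⁻¹ ∈ A := by
    rw [← A.valuation_le_one_iff, map_mul, map_inv₀]
    have hv : A.valuation α ≠ 0 := (Valuation.ne_zero_iff _).2 hα0
    calc A.valuation β * (A.valuation α)⁻¹ ≤ A.valuation α * (A.valuation α)⁻¹ :=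
          mul_le_mul_left hαβ _
      _ = 1 := mul_inv_cancel₀ hv
  have h2 := (hB.const_inv_of_notMem hα).mul hφ
  have h3 := hH.add ((hB.const' h1).mul hG)
  have h4 : algebraMap K F α⁻¹ * (algebraMap K F α * H + algebraMap K F β * G)
      = H + algebraMap K F (β * α⁻¹) * G := by
    have : algebraMap K F α ≠ 0 := by simpa using hα0
    rw [map_mul, map_inv₀]
    field_simp
  rw [h4] at h2
  have h5 := h2.unique h3
  rw [zero_mul] at h5
  exact hind _ h5.symm

/-- ultrametric lemma: an `O`-integral combination of two elements with linearly independent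
reductions has `A`-integral coefficients. -/
theorem mem_of_indep (hB : GBase A π O ρ) {H G : F} {Hb Gb φb : Fb} (hH : Rd O ρ H Hb)
    (hG : Rd O ρ G Gb)
    (hind : ∀ d : k, Hb + algebraMap k Fb d * Gb ≠ 0)
    (hind' : ∀ d : k, Gb + algebraMap k Fb d * Hb ≠ 0)
    {α β : K} (hφ : Rd O ρ (algebraMap K F α * H + algebraMap K F β * G) φb) :
    ∃ (hα : α ∈ A) (hβ : β ∈ A),
      φb = algebraMap k Fb (π ⟨α, hα⟩) * Hb + algebraMap k Fb (π ⟨β, hβ⟩) * Gb := by
  have key : α ∈ A ∧ β ∈ A := by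
    rcases le_total (A.valuation β) (A.valuation α) with h | h
    · have hα := hB.mem_of_indep_aux hH hG hind h hφ
      refine ⟨hα, ?_⟩
      rw [← A.valuation_le_one_iff] at hα ⊢
      exact h.trans hα
    · rw [add_comm] at hφ
      have hβ := hB.mem_of_indep_aux hG hH hind' h hφ
      refine ⟨?_, hβ⟩
      rw [← A.valuation_le_one_iff] at hβ ⊢
      exact h.trans hβ
  refine ⟨key.1, key.2, ?_⟩
  exact hφ.unique (((hB.const' key.1).mul hH).add ((hB.const' key.2).mul hG))

end GBase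

/-! ### consequences of (R1) -/

section R1

variable {r : Place K F → Place k Fb}

/-- lower bounds on the disc give a lower bound for the reduction. -/
theorem IsR1.le_ord [hdiv : HasPrincipalDivisors K F] (hR : IsR1 O ρ r) {x : F} {xb : Fb}
    (hx : Rd O ρ x xb) (hxb : xb ≠ 0) (D' : Divisor K F) (Q : Place k Fb)
    (h : ∀ P, r P = Q → D' P ≤ P.ord x) : Finsupp.mapDomain r D' Q ≤ Q.ord xb := by
  obtain ⟨D, hD, -⟩ := hdiv.exists_divisor x (hx.ne_zero hxb)
  rw [← hR x xb hx hxb D hD Q]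
  exact mapDomain_apply_le r D' D Q fun P hP => by rw [hD]; exact h P hP

theorem IsR1.ord_eq [hdiv : HasPrincipalDivisors K F] (hR : IsR1 O ρ r) {x : F} {xb : Fb}
    (hx : Rd O ρ x xb) (hxb : xb ≠ 0) (D' : Divisor K F) (Q : Place k Fb)
    (h : ∀ P, r P = Q → D' P ≤ P.ord x) (he : Finsupp.mapDomain r D' Q = Q.ord xb)
    (P : Place K F) (hP : r P = Q) : P.ord x = D' P := by
  obtain ⟨D, hD, -⟩ := hdiv.exists_divisor x (hx.ne_zero hxb)
  rw [← hR x xb hx hxb D hD Q] at he
  rw [← hD]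
  exact eq_of_mapDomain_apply_eq r D' D Q (fun P hP => by rw [hD]; exact h P hP) he P hP

/-- no pole on the disc: the order at a point of the disc is at most the order of the
reduction. -/
theorem IsR1.ord_le_ord [HasPrincipalDivisors K F] (hR : IsR1 O ρ r) {x : F} {xb : Fb}
    (hx : Rd O ρ x xb) (hxb : xb ≠ 0) (P : Place K F)
    (h : ∀ P', r P' = r P → 0 ≤ P'.ord x) : P.ord x ≤ (r P).ord xb := by
  classical
  have := hR.le_ord hx hxb (Finsupp.single P (P.ord x)) (r P) (fun P' hP' => by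
    rw [Finsupp.single_apply]
    split_ifs with hPP
    · subst hPP; exact le_rfl
    · exact h P' hP')
  rwa [Finsupp.mapDomain_single, Finsupp.single_eq_same] at this

theorem IsR1.ord_nonneg [HasPrincipalDivisors K F] (hR : IsR1 O ρ r) {x : F} {xb : Fb}
    (hx : Rd O ρ x xb) (Q : Place k Fb)
    (h : ∀ P', r P' = Q → 0 ≤ P'.ord x) : 0 ≤ Q.ord xb := by
  rcases eq_or_ne xb 0 with rfl | hxb
  · simp
  have := hR.le_ord hx hxb 0 Q (fun P' hP' => by simpa using h P' hP')
  simpa using this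

/-- The value lemma. -/
theorem IsR1.value [HasPrincipalDivisors K F] (hB : GBase A π O ρ) (hR : IsR1 O ρ r) {y : F}
    {yb : Fb} (hy : Rd O ρ y yb) (P : Place K F) (h : ∀ P', r P' = r P → 0 ≤ P'.ord y) (c : K)
    (hc : 0 < P.ord (y - algebraMap K F c)) :
    ∃ hcA : c ∈ A, yb = algebraMap k Fb (π ⟨c, hcA⟩) ∨
      0 < (r P).ord (yb - algebraMap k Fb (π ⟨c, hcA⟩)) := by
  have hnp : ∀ P', r P' = r P → 0 ≤ P'.ord (y - algebraMap K F c) := fun P' hP' =>
    le_ord_sub_const P' le_rfl c (h P' hP')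
  have hcA : c ∈ A := by
    by_contra hcA
    have hc0 : c ≠ 0 := fun h => hcA (h ▸ A.zero_mem)
    have h1 : Rd O ρ (algebraMap K F c⁻¹ * (y - algebraMap K F c)) (-1) := by
      refine (((hB.const_inv_of_notMem hcA).mul hy).sub Rd.one).congr ?_ (by simp)
      have : algebraMap K F c ≠ 0 := by simpa using hc0
      rw [map_inv₀]
      field_simp
    have h2 := hR.ord_le_ord h1 (by simp) P (fun P' hP' => by
      rw [ord_const_mul P' (inv_ne_zero hc0)]; exact hnp P' hP')
    rw [ord_const_mul P (inv_ne_zero hc0), FAFF.ord_neg, Place.ord_one] at h2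
    omega
  refine ⟨hcA, ?_⟩
  by_cases h0 : yb = algebraMap k Fb (π ⟨c, hcA⟩)
  · exact Or.inl h0
  · right
    have h1 := hy.sub (hB.const' hcA)
    exact hc.trans_le (hR.ord_le_ord h1 (sub_ne_zero.2 h0) P hnp)

end R1

end FA18.G4
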