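import Fermat.Agent.Red.G2Int

/-! S18 / G2 (P4): `(deg)` at `x` does not depend on the reduction; transport along automorphisms. -/

namespace FA18

open Module IntermediateField Polynomial

variable {K F k Fb : Type*} [Field K] [Field F] [Algebra K F] [Field k] [Field Fb] [Algebra k Fb]
variable {A : ValuationSubring K} {π : A →+* k}

/-- every element of `O` is integral over the Gauss ring `O ∩ K(x)` -/
theorem isIntegral_gauss {O : ValuationSubring F} {ρ : O →+* Fb} (hB : RedBase A O π ρ) {x : F}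
    (h0 : HasDeg K k ρ x) {y : F} (hy : y ∈ O) :
    IsIntegral (O.comap (algebraMap K⟮x⟯ F)) y := by
  obtain ⟨n, b, hbO, hbli⟩ := exists_orthonormal_basis hB h0
  obtain ⟨hx, ht, hfd, hdeg⟩ := h0
  set OG : ValuationSubring K⟮x⟯ := O.comap (algebraMap K⟮x⟯ F) with hOG
  set N : Submodule OG F := Submodule.span OG (Set.range b) with hN
  have hNO : ∀ z, z ∈ N → z ∈ O := by
    intro z hz
    induction hz using Submodule.span_induction with
    | mem z hz => obtain ⟨i, rfl⟩ := hz; exact hbO i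
    | zero => exact O.zero_mem
    | add y z _ _ hy hz => exact O.add_mem _ _ hy hz
    | smul a y _ hy => exact O.mul_mem _ _ a.2 hy
  have hON : ∀ z, z ∈ O → z ∈ N := by
    intro z hz
    have hsum := b.sum_repr z
    have hcoef := coeff_mem_of_sum_mem hB hx ht hbO hbli (fun i => b.repr z i)
      (by rw [hsum]; exact hz)
    rw [← hsum]
    refine sum_mem fun i _ => ?_
    have : (b.repr z i) • b i = (⟨b.repr z i, hcoef i⟩ : OG) • b i := rfl
    rw [this]
    exact Submodule.smul_mem _ _ (Submodule.subset_span ⟨i, rfl⟩)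
  refine isIntegral_of_smul_mem_submodule N ?_ (Submodule.fg_span (Set.finite_range b)) y ?_
  · intro hbot
    have h1 : (1 : F) ∈ N := hON 1 O.one_mem
    rw [hbot, Submodule.mem_bot] at h1
    exact one_ne_zero h1
  · intro z hz
    exact hON _ (O.mul_mem _ _ hy (hNO z hz))

section Compare

variable {O1 O2 : ValuationSubring F} {ρ1 : O1 →+* Fb} {ρ2 : O2 →+* Fb}

theorem aeval_mem_of_mem (h1 : RedBase A O1 π ρ1) (h2 : RedBase A O2 π ρ2) {x : F}
    (hx1 : x ∈ O1) (hx2 : x ∈ O2) (ht1 : Transcendental k (ext0 O1 ρ1 x)) (q : K[X])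
    (h : aeval x q ∈ O1) : aeval x q ∈ O2 := by
  have hl1 : LinearIndependent k fun j : ℕ => ext0 O1 ρ1 (x ^ j) := by
    simp only [ext0_pow ρ1 hx1]
    exact linearIndependent_pow_of_transcendental ht1
  rw [aeval_eq_linComb] at h ⊢
  have hA := h1.coeff_mem_of_linComb_mem (fun j : ℕ => pow_mem hx1 j) hl1 h
  exact h2.linComb_mem (fun j : ℕ => pow_mem hx2 j) hA

theorem ext0_aeval_ne_zero_of (h1 : RedBase A O1 π ρ1) (h2 : RedBase A O2 π ρ2) {x : F}
    (hx1 : x ∈ O1) (hx2 : x ∈ O2) (ht1 : Transcendental k (ext0 O1 ρ1 x))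
    (ht2 : Transcendental k (ext0 O2 ρ2 x)) (q : K[X])
    (h : ext0 O1 ρ1 (aeval x q) ≠ 0) : ext0 O2 ρ2 (aeval x q) ≠ 0 := by
  have hl1 : LinearIndependent k fun j : ℕ => ext0 O1 ρ1 (x ^ j) := by
    simp only [ext0_pow ρ1 hx1]
    exact linearIndependent_pow_of_transcendental ht1
  have hl2 : LinearIndependent k fun j : ℕ => ext0 O2 ρ2 (x ^ j) := by
    simp only [ext0_pow ρ2 hx2]
    exact linearIndependent_pow_of_transcendental ht2
  have hmem := mem_of_ext0_ne_zero _ h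
  rw [aeval_eq_linComb] at h hmem ⊢
  have hA := h1.coeff_mem_of_linComb_mem (fun j : ℕ => pow_mem hx1 j) hl1 hmem
  rw [h1.ext0_linComb (fun j : ℕ => pow_mem hx1 j) hA] at h
  rw [h2.ext0_linComb (fun j : ℕ => pow_mem hx2 j) hA]
  intro h0
  apply h
  rw [(linearIndependent_iff.1 hl2) _ h0, map_zero]

theorem mem_of_mem_adjoin (h1 : RedBase A O1 π ρ1) (h2 : RedBase A O2 π ρ2) {x : F}
    (hx1 : x ∈ O1) (hx2 : x ∈ O2) (ht1 : Transcendental k (ext0 O1 ρ1 x))
    (ht2 : Transcendental k (ext0 O2 ρ2 x)) {r : F} (hr : r ∈ K⟮x⟯) (hr1 : r ∈ O1) : r ∈ O2 := by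
  obtain ⟨p, s, rfl⟩ := (IntermediateField.mem_adjoin_simple_iff K r).1 hr
  by_cases hs : aeval x s = 0
  · rw [hs, div_zero]; exact O2.zero_mem
  have hs0 : s ≠ 0 := by rintro rfl; simp at hs
  obtain ⟨c, hc, hu⟩ := h1.exists_scale_aeval hx1 ht1 hs0
  rw [← map_smul] at hu
  have hu2 := ext0_aeval_ne_zero_of h1 h2 hx1 hx2 ht1 ht2 _ hu
  have hS1 := mem_of_ext0_ne_zero _ hu
  have hSinv := inv_mem_of_ext0_ne_zero ρ2 h2.rho_surj hu2
  have hc' : algebraMap K F c ≠ 0 := by simpa using hc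
  have e1 : aeval x (c • p) = (aeval x p / aeval x s) * aeval x (c • s) := by
    rw [map_smul, map_smul, Algebra.smul_def, Algebra.smul_def]
    field_simp
  have hP1 : aeval x (c • p) ∈ O1 := by rw [e1]; exact O1.mul_mem _ _ hr1 hS1
  have hP2 := aeval_mem_of_mem h1 h2 hx1 hx2 ht1 _ hP1
  have e2 : aeval x p / aeval x s = aeval x (c • p) * (aeval x (c • s))⁻¹ := by
    rw [map_smul, map_smul, Algebra.smul_def, Algebra.smul_def]
    field_simp
  rw [e2]; exact O2.mul_mem _ _ hP2 hSinv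

/-- if `(deg)` holds at `x` for the first reduction, the first valuation ring is contained in
the second. -/
theorem le_of_hasDeg (h1 : RedBase A O1 π ρ1) (h2 : RedBase A O2 π ρ2) {x : F}
    (h0 : HasDeg K k ρ1 x) (hx2 : x ∈ O2) (ht2 : Transcendental k (ext0 O2 ρ2 x)) : O1 ≤ O2 := by
  intro z hz
  have hint := isIntegral_gauss h1 h0 hz
  obtain ⟨hx1, ht1, -, -⟩ := h0
  set φ : (O1.comap (algebraMap K⟮x⟯ F)) →+* O2 :=
    ((algebraMap K⟮x⟯ F).comp (O1.comap (algebraMap K⟮x⟯ F)).subtype).codRestrict O2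
      (fun r => mem_of_mem_adjoin h1 h2 hx1 hx2 ht1 ht2 (r : K⟮x⟯).2 r.2) with hφ
  have hint2 : IsIntegral O2 ((RingHom.id F) z) :=
    IsIntegral.map_of_comp_eq φ (RingHom.id F) (by ext r; rfl) hint
  obtain ⟨w, hw⟩ := IsIntegrallyClosed.isIntegral_iff.1 hint2
  rw [RingHom.id_apply] at hw
  rw [← hw]; exact w.2

/-- `(deg)` at `x` does not depend on the reduction. -/
theorem hasDeg_of_hasDeg (h1 : RedBase A O1 π ρ1) (h2 : RedBase A O2 π ρ2) {x : F}
    (h0 : HasDeg K k ρ1 x) (hx2 : x ∈ O2) (ht2 : Transcendental k (ext0 O2 ρ2 x)) :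
    HasDeg K k ρ2 x := by
  classical
  have hle := le_of_hasDeg h1 h2 h0 hx2 ht2
  obtain ⟨n, b, hbO, hbli⟩ := exists_orthonormal_basis h1 h0
  obtain ⟨hx1, ht1, hfd, hdeg⟩ := h0
  set e : ℕ × Fin n → F := fun p => x ^ p.1 * b p.2 with he
  have heO1 : ∀ p, e p ∈ O1 := fun p => O1.mul_mem _ _ (pow_mem hx1 p.1) (hbO p.2)
  have heO2 : ∀ p, e p ∈ O2 := fun p => hle (heO1 p)
  have heli1 : LinearIndependent k fun p => ext0 O1 ρ1 (e p) := by
    have := linearIndependent_pow_mul ht1 hbli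
    have hfun : (fun p => ext0 O1 ρ1 (e p)) =
        fun p : ℕ × Fin n => ext0 O1 ρ1 x ^ p.1 * ext0 O1 ρ1 (b p.2) := by
      ext p
      rw [he, ext0_mul ρ1 (pow_mem hx1 _) (hbO _), ext0_pow ρ1 hx1]
    rw [hfun]; exact this
  have heli2 : LinearIndependent k fun p => ext0 O2 ρ2 (e p) := by
    rw [linearIndependent_iff]
    intro ub hub
    -- lift the coefficients
    have hch : ∀ c : k, ∃ a : K, a ∈ A ∧ ext0 A π a = c ∧ (c = 0 → a = 0) := by
      intro c
      by_cases hc : c = 0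
      · exact ⟨0, A.zero_mem, by rw [hc, ext0_zero], fun _ => rfl⟩
      · obtain ⟨a, ha, ha'⟩ := h1.exists_lift_pi c
        exact ⟨a, ha, ha', fun h => absurd h hc⟩
    choose lift hliftA hlift hlift0 using hch
    set u : ℕ × Fin n →₀ K := ub.mapRange lift (hlift0 0 rfl) with hu
    have huA : ∀ p, u p ∈ A := fun p => by rw [hu, Finsupp.mapRange_apply]; exact hliftA _
    have hback : u.mapRange (ext0 A π) (ext0_zero π) = ub := by
      ext p
      rw [Finsupp.mapRange_apply, hu, Finsupp.mapRange_apply, hlift]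
    have hz2 : ext0 O2 ρ2 (Finsupp.linearCombination K e u) = 0 := by
      rw [h2.ext0_linComb heO2 huA, hback]; exact hub
    have hz1 : ext0 O1 ρ1 (Finsupp.linearCombination K e u) = 0 := by
      by_contra hne
      have hinv := hle (inv_mem_of_ext0_ne_zero ρ1 h1.rho_surj hne)
      have hz0 : Finsupp.linearCombination K e u ≠ 0 := by
        intro h; rw [h] at hne; exact hne (ext0_zero ρ1)
      exact ext0_ne_zero_of_inv_mem ρ2 hz0 (h2.linComb_mem heO2 huA) hinv hz2
    rw [h1.ext0_linComb heO1 huA, hback] at hz1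
    exact (linearIndependent_iff.1 heli1) _ hz1
  have hb2 : LinearIndependent k⟮ext0 O2 ρ2 x⟯ fun i => ext0 O2 ρ2 (b i) := by
    apply linearIndependent_adjoin_of_pow_mul
    have hfun : (fun p : ℕ × Fin n => ext0 O2 ρ2 x ^ p.1 * ext0 O2 ρ2 (b p.2)) =
        fun p => ext0 O2 ρ2 (e p) := by
      ext p
      rw [he, ext0_mul ρ2 (pow_mem hx2 _) (hle (hbO _)), ext0_pow ρ2 hx2]
    rw [hfun]; exact heli2
  have _ := finiteDimensional_adjoin_ext0 h2 hx2 ht2
  refine ⟨hx2, ht2, hfd, ?_⟩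
  rw [Module.finrank_eq_card_basis b]
  exact hb2.fintype_card_le_finrank

end Compare

section Aut

variable {O : ValuationSubring F} {ρ : O →+* Fb}

theorem rank_adjoin_algEquiv (W : F ≃ₐ[K] F) (x : F) :
    Module.rank K⟮W x⟯ F = Module.rank K⟮x⟯ F := by
  have h1 : (K⟮x⟯).map (W : F →ₐ[K] F) = K⟮W x⟯ := by
    rw [IntermediateField.adjoin_map, Set.image_singleton]; rfl
  have h2 : (⊤ : IntermediateField K F).map (W : F →ₐ[K] F) = ⊤ := by
    rw [← AlgHom.fieldRange_eq_map]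
    exact AlgEquiv.fieldRange_eq_top W
  rw [← IntermediateField.relrank_top_right, ← IntermediateField.relrank_top_right, ← h1]
  conv_lhs => rw [← h2]
  exact IntermediateField.relrank_map_map _ _ _

/-- the reduction twisted by an automorphism -/
noncomputable def twistRho (ρ : O →+* Fb) (W : F ≃ₐ[K] F) :
    (O.comap (W : F →+* F)) →+* Fb :=
  ρ.comp (((W : F →+* F).comp (O.comap (W : F →+* F)).subtype).codRestrict O (fun z => z.2))

theorem ext0_twistRho (W : F ≃ₐ[K] F) (z : F) :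
    ext0 (O.comap (W : F →+* F)) (twistRho ρ W) z = ext0 O ρ (W z) := by
  by_cases hz : W z ∈ O
  · have hz' : z ∈ O.comap (W : F →+* F) := hz
    rw [ext0_of_mem _ hz', ext0_of_mem _ hz]
    rfl
  · have hz' : z ∉ O.comap (W : F →+* F) := hz
    simp [ext0, hz, hz']

theorem redBase_twist (hB : RedBase A O π ρ) (W : F ≃ₐ[K] F) :
    RedBase A (O.comap (W : F →+* F)) π (twistRho ρ W) where
  pi_surj := hB.pi_surj
  rho_surj := by
    intro yb
    obtain ⟨y, rfl⟩ := hB.rho_surj yb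
    have hmem : W.symm (y : F) ∈ O.comap (W : F →+* F) := by
      show W (W.symm (y : F)) ∈ O
      rw [AlgEquiv.apply_symm_apply]; exact y.2
    refine ⟨⟨W.symm (y : F), hmem⟩, ?_⟩
    rw [← ext0_coe (twistRho ρ W), ext0_twistRho, AlgEquiv.apply_symm_apply, ext0_coe]
  mem_iff := by
    intro a
    rw [← hB.mem_iff a]
    show W (algebraMap K F a) ∈ O ↔ _
    rw [AlgEquiv.commutes]
  compat := by
    intro a ha h
    have := ext0_twistRho (ρ := ρ) W (algebraMap K F a)
    rw [ext0_of_mem _ h, AlgEquiv.commutes, hB.ext0_algebraMap ha, ext0_of_mem _ ha] at this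
    exact this

/-- (P4) -/
theorem hasDeg_of_aut (hB : RedBase A O π ρ) (W : F ≃ₐ[K] F) {x : F} (h0 : HasDeg K k ρ (W x))
    (hx : x ∈ O) (ht : Transcendental k (ext0 O ρ x)) : HasDeg K k ρ x := by
  obtain ⟨hWx, hWt, hfd, hdeg⟩ := h0
  have hrank := rank_adjoin_algEquiv W x
  have hfd' : FiniteDimensional K⟮x⟯ F := by
    rw [FiniteDimensional, ← Module.rank_lt_aleph0_iff, ← hrank, Module.rank_lt_aleph0_iff]
    exact hfd
  have hfr : finrank K⟮x⟯ F = finrank K⟮W x⟯ F := by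
    rw [finrank, finrank, hrank]
  have h1 : HasDeg K k (twistRho ρ W) x := by
    refine ⟨hWx, ?_, hfd', ?_⟩
    · rw [ext0_twistRho]; exact hWt
    · rw [ext0_twistRho, hfr]; exact hdeg
  exact hasDeg_of_hasDeg (redBase_twist hB W) hB h1 hx ht

end Aut

end FA18
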