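import Fermat.Agent.Igusa.Fricke
import Fermat.Agent.Red.G2Aut

/-! S18 / M1 (P3): the Fricke involution of `ℚ̄(j(q^d) : d ∣ N)`. -/

set_option autoImplicit false

open Polynomial IntermediateField ModularCurve UpperHalfPlane FA_IS FA24 FAIg
open scoped MatrixGroups

noncomputable section

namespace FA18

namespace FB

variable {N : ℕ} [NeZero N]

/-- the generators -/
def jB (d : Dv N) : FN N := Jd N d.2

/-- evaluation of polynomials at the `j(q^d)` -/
def evB : MvPolynomial (Dv N) Kb →+* FN N := (MvPolynomial.aeval (R := Kb) (jB (N := N))).toRingHom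

lemma evB_X (d : Dv N) : evB (MvPolynomial.X d) = jB d := by
  simp [evB]

lemma evB_C (a : Kb) : evB (MvPolynomial.C a : MvPolynomial (Dv N) Kb) = algebraMap Kb (FN N) a := by
  simp [evB]

/-- evaluation of polynomials at the functions `j(dτ)` -/
def evanB : MvPolynomial (Dv N) Kb →+* FA24.RN N :=
  MvPolynomial.eval₂Hom (FA24.cstHom.comp iota) (fun d => FA24.jdR d.2)

lemma Lam_evanB (P : MvPolynomial (Dv N) Kb) : FA24.Lam (evanB P) = cm (evB P).1 := by
  have : (FA24.Lam (N := N)).comp evanB =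
      cm.comp ((modularFunctionFieldBar N).val.toRingHom.comp (evB (N := N))) := by
    apply MvPolynomial.ringHom_ext
    · intro a
      simp only [RingHom.comp_apply, evanB, MvPolynomial.coe_eval₂Hom, MvPolynomial.eval₂_C, evB_C]
      rw [show (FA24.cstHom (N := N) (iota a)) = FA24.cst (iota a) from rfl, FA24.Lam_cst,
        ← cm_algebraMap]
      rfl
    · intro d
      simp only [RingHom.comp_apply, evanB, MvPolynomial.coe_eval₂Hom, MvPolynomial.eval₂_X, evB_X]
      rw [FA24.Lam_jdR]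
      rfl
  exact RingHom.congr_fun this P

lemma evanB_rename (P : MvPolynomial (Dv N) Kb) (τ : ℍ) :
    (evanB (MvPolynomial.rename Dv.inv P)).1 τ = (evanB P).1 (wN N τ) := by
  have : ((Pi.evalRingHom (fun _ : ℍ => ℂ) τ).comp ((FA24.RN N).subtype.comp
      (evanB.comp (MvPolynomial.rename Dv.inv).toRingHom))) =
      (Pi.evalRingHom (fun _ : ℍ => ℂ) (wN N τ)).comp ((FA24.RN N).subtype.comp evanB) := by
    apply MvPolynomial.ringHom_ext
    · intro a
      simp [evanB, FA24.cstHom, FA24.cst]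
    · intro d
      simp only [RingHom.comp_apply, AlgHom.toRingHom_eq_coe, RingHom.coe_coe,
        MvPolynomial.rename_X, evanB, MvPolynomial.coe_eval₂Hom, MvPolynomial.eval₂_X]
      exact (jd_wN d τ).symm
  exact RingHom.congr_fun this P

theorem evB_rename_eq_zero {P : MvPolynomial (Dv N) Kb} (h : evB P = 0) :
    evB (MvPolynomial.rename Dv.inv P) = 0 := by
  have h1 : evanB P = 0 := by
    apply FA24.Lam_injective
    rw [Lam_evanB, h, map_zero]
    exact map_zero cm
  have h2 : evanB (MvPolynomial.rename Dv.inv P) = 0 := by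
    apply Subtype.ext
    funext τ
    rw [evanB_rename, h1]
    rfl
  apply Subtype.ext
  apply cm_injective
  rw [← Lam_evanB, h2, map_zero]
  exact (map_zero cm).symm

lemma rename_inv_invB (P : MvPolynomial (Dv N) Kb) :
    MvPolynomial.rename Dv.inv (MvPolynomial.rename Dv.inv P) = P := by
  rw [MvPolynomial.rename_rename]
  have : (Dv.inv ∘ Dv.inv : Dv N → Dv N) = id := funext fun d => d.inv_inv
  rw [this, MvPolynomial.rename_id_apply]

/-- the renaming `d ↦ N/d` -/
def rnB : MvPolynomial (Dv N) Kb →+* MvPolynomial (Dv N) Kb :=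
  (MvPolynomial.rename (R := Kb) (Dv.inv (N := N))).toRingHom

lemma rnB_rnB (P : MvPolynomial (Dv N) Kb) : rnB (rnB P) = P := rename_inv_invB P

omit [NeZero N] in
lemma rnB_X (d : Dv N) : rnB (MvPolynomial.X d) = MvPolynomial.X d.inv := by
  simp [rnB]

omit [NeZero N] in
lemma rnB_C (a : Kb) : rnB (MvPolynomial.C a : MvPolynomial (Dv N) Kb) = MvPolynomial.C a := by
  simp [rnB]

lemma evB_rnB_eq_zero_iff {P : MvPolynomial (Dv N) Kb} : evB (rnB P) = 0 ↔ evB P = 0 :=
  ⟨fun h => by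
    have := evB_rename_eq_zero h
    rwa [show rnB P = MvPolynomial.rename Dv.inv P from rfl, rename_inv_invB] at this,
    evB_rename_eq_zero⟩

lemma exists_fracB (f : FN N) :
    ∃ P : MvPolynomial (Dv N) Kb × MvPolynomial (Dv N) Kb, evB P.2 ≠ 0 ∧ f * evB P.2 = evB P.1 := by
  induction f using FA24.FN_induction with
  | hc a => exact ⟨(MvPolynomial.C a, 1), by simp, by simp [evB_C]⟩
  | hJ d hd hdN => exact ⟨(MvPolynomial.X ⟨d, hdN⟩, 1), by simp, by simp [evB_X, jB]⟩
  | hadd f g hf hg =>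
    obtain ⟨P, hP0, hP⟩ := hf
    obtain ⟨Q, hQ0, hQ⟩ := hg
    exact ⟨(P.1 * Q.2 + P.2 * Q.1, P.2 * Q.2), by simpa using ⟨hP0, hQ0⟩,
      by simp only [map_mul, map_add]; rw [← hP, ← hQ]; ring⟩
  | hneg f hf =>
    obtain ⟨P, hP0, hP⟩ := hf
    exact ⟨(-P.1, P.2), hP0, by simp only [map_neg]; rw [← hP]; ring⟩
  | hmul f g hf hg =>
    obtain ⟨P, hP0, hP⟩ := hf
    obtain ⟨Q, hQ0, hQ⟩ := hg
    exact ⟨(P.1 * Q.1, P.2 * Q.2), by simpa using ⟨hP0, hQ0⟩,
      by simp only [map_mul]; rw [← hP, ← hQ]; ring⟩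
  | hinv f hf =>
    obtain ⟨P, hP0, hP⟩ := hf
    by_cases hf0 : f = 0
    · exact ⟨(0, 1), by simp, by simp [hf0]⟩
    · have hP1 : evB P.1 ≠ 0 := by rw [← hP]; exact mul_ne_zero hf0 hP0
      exact ⟨(P.2, P.1), hP1, by
        show f⁻¹ * evB P.1 = evB P.2
        rw [← hP]; field_simp⟩

/-- the Fricke involution as a function -/
def frickeFunB (f : FN N) : FN N :=
  evB (rnB (exists_fracB f).choose.1) / evB (rnB (exists_fracB f).choose.2)

lemma frickeFunB_eq {f : FN N} {A B : MvPolynomial (Dv N) Kb} (hB : evB B ≠ 0)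
    (h : f * evB B = evB A) : frickeFunB f = evB (rnB A) / evB (rnB B) := by
  obtain ⟨h0, h1⟩ := (exists_fracB f).choose_spec
  set P := (exists_fracB f).choose with hP
  have hB' : evB (rnB B) ≠ 0 := fun h' => hB (evB_rnB_eq_zero_iff.mp h')
  have h0' : evB (rnB P.2) ≠ 0 := fun h' => h0 (evB_rnB_eq_zero_iff.mp h')
  have key : evB (P.1 * B - A * P.2) = 0 := by
    rw [map_sub, map_mul, map_mul, ← h, ← h1]
    ring
  have key' := evB_rnB_eq_zero_iff.mpr key
  rw [map_sub, map_mul, map_mul, map_sub, map_mul, map_mul, sub_eq_zero] at key'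
  show evB (rnB P.1) / evB (rnB P.2) = _
  rw [div_eq_div_iff h0' hB']
  exact key'

/-- the Fricke involution as a ring homomorphism -/
def frickeHomB : FN N →+* FN N where
  toFun := frickeFunB
  map_one' := by
    rw [frickeFunB_eq (f := 1) (A := 1) (B := 1) (by simp) (by simp)]
    simp
  map_zero' := by
    rw [frickeFunB_eq (f := 0) (A := 0) (B := 1) (by simp) (by simp)]
    simp
  map_mul' f g := by
    obtain ⟨P, hP0, hP⟩ := exists_fracB f
    obtain ⟨Q, hQ0, hQ⟩ := exists_fracB g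
    rw [frickeFunB_eq hP0 hP, frickeFunB_eq hQ0 hQ,
      frickeFunB_eq (f := f * g) (A := P.1 * Q.1) (B := P.2 * Q.2)
        (by rw [map_mul]; exact mul_ne_zero hP0 hQ0)
        (by rw [map_mul, map_mul, ← hP, ← hQ]; ring)]
    simp only [map_mul]
    rw [div_mul_div_comm]
  map_add' f g := by
    obtain ⟨P, hP0, hP⟩ := exists_fracB f
    obtain ⟨Q, hQ0, hQ⟩ := exists_fracB g
    have hP0' : evB (rnB P.2) ≠ 0 := fun h' => hP0 (evB_rnB_eq_zero_iff.mp h')
    have hQ0' : evB (rnB Q.2) ≠ 0 := fun h' => hQ0 (evB_rnB_eq_zero_iff.mp h')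
    rw [frickeFunB_eq hP0 hP, frickeFunB_eq hQ0 hQ,
      frickeFunB_eq (f := f + g) (A := P.1 * Q.2 + P.2 * Q.1) (B := P.2 * Q.2)
        (by rw [map_mul]; exact mul_ne_zero hP0 hQ0)
        (by simp only [map_mul, map_add]; rw [← hP, ← hQ]; ring)]
    simp only [map_mul, map_add]
    rw [div_add_div _ _ hP0' hQ0']

lemma frickeHomB_evB (P : MvPolynomial (Dv N) Kb) : frickeHomB (evB P) = evB (rnB P) := by
  show frickeFunB (evB P) = _
  rw [frickeFunB_eq (A := P) (B := 1) (by simp) (by simp)]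
  simp

lemma frickeHomB_jB (d : Dv N) : frickeHomB (jB d) = jB d.inv := by
  rw [← evB_X, frickeHomB_evB, rnB_X, evB_X]

lemma frickeHomB_algebraMap (a : Kb) :
    frickeHomB (algebraMap Kb (FN N) a) = algebraMap Kb (FN N) a := by
  rw [← evB_C, frickeHomB_evB, rnB_C]

lemma frickeHomB_frickeHomB (f : FN N) : frickeHomB (frickeHomB f) = f := by
  obtain ⟨P, hP0, hP⟩ := exists_fracB f
  have : f = evB P.1 / evB P.2 := by rw [← hP, mul_div_cancel_right₀ _ hP0]
  rw [this, map_div₀, map_div₀, frickeHomB_evB, frickeHomB_evB, frickeHomB_evB, frickeHomB_evB,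
    rnB_rnB, rnB_rnB]

/-- the Fricke involution as a ring automorphism -/
def frickeEquivB : FN N ≃+* FN N where
  toFun := frickeHomB
  invFun := frickeHomB
  left_inv := frickeHomB_frickeHomB
  right_inv := frickeHomB_frickeHomB
  map_mul' := map_mul frickeHomB
  map_add' := map_add frickeHomB

end FB

open FB

/-- **The Fricke involution** of `ℚ̄(j(q^d) : d ∣ N)`. -/
theorem exists_frickeBar (N : ℕ) [NeZero N] : ∃ W : FN N ≃ₐ[Kb] FN N,
    ∀ (d : ℕ) [NeZero d] (hd : d ∣ N) [NeZero (N / d)],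
      W (Jd N hd) = Jd N (Nat.div_dvd_of_dvd hd) := by
  refine ⟨AlgEquiv.ofRingEquiv (f := frickeEquivB) fun r => frickeHomB_algebraMap r, ?_⟩
  intro d _ hd _
  exact frickeHomB_jB ⟨d, hd⟩

theorem rank_FN_top (N : ℕ) [NeZero N] :
    Module.rank Kb⟮Jd N (dvd_refl N)⟯ (FN N) = Module.rank Kb⟮xN N⟯ (FN N) := by
  obtain ⟨W, hW⟩ := exists_frickeBar N
  have : NeZero (N / 1) := ⟨by rw [Nat.div_one]; exact NeZero.ne N⟩
  have h1 : W (xN N) = Jd N (dvd_refl N) := by
    have := hW 1 (one_dvd N)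
    rw [xN, this]
    apply Subtype.ext
    show coeffEmb Kb (qExpand ℚ (N / 1) jq) = coeffEmb Kb (qExpand ℚ N jq)
    simp only [Nat.div_one]
  rw [← h1]
  exact rank_adjoin_algEquiv W (xN N)

theorem finrank_FN_top (N : ℕ) [NeZero N] :
    Module.finrank Kb⟮Jd N (dvd_refl N)⟯ (FN N) = Module.finrank Kb⟮xN N⟯ (FN N) := by
  rw [Module.finrank, Module.finrank, rank_FN_top]

theorem finiteDimensional_FN_top (N : ℕ) [NeZero N] :
    FiniteDimensional Kb⟮Jd N (dvd_refl N)⟯ (FN N) := by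
  rw [FiniteDimensional, ← Module.rank_lt_aleph0_iff, rank_FN_top, Module.rank_lt_aleph0_iff]
  exact FA24.finiteDimensional_FN

end FA18
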