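import Fermat.Agent.Red.FrickeB
import Fermat.Agent.X0Genus.Degree
import Fermat.Agent.X0Genus.Places
import Fermat.Agent.X0Genus.OrdAPI
import Fermat.Agent.Genus.CardCoset

/-!
# S18, Step 2: descent of `m`-th roots from level `N p` to level `N`
-/

open FA24 ModularCurve AlgebraicCurve IntermediateField
open scoped LaurentSeries

set_option autoImplicit false

namespace FA18.St2

/-! ### generalities -/

lemma order_qExpand (M : ℕ) [NeZero M] (x : LaurentSeries ℂ) :
    (qExpand ℂ M x).order = M * x.order := by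
  rcases eq_or_ne x 0 with rfl | hx
  · simp
  have hM : (0 : ℤ) < M := by exact_mod_cast Nat.pos_of_ne_zero (NeZero.ne M)
  apply order_eq_of_coeff
  · rw [qExpand_coeff_mul]
    exact fun h0 => hx (HahnSeries.coeff_order_eq_zero.1 h0)
  · intro k hk
    by_cases hd : (M : ℤ) ∣ k
    · obtain ⟨j, rfl⟩ := hd
      rw [qExpand_coeff_mul]
      exact HahnSeries.coeff_eq_zero_of_lt_order (lt_of_mul_lt_mul_left hk hM.le)
    · exact qExpand_coeff_of_not_dvd _ _ hd

/-- powers of an element of order `-1` are independent over a field all of whose elements have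
order divisible by `M`. -/
theorem linearIndependent_pow {K T : Type*} [Field K] [Field T] [Algebra K T]
    (φ : T →+* LaurentSeries ℂ) (E : IntermediateField K T) (M : ℕ)
    (hE : ∀ e ∈ E, e ≠ 0 → (M : ℤ) ∣ (φ e).order) (π : T) (hπ : (φ π).order = -1) :
    LinearIndependent E (fun i : Fin M => π ^ (i : ℕ)) := by
  classical
  rw [Fintype.linearIndependent_iff]
  intro g hg
  by_contra hcon
  push Not at hcon
  obtain ⟨i1, hi1⟩ := hcon
  have hπ0 : φ π ≠ 0 := by
    intro h
    rw [h] at hπ
    simp at hπ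
  set y : Fin M → LaurentSeries ℂ := fun i => φ (g i : T) * φ π ^ (i : ℕ) with hy
  have hg0 : ∀ i, g i ≠ 0 → φ (g i : T) ≠ 0 := fun i hi =>
    (map_ne_zero φ).2 (fun h => hi (Subtype.ext h))
  have hy0 : ∀ i, g i ≠ 0 → y i ≠ 0 := fun i hi => mul_ne_zero (hg0 i hi) (pow_ne_zero _ hπ0)
  have hyord : ∀ i, g i ≠ 0 → (y i).order = (φ (g i : T)).order - (i : ℕ) := by
    intro i hi
    rw [hy]
    simp only
    rw [HahnSeries.order_mul (hg0 i hi) (pow_ne_zero _ hπ0), HahnSeries.order_pow, hπ]
    simp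
    ring
  obtain ⟨i0, hi0S, hmin⟩ := Finset.exists_min_image
    (Finset.univ.filter (fun i => g i ≠ 0)) (fun i => (y i).order) ⟨i1, by simp [hi1]⟩
  have hi0 : g i0 ≠ 0 := (Finset.mem_filter.1 hi0S).2
  have hsum : ∑ i, y i = 0 := by
    have := congrArg φ hg
    rw [map_sum, map_zero] at this
    rw [← this]
    refine Finset.sum_congr rfl fun i _ => ?_
    rw [hy, IntermediateField.smul_def, smul_eq_mul, map_mul, map_pow]
  have hcoef := congrArg (fun z => z.coeff (y i0).order) hsum
  simp only [HahnSeries.coeff_sum, HahnSeries.coeff_zero] at hcoef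
  rw [Finset.sum_eq_single i0] at hcoef
  · exact hy0 i0 hi0 (HahnSeries.coeff_order_eq_zero.1 hcoef)
  · intro i _ hne
    by_cases hi : g i = 0
    · simp [hy, hi]
    · apply HahnSeries.coeff_eq_zero_of_lt_order
      have h1 := hmin i (Finset.mem_filter.2 ⟨Finset.mem_univ _, hi⟩)
      rcases h1.lt_or_eq with h | h
      · exact h
      · exfalso
        rw [hyord i hi, hyord i0 hi0] at h
        obtain ⟨a, ha⟩ := hE (g i) (g i).2 (fun h => hi (Subtype.ext h))
        obtain ⟨b, hb⟩ := hE (g i0) (g i0).2 (fun h => hi0 (Subtype.ext h))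
        rw [ha, hb] at h
        have hlt1 := i.2
        have hlt2 := i0.2
        have h3 : ((i : ℕ) : ℤ) - ((i0 : ℕ) : ℤ) = M * (a - b) := by linarith
        have h4 : ((i : ℕ) : ℤ) = (i0 : ℕ) := by
          have h5 : (M : ℤ) ∣ ((i : ℕ) : ℤ) - ((i0 : ℕ) : ℤ) := ⟨_, h3⟩
          have h6 := Int.eq_zero_of_abs_lt_dvd h5 (by
            rw [abs_lt]
            constructor <;> omega)
          omega
        exact hne (Fin.ext (by exact_mod_cast h4))
  · intro h
    exact absurd (Finset.mem_univ _) h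

/-- abstract degree argument. -/
theorem le_of_finrank {K T : Type*} [Field K] [Field T] [Algebra K T]
    (B Fx : IntermediateField K T) (p : ℕ) (hp : 2 ≤ p) (hB : Module.finrank B T = p + 1)
    (hBF : B ≤ Fx) (φ : T →+* LaurentSeries ℂ)
    (hFx : ∀ e ∈ Fx, e ≠ 0 → (p : ℤ) ∣ (φ e).order) (π : T) (hπ : (φ π).order = -1) :
    Fx ≤ B := by
  have hLI := linearIndependent_pow φ Fx p hFx π hπ
  have hmul := relfinrank_mul_finrank_top hBF
  rw [hB] at hmul
  have hpos : 0 < Module.finrank Fx T := by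
    rcases Nat.eq_zero_or_pos (Module.finrank Fx T) with h0 | h0
    · rw [h0, mul_zero] at hmul
      omega
    · exact h0
  have : Module.Finite Fx T := Module.finite_of_finrank_pos hpos
  have hle : p ≤ Module.finrank Fx T := by
    have := hLI.fintype_card_le_finrank
    simpa using this
  have hone : relfinrank B Fx = 1 := by
    rcases Nat.lt_or_ge (relfinrank B Fx) 2 with h | h
    · interval_cases hh : relfinrank B Fx
      · rw [zero_mul] at hmul
        omega
      · rfl
    · exfalso
      have : 2 * p ≤ relfinrank B Fx * Module.finrank Fx T := Nat.mul_le_mul h hle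
      omega
  exact relfinrank_eq_one_iff.1 hone

lemma twist_C (ζ z : ℂ) : twist ζ (HahnSeries.C z) = HahnSeries.C z := by
  ext n
  rw [coeff_twist, HahnSeries.C_apply, HahnSeries.coeff_single]
  split_ifs with hn
  · rw [hn]; simp
  · simp

/-! ### places -/

variable {N : ℕ} [NeZero N]

theorem dvd_order_frC (f : FN N) (m : ℤ) (hdiv : ∀ P : Place Kb (FN N), m ∣ P.ord f) :
    m ∣ (frC N f).order := by
  rcases eq_or_ne f 0 with rfl | hf
  · simp
  obtain ⟨v, c, -, hv⟩ := exists_place_of_isOrd (K := Kb) (isOrd_order.comp (frC N))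
    (fun a _ => by
      show (frC N (algebraMap Kb (FN N) a)).order = 0
      rw [frC_algebraMap]
      exact HahnSeries.order_C)
    ⟨Jd N dvd_rfl, by
      intro h
      have h1 := frC_Jd (N := N) (d := N) (c := 1) (mul_one N)
      have h2 : frC N (Jd N dvd_rfl) = 0 := by rw [h, map_zero]
      rw [h2, qExpand_one_apply] at h1
      exact JC_ne_zero h1.symm, by
      show (frC N (Jd N dvd_rfl)).order ≠ 0
      have h1 := frC_Jd (N := N) (d := N) (c := 1) (mul_one N)
      rw [qExpand_one_apply] at h1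
      rw [h1]
      have := order_JC
      rw [JC] at this
      rw [this]
      norm_num⟩
  have : (frC N f).order = c * v.ord f := hv f hf
  rw [this]
  exact Dvd.dvd.mul_left (hdiv v) c

omit [NeZero N] in
/-- restriction of places along `ℚ̄(X₀(N)) ⊆ ℚ̄(X₀(N'))`. -/
theorem exists_place_restrict {N' : ℕ} [NeZero N'] (h : N ∣ N') (P' : Place Kb (FN N')) :
    ∃ (P : Place Kb (FN N)) (e : ℤ), 0 < e ∧ ∀ f : FN N, P'.ord (incl h f) = e * P.ord f := by
  have hx : incl h (xN N) = xN N' := incl_Jd h (one_dvd N)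
  obtain ⟨v, c, hc, hv⟩ := exists_place_of_isOrd (K := Kb)
    ((isOrd_place P').comp (incl h).toRingHom)
    (fun a _ => by
      show P'.ord (incl h (algebraMap Kb (FN N) a)) = 0
      rw [AlgHom.commutes]
      exact FAFF.ord_algebraMap P' a)
    (by
      by_cases h0 : P'.ord (xN N') = 0
      · obtain ⟨a, ha | ha⟩ := exists_ord_sub_pos isFF_FN P' (xN N') h0.ge
        · exfalso
          apply transcendental_xN N'
          rw [ha]
          exact isAlgebraic_algebraMap a
        · refine ⟨xN N - algebraMap Kb (FN N) a, ?_, ?_⟩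
          · intro h1
            apply transcendental_xN N
            rw [sub_eq_zero.1 h1]
            exact isAlgebraic_algebraMap a
          · show P'.ord (incl h (xN N - algebraMap Kb (FN N) a)) ≠ 0
            rw [map_sub, hx, AlgHom.commutes]
            exact ha.ne'
      · refine ⟨xN N, ?_, ?_⟩
        · intro h1
          apply transcendental_xN N
          rw [h1]
          exact isAlgebraic_zero
        · show P'.ord (incl h (xN N)) ≠ 0
          rw [hx]
          exact h0)
  refine ⟨v, c, hc, fun f => ?_⟩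
  rcases eq_or_ne f 0 with rfl | hf
  · simp
  · exact hv f hf

omit [NeZero N] in
/-- divisibility of the divisor passes to higher level. -/
theorem dvd_ord_incl {N' : ℕ} [NeZero N'] (h : N ∣ N') (f : FN N) (m : ℤ)
    (hdiv : ∀ P : Place Kb (FN N), m ∣ P.ord f) (P' : Place Kb (FN N')) :
    m ∣ P'.ord (incl h f) := by
  obtain ⟨P, e, -, he⟩ := exists_place_restrict h P'
  rw [he]
  exact Dvd.dvd.mul_left (hdiv P) e

/-! ### degrees -/

lemma card_XN : Fintype.card (XN N) = dedekindPsi N := by
  rw [← FAGenus.index_Gamma0 N (NeZero.ne N), Subgroup.index_eq_card, Nat.card_eq_fintype_card]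

theorem finrank_range_incl (p : ℕ) (hp : p.Prime) (hpN : ¬ p ∣ N) [NeZero (N * p)] :
    Module.finrank (incl (dvd_mul_right N p)).fieldRange (FN (N * p)) = p + 1 := by
  set ι := incl (dvd_mul_right N p) with hι
  have hx : ι (xN N) = xN (N * p) := incl_Jd _ (one_dvd N)
  have h1 : (Kb⟮xN N⟯).map ι = Kb⟮xN (N * p)⟯ := by
    rw [IntermediateField.adjoin_map, Set.image_singleton, hx]
  have h3 : relfinrank Kb⟮xN (N * p)⟯ ι.fieldRange = dedekindPsi N := by
    rw [AlgHom.fieldRange_eq_map, ← h1, relfinrank_map_map, relfinrank_top_right, finrank_FN,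
      card_XN]
  have h4 : Kb⟮xN (N * p)⟯ ≤ ι.fieldRange := by
    rw [adjoin_simple_le_iff]
    exact ⟨xN N, hx⟩
  have h5 := relfinrank_mul_finrank_top h4
  rw [h3, finrank_FN, card_XN, FAGenus.dedekindPsi_mul_of_not_dvd N p (NeZero.ne N) hp hpN,
    mul_comm] at h5
  have hpos : 0 < dedekindPsi N := by
    rw [← card_XN]
    exact Fintype.card_pos
  exact Nat.eq_of_mul_eq_mul_right hpos h5

/-- **Step 2.** Let `p ∤ N` be a prime. If `f ∈ ℚ̄(X₀(N))` has divisor divisible by `m` and is an
`m`-th power in `ℚ̄(X₀(N p))`, then it is an `m`-th power in `ℚ̄(X₀(N))`. -/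
theorem step2 (p : ℕ) (hp : p.Prime) (hpN : ¬ p ∣ N) (f : FN N) (m : ℕ) (hm : 0 < m)
    (hdiv : ∀ P : Place Kb (FN N), (m : ℤ) ∣ P.ord f) (s : FN (N * p))
    (hs : s ^ m = incl (dvd_mul_right N p) f) : ∃ t : FN N, t ^ m = f := by
  have : NeZero p := ⟨hp.ne_zero⟩
  rcases eq_or_ne f 0 with rfl | hf
  · exact ⟨0, zero_pow hm.ne'⟩
  set ι := incl (dvd_mul_right N p) with hι
  set φ := frC (N * p) with hφ
  have hs0 : s ≠ 0 := by
    rintro rfl
    rw [zero_pow hm.ne'] at hs
    exact hf ((map_eq_zero ι).1 hs.symm)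
  -- the root of unity
  set ζ : ℂ := Complex.exp (2 * Real.pi * Complex.I / p) with hζdef
  have hprim : IsPrimitiveRoot ζ p := Complex.isPrimitiveRoot_exp p hp.ne_zero
  have hζ : ζ ≠ 0 := Complex.exp_ne_zero _
  -- the field of elements whose expansion is fixed
  let Fx : IntermediateField Kb (FN (N * p)) :=
    Subfield.toIntermediateField ((fixT ζ hζ).comap φ) (fun a => by
      show twist ζ (φ (algebraMap Kb (FN (N * p)) a)) = φ (algebraMap Kb (FN (N * p)) a)
      rw [hφ, frC_algebraMap, twist_C])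
  have hFx : ∀ e, e ∈ Fx ↔ twist ζ (φ e) = φ e := fun e => Iff.rfl
  have hB : ι.fieldRange ≤ Fx := by
    intro e he
    obtain ⟨g, rfl⟩ := AlgHom.mem_fieldRange.1 he
    rw [hFx, hφ, hι, frC_incl]
    exact twist_qExpand hprim.pow_eq_one _
  have hsFx : s ∈ Fx := by
    rw [hFx]
    have hφs : φ s ≠ 0 := (map_ne_zero φ).2 hs0
    refine twist_eq_of_pow hζ hm hφs ?_ ?_
    · rw [← map_pow, hs]
      exact (hFx _).1 (hB (AlgHom.mem_fieldRange.2 ⟨f, rfl⟩))
    · obtain ⟨n1, hn1⟩ := dvd_order_frC f m hdiv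
      have h1 : (φ s ^ m).order = p * (frC N f).order := by
        rw [← map_pow, hs, hφ, hι, frC_incl, order_qExpand]
      rw [HahnSeries.order_pow, hn1, nsmul_eq_mul] at h1
      have h2 : (φ s).order = p * n1 := by
        have hmZ : (m : ℤ) ≠ 0 := by exact_mod_cast hm.ne'
        apply mul_left_cancel₀ hmZ
        rw [h1]
        ring
      rw [h2, zpow_mul, zpow_natCast, hprim.pow_eq_one, one_zpow]
  have hEord : ∀ e ∈ Fx, e ≠ 0 → (p : ℤ) ∣ (φ e).order := by
    intro e he he0
    rw [← hprim.zpow_eq_one_iff_dvd]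
    exact zpow_order_eq_one ((map_ne_zero φ).2 he0) ((hFx e).1 he)
  have hπ : (φ (Jd (N * p) dvd_rfl)).order = -1 := by
    have h1 := frC_Jd (N := N * p) (d := N * p) (c := 1) (mul_one _)
    rw [qExpand_one_apply] at h1
    rw [hφ, h1]
    exact order_JC
  have hle := le_of_finrank ι.fieldRange Fx p hp.two_le (finrank_range_incl p hp hpN) hB φ hEord
    _ hπ
  obtain ⟨t, ht⟩ := AlgHom.mem_fieldRange.1 (hle hsFx)
  refine ⟨t, ι.injective ?_⟩
  show ι (t ^ m) = ι f
  rw [map_pow, ht, hs]

end FA18.St2
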