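import Fermat.Agent.Red.M1C
import Fermat.Agent.Red.M1a
import Fermat.Agent.Red.ModDefs
import Fermat.Agent.Red.FrickeBar
import Fermat.Agent.Igusa.Val
import Fermat.Agent.Igusa.Glue
import Fermat.Agent.Igusa.DegreeB
import Fermat.Agent.Genus.CardCoset

/-!
# S18 / M1, part 4: the reduction data of `X₀(N)`
-/

set_option autoImplicit false

open ModularCurve Module IntermediateField Polynomial FA24 FAIg

noncomputable section

namespace FA18.M1

section Rings

variable {R S : Type*} [CommRing R] [CommRing S] (f : R →+* S)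

lemma coeffMap_jdT' (d : ℕ) : coeffMap f (jdT R d) = jdT S d := by
  by_cases hd : d = 0
  · simp [jdT, hd]
  · have : NeZero d := ⟨hd⟩
    rw [jdT_eq, jdT_eq, coeffMap_qExpand, coeffMap_jqModC]

lemma coeffMap_aeval_jdT' (P : MvPolynomial ℕ ℤ) :
    coeffMap f (MvPolynomial.aeval (jdT R) P) = MvPolynomial.aeval (jdT S) P := by
  induction P using MvPolynomial.induction_on with
  | C a => simp
  | add p q hp hq => rw [map_add, map_add, map_add, hp, hq]
  | mul_X p n hp => rw [map_mul, map_mul, map_mul, hp, MvPolynomial.aeval_X, MvPolynomial.aeval_X,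
      coeffMap_jdT']

end Rings

lemma Jd_val (N : ℕ) {d : ℕ} [NeZero d] (hd : d ∣ N) : ((Jd N hd : FN N) : LaurentSeries Kb) =
    jdT Kb d := by
  show coeffEmb Kb (qExpand ℚ d jq) = _
  rw [coeffEmb, coeffMap_qExpand, ← jqModC_rat, coeffMap_jqModC, jdT_eq]

lemma jdT_mem_bar (N : ℕ) {d : ℕ} [NeZero d] (hd : d ∣ N) :
    jdT Kb d ∈ modularFunctionFieldBar N := by
  rw [← Jd_val N hd]
  exact (Jd N hd).2

lemma aeval_jdT_mem_bar (N : ℕ) {P : MvPolynomial ℕ ℤ}
    (hP : P ∈ MvPolynomial.supported ℤ (↑N.divisors : Set ℕ)) :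
    MvPolynomial.aeval (jdT Kb) P ∈ modularFunctionFieldBar N := by
  unfold MvPolynomial.supported at hP
  induction hP using Algebra.adjoin_induction with
  | mem x hx =>
    obtain ⟨d, hd, rfl⟩ := hx
    have hd' : d ∈ N.divisors := hd
    have : NeZero d := ⟨(Nat.pos_of_mem_divisors hd').ne'⟩
    rw [MvPolynomial.aeval_X]
    exact jdT_mem_bar N (Nat.dvd_of_mem_divisors hd')
  | algebraMap r =>
    rw [AlgHom.commutes, eq_intCast (algebraMap ℤ (LaurentSeries Kb))]
    exact IntermediateField.intCast_mem _ _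
  | add x y _ _ hx hy => rw [map_add]; exact add_mem hx hy
  | mul x y _ _ hx hy => rw [map_mul]; exact mul_mem hx hy

variable (N : ℕ) [NeZero N] {ℓ : ℕ} [Fact ℓ.Prime] (hℓN : ¬ ℓ ∣ N)
  (A : ValuationSubring Kb) (hA : A.LiesOverPrime ℓ)
  {k : Type} [Field k] (π : A →+* k) (hπ : Function.Surjective π)

include hA hπ in
lemma natCast_ell_eq_zero : (ℓ : k) = 0 := by
  have h1 : (ℓ : Kb) ∈ A.nonunits := hA
  have h2 : (ℓ : Kb) ∈ A := A.nonunits_le h1
  have h3 : ¬ IsUnit (⟨(ℓ : Kb), h2⟩ : A) := by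
    intro hu
    rw [ValuationSubring.mem_nonunits_iff_exists_mem_maximalIdeal] at h1
    obtain ⟨ha, hm⟩ := h1
    exact (IsLocalRing.mem_maximalIdeal _).1 hm hu
  have h4 := map_eq_zero_of_not_isUnit hπ _ h3
  have h5 : (⟨(ℓ : Kb), h2⟩ : A) = (ℓ : A) := Subtype.ext (by simp)
  rw [h5, map_natCast] at h4
  exact h4

include hA hπ hℓN in
lemma natCast_prime_ne_zero (p : ℕ) (hp : p.Prime) (hpN : p ∣ N) : (p : k) ≠ 0 := by
  intro h0
  have hne : p ≠ ℓ := by
    rintro rfl
    exact hℓN hpN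
  have hcop : Nat.Coprime p ℓ := (Nat.coprime_primes hp Fact.out).2 hne
  have h1 : ((p.gcd ℓ : ℤ) : k) = 0 := by
    rw [Nat.gcd_eq_gcd_ab]
    push_cast
    rw [h0, natCast_ell_eq_zero A hA π hπ]
    ring
  rw [hcop] at h1
  simp at h1

include hA hπ hℓN in
/-- the hypotheses of the abstract construction hold. -/
theorem exists_hyp1 : ∃ B : Fin (dedekindPsi N) → LaurentSeries A,
    Hyp1 π (modularFunctionFieldBar N) (modularFunctionFieldFullC k N) (dedekindPsi N)
      (jdT A N) B := by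
  have hac : IsAlgClosed k := isAlgClosed_of_surj A π hπ
  have hyp : Hyp k N := hyp_of_isAlgClosed k N (natCast_prime_ne_zero N hℓN A hA π hπ)
  obtain ⟨b, hb, hli⟩ := exists_linearIndependent_of_hyp (NeZero.ne N) hyp
  have hy : iotaA A (jdT A N) = ((Jd N (dvd_refl N) : FN N) : LaurentSeries Kb) := by
    rw [Jd_val, coeffMap_jdT']
  have hy_mem : iotaA A (jdT A N) ∈ modularFunctionFieldBar N := by
    rw [hy]; exact (Jd N (dvd_refl N)).2
  have hyF : (⟨iotaA A (jdT A N), hy_mem⟩ : FN N) = Jd N (dvd_refl N) := Subtype.ext hy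
  have hYY : YY k N = k⟮redA A π (jdT A N)⟯ := by
    rw [YY, coeffMap_jdT', jdT_eq_SS (NeZero.ne N)]
  refine ⟨fun i => MvPolynomial.aeval (jdT A) (b i), ?_⟩
  refine
    { π_surj := hπ
      y_mem := hy_mem
      B_mem := ?_
      ry_mem := ?_
      rB_mem := ?_
      tr := ?_
      li := ?_
      fd := ?_
      deg := ?_
      gen := ?_ }
  · intro i
    rw [coeffMap_aeval_jdT']
    exact aeval_jdT_mem_bar N (hb i)
  · rw [coeffMap_jdT', jdT_eq]
    exact jqModCd_mem_full k N (dvd_refl N)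
  · intro i
    rw [coeffMap_aeval_jdT']
    exact aeval_jdT_mem N k (hb i)
  · rw [coeffMap_jdT', jdT_eq]
    exact transcendental_jqNModC k N
  · rw [← hYY]
    simpa only [coeffMap_aeval_jdT'] using hli
  · rw [hyF]
    exact finiteDimensional_FN_top N
  · rw [hyF, finrank_FN_top, finrank_FN, ← Nat.card_eq_fintype_card, FAGenus.card_coset]
  · refine ⟨divisorExpansionsC k N, rfl, ?_⟩
    rintro s ⟨d, hd, hdN, rfl⟩
    refine ⟨jdT A d, ?_, ?_⟩
    · rw [coeffMap_jdT']
      exact jdT_mem_bar N hdN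
    · rw [coeffMap_jdT', jdT_eq]

end FA18.M1
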