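import Fermat.Agent.Red.G2Glue

/-! S18 / M1: abstract core.  A subring `S` of `F` with a "reduction" `red : S →+* L` which is
local, restricts to `π` on the constants and has enough elements is a valuation ring, and gives a
`RedData`. -/

namespace FA18

open Module IntermediateField Polynomial

namespace M1Abs

variable {K k : Type*} [Field K] [Field k] {A : ValuationSubring K} {π : A →+* k}
  {F L : Type*} [Field F] [Algebra K F] [Field L] [Algebra k L]

/-- the hypotheses on `(S, red)` -/
structure PreRed (A : ValuationSubring K) (π : A →+* k) (S : Subring F) (red : S →+* L) : Prop where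
  h1 : ∀ a : A, ∃ h : algebraMap K F (a : K) ∈ S, red ⟨_, h⟩ = algebraMap k L (π a)
  h2 : ∀ a : K, algebraMap K F a ∈ S → a ∈ A
  h3 : ∀ s : S, red s ≠ 0 → ((s : F))⁻¹ ∈ S

variable {S : Subring F} {red : S →+* L} (H : PreRed A π S red)

/-- constants -/
def PreRed.cst : A →+* S where
  toFun a := ⟨algebraMap K F (a : K), (H.h1 a).choose⟩
  map_one' := Subtype.ext (by simp)
  map_mul' a b := Subtype.ext (by simp)
  map_zero' := Subtype.ext (by simp)
  map_add' a b := Subtype.ext (by simp)

lemma PreRed.coe_cst (a : A) : ((H.cst a : S) : F) = algebraMap K F (a : K) := rfl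

lemma PreRed.red_cst (a : A) : red (H.cst a) = algebraMap k L (π a) := (H.h1 a).choose_spec

/-- integral linear combinations -/
noncomputable def PreRed.comb {ι : Type*} (e : ι → S) (u : ι →₀ A) : S :=
  u.sum fun i a => H.cst a * e i

lemma PreRed.coe_comb {ι : Type*} (e : ι → S) (u : ι →₀ A) :
    ((H.comb e u : S) : F) = Finsupp.linearCombination K (fun i => (e i : F))
      (u.mapRange (fun a : A => (a : K)) rfl) := by
  rw [PreRed.comb, Finsupp.sum, Finsupp.linearCombination_apply,
    Finsupp.sum_mapRange_index (h := fun i (a : K) => a • (e i : F)) (fun i => zero_smul _ _),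
    Finsupp.sum, AddSubmonoidClass.coe_finsetSum]
  refine Finset.sum_congr rfl fun i _ => ?_
  rw [Algebra.smul_def]
  rfl

lemma PreRed.red_comb {ι : Type*} (e : ι → S) (u : ι →₀ A) :
    red (H.comb e u) = Finsupp.linearCombination k (fun i => red (e i))
      (u.mapRange π (map_zero π)) := by
  rw [PreRed.comb, Finsupp.sum, Finsupp.linearCombination_apply,
    Finsupp.sum_mapRange_index (h := fun i (a : k) => a • red (e i)) (fun i => zero_smul _ _),
    Finsupp.sum, map_sum]
  refine Finset.sum_congr rfl fun i _ => ?_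
  rw [map_mul, H.red_cst, Algebra.smul_def]

lemma exists_normalA {ι : Type*} (A : ValuationSubring K) {u : ι →₀ K} (hu : u ≠ 0) :
    ∃ (c : K) (u' : ι →₀ A) (i0 : ι), c ≠ 0 ∧ u' i0 = 1 ∧
      u = c • u'.mapRange (fun a : A => (a : K)) rfl := by
  obtain ⟨i0, h0, hn⟩ := RedBase.exists_normal A hu
  refine ⟨u i0, Finsupp.onFinset u.support (fun i => ⟨(u i0)⁻¹ * u i, hn i⟩) ?_, i0, h0, ?_, ?_⟩
  · intro i hi
    rw [Finsupp.mem_support_iff]
    intro h
    apply hi
    apply Subtype.ext
    simp [h]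
  · apply Subtype.ext
    simp [h0]
  · ext i
    simp [h0]

include H in
lemma PreRed.exists_unit {ι : Type*} (e : ι → S) (hli : LinearIndependent k fun i => red (e i))
    {u : ι →₀ K} (hu : u ≠ 0) :
    ∃ (c : K) (u' : ι →₀ A), c ≠ 0 ∧ red (H.comb e u') ≠ 0 ∧
      Finsupp.linearCombination K (fun i => (e i : F)) u = c • ((H.comb e u' : S) : F) := by
  obtain ⟨c, u', i0, hc, h1, hu'⟩ := exists_normalA A hu
  refine ⟨c, u', hc, ?_, ?_⟩
  · rw [H.red_comb]
    intro h
    have h2 := DFunLike.congr_fun ((linearIndependent_iff.1 hli) _ h) i0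
    rw [Finsupp.mapRange_apply, h1, map_one] at h2
    exact one_ne_zero h2
  · rw [H.coe_comb, ← map_smul, ← hu']

include H in
lemma PreRed.linearIndependent {ι : Type*} (e : ι → S)
    (hli : LinearIndependent k fun i => red (e i)) :
    LinearIndependent K fun i => (e i : F) := by
  rw [linearIndependent_iff]
  intro u hu0
  by_contra hu
  obtain ⟨c, u', hc, hne, h⟩ := H.exists_unit e hli hu
  rw [hu0] at h
  have h2 : ((H.comb e u' : S) : F) = 0 := by
    rcases smul_eq_zero.1 h.symm with h | h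
    · exact absurd h hc
    · exact h
  have h3 : H.comb e u' = 0 := Subtype.ext h2
  rw [h3, map_zero] at hne
  exact hne rfl

lemma PreRed.red_comb_mem {ι : Type*} (e : ι → S) (Fb : IntermediateField k L)
    (he : ∀ i, red (e i) ∈ Fb) (u : ι →₀ A) : red (H.comb e u) ∈ Fb := by
  rw [H.red_comb, Finsupp.linearCombination_apply, Finsupp.sum]
  exact sum_mem fun i _ => IntermediateField.smul_mem _ (he i)

include H in
/-- the structure lemma: every nonzero element of `F` is a constant times a quotient of two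
elements of `S` with nonzero reduction in `Fb`. -/
lemma PreRed.exists_form (Fb : IntermediateField k L) (hFb : ∀ z ∈ Fb, ∃ s : S, red s = z)
    (y : S) (hyFb : red y ∈ Fb) (hy : Transcendental k (red y)) [FiniteDimensional K⟮(y : F)⟯ F]
    (hdeg : finrank K⟮(y : F)⟯ F ≤ finrank k⟮(⟨red y, hyFb⟩ : Fb)⟯ Fb) (f : F) (hf : f ≠ 0) :
    ∃ (c : K) (s1 s2 : S), c ≠ 0 ∧ red s1 ≠ 0 ∧ red s2 ≠ 0 ∧ red s1 ∈ Fb ∧ red s2 ∈ Fb ∧
      f * (s2 : F) = c • (s1 : F) := by
  set yb : Fb := ⟨red y, hyFb⟩ with hyb
  have hyb_tr : Transcendental k yb := by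
    rw [← transcendental_algebraMap_iff (A := L) (algebraMap Fb L).injective]
    exact hy
  set n := finrank K⟮(y : F)⟯ F with hn
  obtain ⟨bb, hbb⟩ := exists_linearIndependent_of_le_finrank hdeg
  have hch : ∀ i, ∃ s : S, red s = (bb i : L) := fun i => hFb _ (bb i).2
  choose bS hbS using hch
  set e : ℕ × Fin n → S := fun p => y ^ p.1 * bS p.2 with he
  have hred_e : ∀ p, red (e p) = ((yb ^ p.1 * bb p.2 : Fb) : L) := by
    intro p
    rw [he, map_mul, map_pow, hbS]
    rfl
  have heli : LinearIndependent k fun p => red (e p) := by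
    have h1 := linearIndependent_pow_mul hyb_tr hbb
    have h2 := h1.map' Fb.val.toLinearMap (LinearMap.ker_eq_bot.2 Fb.val.injective)
    have hfun : (fun p => red (e p)) =
        Fb.val.toLinearMap ∘ fun p : ℕ × Fin n => yb ^ p.1 * bb p.2 := by
      ext p; rw [hred_e]; rfl
    rw [hfun]; exact h2
  have heFb : ∀ p, red (e p) ∈ Fb := fun p => by rw [hred_e]; exact Subtype.mem _
  have heK := H.linearIndependent e heli
  have hbK : LinearIndependent K⟮(y : F)⟯ fun i => (bS i : F) := by
    apply linearIndependent_adjoin_of_pow_mul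
    exact heK
  set b : Basis (Fin n) K⟮(y : F)⟯ F := basisOfLI hbK (by simp [hn]) with hb
  -- powers of `y`
  set e0 : ℕ → S := fun a => y ^ a with he0
  have he0li : LinearIndependent k fun a => red (e0 a) := by
    simp only [he0, map_pow]
    exact linearIndependent_pow_of_transcendental hy
  have he0Fb : ∀ a, red (e0 a) ∈ Fb := fun a => by
    simp only [he0, map_pow]; exact pow_mem hyFb a
  obtain ⟨q, hq, hqf⟩ := exists_denominator b f
  -- the denominator
  have hq' : (Polynomial.basisMonomials K).repr q ≠ 0 := by simpa using hq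
  obtain ⟨c2, u2, hc2, hne2, h2⟩ := H.exists_unit e0 he0li hq'
  have h2' : aeval (y : F) q = c2 • ((H.comb e0 u2 : S) : F) := by
    rw [aeval_eq_linComb, ← h2]
    rfl
  have hs2 : ((H.comb e0 u2 : S) : F) ≠ 0 := by
    intro h
    have : H.comb e0 u2 = 0 := Subtype.ext h
    rw [this, map_zero] at hne2
    exact hne2 rfl
  have hq0 : aeval (y : F) q ≠ 0 := by
    rw [h2']; exact smul_ne_zero hc2 hs2
  -- the numerator
  have hspan : polySpan K b = Submodule.span K (Set.range fun p => (e p : F)) := by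
    rw [polySpan]
    congr 1
    ext z
    constructor
    · rintro ⟨p, rfl⟩; exact ⟨p, by simp [he, hb]⟩
    · rintro ⟨p, rfl⟩; exact ⟨p, by simp [he, hb]⟩
  rw [hspan, Finsupp.mem_span_range_iff_exists_finsupp] at hqf
  obtain ⟨u, hu⟩ := hqf
  have hu' : Finsupp.linearCombination K (fun p => (e p : F)) u = aeval (y : F) q * f := by
    rw [Finsupp.linearCombination_apply]; exact hu
  have hu0 : u ≠ 0 := by
    rintro rfl
    rw [map_zero] at hu'
    exact mul_ne_zero hq0 hf hu'.symm
  obtain ⟨c1, u1, hc1, hne1, h1⟩ := H.exists_unit e heli hu0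
  refine ⟨c2⁻¹ * c1, H.comb e u1, H.comb e0 u2, mul_ne_zero (inv_ne_zero hc2) hc1, hne1, hne2,
    H.red_comb_mem e Fb heFb u1, H.red_comb_mem e0 Fb he0Fb u2, ?_⟩
  rw [mul_smul, ← h1, hu', h2', smul_mul_assoc, smul_smul, inv_mul_cancel₀ hc2, one_smul, mul_comm]

end M1Abs

open M1Abs in
/-- **Abstract core of M1.** -/
theorem exists_redData_of_subring {K k : Type*} [Field K] [Field k] {A : ValuationSubring K}
    {π : A →+* k} (hπ : Function.Surjective π) {F L : Type*} [Field F] [Algebra K F] [Field L]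
    [Algebra k L] (S : Subring F) (red : S →+* L)
    (h1 : ∀ a : A, ∃ h : algebraMap K F (a : K) ∈ S, red ⟨_, h⟩ = algebraMap k L (π a))
    (h2 : ∀ a : K, algebraMap K F a ∈ S → a ∈ A)
    (h3 : ∀ s : S, red s ≠ 0 → ((s : F))⁻¹ ∈ S)
    (Fb : IntermediateField k L) (hFb : ∀ z ∈ Fb, ∃ s : S, red s = z)
    (y : S) (hyFb : red y ∈ Fb) (hy : Transcendental k (red y)) [FiniteDimensional K⟮(y : F)⟯ F]
    (hdeg : finrank K⟮(y : F)⟯ F ≤ finrank k⟮(⟨red y, hyFb⟩ : Fb)⟯ Fb) :
    ∃ R : RedData A π F Fb, (∀ x : F, x ∈ R.O ↔ x ∈ S) ∧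
      (∀ (s : S) (h : (s : F) ∈ R.O), ((R.ρ ⟨s, h⟩ : Fb) : L) = red s) ∧
      HasDeg K k R.ρ (y : F) := by
  have H : PreRed A π S red := ⟨h1, h2, h3⟩
  have hform := H.exists_form Fb hFb y hyFb hy hdeg
  -- inverse of a unit
  have hinv : ∀ s : S, red s ≠ 0 → ∃ t : S, (t : F) = ((s : F))⁻¹ ∧ red t ≠ 0 ∧
      red t = (red s)⁻¹ := by
    intro s hs
    have hs0 : (s : F) ≠ 0 := by
      intro h
      have : s = 0 := Subtype.ext h
      rw [this, map_zero] at hs; exact hs rfl
    have hmul : s * (⟨((s : F))⁻¹, h3 s hs⟩ : S) = 1 := Subtype.ext (mul_inv_cancel₀ hs0)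
    have hmul' := congrArg red hmul
    rw [map_mul, map_one] at hmul'
    exact ⟨⟨((s : F))⁻¹, h3 s hs⟩, rfl, right_ne_zero_of_mul_eq_one hmul',
      eq_inv_of_mul_eq_one_right hmul'⟩
  -- `S` is a valuation ring
  have hval : ∀ x : F, x ∈ S ∨ x⁻¹ ∈ S := by
    intro x
    by_cases hx : x = 0
    · left; rw [hx]; exact S.zero_mem
    obtain ⟨c, s1, s2, hc, hn1, hn2, -, -, hf⟩ := hform x hx
    obtain ⟨t1, ht1, -, -⟩ := hinv s1 hn1
    obtain ⟨t2, ht2, -, -⟩ := hinv s2 hn2
    have hs1 : (s1 : F) ≠ 0 := by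
      intro h
      have : s1 = 0 := Subtype.ext h
      rw [this, map_zero] at hn1; exact hn1 rfl
    have hs2 : (s2 : F) ≠ 0 := by
      intro h
      have : s2 = 0 := Subtype.ext h
      rw [this, map_zero] at hn2; exact hn2 rfl
    have hc' : algebraMap K F c ≠ 0 := by simpa using hc
    rcases A.mem_or_inv_mem c with hcA | hcA
    · left
      have : x = ((H.cst ⟨c, hcA⟩ * s1 * t2 : S) : F) := by
        show x = algebraMap K F c * (s1 : F) * (t2 : F)
        rw [ht2, ← Algebra.smul_def, ← hf]
        field_simp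
      rw [this]; exact Subtype.mem _
    · right
      have : x⁻¹ = ((H.cst ⟨c⁻¹, hcA⟩ * s2 * t1 : S) : F) := by
        show x⁻¹ = algebraMap K F c⁻¹ * (s2 : F) * (t1 : F)
        rw [ht1, map_inv₀]
        rw [Algebra.smul_def] at hf
        have hx' : x = algebraMap K F c * (s1 : F) * ((s2 : F))⁻¹ := by
          rw [← hf]; field_simp
        rw [hx']
        field_simp
      rw [this]; exact Subtype.mem _
  -- `red` takes values in `Fb`
  have hredFb : ∀ s : S, red s ∈ Fb := by
    intro s
    by_cases hs : (s : F) = 0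
    · have : s = 0 := Subtype.ext hs
      rw [this, map_zero]; exact zero_mem _
    obtain ⟨c, s1, s2, hc, hn1, hn2, hF1, hF2, hf⟩ := hform s hs
    obtain ⟨t1, ht1, -, -⟩ := hinv s1 hn1
    have hs1 : (s1 : F) ≠ 0 := by
      intro h
      have : s1 = 0 := Subtype.ext h
      rw [this, map_zero] at hn1; exact hn1 rfl
    have hcA : c ∈ A := by
      apply h2
      have : algebraMap K F c = ((s * s2 * t1 : S) : F) := by
        show algebraMap K F c = (s : F) * (s2 : F) * (t1 : F)
        rw [ht1, hf, Algebra.smul_def]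
        field_simp
      rw [this]; exact Subtype.mem _
    have hS : s * s2 = H.cst ⟨c, hcA⟩ * s1 := by
      apply Subtype.ext
      show (s : F) * (s2 : F) = algebraMap K F c * (s1 : F)
      rw [hf, Algebra.smul_def]
    have hS' := congrArg red hS
    rw [map_mul, map_mul, H.red_cst] at hS'
    have : red s = algebraMap k L (π ⟨c, hcA⟩) * red s1 * (red s2)⁻¹ := by
      rw [← hS']; field_simp
    rw [this]
    exact mul_mem (mul_mem (Fb.algebraMap_mem _) hF1) (inv_mem hF2)
  let O : ValuationSubring F := { S with mem_or_inv_mem' := hval }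
  let ρ : O →+* Fb := red.codRestrict Fb hredFb
  have hρ : ∀ s : O, ((ρ s : Fb) : L) = red s := fun s => rfl
  have hyb_tr : Transcendental k (⟨red y, hyFb⟩ : Fb) := by
    rw [← transcendental_algebraMap_iff (A := L) (algebraMap Fb L).injective]
    exact hy
  let R : RedData A π F Fb :=
    { π_surj := hπ
      O := O
      ρ := ρ
      ρ_surj := by
        intro z
        obtain ⟨s, hs⟩ := hFb z.1 z.2
        exact ⟨s, Subtype.ext hs⟩
      algebraMap_mem_iff := fun a => ⟨h2 a, fun ha => (h1 ⟨a, ha⟩).choose⟩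
      ρ_algebraMap := by
        intro a h
        apply Subtype.ext
        exact (h1 a).choose_spec
      scale := by
        intro x hx
        obtain ⟨c, s1, s2, hc, hn1, hn2, -, -, hf⟩ := hform x hx
        obtain ⟨t2, ht2, hnt2, -⟩ := hinv s2 hn2
        have hs2 : (s2 : F) ≠ 0 := by
          intro h
          have : s2 = 0 := Subtype.ext h
          rw [this, map_zero] at hn2; exact hn2 rfl
        have hc' : algebraMap K F c ≠ 0 := by simpa using hc
        have he : algebraMap K F c⁻¹ * x = ((s1 * t2 : S) : F) := by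
          show algebraMap K F c⁻¹ * x = (s1 : F) * (t2 : F)
          rw [Algebra.smul_def] at hf
          have hx' : x = algebraMap K F c * (s1 : F) * ((s2 : F))⁻¹ := by
            rw [← hf]; field_simp
          rw [ht2, hx', map_inv₀]
          field_simp
        refine ⟨c⁻¹, inv_ne_zero hc, ?_⟩
        rw [he]
        refine ⟨(s1 * t2 : S).2, ?_⟩
        intro h0
        have h0' := congrArg (Subtype.val) h0
        have : red (s1 * t2) = 0 := h0'
        rw [map_mul] at this
        exact mul_ne_zero hn1 hnt2 this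
      deg := ⟨y, hyb_tr, hdeg⟩ }
  refine ⟨R, fun x => Iff.rfl, fun s h => rfl, ?_⟩
  refine ⟨y.2, ?_, inferInstance, ?_⟩
  · rw [ext0_of_mem _ (show (y : F) ∈ R.O from y.2)]
    exact hyb_tr
  · rw [ext0_of_mem _ (show (y : F) ∈ R.O from y.2)]
    exact hdeg

end FA18
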