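import Fermat.Agent.Red.CertPlace

/-! S18, package BR, part C: pure algebra.  From a monic relation over `K[j]` with degree bounds
to integrality over `K[j]` and `K[1/j]`, and the consequences at the places. -/

set_option autoImplicit false

open AlgebraicCurve Polynomial

namespace FA18

/-- `y` is a root of a monic polynomial `Tⁿ + ∑ aᵢ(j) Tⁱ` with `deg aᵢ + c ≤ b (n - i)`. -/
def BRRel (K : Type*) {F : Type*} [Field K] [Field F] [Algebra K F] (j y : F) (b c : ℕ) : Prop :=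
  ∃ (n : ℕ) (a : ℕ → K[X]), 0 < n ∧ (∀ i < n, (a i).natDegree + c ≤ b * (n - i)) ∧
    y ^ n + ∑ i ∈ Finset.range n, aeval j (a i) * y ^ i = 0

lemma isIntegral_of_monic_rel {R A : Type*} [CommRing R] [CommRing A] [Algebra R A] (y : A) (n : ℕ)
    (c : ℕ → R) (h : y ^ n + ∑ i ∈ Finset.range n, algebraMap R A (c i) * y ^ i = 0) :
    IsIntegral R y := by
  nontriviality R
  have hdeg : (∑ i ∈ Finset.range n, C (c i) * X ^ i : R[X]).degree < n := by
    refine (degree_sum_le _ _).trans_lt ?_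
    refine (Finset.sup_lt_iff (WithBot.bot_lt_coe n)).mpr ?_
    intro i hi
    exact (degree_C_mul_X_pow_le i _).trans_lt (WithBot.coe_lt_coe.mpr (Finset.mem_range.mp hi))
  refine ⟨X ^ n + ∑ i ∈ Finset.range n, C (c i) * X ^ i, monic_X_pow_add hdeg, ?_⟩
  rw [eval₂_add, eval₂_pow, eval₂_X, eval₂_finsetSum, ← h]
  congr 1
  refine Finset.sum_congr rfl fun i _ => ?_
  rw [eval₂_mul, eval₂_C, eval₂_pow, eval₂_X]

variable {K F : Type*} [Field K] [Field F] [Algebra K F]

lemma aeval_mem_adjoin (x : F) (p : K[X]) : aeval x p ∈ Algebra.adjoin K {x} := by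
  rw [Algebra.adjoin_singleton_eq_range_aeval]
  exact ⟨p, rfl⟩

lemma aeval_mul_inv_pow {j : F} (hj : j ≠ 0) (p : K[X]) {M : ℕ} (hM : p.natDegree ≤ M) :
    aeval j p * j⁻¹ ^ M = aeval j⁻¹ (reflect M p) := by
  let _ : Invertible j := invertibleOfNonzero hj
  have h := eval₂_reflect_mul_pow (algebraMap K F) j M p hM
  rw [invOf_eq_inv] at h
  rw [aeval_def, aeval_def, ← h, mul_assoc, ← mul_pow, mul_inv_cancel₀ hj, one_pow, mul_one]

namespace BRRel

variable {j y : F} {b c : ℕ}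

lemma mono (h : BRRel K j y b c) : BRRel K j y b 0 := by
  obtain ⟨n, a, hn, ha, e⟩ := h
  exact ⟨n, a, hn, fun i hi => by have := ha i hi; omega, e⟩

/-- `y` is integral over `K[j]`. -/
theorem isIntegral (h : BRRel K j y b c) : IsIntegral (Algebra.adjoin K {j}) y := by
  obtain ⟨n, a, -, -, e⟩ := h
  exact isIntegral_of_monic_rel y n (fun i => ⟨aeval j (a i), aeval_mem_adjoin j (a i)⟩) e

/-- `y / j ^ b` is integral over `K[1/j]`. -/
theorem isIntegral_inv (h : BRRel K j y b c) (hj : j ≠ 0) :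
    IsIntegral (Algebra.adjoin K {j⁻¹}) (y * j⁻¹ ^ b) := by
  obtain ⟨n, a, -, ha, e⟩ := h
  refine isIntegral_of_monic_rel _ n (fun i => ⟨aeval j⁻¹ (reflect (b * (n - i)) (a i)),
    aeval_mem_adjoin _ _⟩) ?_
  have e2 := congrArg (fun z => z * j⁻¹ ^ (b * n)) e
  simp only [zero_mul, add_mul, Finset.sum_mul] at e2
  rw [← e2]
  congr 1
  · rw [mul_pow, ← pow_mul]
  · refine Finset.sum_congr rfl fun i hi => ?_
    have hi' := Finset.mem_range.mp hi
    show aeval j⁻¹ (reflect (b * (n - i)) (a i)) * _ = _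
    rw [← aeval_mul_inv_pow hj (a i) (by have := ha i hi'; omega)]
    have e3 : b * n = b * (n - i) + b * i := by
      rw [← mul_add]
      congr 1
      omega
    rw [e3, pow_add, mul_pow, ← pow_mul]
    ring

/-- the cuspidal case: `(y / j ^ b) ^ n * j` is integral over `K[1/j]`. -/
theorem isIntegral_cusp (h : BRRel K j y b 1) (hj : j ≠ 0) :
    ∃ n : ℕ, 0 < n ∧ IsIntegral (Algebra.adjoin K {j⁻¹}) ((y * j⁻¹ ^ b) ^ n * j) := by
  have hw := h.isIntegral_inv hj
  obtain ⟨n, a, hn, ha, e⟩ := h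
  refine ⟨n, hn, ?_⟩
  have key : (y * j⁻¹ ^ b) ^ n * j = -∑ i ∈ Finset.range n,
      aeval j⁻¹ (reflect (b * (n - i) - 1) (a i)) * (y * j⁻¹ ^ b) ^ i := by
    have e2 := congrArg (fun z => z * (j⁻¹ ^ (b * n) * j)) e
    simp only [zero_mul, add_mul, Finset.sum_mul] at e2
    rw [eq_neg_iff_add_eq_zero, ← e2]
    congr 1
    · rw [mul_pow, ← pow_mul]
      ring
    · refine Finset.sum_congr rfl fun i hi => ?_
      have hi' := Finset.mem_range.mp hi
      have hai := ha i hi'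
      rw [← aeval_mul_inv_pow hj (a i) (by omega)]
      have e3 : b * n = (b * (n - i) - 1) + 1 + b * i := by
        have : b * n = b * (n - i) + b * i := by
          rw [← mul_add]
          congr 1
          omega
        omega
      rw [e3, pow_add, pow_add, mul_pow, ← pow_mul, pow_one]
      field_simp
  rw [key]
  refine IsIntegral.neg (IsIntegral.sum _ fun i _ => IsIntegral.mul ?_ (hw.pow i))
  exact isIntegral_algebraMap (R := Algebra.adjoin K {j⁻¹})
    (x := ⟨aeval j⁻¹ (reflect (b * (n - i) - 1) (a i)), aeval_mem_adjoin _ _⟩)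

/-! ### consequences at the places -/

variable (P : Place K F)

theorem ord_nonneg (h : BRRel K j y b c) (hj : 0 ≤ P.ord j) (hy : y ≠ 0) : 0 ≤ P.ord y :=
  ord_nonneg_of_isIntegral P (Or.inr hj) hy h.isIntegral

theorem ord_ge (h : BRRel K j y b c) (hj : P.ord j < 0) (hy : y ≠ 0) :
    (b : ℤ) * P.ord j ≤ P.ord y := by
  have ho := FA24.isOrd_place P
  have hj0 : j ≠ 0 := ne_zero_of_ord_ne P hj.ne
  have h1 : 0 ≤ P.ord (y * j⁻¹ ^ b) :=
    ord_nonneg_of_isIntegral P (Or.inr (by rw [P.ord_inv]; omega))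
      (mul_ne_zero hy (pow_ne_zero b (inv_ne_zero hj0))) (h.isIntegral_inv hj0)
  rw [ho.mul _ _ hy (pow_ne_zero b (inv_ne_zero hj0)), ho.pow (inv_ne_zero hj0), P.ord_inv] at h1
  linarith

theorem ord_gt (h : BRRel K j y b 1) (hj : P.ord j < 0) (hy : y ≠ 0) :
    (b : ℤ) * P.ord j < P.ord y := by
  have ho := FA24.isOrd_place P
  have hj0 : j ≠ 0 := ne_zero_of_ord_ne P hj.ne
  obtain ⟨n, -, hn⟩ := h.isIntegral_cusp hj0
  have h1 : 0 < P.ord (y * j⁻¹ ^ b) :=
    ord_pos_of_cusp P hj (mul_ne_zero hy (pow_ne_zero b (inv_ne_zero hj0))) hn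
  rw [ho.mul _ _ hy (pow_ne_zero b (inv_ne_zero hj0)), ho.pow (inv_ne_zero hj0), P.ord_inv] at h1
  linarith

end BRRel

end FA18
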