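import Fermat.Agent.Red.BridgeM
import Fermat.Agent.Red.BridgeC

/-! S18, package BR: final statements.  For a modular form `Φ` of weight `12 b` on `Γ₀(N)` whose
`q`-expansion `s` has coefficients in `ℚ̄`, the `q`-series `s / Δ ^ b` lies in `ℚ̄(X₀(N))` and
satisfies a monic relation over `ℚ̄[j]` with degree bounds. -/

set_option autoImplicit false

open UpperHalfPlane ModularForm Function CongruenceSubgroup FA_IS FA24 FAIg ModularCurve Polynomial
open scoped Manifold MatrixGroups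

namespace FA18

lemma coe_aeval_xN (N : ℕ) (p : Kb[X]) :
    ((aeval (xN N) p : FN N) : LaurentSeries Kb) = evalJ (xN N).1 p := by
  have h2 : (modularFunctionFieldBar N).val.toRingHom.comp (aeval (R := Kb) (xN N)).toRingHom =
      eval₂RingHom HahnSeries.C (xN N).1 := by
    apply Polynomial.ringHom_ext
    · intro a
      simp only [RingHom.comp_apply, AlgHom.toRingHom_eq_coe, RingHom.coe_coe, aeval_C,
        coe_eval₂RingHom, eval₂_C, C_eq_algebraMap]
      rfl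
    · simp only [RingHom.comp_apply, AlgHom.toRingHom_eq_coe, RingHom.coe_coe, aeval_X,
        coe_eval₂RingHom, eval₂_X]
      rfl
  exact congrArg (fun φ : Kb[X] →+* LaurentSeries Kb => φ p) h2

lemma brRel_of_series {N : ℕ} {Y : LaurentSeries Kb} (hY : Y ∈ modularFunctionFieldBar N)
    {b c : ℕ}
    (h : ∃ (n : ℕ) (a : ℕ → Kb[X]), 0 < n ∧ (∀ i < n, (a i).natDegree + c ≤ b * (n - i)) ∧
      Y ^ n + ∑ i ∈ Finset.range n, evalJ (xN N).1 (a i) * Y ^ i = 0) :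
    BRRel Kb (xN N) (⟨Y, hY⟩ : FN N) b c := by
  obtain ⟨n, a, hn, ha, e⟩ := h
  refine ⟨n, a, hn, ha, Subtype.ext ?_⟩
  have e1 : (((⟨Y, hY⟩ : FN N) ^ n + ∑ i ∈ Finset.range n, aeval (xN N) (a i) *
      (⟨Y, hY⟩ : FN N) ^ i : FN N) : LaurentSeries Kb) =
      Y ^ n + ∑ i ∈ Finset.range n, evalJ (xN N).1 (a i) * Y ^ i := by
    push_cast
    congr 1
    refine Finset.sum_congr rfl fun i _ => ?_
    rw [coe_aeval_xN]
  rw [e1, e]
  rfl

variable {N : ℕ} [NeZero N] {F : Type*} [FunLike F ℍ ℂ] {k : ℤ}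

/-- **BR**, modular forms. -/
theorem BR_modular [ModularFormClass F (Gamma0 N) k] (Φ : F) (b : ℕ) (hk : k = 12 * b)
    (s : PowerSeries Kb) (hs : s.map iota = qExpansion 1 Φ) :
    ∃ hy : brS Kb s b ∈ modularFunctionFieldBar N,
      BRRel Kb (xN N) (⟨brS Kb s b, hy⟩ : FN N) b 0 :=
  ⟨brS_mem_bar Φ b hk s hs, brRel_of_series _ (brS_monic_rel Φ b hk s hs)⟩

/-- **BR**, forms vanishing at all cusps. -/
theorem BR_cusp [ModularFormClass F (Gamma0 N) k] (Φ : F) (b : ℕ) (hk : k = 12 * b) (hb : 0 < b)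
    (hc : ∀ γ : SL(2, ℤ), IsZeroAtImInfty (⇑Φ ∣[k] γ))
    (s : PowerSeries Kb) (hs : s.map iota = qExpansion 1 Φ) :
    ∃ hy : brS Kb s b ∈ modularFunctionFieldBar N,
      BRRel Kb (xN N) (⟨brS Kb s b, hy⟩ : FN N) b 1 :=
  ⟨brS_mem_bar Φ b hk s hs, brRel_of_series _ (brS_monic_rel_cusp Φ b hk hb hc s hs)⟩

/-- **BR**, cusp forms. -/
theorem BR_cuspForm [CuspFormClass F (Gamma0 N) k] (Φ : F) (b : ℕ) (hk : k = 12 * b) (hb : 0 < b)
    (s : PowerSeries Kb) (hs : s.map iota = qExpansion 1 Φ) :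
    ∃ hy : brS Kb s b ∈ modularFunctionFieldBar N,
      BRRel Kb (xN N) (⟨brS Kb s b, hy⟩ : FN N) b 1 :=
  BR_cusp Φ b hk hb (fun γ => CuspFormClass.zero_at_infty_slash Φ γ) s hs

/-- **BR**, a cusp form times a modular form (function level). -/
theorem BR_cusp_mul {k₁ k₂ : ℤ} (f : CuspForm (Gamma0 N) k₁) (G : ModularForm (Gamma0 N) k₂)
    (b : ℕ) (hk : k₁ + k₂ = 12 * b) (hb : 0 < b)
    (s : PowerSeries Kb) (hs : s.map iota = qExpansion 1 (⇑f * ⇑G)) :
    ∃ hy : brS Kb s b ∈ modularFunctionFieldBar N,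
      BRRel Kb (xN N) (⟨brS Kb s b, hy⟩ : FN N) b 1 :=
  BR_cuspForm (f.mulModularForm G) b hk hb s (by rw [hs]; rfl)

end FA18
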