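import Fermat.Agent.X0Genus.Degree
import Fermat.Agent.Igusa.MeroRing
import Fermat.Agent.IntStr.Esym

/-! S18, package BR (bridge analytic -> algebraic), part A: the modular function `Φ / Δ ^ b`. -/

set_option autoImplicit false

open UpperHalfPlane ModularForm EisensteinSeries Function CongruenceSubgroup FA_IS FA24 FAIg
open Matrix.SpecialLinearGroup
open scoped Manifold MatrixGroups Real

namespace FA18

local notation "Δ" => ModularForm.discriminant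
local notation "oPS" => HahnSeries.ofPowerSeries ℤ ℂ

/-- the function `Φ / Δ ^ b`. -/
noncomputable def brFun (Φ : ℍ → ℂ) (b : ℕ) : ℍ → ℂ := fun τ => Φ τ / Δ τ ^ b

lemma brFun_mul_disc (Φ : ℍ → ℂ) (b : ℕ) : brFun Φ b * Δ ^ b = Φ := by
  funext τ
  simp only [brFun, Pi.mul_apply, Pi.pow_apply]
  exact div_mul_cancel₀ _ (pow_ne_zero _ (discriminant_ne_zero τ))

lemma brFun_smul (Φ : ℍ → ℂ) (b : ℕ) {k : ℤ} (hk : k = 12 * b) (γ : SL(2, ℤ)) :
    (fun τ => brFun Φ b (γ • τ)) = brFun (Φ ∣[k] γ) b := by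
  funext τ
  simp only [brFun]
  rw [SL_slash_apply, disc_smul, mul_pow, ← zpow_natCast (denom γ τ ^ (12 : ℤ)), ← zpow_mul, ← hk,
    zpow_neg]
  have h := zpow_ne_zero k (denom_ne_zero γ τ)
  have h2 := pow_ne_zero b (discriminant_ne_zero τ)
  field_simp

lemma brFun_mdiff {Φ : ℍ → ℂ} (hΦ : MDiff Φ) (b : ℕ) : MDiff (brFun Φ b) :=
  hΦ.div (disc_mdiff.pow b) fun τ => pow_ne_zero _ (discriminant_ne_zero τ)

lemma conj_T_pow_mem_Gamma0 (N : ℕ) (γ : SL(2, ℤ)) :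
    γ * ModularGroup.T ^ (N : ℤ) * γ⁻¹ ∈ Gamma0 N := by
  have h1 : ModularGroup.T ^ (N : ℤ) ∈ Gamma N := by
    rw [Gamma_mem, ModularGroup.coe_T_zpow]
    simp
  have h2 := (Gamma_normal N).conj_mem _ h1 γ
  rw [Gamma_mem] at h2
  rw [Gamma0_mem]
  exact h2.2.2.1

lemma periodic_of_vadd_nat {g : ℍ → ℂ} (N : ℕ) (h : ∀ τ : ℍ, g ((N : ℝ) +ᵥ τ) = g τ) :
    Function.Periodic (g ∘ ofComplex) (((N : ℕ) : ℝ) : ℂ) := by
  intro w
  by_cases hw : 0 < w.im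
  · have hw' : 0 < (w + (((N : ℕ) : ℝ) : ℂ)).im := by simpa using hw
    simp only [comp_apply, ofComplex_apply_of_im_pos hw', ofComplex_apply_of_im_pos hw]
    rw [← h ⟨w, hw⟩]
    congr 1
    ext
    simp [add_comm]
  · have hw1 : w.im ≤ 0 := not_lt.mp hw
    have hw' : (w + (((N : ℕ) : ℝ) : ℂ)).im ≤ 0 := by simpa using hw1
    simp only [comp_apply]
    rw [ofComplex_apply_eq_of_im_nonpos hw' hw1]

variable {N : ℕ} [NeZero N] {F : Type*} [FunLike F ℍ ℂ] {k : ℤ}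

omit [NeZero N] in
lemma brFun_inv [SlashInvariantFormClass F (Gamma0 N) k] (Φ : F) (b : ℕ) (hk : k = 12 * b)
    {γ : SL(2, ℤ)} (hγ : γ ∈ Gamma0 N) (τ : ℍ) : brFun Φ b (γ • τ) = brFun Φ b τ := by
  have h := congrFun (brFun_smul Φ b hk γ) τ
  rw [h]
  congr 1
  exact SlashInvariantForm.slash_action_eqn Φ _ (by simpa using hγ)

theorem brFun_mem_RN [ModularFormClass F (Gamma0 N) k] (Φ : F) (b : ℕ) (hk : k = 12 * b) :
    brFun Φ b ∈ RN N := by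
  refine ⟨fun γ hγ τ => brFun_inv Φ b hk hγ τ, fun γ => ⟨?_, ?_, ⟨b, ?_⟩⟩⟩
  · apply periodic_of_vadd_nat
    intro τ
    have e : γ • ((N : ℝ) +ᵥ τ) = (γ * ModularGroup.T ^ (N : ℤ) * γ⁻¹) • (γ • τ) := by
      rw [← mul_smul, inv_mul_cancel_right, mul_smul, T_zpow_smul]
      simp
    rw [e]
    exact brFun_inv Φ b hk (conj_T_pow_mem_Gamma0 N γ) _
  · rw [brFun_smul (⇑Φ) b hk γ]
    apply brFun_mdiff
    rw [SL_slash]
    exact (ModularFormClass.holo Φ).slash k _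
  · rw [brFun_smul (⇑Φ) b hk γ, brFun_mul_disc]
    exact ModularFormClass.bdd_at_infty_slash Φ γ

lemma oPS_qExpansion_disc : oPS (qExpansion 1 Δ) = deltaL ℂ := by
  rw [qExpansion_discriminant, map_mul, HahnSeries.ofPowerSeries_X, deltaL]

theorem lau_brFun [ModularFormClass F (Gamma0 N) k] (Φ : F) (b : ℕ) (hk : k = 12 * b) :
    lau 1 (brFun Φ b) = oPS (qExpansion 1 Φ) * deltaInvL ℂ ^ b := by
  have hm := RN.mero_one (brFun_mem_RN Φ b hk)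
  have e1 : ((1 : ℕ) : ℝ) = 1 := Nat.cast_one
  apply lau_eq_of_mul hm b (by rw [brFun_mul_disc]; exact ModularFormClass.bdd_at_infty Φ)
  rw [brFun_mul_disc, e1, oPS_qExpansion_disc, mul_assoc, ← mul_pow, mul_comm (deltaInvL ℂ),
    deltaL_mul_deltaInvL, one_pow, mul_one]

/-! ### level one -/

open Polynomial

lemma exists_poly_level_one (e : ℍ → ℂ) (w : ℕ) {m : ℤ} (hm : m = 12 * w) (he : e ∈ MFfun 𝒮ℒ m) :
    ∃ P : ℂ[X], P.natDegree ≤ w ∧ ∀ τ, brFun e w τ = P.eval (jf τ) := by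
  obtain ⟨G, rfl⟩ := he
  refine exists_poly_of_invariant (brFun G w) (brFun_mdiff (ModularFormClass.holo G) w)
    (fun γ τ => ?_) w (by rw [brFun_mul_disc]; exact ModularFormClass.bdd_at_infty G)
  have h := congrFun (brFun_smul G w hm γ) τ
  rw [h]
  congr 1
  exact SlashInvariantForm.slash_action_eqn G _ ⟨γ, rfl⟩

lemma exists_poly_level_one_cusp (e : ℍ → ℂ) (w : ℕ) {m : ℤ} (hm : m = 12 * w)
    (he : e ∈ MFfun 𝒮ℒ m) (hw : 0 < w) (h0 : IsZeroAtImInfty e) :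
    ∃ P : ℂ[X], P.natDegree + 1 ≤ w ∧ ∀ τ, brFun e w τ = P.eval (jf τ) := by
  obtain ⟨G, rfl⟩ := he
  obtain ⟨w', rfl⟩ : ∃ w', w = w' + 1 := ⟨w - 1, by omega⟩
  obtain ⟨H, hH⟩ := exists_div_disc (k' := 12 * w') (by rw [hm]; push_cast; ring) G h0
  obtain ⟨P, hP, hPe⟩ := exists_poly_level_one H w' rfl ⟨H, rfl⟩
  refine ⟨P, by omega, fun τ => ?_⟩
  rw [← hPe]
  simp only [brFun]
  rw [hH, pow_succ]
  have := discriminant_ne_zero τ
  field_simp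

/-- the algebraic step: from the norm relation for `Φ` to the relation for `Φ / Δ ^ b`. -/
lemma rel_of_esym {ι : Type} [Fintype ι] [DecidableEq ι] (t : ι → ℍ → ℂ) (q0 : ι) (b : ℕ)
    (P : ℕ → ℂ[X]) (hP : ∀ m τ, brFun (esym t m) (b * m) τ = (P m).eval (jf τ)) (τ : ℍ) :
    brFun (t q0) b τ ^ Fintype.card ι + ∑ i ∈ Finset.range (Fintype.card ι),
      (C ((-1) ^ (Fintype.card ι - i)) * P (Fintype.card ι - i)).eval (jf τ) *
        brFun (t q0) b τ ^ i = 0 := by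
  have h := congrFun (esym_monic t q0) τ
  simp only [Pi.add_apply, Pi.pow_apply, Finset.sum_apply, Pi.mul_apply, Pi.zero_apply,
    Pi.neg_apply, Pi.one_apply] at h
  have hd := discriminant_ne_zero τ
  have hd' : Δ τ ^ (b * Fintype.card ι) ≠ 0 := pow_ne_zero _ hd
  apply mul_right_cancel₀ hd'
  rw [zero_mul, ← h, add_mul, Finset.sum_mul]
  congr 1
  · simp only [brFun]
    rw [div_pow, ← pow_mul, div_mul_cancel₀ _ hd']
  · refine Finset.sum_congr rfl fun i hi => ?_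
    have hi' := Finset.mem_range.mp hi
    rw [eval_mul, eval_C, ← hP]
    simp only [brFun]
    have e : b * Fintype.card ι = b * (Fintype.card ι - i) + b * i := by
      rw [← mul_add]
      congr 1
      omega
    rw [e, pow_add, div_pow, ← pow_mul]
    have h1 := pow_ne_zero (b * (Fintype.card ι - i)) hd
    have h2 := pow_ne_zero (b * i) hd
    field_simp

omit [NeZero N] in
lemma tr_one [ModularFormClass F (Gamma0 N) k] (Φ : F) :
    tr Φ (⟦⟨mapGL ℝ 1, 1, rfl⟩⟧ : Q ((Gamma0 N : Subgroup (GL (Fin 2) ℝ)))) = ⇑Φ := by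
  rw [tr_mk, inv_one]
  exact SlashAction.slash_one k _

/-- **BR2 over `ℂ`**: the monic relation for `Φ / Δ ^ b` over `ℂ[j]`, with degree bounds. -/
theorem exists_monic_rel [ModularFormClass F (Gamma0 N) k] (Φ : F) (b : ℕ) (hk : k = 12 * b) :
    ∃ (n : ℕ) (a : ℕ → ℂ[X]), 0 < n ∧ (∀ i < n, (a i).natDegree ≤ b * (n - i)) ∧
      ∀ τ, brFun Φ b τ ^ n + ∑ i ∈ Finset.range n, (a i).eval (jf τ) * brFun Φ b τ ^ i = 0 := by
  set 𝒢 : Subgroup (GL (Fin 2) ℝ) := (Gamma0 N : Subgroup (GL (Fin 2) ℝ)) with h𝒢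
  have hex : ∀ m : ℕ, ∃ P : ℂ[X], P.natDegree ≤ b * m ∧
      ∀ τ, brFun (esym (tr (𝒢 := 𝒢) Φ) m) (b * m) τ = P.eval (jf τ) := fun m =>
    exists_poly_level_one _ _ (m := k * m) (by rw [hk]; push_cast; ring) (esym_mem_MFfun Φ m rfl)
  choose P hPd hPe using hex
  refine ⟨Fintype.card (Q 𝒢), fun i => C ((-1) ^ (Fintype.card (Q 𝒢) - i)) *
    P (Fintype.card (Q 𝒢) - i), Fintype.card_pos, fun i _ => ?_, fun τ => ?_⟩
  · exact (natDegree_C_mul_le _ _).trans (hPd _)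
  · have := rel_of_esym (tr (𝒢 := 𝒢) Φ) ⟦⟨mapGL ℝ 1, 1, rfl⟩⟧ b P hPe τ
    rwa [tr_one] at this

/-- **BR2 over `ℂ`**, cusp forms. -/
theorem exists_monic_rel_cusp [ModularFormClass F (Gamma0 N) k] (Φ : F) (b : ℕ) (hk : k = 12 * b)
    (hb : 0 < b) (hc : ∀ γ : SL(2, ℤ), IsZeroAtImInfty (⇑Φ ∣[k] γ)) :
    ∃ (n : ℕ) (a : ℕ → ℂ[X]), 0 < n ∧ (∀ i < n, (a i).natDegree + 1 ≤ b * (n - i)) ∧
      ∀ τ, brFun Φ b τ ^ n + ∑ i ∈ Finset.range n, (a i).eval (jf τ) * brFun Φ b τ ^ i = 0 := by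
  set 𝒢 : Subgroup (GL (Fin 2) ℝ) := (Gamma0 N : Subgroup (GL (Fin 2) ℝ)) with h𝒢
  have hz : ∀ q : Q 𝒢, IsZeroAtImInfty (tr Φ q) := fun q => by
    obtain ⟨γ, -, h⟩ := exists_tr_eq Φ q
    rw [h]
    exact hc γ⁻¹
  have hex : ∀ m : ℕ, ∃ P : ℂ[X], (0 < m → P.natDegree + 1 ≤ b * m) ∧
      ∀ τ, brFun (esym (tr (𝒢 := 𝒢) Φ) m) (b * m) τ = P.eval (jf τ) := fun m => by
    rcases Nat.eq_zero_or_pos m with rfl | hm
    · obtain ⟨P, -, hP⟩ := exists_poly_level_one (esym (tr (𝒢 := 𝒢) Φ) 0) (b * 0)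
        (m := k * (0 : ℕ)) (by rw [hk]; push_cast; ring) (esym_mem_MFfun Φ 0 rfl)
      exact ⟨P, fun h => absurd h (lt_irrefl _), hP⟩
    · obtain ⟨P, h1, hP⟩ := exists_poly_level_one_cusp (esym (tr (𝒢 := 𝒢) Φ) m) (b * m)
        (m := k * m) (by rw [hk]; push_cast; ring) (esym_mem_MFfun Φ m rfl) (Nat.mul_pos hb hm)
        (esym_zeroAt hz hm)
      exact ⟨P, fun _ => h1, hP⟩
  choose P hPd hPe using hex
  refine ⟨Fintype.card (Q 𝒢), fun i => C ((-1) ^ (Fintype.card (Q 𝒢) - i)) *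
    P (Fintype.card (Q 𝒢) - i), Fintype.card_pos, fun i hi => ?_, fun τ => ?_⟩
  · exact (Nat.add_le_add_right (natDegree_C_mul_le _ _) 1).trans (hPd _ (by omega))
  · have := rel_of_esym (tr (𝒢 := 𝒢) Φ) ⟦⟨mapGL ℝ 1, 1, rfl⟩⟧ b P hPe τ
    rwa [tr_one] at this

end FA18
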