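import Fermat.Agent.Red.BridgeA

/-! S18, package BR, part B: `q`-series, descent of the monic relation from `ℂ` to `ℚ̄`. -/

set_option autoImplicit false

open UpperHalfPlane ModularForm Function CongruenceSubgroup FA_IS FA24 FAIg ModularCurve Polynomial
open scoped Manifold MatrixGroups

namespace FA18

/-- the `q`-series `s / Δ ^ b` over any ring. -/
noncomputable def brS (R : Type*) [CommRing R] (s : PowerSeries R) (b : ℕ) : LaurentSeries R :=
  HahnSeries.ofPowerSeries ℤ R s * deltaInvL R ^ b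

lemma coeffMap_brS {R S : Type*} [CommRing R] [CommRing S] (f : R →+* S) (s : PowerSeries R)
    (b : ℕ) : coeffMap f (brS R s b) = brS S (s.map f) b := by
  rw [brS, map_mul, map_pow, ModularCurve.coeffMap_ofPowerSeries, coeffMap_deltaInvL, brS]

lemma brS_mul_deltaL_pow (R : Type*) [CommRing R] (s : PowerSeries R) (b : ℕ) :
    brS R s b * deltaL R ^ b = HahnSeries.ofPowerSeries ℤ R s := by
  rw [brS, mul_assoc, ← mul_pow, mul_comm (deltaInvL R), deltaL_mul_deltaInvL, one_pow, mul_one]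

/-- apply an additive map to the coefficients of a Laurent series. -/
noncomputable def piL (π : ℂ →+ Kb) : LaurentSeries ℂ →+ LaurentSeries Kb where
  toFun x := x.map π
  map_zero' := by
    ext n
    simp
  map_add' x y := by
    ext n
    simp

lemma coeff_piL (π : ℂ →+ Kb) (x : LaurentSeries ℂ) (n : ℤ) : (piL π x).coeff n = π (x.coeff n) :=
  rfl

lemma piL_C_mul_cm (π : ℂ →+ Kb) (hπ : ∀ z a, π (z * iota a) = π z * a) (z : ℂ)
    (W : LaurentSeries Kb) : piL π (HahnSeries.C z * cm W) = HahnSeries.C (π z) * W := by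
  ext n
  rw [coeff_piL, HahnSeries.C_mul_eq_smul, HahnSeries.C_mul_eq_smul, HahnSeries.coeff_smul,
    HahnSeries.coeff_smul, smul_eq_mul, smul_eq_mul]
  exact hπ _ _

lemma piL_cm (π : ℂ →+ Kb) (hπ : ∀ z a, π (z * iota a) = π z * a) (h1 : π 1 = 1)
    (W : LaurentSeries Kb) : piL π (cm W) = W := by
  have := piL_C_mul_cm π hπ 1 W
  rwa [map_one, one_mul, h1, map_one, one_mul] at this

lemma piL_evalJ_mul (π : ℂ →+ Kb) (hπ : ∀ z a, π (z * iota a) = π z * a) (X₀ W : LaurentSeries Kb)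
    (p : ℂ[X]) : piL π (evalJ (cm X₀) p * cm W) = evalJ X₀ (pmap π p) * W := by
  induction p using Polynomial.induction_on' with
  | add p q hp hq => rw [map_add, add_mul, map_add, hp, hq, map_add, map_add, add_mul]
  | monomial n a =>
    have e : pmap π (monomial n a) = monomial n (π a) := by
      ext m
      rw [coeff_pmap, coeff_monomial, coeff_monomial]
      split_ifs <;> simp
    have e1 : evalJ (cm X₀) (monomial n a) * cm W = HahnSeries.C a * cm (X₀ ^ n * W) := by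
      rw [← C_mul_X_pow_eq_monomial, map_mul, map_pow, evalJ_X, evalJ_C, map_mul, map_pow,
        mul_assoc]
    have e2 : evalJ X₀ (monomial n (π a)) * W = HahnSeries.C (π a) * (X₀ ^ n * W) := by
      rw [← C_mul_X_pow_eq_monomial, map_mul, map_pow, evalJ_X, evalJ_C, mul_assoc]
    rw [e, e1, e2, piL_C_mul_cm π hπ]

/-- descent of a monic relation. -/
theorem descent_monic (X₀ Y₀ : LaurentSeries Kb) (n : ℕ) (a : ℕ → ℂ[X])
    (h : cm Y₀ ^ n + ∑ i ∈ Finset.range n, evalJ (cm X₀) (a i) * cm Y₀ ^ i = 0) :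
    ∃ a' : ℕ → Kb[X], (∀ i, (a' i).natDegree ≤ (a i).natDegree) ∧
      Y₀ ^ n + ∑ i ∈ Finset.range n, evalJ X₀ (a' i) * Y₀ ^ i = 0 := by
  obtain ⟨π, hπ, h1⟩ := exists_retraction 1 one_ne_zero
  refine ⟨fun i => pmap π (a i), fun i => natDegree_pmap_le _ _, ?_⟩
  have h2 := congrArg (piL π) h
  rw [map_zero, map_add, map_sum, ← map_pow, piL_cm π hπ h1] at h2
  rw [← h2]
  congr 1
  refine Finset.sum_congr rfl fun i _ => ?_
  rw [← map_pow, piL_evalJ_mul π hπ]

lemma rel_lau {g : ℍ → ℂ} (hg : MeroInf 1 g) (n : ℕ) (a : ℕ → ℂ[X])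
    (h : ∀ τ, g τ ^ n + ∑ i ∈ Finset.range n, (a i).eval (jf τ) * g τ ^ i = 0) :
    lau 1 g ^ n + ∑ i ∈ Finset.range n, evalJ (lau 1 jf) (a i) * lau 1 g ^ i = 0 := by
  set G : meroRing 1 := ⟨g, hg⟩ with hG
  set A : ℕ → meroRing 1 := fun i =>
    ⟨fun τ => (a i).eval (jf τ), (meroInf_eval meroInf_jf (a i)).1⟩ with hA
  have h1 : G ^ n + ∑ i ∈ Finset.range n, A i * G ^ i = 0 := by
    apply Subtype.ext
    funext τ
    have := h τ
    simpa [hG, hA, Finset.sum_apply] using this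
  have h2 := congrArg (lauHom 1) h1
  rw [map_zero, map_add, map_pow, map_sum] at h2
  simp only [map_mul, map_pow, lauHom_apply] at h2
  rw [← h2]
  congr 1
  refine Finset.sum_congr rfl fun i _ => ?_
  rw [← (meroInf_eval meroInf_jf (a i)).2]

lemma cm_xN (N : ℕ) : cm (xN N).1 = lau 1 jf := by
  rw [xN_val, cm_coeffEmb, lau_jf]

variable {N : ℕ} [NeZero N] {F : Type*} [FunLike F ℍ ℂ] {k : ℤ}

lemma cm_brS [ModularFormClass F (Gamma0 N) k] (Φ : F) (b : ℕ) (hk : k = 12 * b)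
    (s : PowerSeries Kb) (hs : s.map iota = qExpansion 1 Φ) :
    cm (brS Kb s b) = lau 1 (brFun Φ b) := by
  rw [cm, coeffMap_brS, hs, lau_brFun Φ b hk, brS]

/-- **BR2**, as an identity of `q`-series over `ℚ̄`. -/
theorem brS_monic_rel [ModularFormClass F (Gamma0 N) k] (Φ : F) (b : ℕ) (hk : k = 12 * b)
    (s : PowerSeries Kb) (hs : s.map iota = qExpansion 1 Φ) :
    ∃ (n : ℕ) (a : ℕ → Kb[X]), 0 < n ∧ (∀ i < n, (a i).natDegree ≤ b * (n - i)) ∧
      brS Kb s b ^ n + ∑ i ∈ Finset.range n, evalJ (xN N).1 (a i) * brS Kb s b ^ i = 0 := by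
  obtain ⟨n, a, hn, ha, h⟩ := exists_monic_rel Φ b hk
  have h1 := rel_lau (RN.mero_one (brFun_mem_RN Φ b hk)) n a h
  rw [← cm_brS Φ b hk s hs, ← cm_xN N] at h1
  obtain ⟨a', ha', h2⟩ := descent_monic _ _ n a h1
  exact ⟨n, a', hn, fun i hi => (ha' i).trans (ha i hi), h2⟩

/-- **BR2**, cusp forms. -/
theorem brS_monic_rel_cusp [ModularFormClass F (Gamma0 N) k] (Φ : F) (b : ℕ) (hk : k = 12 * b)
    (hb : 0 < b) (hc : ∀ γ : SL(2, ℤ), IsZeroAtImInfty (⇑Φ ∣[k] γ))
    (s : PowerSeries Kb) (hs : s.map iota = qExpansion 1 Φ) :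
    ∃ (n : ℕ) (a : ℕ → Kb[X]), 0 < n ∧ (∀ i < n, (a i).natDegree + 1 ≤ b * (n - i)) ∧
      brS Kb s b ^ n + ∑ i ∈ Finset.range n, evalJ (xN N).1 (a i) * brS Kb s b ^ i = 0 := by
  obtain ⟨n, a, hn, ha, h⟩ := exists_monic_rel_cusp Φ b hk hb hc
  have h1 := rel_lau (RN.mero_one (brFun_mem_RN Φ b hk)) n a h
  rw [← cm_brS Φ b hk s hs, ← cm_xN N] at h1
  obtain ⟨a', ha', h2⟩ := descent_monic _ _ n a h1
  exact ⟨n, a', hn, fun i hi => (Nat.add_le_add_right (ha' i) 1).trans (ha i hi), h2⟩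

end FA18
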