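import Mathlib

/-! S18, package CERT: the field identities behind the `u⁶`-certificates. -/

set_option autoImplicit false

namespace FA18

variable {L : Type*} [Field L]

/-- common part: `y'⁶ Δ = f⁶ j² (j-1728)³`. -/
lemma alg_common {f e4 e6 d j y' : L} (hd : d ≠ 0) (hj : j * d = e4 ^ 3)
    (h1728 : 1728 * d = e4 ^ 3 - e6 ^ 2) (hy' : y' * d = f * e4 * e6) :
    (j - 1728) * d = e6 ^ 2 ∧ y' ^ 6 * d = f ^ 6 * j ^ 2 * (j - 1728) ^ 3 := by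
  have ha : (j - 1728) * d = e6 ^ 2 := by linear_combination hj - h1728
  refine ⟨ha, ?_⟩
  apply mul_left_cancel₀ (pow_ne_zero 5 hd)
  calc d ^ 5 * (y' ^ 6 * d) = (y' * d) ^ 6 := by ring
    _ = (f * e4 * e6) ^ 6 := by rw [hy']
    _ = f ^ 6 * (e4 ^ 3) ^ 2 * (e6 ^ 2) ^ 3 := by ring
    _ = f ^ 6 * (j * d) ^ 2 * ((j - 1728) * d) ^ 3 := by rw [hj, ha]
    _ = d ^ 5 * (f ^ 6 * j ^ 2 * (j - 1728) ^ 3) := by ring

/-- level `1` -/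
lemma alg_one {f e4 e6 d j y' u : L} (hd : d ≠ 0) (he4 : e4 ≠ 0) (he6 : e6 ≠ 0)
    (hj : j * d = e4 ^ 3) (h1728 : 1728 * d = e4 ^ 3 - e6 ^ 2) (hy' : y' * d = f * e4 * e6) :
    j ≠ 0 ∧ j - 1728 ≠ 0 ∧ (u * (j * (j - 1728)) = -y' →
    u ^ 6 * (j ^ 4 * (j - 1728) ^ 3) * d = f ^ 6) := by
  obtain ⟨ha, h1⟩ := alg_common hd hj h1728 hy'
  have hj0 : j ≠ 0 := by
    intro h
    rw [h, zero_mul] at hj
    exact pow_ne_zero 3 he4 hj.symm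
  have ha0 : j - 1728 ≠ 0 := by
    intro h
    rw [h, zero_mul] at ha
    exact pow_ne_zero 2 he6 ha.symm
  refine ⟨hj0, ha0, fun hu => ?_⟩
  apply mul_left_cancel₀ (mul_ne_zero (pow_ne_zero 2 hj0) (pow_ne_zero 3 ha0))
  calc j ^ 2 * (j - 1728) ^ 3 * (u ^ 6 * (j ^ 4 * (j - 1728) ^ 3) * d)
      = (u * (j * (j - 1728))) ^ 6 * d := by ring
    _ = y' ^ 6 * d := by rw [hu]; ring
    _ = j ^ 2 * (j - 1728) ^ 3 * f ^ 6 := by rw [h1]; ring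

/-- auxiliary level `2` -/
lemma alg_two {f e4 e6 d d2 j h y' u : L} (hd : d ≠ 0) (hd2 : d2 ≠ 0) (he4 : e4 ≠ 0)
    (he6 : e6 ≠ 0) (hj : j * d = e4 ^ 3) (h1728 : 1728 * d = e4 ^ 3 - e6 ^ 2)
    (hh : h * d2 = d) (hid : e4 ^ 3 * d * d2 = (d + 256 * d2) ^ 3) (hy' : y' * d = f * e4 * e6) :
    j * h ^ 2 = (h + 256) ^ 3 ∧ j ≠ 0 ∧ (j - 1728) * h * (h + 256) ≠ 0 ∧ h - 512 ≠ 0 ∧
    (u * ((j - 1728) * h * (h + 256)) = -(y' * (h - 512)) →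
      u ^ 6 * (h + 64) ^ 3 * d ^ 5 = f ^ 6 * d2 ^ 4) := by
  obtain ⟨ha, h1⟩ := alg_common hd hj h1728 hy'
  have hj0 : j ≠ 0 := by
    intro h
    rw [h, zero_mul] at hj
    exact pow_ne_zero 3 he4 hj.symm
  have ha0 : j - 1728 ≠ 0 := by
    intro h
    rw [h, zero_mul] at ha
    exact pow_ne_zero 2 he6 ha.symm
  have hh0 : h ≠ 0 := by
    intro h0
    rw [h0, zero_mul] at hh
    exact hd hh.symm
  have hR : j * h ^ 2 = (h + 256) ^ 3 := by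
    apply mul_left_cancel₀ (mul_ne_zero hd (pow_ne_zero 3 hd2))
    calc d * d2 ^ 3 * (j * h ^ 2) = (j * d) * (h * d2) ^ 2 * d2 := by ring
      _ = e4 ^ 3 * d * d2 * d := by rw [hj, hh]; ring
      _ = (h * d2 + 256 * d2) ^ 3 * d := by rw [hid, hh]
      _ = d * d2 ^ 3 * (h + 256) ^ 3 := by ring
  have hR' : (j - 1728) * h ^ 2 = (h + 64) * (h - 512) ^ 2 := by linear_combination hR
  have hb0 : h + 256 ≠ 0 := by
    intro h0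
    rw [h0] at hR
    exact mul_ne_zero hj0 (pow_ne_zero 2 hh0) (by rw [hR]; ring)
  have hc0 : h - 512 ≠ 0 := by
    intro h0
    rw [h0] at hR'
    exact mul_ne_zero ha0 (pow_ne_zero 2 hh0) (by rw [hR']; ring)
  refine ⟨hR, hj0, mul_ne_zero (mul_ne_zero ha0 hh0) hb0, hc0, fun hu => ?_⟩
  have key : u ^ 6 * (h + 64) ^ 3 * d * h ^ 4 = f ^ 6 := by
    apply mul_left_cancel₀ (mul_ne_zero (mul_ne_zero (pow_ne_zero 3 ha0) (pow_ne_zero 6 hb0))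
      (pow_ne_zero 6 hc0))
    calc (j - 1728) ^ 3 * (h + 256) ^ 6 * (h - 512) ^ 6 * (u ^ 6 * (h + 64) ^ 3 * d * h ^ 4)
        = (j - 1728) ^ 3 * (h + 256) ^ 6 * u ^ 6 * d * h ^ 4 * ((h + 64) * (h - 512) ^ 2) ^ 3 := by
          ring
      _ = (j - 1728) ^ 3 * (h + 256) ^ 6 * u ^ 6 * d * h ^ 4 * ((j - 1728) * h ^ 2) ^ 3 := by
          rw [hR']
      _ = d * h ^ 4 * (u * ((j - 1728) * h * (h + 256))) ^ 6 := by ring
      _ = h ^ 4 * (h - 512) ^ 6 * (y' ^ 6 * d) := by rw [hu]; ring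
      _ = (j - 1728) ^ 3 * (h - 512) ^ 6 * f ^ 6 * (j * h ^ 2) ^ 2 := by rw [h1]; ring
      _ = (j - 1728) ^ 3 * (h + 256) ^ 6 * (h - 512) ^ 6 * f ^ 6 := by rw [hR]; ring
  calc u ^ 6 * (h + 64) ^ 3 * d ^ 5 = u ^ 6 * (h + 64) ^ 3 * d * d ^ 4 := by ring
    _ = u ^ 6 * (h + 64) ^ 3 * d * (h * d2) ^ 4 := by rw [hh]
    _ = (u ^ 6 * (h + 64) ^ 3 * d * h ^ 4) * d2 ^ 4 := by ring
    _ = f ^ 6 * d2 ^ 4 := by rw [key]

/-- auxiliary level `3` -/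
lemma alg_three {f e4 e6 d S j h y' u : L} (hd : d ≠ 0) (hS : S ≠ 0) (he4 : e4 ≠ 0)
    (he6 : e6 ≠ 0) (hj : j * d = e4 ^ 3) (h1728 : 1728 * d = e4 ^ 3 - e6 ^ 2)
    (hh : h * S ^ 2 = d)
    (hid : e4 ^ 3 * S ^ 2 * d ^ 2 = (d + 27 * S ^ 2) * (d + 243 * S ^ 2) ^ 3)
    (hy' : y' * d = f * e4 * e6) :
    j * h ^ 3 = (h + 27) * (h + 243) ^ 3 ∧ j ≠ 0 ∧
    (j - 1728) * h * ((h + 27) * (h + 243)) ≠ 0 ∧ h * (h - 486) - 19683 ≠ 0 ∧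
    (u * ((j - 1728) * h * ((h + 27) * (h + 243))) = -(y' * (h * (h - 486) - 19683)) →
      u ^ 6 * (h + 27) ^ 4 * d ^ 4 = f ^ 6 * S ^ 6) := by
  obtain ⟨ha, h1⟩ := alg_common hd hj h1728 hy'
  have hj0 : j ≠ 0 := by
    intro h
    rw [h, zero_mul] at hj
    exact pow_ne_zero 3 he4 hj.symm
  have ha0 : j - 1728 ≠ 0 := by
    intro h
    rw [h, zero_mul] at ha
    exact pow_ne_zero 2 he6 ha.symm
  have hh0 : h ≠ 0 := by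
    intro h0
    rw [h0, zero_mul] at hh
    exact hd hh.symm
  have hR : j * h ^ 3 = (h + 27) * (h + 243) ^ 3 := by
    apply mul_left_cancel₀ (mul_ne_zero hd (pow_ne_zero 8 hS))
    calc d * S ^ 8 * (j * h ^ 3) = (j * d) * (h * S ^ 2) ^ 3 * S ^ 2 := by ring
      _ = e4 ^ 3 * S ^ 2 * d ^ 2 * d := by rw [hj, hh]; ring
      _ = (h * S ^ 2 + 27 * S ^ 2) * (h * S ^ 2 + 243 * S ^ 2) ^ 3 * d := by rw [hid, hh]
      _ = d * S ^ 8 * ((h + 27) * (h + 243) ^ 3) := by ring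
  have hR' : (j - 1728) * h ^ 3 = (h * (h - 486) - 19683) ^ 2 := by linear_combination hR
  have hne : (h + 27) * (h + 243) ^ 3 ≠ 0 := by
    rw [← hR]; exact mul_ne_zero hj0 (pow_ne_zero 3 hh0)
  have hb0 : h + 27 ≠ 0 := left_ne_zero_of_mul hne
  have hb0' : h + 243 ≠ 0 := fun h0 => right_ne_zero_of_mul hne (by rw [h0]; ring)
  have hc0 : h * (h - 486) - 19683 ≠ 0 := by
    intro h0
    rw [h0] at hR'
    exact mul_ne_zero ha0 (pow_ne_zero 3 hh0) (by rw [hR']; ring)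
  refine ⟨hR, hj0, mul_ne_zero (mul_ne_zero ha0 hh0) (mul_ne_zero hb0 hb0'), hc0, fun hu => ?_⟩
  have key : u ^ 6 * (h + 27) ^ 4 * d * h ^ 3 = f ^ 6 := by
    apply mul_left_cancel₀ (mul_ne_zero (mul_ne_zero (mul_ne_zero (pow_ne_zero 6 ha0)
      (pow_ne_zero 3 hh0)) (pow_ne_zero 2 hb0)) (pow_ne_zero 6 hb0'))
    calc (j - 1728) ^ 6 * h ^ 3 * (h + 27) ^ 2 * (h + 243) ^ 6 *
          (u ^ 6 * (h + 27) ^ 4 * d * h ^ 3)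
        = (u * ((j - 1728) * h * ((h + 27) * (h + 243)))) ^ 6 * d := by ring
      _ = ((h * (h - 486) - 19683) ^ 2) ^ 3 * (y' ^ 6 * d) := by rw [hu]; ring
      _ = ((j - 1728) * h ^ 3) ^ 3 * (f ^ 6 * j ^ 2 * (j - 1728) ^ 3) := by rw [← hR', h1]
      _ = (j - 1728) ^ 6 * h ^ 3 * f ^ 6 * (j * h ^ 3) ^ 2 := by ring
      _ = (j - 1728) ^ 6 * h ^ 3 * (h + 27) ^ 2 * (h + 243) ^ 6 * f ^ 6 := by rw [hR]; ring
  calc u ^ 6 * (h + 27) ^ 4 * d ^ 4 = u ^ 6 * (h + 27) ^ 4 * d * d ^ 3 := by ring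
    _ = u ^ 6 * (h + 27) ^ 4 * d * (h * S ^ 2) ^ 3 := by rw [hh]
    _ = (u ^ 6 * (h + 27) ^ 4 * d * h ^ 3) * S ^ 6 := by ring
    _ = f ^ 6 * S ^ 6 := by rw [key]

end FA18
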