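import Fermat.Agent.Red.CertZeroB
import Fermat.Agent.Red.Bridge

/-! S18, package CERT: the bridge hypotheses hold. -/

set_option autoImplicit false

open UpperHalfPlane ModularForm CongruenceSubgroup ModularCurve FA24
open scoped MatrixGroups

namespace FA18

lemma xN_ne_zero (N : ℕ) : xN N ≠ 0 := by
  intro h
  have h1 := xN_coe N
  rw [h] at h1
  exact jqModC_ne_zero_of_nontrivial Kb h1.symm

theorem brHyp (N : ℕ) [NeZero N] : BRHyp N where
  mf b Φ s hs := by
    obtain ⟨hy, hrel⟩ := BR_modular Φ b rfl s hs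
    exact ⟨⟨brS Kb s b, hy⟩, rfl, hrel.isIntegral⟩
  cf b hb Φ s hs := by
    obtain ⟨hy, hrel⟩ := BR_cuspForm Φ b rfl hb s hs
    obtain ⟨n, -, hn⟩ := hrel.isIntegral_cusp (xN_ne_zero N)
    refine ⟨⟨brS Kb s b, hy⟩, rfl, n, ?_⟩
    rw [div_eq_mul_inv, ← inv_pow]
    exact hn

end FA18
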