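import Fermat.Agent.Red.I2Dim
import Fermat.Agent.IntStr.Main

/-! S18, package I2, part 2: a basis of `S_k(Γ₀(N))` with integral `q`-expansions whose
`q`-expansions stay linearly independent over every field of characteristic zero. -/

open UpperHalfPlane ModularForm Matrix.SpecialLinearGroup CongruenceSubgroup
open scoped MatrixGroups ModularForm

namespace FA18

open FA_IS

/-- integral vectors which are independent over `ℂ` are independent over every field of
characteristic zero. -/
lemma linearIndependent_map_int {ι : Type*} (a : ι → PowerSeries ℤ)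
    (h : LinearIndependent ℂ (fun i => (a i).map (Int.castRingHom ℂ)))
    (K : Type*) [Field K] [CharZero K] :
    LinearIndependent K (fun i => (a i).map (Int.castRingHom K)) := by
  classical
  -- independence over `ℚ`
  have hQ : ∀ (s : Finset ι) (c : ι → ℚ), (∀ n, ∑ i ∈ s, c i * ((a i).coeff n : ℚ) = 0) →
      ∀ i ∈ s, c i = 0 := by
    intro s c hc i hi
    rw [linearIndependent_iff'] at h
    have := h s (fun i => (c i : ℂ)) (by
      ext n
      simp only [map_sum, PowerSeries.coeff_smul, PowerSeries.coeff_map, map_zero, smul_eq_mul,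
        eq_intCast]
      have := congrArg (fun x : ℚ => (x : ℂ)) (hc n)
      simpa using this) i hi
    exact_mod_cast this
  rw [linearIndependent_iff']
  intro s c hc i hi
  letI : Algebra ℚ K := DivisionRing.toRatAlgebra
  rw [← Module.forall_dual_apply_eq_zero_iff ℚ]
  intro φ
  refine hQ s (fun i => φ (c i)) (fun n => ?_) i hi
  have h1 := congrArg (PowerSeries.coeff n) hc
  simp only [map_sum, PowerSeries.coeff_smul, PowerSeries.coeff_map, map_zero, smul_eq_mul,
    eq_intCast] at h1
  have h2 := congrArg φ h1
  rw [map_sum, map_zero] at h2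
  rw [← h2]
  refine Finset.sum_congr rfl fun i _ => ?_
  have : c i * (((a i).coeff n : ℤ) : K) = (((a i).coeff n : ℤ) : ℚ) • c i := by
    rw [Algebra.smul_def, mul_comm]
    simp
  rw [this, map_smul, smul_eq_mul, mul_comm]

/-- a basis of `S_k(Γ₀(N))` with integral `q`-expansions. -/
theorem exists_int_family (N : ℕ) [NeZero N] (k : ℤ) :
    ∃ (Φ : Fin (Module.finrank ℂ (CuspForm (Gamma0 N) k)) → CuspForm (Gamma0 N) k)
      (a : Fin (Module.finrank ℂ (CuspForm (Gamma0 N) k)) → PowerSeries ℤ),
      (∀ i, (a i).map (Int.castRingHom ℂ) = qExpansion 1 (Φ i)) ∧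
      LinearIndependent ℂ (fun i => (a i).map (Int.castRingHom ℂ)) := by
  classical
  have hIS := FA_IS_hasIntegralStructure N k
  unfold CuspForm.HasIntegralStructure CuspForm.intLattice at hIS
  rw [Submodule.span_span_of_tower] at hIS
  set S : Set (CuspForm (Gamma0 N) k) :=
    {f | ∀ n : ℕ, ∃ m : ℤ, ModularFormClass.qCoeff f n = (m : ℂ)} with hS
  obtain ⟨b, hbS, hspan, hli⟩ := exists_linearIndependent ℂ S
  haveI : FiniteDimensional ℂ (CuspForm (Gamma0 N) k) := finiteDimensional_cusp N k
  let Bs : Module.Basis b ℂ (CuspForm (Gamma0 N) k) := Module.Basis.mk hli (by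
    rw [Subtype.range_coe, hspan, hIS])
  haveI : Finite b := Module.Finite.finite_basis Bs
  haveI : Fintype b := Fintype.ofFinite b
  have hcard : Fintype.card b = Module.finrank ℂ (CuspForm (Gamma0 N) k) :=
    (Module.finrank_eq_card_basis Bs).symm
  let e : Fin (Module.finrank ℂ (CuspForm (Gamma0 N) k)) ≃ b :=
    (Fintype.equivFinOfCardEq hcard).symm
  have hint : ∀ i, ∀ n : ℕ, ∃ m : ℤ, ModularFormClass.qCoeff ((e i : b) :
      CuspForm (Gamma0 N) k) n = (m : ℂ) := fun i => hbS (e i).2
  choose c hc using hint
  have hq : ∀ i, (PowerSeries.mk (c i)).map (Int.castRingHom ℂ)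
      = qExpansion 1 ((e i : b) : CuspForm (Gamma0 N) k) := by
    intro i
    ext n
    rw [PowerSeries.coeff_map, PowerSeries.coeff_mk, eq_intCast, ← hc i n]
    rfl
  refine ⟨fun i => (e i : b), fun i => PowerSeries.mk (c i), hq, ?_⟩
  simp only [hq]
  have hli' : LinearIndependent ℂ (fun i => ((e i : b) : CuspForm (Gamma0 N) k)) :=
    hli.comp e e.injective
  rw [linearIndependent_iff'] at hli' ⊢
  intro s g hg i hi
  refine hli' s g ?_ i hi
  apply coeffL_inj N k
  intro n
  have := congrArg (PowerSeries.coeff n) hg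
  simp only [map_sum, PowerSeries.coeff_smul, map_zero] at this
  rw [map_sum]
  simpa [coeffL_apply] using this

end FA18
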