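import Fermat.Agent.Eis.EisForm
import Fermat.Agent.IntStr.IntSpan
import Fermat.Agent.X0Genus.EtaProd
import Fermat.Agent.Genus.CardCoset
import Fermat.Prelude.Thm_ModularForm_sturm_bound_Gamma0

/-! S18: integral power series which are `q`-expansions of modular forms on `Γ₀(N)`. -/

set_option autoImplicit false

open UpperHalfPlane ModularForm CongruenceSubgroup Function EisensteinSeries FA_IS
open scoped Manifold MatrixGroups ModularForm Real

noncomputable section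

namespace FA18

/-- the coefficient map `ℤ[[q]] → ℂ[[q]]` -/
abbrev toC : PowerSeries ℤ →+* PowerSeries ℂ := PowerSeries.map (Int.castRingHom ℂ)

lemma toC_injective : Function.Injective toC :=
  PowerSeries.map_injective (Int.castRingHom ℂ) Int.cast_injective

/-- `P` is the `q`-expansion of a modular form of weight `k` on `Γ₀(N)`. -/
def IsQ (N : ℕ) (k : ℤ) (P : PowerSeries ℤ) : Prop :=
  ∃ f : ModularForm (Gamma0 N) k, qExpansion 1 f = toC P

lemma isQ_iff {N : ℕ} {k : ℤ} {P : PowerSeries ℤ} :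
    IsQ N k P ↔ ∃ F ∈ MFfun (GG N) k, qExpansion 1 F = toC P := by
  constructor
  · rintro ⟨f, hf⟩
    exact ⟨f, ⟨f, rfl⟩, hf⟩
  · rintro ⟨_, ⟨f, rfl⟩, hf⟩
    exact ⟨f, hf⟩

variable {N : ℕ} {k k₁ k₂ : ℤ} {P Q : PowerSeries ℤ}

lemma nice_of_mem {F : ℍ → ℂ} (hF : F ∈ MFfun (GG N) k) : Nice 1 F :=
  MFfun_nice (one_mem_strictPeriods_GG N) hF

lemma IsQ.add (hP : IsQ N k P) (hQ : IsQ N k Q) : IsQ N k (P + Q) := by
  rw [isQ_iff] at *
  obtain ⟨F, hF, eF⟩ := hP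
  obtain ⟨G, hG, eG⟩ := hQ
  exact ⟨F + G, add_mem hF hG, by
    rw [(nice_of_mem hF).qExpansion_add (nice_of_mem hG) one_pos, eF, eG, map_add]⟩

lemma IsQ.sub (hP : IsQ N k P) (hQ : IsQ N k Q) : IsQ N k (P - Q) := by
  rw [isQ_iff] at *
  obtain ⟨F, hF, eF⟩ := hP
  obtain ⟨G, hG, eG⟩ := hQ
  exact ⟨F - G, sub_mem hF hG, by
    rw [(nice_of_mem hF).qExpansion_sub (nice_of_mem hG) one_pos, eF, eG, map_sub]⟩

lemma IsQ.mul (hP : IsQ N k₁ P) (hQ : IsQ N k₂ Q) (hk : k = k₁ + k₂) : IsQ N k (P * Q) := by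
  rw [isQ_iff] at *
  obtain ⟨F, hF, eF⟩ := hP
  obtain ⟨G, hG, eG⟩ := hQ
  exact ⟨F * G, MFfun_mul hk hF hG, by
    rw [(nice_of_mem hF).qExpansion_mul (nice_of_mem hG) one_pos, eF, eG, map_mul]⟩

lemma toC_C_mul (c : ℤ) (P : PowerSeries ℤ) : toC (PowerSeries.C c * P) = (c : ℂ) • toC P := by
  rw [map_mul, PowerSeries.map_C, PowerSeries.smul_eq_C_mul]
  simp

lemma IsQ.smul (hP : IsQ N k P) (c : ℤ) : IsQ N k (PowerSeries.C c * P) := by
  rw [isQ_iff] at *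
  obtain ⟨F, hF, eF⟩ := hP
  exact ⟨(c : ℂ) • F, Submodule.smul_mem _ _ hF, by
    rw [(nice_of_mem hF).qExpansion_smul one_pos, eF, toC_C_mul]⟩

/-- division by a non-zero integer -/
lemma IsQ.of_smul {c : ℤ} (hc : c ≠ 0) (hP : IsQ N k (PowerSeries.C c * P)) : IsQ N k P := by
  rw [isQ_iff] at *
  obtain ⟨F, hF, eF⟩ := hP
  have hc' : (c : ℂ) ≠ 0 := by exact_mod_cast hc
  exact ⟨(c : ℂ)⁻¹ • F, Submodule.smul_mem _ _ hF, by
    rw [(nice_of_mem hF).qExpansion_smul one_pos, eF, toC_C_mul, smul_smul, inv_mul_cancel₀ hc',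
      one_smul]⟩

lemma IsQ.one : IsQ N 0 1 := by
  refine ⟨1, ?_⟩
  rw [ModularForm.one_coe_eq_one, qExpansion_one, map_one]

lemma IsQ.pow (hP : IsQ N k P) (n : ℕ) {m : ℤ} (hm : m = k * n) : IsQ N m (P ^ n) := by
  induction n generalizing m with
  | zero =>
    have : m = 0 := by simpa using hm
    subst this
    simpa using IsQ.one
  | succ n ih =>
    rw [pow_succ]
    exact (ih rfl).mul hP (by rw [hm]; push_cast; ring)

lemma GG_le_of_dvd {M N : ℕ} (h : M ∣ N) : GG N ≤ GG M :=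
  Subgroup.map_mono (FAGenus.Gamma0_le_of_dvd h)

lemma IsQ.mono {M : ℕ} (hP : IsQ M k P) (h : M ∣ N) : IsQ N k P := by
  rw [isQ_iff] at *
  obtain ⟨F, hF, eF⟩ := hP
  exact ⟨F, MFfun_mono (GG_le_of_dvd h) hF, eF⟩

/-- level one forms -/
lemma IsQ.of_levelOne (f : ModularForm 𝒮ℒ k) (h : qExpansion 1 f = toC P) : IsQ N k P := by
  rw [isQ_iff]
  exact ⟨f, MFfun_mono (GG_le N) ⟨f, rfl⟩, h⟩

/-- `f(τ) ↦ f(dτ)` on level one forms -/
lemma IsQ.expand_levelOne (f : ModularForm 𝒮ℒ k) (h : qExpansion 1 f = toC P) (d : ℕ) [NeZero d]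
    (hd : d ∣ N) : IsQ N k (PowerSeries.expand d (NeZero.ne d) P) := by
  refine IsQ.mono (M := d) ⟨lvl d f, ?_⟩ hd
  rw [coe_lvl, FA24.qExpansion_compAff_one (nice_levelOne k f), h]
  ext n
  simp only [PowerSeries.coeff_expand, PowerSeries.coeff_map]
  split_ifs <;> simp

/-- **Sturm bound**. -/
theorem IsQ.sturm [NeZero N] (hP : IsQ N k P) {B : ℕ}
    (hB : (k * (ModularCurve.dedekindPsi N : ℤ)).toNat / 12 < B)
    (h : ∀ n < B, PowerSeries.coeff n P = 0) : P = 0 := by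
  obtain ⟨f, hf⟩ := hP
  have h0 : f = 0 := by
    apply ModularForm.sturm_bound_Gamma0 N f
    intro n hn
    rw [FAGenus.index_Gamma0 N (NeZero.ne N)] at hn
    rw [hf, PowerSeries.coeff_map, h n (lt_of_le_of_lt hn hB), map_zero]
  apply toC_injective
  rw [← hf, h0, map_zero]
  exact qExpansion_zero 1

end FA18
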