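import Fermat.Agent.Red.Bridge
import Fermat.Agent.Red.I2Fam
import Fermat.Agent.Red.ModDefs
import Fermat.Agent.Red.IsQ

/-! S18, package CERT (C1), the space of weight two cusp forms with coefficients in `ℚ̄`. -/

set_option autoImplicit false

open UpperHalfPlane ModularForm Function CongruenceSubgroup FA_IS FA24 FAIg ModularCurve
open scoped Manifold MatrixGroups

namespace FA18

variable (N : ℕ) [NeZero N]

/-- the `q`-expansions of weight `k` cusp forms with coefficients in `ℚ̄`. -/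
theorem exists_cuspSeries (k : ℤ) : ∃ W : Submodule Kb (PowerSeries Kb),
    Module.finrank Kb W = Module.finrank ℂ (CuspForm (Gamma0 N) k) ∧
    ∀ s ∈ W, ∃ Φ : CuspForm (Gamma0 N) k, s.map iota = qExpansion 1 Φ := by
  obtain ⟨Φ, a, ha, hli⟩ := exists_int_family N k
  refine ⟨Submodule.span Kb (Set.range fun i => (a i).map (Int.castRingHom Kb)), ?_, ?_⟩
  · rw [finrank_span_eq_card (linearIndependent_map_int a hli Kb), Fintype.card_fin]
  · intro s hs
    obtain ⟨c, rfl⟩ := (Submodule.mem_span_range_iff_exists_fun Kb).mp hs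
    refine ⟨∑ i, iota (c i) • Φ i, ?_⟩
    ext n
    have h1 : (qExpansion 1 (⇑(∑ i, iota (c i) • Φ i))).coeff n =
        ∑ i, iota (c i) * (qExpansion 1 (Φ i)).coeff n := by
      rw [← coeffL_apply, map_sum]
      refine Finset.sum_congr rfl fun i _ => ?_
      rw [map_smul, coeffL_apply, smul_eq_mul]
    rw [h1, PowerSeries.coeff_map, map_sum, map_sum]
    refine Finset.sum_congr rfl fun i _ => ?_
    rw [← ha i, PowerSeries.coeff_smul, PowerSeries.coeff_map, PowerSeries.coeff_map, smul_eq_mul,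
      map_mul]
    simp

variable {N}

/-- `s` is the `q`-expansion of a modular form of weight `k` on `Γ₀(N)` (coefficients in `ℚ̄`). -/
def IsQK (N : ℕ) (k : ℤ) (s : PowerSeries Kb) : Prop :=
  ∃ F ∈ MFfun (GG N) k, qExpansion 1 F = s.map iota

/-- the coefficient map `ℤ[[q]] → ℚ̄[[q]]` -/
noncomputable abbrev toK : PowerSeries ℤ →+* PowerSeries Kb := PowerSeries.map (Int.castRingHom Kb)

lemma map_iota_toK (P : PowerSeries ℤ) : (toK P).map iota = toC P := by
  ext n
  simp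

omit [NeZero N] in
lemma IsQ.toK {k : ℤ} {P : PowerSeries ℤ} (h : IsQ N k P) : IsQK N k (toK P) := by
  obtain ⟨F, hF, e⟩ := isQ_iff.mp h
  exact ⟨F, hF, by rw [e, map_iota_toK]⟩

omit [NeZero N] in
lemma IsQK.mul {k₁ k₂ k : ℤ} {s t : PowerSeries Kb} (hs : IsQK N k₁ s) (ht : IsQK N k₂ t)
    (hk : k = k₁ + k₂) : IsQK N k (s * t) := by
  obtain ⟨F, hF, eF⟩ := hs
  obtain ⟨G, hG, eG⟩ := ht
  exact ⟨F * G, MFfun_mul hk hF hG, by
    rw [(nice_of_mem hF).qExpansion_mul (nice_of_mem hG) one_pos, eF, eG, map_mul]⟩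

omit [NeZero N] in
lemma IsQK.one : IsQK N 0 1 := by
  have := (IsQ.one (N := N)).toK
  rwa [map_one] at this

omit [NeZero N] in
lemma IsQK.pow {k : ℤ} {s : PowerSeries Kb} (hs : IsQK N k s) (n : ℕ) {m : ℤ} (hm : m = k * n) :
    IsQK N m (s ^ n) := by
  induction n generalizing m with
  | zero =>
    have : m = 0 := by simpa using hm
    subst this
    simpa using IsQK.one
  | succ n ih =>
    rw [pow_succ]
    exact (ih rfl).mul hs (by rw [hm]; push_cast; ring)

omit [NeZero N] in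
lemma IsQK.of_cusp {k : ℤ} {s : PowerSeries Kb} (Φ : CuspForm (Gamma0 N) k)
    (h : s.map iota = qExpansion 1 Φ) : IsQK N k s :=
  ⟨Φ, ⟨ModularFormClass.modularForm Φ, rfl⟩, h.symm⟩

/-- **BR** for `IsQK`. -/
theorem IsQK.BR {k : ℤ} {s : PowerSeries Kb} (h : IsQK N k s) (b : ℕ) (hk : k = 12 * b) :
    ∃ hy : brS Kb s b ∈ modularFunctionFieldBar N,
      BRRel Kb (xN N) (⟨brS Kb s b, hy⟩ : FN N) b 0 := by
  obtain ⟨_, ⟨f, rfl⟩, e⟩ := h
  exact BR_modular f b hk s e.symm

/-- **BR** for a cusp form times a modular form. -/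
theorem IsQK.BR_cusp {k₁ k₂ : ℤ} {s t : PowerSeries Kb} (Φ : CuspForm (Gamma0 N) k₁)
    (hs : s.map iota = qExpansion 1 Φ) (ht : IsQK N k₂ t) (b : ℕ) (hk : k₁ + k₂ = 12 * b)
    (hb : 0 < b) :
    ∃ hy : brS Kb (s * t) b ∈ modularFunctionFieldBar N,
      BRRel Kb (xN N) (⟨brS Kb (s * t) b, hy⟩ : FN N) b 1 := by
  obtain ⟨_, ⟨G, rfl⟩, e⟩ := ht
  refine BR_cusp_mul Φ G b hk hb (s * t) ?_
  rw [(cusp_nice Φ).qExpansion_mul (nice_of_mem ⟨G, rfl⟩) one_pos, map_mul, hs, e]

/-- transport of a space of power series into the function field by multiplication with a fixed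
non-zero Laurent series. -/
theorem exists_space_mul (N : ℕ) (W : Submodule Kb (PowerSeries Kb)) (c₀ : LaurentSeries Kb)
    (hc : c₀ ≠ 0)
    (hW : ∀ s ∈ W, HahnSeries.ofPowerSeries ℤ Kb s * c₀ ∈ modularFunctionFieldBar N) :
    ∃ V : Submodule Kb (FN N), Module.finrank Kb V = Module.finrank Kb W ∧
      ∀ u : FN N, u ∈ V ↔ ∃ s ∈ W, (u : LaurentSeries Kb) = HahnSeries.ofPowerSeries ℤ Kb s * c₀ := by
  have hsm : ∀ (a : Kb) (s : PowerSeries Kb), HahnSeries.ofPowerSeries ℤ Kb (a • s) =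
      algebraMap Kb (LaurentSeries Kb) a * HahnSeries.ofPowerSeries ℤ Kb s := by
    intro a s
    rw [PowerSeries.smul_eq_C_mul, map_mul, HahnSeries.ofPowerSeries_C, C_eq_algebraMap]
  let φ : W →ₗ[Kb] FN N :=
    { toFun := fun s => ⟨HahnSeries.ofPowerSeries ℤ Kb s.1 * c₀, hW s.1 s.2⟩
      map_add' := fun s t => Subtype.ext (by
        show HahnSeries.ofPowerSeries ℤ Kb (s.1 + t.1) * c₀ = _ * c₀ + _ * c₀
        rw [map_add, add_mul])
      map_smul' := fun a s => Subtype.ext (by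
        rw [RingHom.id_apply, IntermediateField.coe_smul, Algebra.smul_def]
        show HahnSeries.ofPowerSeries ℤ Kb (a • s.1) * c₀ = _ * (_ * c₀)
        rw [hsm, mul_assoc]) }
  have hinj : Function.Injective φ := by
    intro s t h
    have h1 : HahnSeries.ofPowerSeries ℤ Kb s.1 * c₀ = HahnSeries.ofPowerSeries ℤ Kb t.1 * c₀ :=
      congrArg Subtype.val h
    exact Subtype.ext (HahnSeries.ofPowerSeries_injective (mul_right_cancel₀ hc h1))
  refine ⟨LinearMap.range φ, LinearMap.finrank_range_of_inj hinj, fun u => ?_⟩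
  constructor
  · rintro ⟨s, rfl⟩
    exact ⟨s.1, s.2, rfl⟩
  · rintro ⟨s, hs, e⟩
    exact ⟨⟨s, hs⟩, Subtype.ext e.symm⟩

end FA18
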