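import Fermat.Agent.Red.IsQ
import Fermat.Agent.Genus.Cusp

/-! S18: power series over a ring `R → ℂ` which are `q`-expansions of modular / cusp forms. -/

set_option autoImplicit false

open UpperHalfPlane ModularForm CongruenceSubgroup Function FA_IS FAGenus
open scoped Manifold MatrixGroups ModularForm Real

noncomputable section

namespace FA18

variable {R : Type*} [CommRing R] (φ : R →+* ℂ)

/-- `s` is (via `φ`) the `q`-expansion of a modular form of weight `k` on `Γ₀(N)`. -/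
def IsQR (N : ℕ) (k : ℤ) (s : PowerSeries R) : Prop :=
  ∃ F ∈ MFfun (GG N) k, qExpansion 1 F = s.map φ

/-- `s` is (via `φ`) the `q`-expansion of a cusp form of weight `k` on `Γ₀(N)`. -/
def IsSR (N : ℕ) (k : ℤ) (s : PowerSeries R) : Prop :=
  ∃ F ∈ SFfun (GG N) k, qExpansion 1 F = s.map φ

variable {φ} {N : ℕ} {k k₁ k₂ : ℤ} {s t : PowerSeries R}

lemma IsQ.toR {P : PowerSeries ℤ} (h : IsQ N k P) (φ : R →+* ℂ) :
    IsQR φ N k (P.map (Int.castRingHom R)) := by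
  obtain ⟨F, hF, e⟩ := isQ_iff.mp h
  refine ⟨F, hF, ?_⟩
  rw [e]
  ext n
  simp

lemma IsQR.exists_form (h : IsQR φ N k s) :
    ∃ Φ : ModularForm (Gamma0 N) k, s.map φ = qExpansion 1 Φ := by
  obtain ⟨_, ⟨Φ, rfl⟩, e⟩ := h
  exact ⟨Φ, e.symm⟩

lemma IsSR.exists_form (h : IsSR φ N k s) :
    ∃ Φ : CuspForm (Gamma0 N) k, s.map φ = qExpansion 1 Φ := by
  obtain ⟨_, ⟨Φ, rfl⟩, e⟩ := h
  exact ⟨Φ, e.symm⟩

lemma IsSR.of_form (Φ : CuspForm (Gamma0 N) k) (h : s.map φ = qExpansion 1 Φ) : IsSR φ N k s :=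
  ⟨Φ, ⟨Φ, rfl⟩, h.symm⟩

lemma IsSR.toQR (h : IsSR φ N k s) : IsQR φ N k s := by
  obtain ⟨F, hF, e⟩ := h
  exact ⟨F, SFfun_le_MFfun k hF, e⟩

lemma IsQR.mul (hs : IsQR φ N k₁ s) (ht : IsQR φ N k₂ t) (hk : k = k₁ + k₂) :
    IsQR φ N k (s * t) := by
  obtain ⟨F, hF, eF⟩ := hs
  obtain ⟨G, hG, eG⟩ := ht
  exact ⟨F * G, MFfun_mul hk hF hG, by
    rw [(nice_of_mem hF).qExpansion_mul (nice_of_mem hG) one_pos, eF, eG, map_mul]⟩

lemma IsQR.one : IsQR φ N 0 (1 : PowerSeries R) := by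
  refine ⟨1, ⟨1, ModularForm.one_coe_eq_one⟩, ?_⟩
  rw [qExpansion_one, map_one]

lemma IsQR.pow (hs : IsQR φ N k s) (n : ℕ) {m : ℤ} (hm : m = k * n) : IsQR φ N m (s ^ n) := by
  induction n generalizing m with
  | zero =>
    have : m = 0 := by simpa using hm
    subst this
    simpa using IsQR.one
  | succ n ih =>
    rw [pow_succ]
    exact (ih rfl).mul hs (by rw [hm]; push_cast; ring)

lemma IsSR.mul (hs : IsSR φ N k₁ s) (ht : IsQR φ N k₂ t) (hk : k = k₁ + k₂) :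
    IsSR φ N k (s * t) := by
  obtain ⟨F, hF, eF⟩ := hs
  obtain ⟨G, hG, eG⟩ := ht
  refine ⟨G * F, SFfun_mul (by rw [hk, add_comm]) hG hF, ?_⟩
  rw [(nice_of_mem hG).qExpansion_mul (nice_of_mem (SFfun_le_MFfun _ hF)) one_pos, eF, eG, map_mul,
    mul_comm]

lemma IsSR.zero : IsSR φ N k (0 : PowerSeries R) :=
  ⟨0, zero_mem _, by rw [map_zero]; exact qExpansion_zero 1⟩

lemma IsSR.add (hs : IsSR φ N k s) (ht : IsSR φ N k t) : IsSR φ N k (s + t) := by
  obtain ⟨F, hF, eF⟩ := hs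
  obtain ⟨G, hG, eG⟩ := ht
  exact ⟨F + G, add_mem hF hG, by
    rw [(nice_of_mem (SFfun_le_MFfun _ hF)).qExpansion_add (nice_of_mem (SFfun_le_MFfun _ hG))
      one_pos, eF, eG, map_add]⟩

lemma IsSR.smul (hs : IsSR φ N k s) (c : R) : IsSR φ N k (c • s) := by
  obtain ⟨F, hF, eF⟩ := hs
  refine ⟨φ c • F, Submodule.smul_mem _ _ hF, ?_⟩
  rw [(nice_of_mem (SFfun_le_MFfun _ hF)).qExpansion_smul one_pos, eF]
  ext n
  simp

lemma IsSR.sum {ι : Type*} (S : Finset ι) (c : ι → R) (a : ι → PowerSeries R)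
    (h : ∀ i ∈ S, IsSR φ N k (a i)) : IsSR φ N k (∑ i ∈ S, c i • a i) := by
  classical
  induction S using Finset.induction_on with
  | empty => simpa using IsSR.zero
  | insert i S hi ih =>
    rw [Finset.sum_insert hi]
    exact ((h i (Finset.mem_insert_self i S)).smul _).add
      (ih fun j hj => h j (Finset.mem_insert_of_mem hj))

end FA18
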