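import Fermat.Agent.Red.Ident
import Fermat.Agent.Red.IsQR
import Fermat.Agent.Red.I2Fam
import Fermat.Agent.Red.CertAlg
import Fermat.Agent.Igusa.DefsA
import Fermat.Agent.X0Genus.Theta

/-! S18, package CERT, part 1a (characteristic zero): the space `W = { f E₄ E₆ / Δ }`. -/

set_option autoImplicit false

open UpperHalfPlane ModularForm CongruenceSubgroup ModularCurve FA24
open scoped MatrixGroups

noncomputable section

namespace FA18

/-- integral power series as Laurent series over `R` -/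
def oZ (R : Type*) [CommRing R] : PowerSeries ℤ →+* LaurentSeries R :=
  (HahnSeries.ofPowerSeries ℤ R).comp (PowerSeries.map (Int.castRingHom R))

lemma oZ_apply (R : Type*) [CommRing R] (P : PowerSeries ℤ) :
    oZ R P = HahnSeries.ofPowerSeries ℤ R (P.map (Int.castRingHom R)) := rfl

lemma oZ_C (R : Type*) [CommRing R] (c : ℤ) : oZ R (PowerSeries.C c) = (c : LaurentSeries R) := by
  rw [← map_intCast (oZ R) c]
  congr 1
  simp

lemma oZ_Dz (R : Type*) [CommRing R] : oZ R Dz = FAIg.deltaL R := by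
  rw [oZ_apply, Dz, map_mul, PowerSeries.map_X, map_mul, HahnSeries.ofPowerSeries_X, FAIg.deltaL]

lemma oZ_Dz_mul (R : Type*) [CommRing R] : oZ R Dz * FAIg.deltaInvL R = 1 := by
  rw [oZ_Dz, FAIg.deltaL_mul_deltaInvL]

lemma jqModC_mul_Dz (R : Type*) [CommRing R] : jqModC R * oZ R Dz = oZ R E4z ^ 3 := by
  have h : oZ R E4z ^ 3 =
      HahnSeries.ofPowerSeries ℤ R ((eisenstein4 ^ 3).map (Int.castRingHom R)) := by
    rw [← map_pow, oZ_apply, E4z]
  have h2 : FAIg.deltaInvL R * oZ R Dz = 1 := by rw [mul_comm]; exact oZ_Dz_mul R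
  rewrite [FAIg.jqModC_eq, mul_assoc, h2, mul_one, h]
  congr 3

lemma oZ_injective (R : Type*) [CommRing R] [CharZero R] : Function.Injective (oZ R) := by
  intro P Q h
  rw [oZ_apply, oZ_apply] at h
  have h1 := HahnSeries.ofPowerSeries_injective h
  exact PowerSeries.map_injective _ Int.cast_injective h1

lemma E4z_ne_zero : E4z ≠ 0 := by
  intro h
  have := tr_E4 0 (by norm_num)
  rw [h] at this
  simp at this

lemma E6z_ne_zero : E6z ≠ 0 := by
  intro h
  have := tr_E6 0 (by norm_num)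
  rw [h] at this
  simp at this

lemma Dz_ne_zero : Dz ≠ 0 := by
  intro h
  have := tr_D 1 (by norm_num)
  rw [h] at this
  simp at this

lemma D2z_ne_zero : D2z ≠ 0 := by
  intro h
  have := tr_D2 2 (by norm_num)
  rw [h] at this
  simp at this

lemma Sz_ne_zero : Sz ≠ 0 := by
  intro h
  have := coeff_Sz_one
  rw [h] at this
  simp at this

lemma xN_coe (N : ℕ) : ((xN N : FN N) : LaurentSeries Kb) = jqModC Kb := by
  have h := xN_val (N := N)
  rw [coeffEmb, ← jqModC_rat, coeffMap_jqModC] at h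
  exact h

/-- the interface to the bridge BR (helper8). -/
structure BRHyp (N : ℕ) [NeZero N] : Prop where
  mf : ∀ (b : ℕ) (Φ : ModularForm (Gamma0 N) (12 * (b : ℤ))) (s : PowerSeries Kb),
    s.map iota = qExpansion 1 Φ → ∃ y : FN N,
      (y : LaurentSeries Kb) = HahnSeries.ofPowerSeries ℤ Kb s * FAIg.deltaInvL Kb ^ b ∧
      IsIntegral (Algebra.adjoin Kb {xN N}) y
  cf : ∀ (b : ℕ) (_ : 0 < b) (Φ : CuspForm (Gamma0 N) (12 * (b : ℤ))) (s : PowerSeries Kb),
    s.map iota = qExpansion 1 Φ → ∃ y : FN N,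
      (y : LaurentSeries Kb) = HahnSeries.ofPowerSeries ℤ Kb s * FAIg.deltaInvL Kb ^ b ∧
      ∃ n : ℕ, IsIntegral (Algebra.adjoin Kb {(xN N)⁻¹}) ((y / xN N ^ b) ^ n * xN N)

/-- `E₄ E₆ / Δ` -/
def cW : LaurentSeries Kb := oZ Kb E4z * oZ Kb E6z * FAIg.deltaInvL Kb

lemma deltaInvL_ne_zero : FAIg.deltaInvL Kb ≠ 0 := by
  intro h
  have := oZ_Dz_mul Kb
  rw [h, mul_zero] at this
  exact zero_ne_one this

lemma oZ_ne_zero {P : PowerSeries ℤ} (h : P ≠ 0) : oZ Kb P ≠ 0 := by
  intro h0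
  exact h (oZ_injective Kb (h0.trans (map_zero _).symm))

lemma cW_ne_zero : cW ≠ 0 :=
  mul_ne_zero (mul_ne_zero (oZ_ne_zero E4z_ne_zero) (oZ_ne_zero E6z_ne_zero)) deltaInvL_ne_zero

lemma ofPowerSeries_smul (c : Kb) (s : PowerSeries Kb) :
    HahnSeries.ofPowerSeries ℤ Kb (c • s) =
      algebraMap Kb (LaurentSeries Kb) c * HahnSeries.ofPowerSeries ℤ Kb s := by
  rw [PowerSeries.smul_eq_C_mul, map_mul, HahnSeries.ofPowerSeries_C,
    ModularCurve.algebraMap_laurentSeries_eq_single, HahnSeries.C_apply]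

variable (N : ℕ) [NeZero N]

lemma exists_y_of_isSR (H : BRHyp N) {s : PowerSeries Kb} (hs : IsSR iota N 2 s) :
    ∃ y : FN N, (y : LaurentSeries Kb) = HahnSeries.ofPowerSeries ℤ Kb s * cW ∧
      ∃ n : ℕ, IsIntegral (Algebra.adjoin Kb {(xN N)⁻¹}) ((y / xN N) ^ n * xN N) := by
  have h1 : IsSR iota N (12 * ((1 : ℕ) : ℤ))
      (s * E4z.map (Int.castRingHom Kb) * E6z.map (Int.castRingHom Kb)) :=
    (hs.mul (isQ_E4.toR iota) (k := 6) (by norm_num)).mul (isQ_E6.toR iota) (by norm_num)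
  obtain ⟨Φ, hΦ⟩ := h1.exists_form
  obtain ⟨y, hy, n, hn⟩ := H.cf 1 one_pos Φ _ hΦ
  refine ⟨y, ?_, n, by simpa using hn⟩
  rw [hy, map_mul, map_mul, pow_one, cW, oZ_apply, oZ_apply]
  ring

theorem exists_W (H : BRHyp N) :
    ∃ W : Submodule Kb (FN N), FiniteDimensional Kb W ∧
      Module.finrank Kb W = Module.finrank ℂ (CuspForm (Gamma0 N) 2) ∧
      ∀ y ∈ W, ∃ s : PowerSeries Kb, IsSR iota N 2 s ∧
        (y : LaurentSeries Kb) = HahnSeries.ofPowerSeries ℤ Kb s * cW ∧
        ∃ n : ℕ, IsIntegral (Algebra.adjoin Kb {(xN N)⁻¹}) ((y / xN N) ^ n * xN N) := by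
  classical
  obtain ⟨Φ, a, ha, hli⟩ := exists_int_family N 2
  have hliK := linearIndependent_map_int a hli Kb
  set aK : Fin (Module.finrank ℂ (CuspForm (Gamma0 N) 2)) → PowerSeries Kb :=
    fun i => (a i).map (Int.castRingHom Kb) with haK
  have hS : ∀ i, IsSR iota N 2 (aK i) := fun i =>
    IsSR.of_form (Φ i) (by rw [haK]; simp only; rw [FAIg.map_map_intCast, ha])
  choose y' hy' _ using fun i => exists_y_of_isSR N H (hS i)
  have hval : ∀ c : Fin (Module.finrank ℂ (CuspForm (Gamma0 N) 2)) → Kb,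
      ((∑ i, c i • y' i : FN N) : LaurentSeries Kb) =
        HahnSeries.ofPowerSeries ℤ Kb (∑ i, c i • aK i) * cW := by
    intro c
    rw [map_sum, Finset.sum_mul, IntermediateField.coe_sum]
    refine Finset.sum_congr rfl fun i _ => ?_
    rw [IntermediateField.coe_smul, hy', ofPowerSeries_smul, Algebra.smul_def, mul_assoc]
  have hind : LinearIndependent Kb y' := by
    rw [Fintype.linearIndependent_iff]
    intro c hc
    have h1 := hval c
    rw [hc] at h1
    have h2 : HahnSeries.ofPowerSeries ℤ Kb (∑ i, c i • aK i) = 0 := by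
      rcases mul_eq_zero.mp h1.symm with h | h
      · exact h
      · exact absurd h cW_ne_zero
    have h3 : ∑ i, c i • aK i = 0 :=
      HahnSeries.ofPowerSeries_injective (h2.trans (map_zero _).symm)
    exact Fintype.linearIndependent_iff.mp hliK c h3
  refine ⟨Submodule.span Kb (Set.range y'),
    FiniteDimensional.span_of_finite Kb (Set.finite_range y'), ?_, ?_⟩
  · rw [finrank_span_eq_card hind, Fintype.card_fin]
  · intro y hy
    obtain ⟨c, rfl⟩ := (Submodule.mem_span_range_iff_exists_fun Kb).mp hy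
    have hs : IsSR iota N 2 (∑ i, c i • aK i) := IsSR.sum _ c aK fun i _ => hS i
    obtain ⟨y2, hy2, hn⟩ := exists_y_of_isSR N H hs
    have e : y2 = ∑ i, c i • y' i := Subtype.ext (hy2.trans (hval c).symm)
    rw [← e]
    exact ⟨_, hs, hy2, hn⟩

end FA18
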