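import Fermat.Agent.Red.CertZeroA

/-! S18, package CERT, part 1b (characteristic zero): `h`, the space `V` and the certificates. -/

set_option autoImplicit false

open UpperHalfPlane ModularForm CongruenceSubgroup ModularCurve FA24
open scoped MatrixGroups

noncomputable section

namespace FA18

variable (N : ℕ) [NeZero N]

local notation "LK" => LaurentSeries Kb
local notation "oP" => HahnSeries.ofPowerSeries ℤ Kb

lemma rel_j : (jqModC Kb : LK) * oZ Kb Dz = oZ Kb E4z ^ 3 := jqModC_mul_Dz Kb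

lemma rel_1728 : (1728 : LK) * oZ Kb Dz = oZ Kb E4z ^ 3 - oZ Kb E6z ^ 2 := by
  have := congrArg (oZ Kb) rel_D
  rw [map_mul, map_sub, map_pow, map_pow, oZ_C] at this
  rw [← this]
  norm_num

lemma rel_y (s : PowerSeries Kb) : (oP s * cW) * oZ Kb Dz = oP s * oZ Kb E4z * oZ Kb E6z := by
  have h := oZ_Dz_mul Kb
  rw [cW]
  linear_combination (oP s * oZ Kb E4z * oZ Kb E6z) * h

omit [NeZero N] in
lemma finrank_map_mul {W : Submodule Kb (FN N)} {κ : FN N} (hκ : κ ≠ 0) :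
    Module.finrank Kb (W.map (LinearMap.mulLeft Kb κ)) = Module.finrank Kb W :=
  (Submodule.equivMapOfInjective _ (fun _ _ hab => mul_left_cancel₀ hκ hab) W).finrank_eq.symm

omit [NeZero N] in
lemma coe_num (n : ℕ) [n.AtLeastTwo] : ((OfNat.ofNat n : FN N) : LK) = OfNat.ofNat n := rfl

/-- **auxiliary level `2`, characteristic zero.** -/
theorem cert_zero_two (H : BRHyp N) (h2N : 2 ∣ N) :
    ∃ (h : FN N) (V : Submodule Kb (FN N)), FiniteDimensional Kb V ∧
      Module.finrank Kb V = Module.finrank ℂ (CuspForm (Gamma0 N) 2) ∧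
      xN N * h ^ 2 = (h + 256) ^ 3 ∧
      ∀ u ∈ V, IsIntegral (Algebra.adjoin Kb {xN N}) (u ^ 6 * (h + 64) ^ 3) ∧
        ∃ (w : FN N) (n : ℕ), IsIntegral (Algebra.adjoin Kb {(xN N)⁻¹}) (w ^ n * xN N) ∧
          w * xN N * (h - 512) = -(u * h * (xN N - 1728) * (h + 256)) := by
  obtain ⟨W, hWfd, hW, hWp⟩ := exists_W N H
  have hQ2 : IsQR iota N 12 (D2z.map (Int.castRingHom Kb)) := (isQ_D2 h2N).toR iota
  -- `1/h`
  obtain ⟨Φ, hΦ⟩ := (show IsQR iota N (12 * ((1 : ℕ) : ℤ)) (D2z.map (Int.castRingHom Kb)) from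
    hQ2).exists_form
  obtain ⟨hi, hhi, -⟩ := H.mf 1 Φ _ hΦ
  rw [pow_one, ← oZ_apply] at hhi
  have hd : oZ Kb Dz ≠ 0 := oZ_ne_zero Dz_ne_zero
  have hd2 : oZ Kb D2z ≠ 0 := oZ_ne_zero D2z_ne_zero
  have he4 : oZ Kb E4z ≠ 0 := oZ_ne_zero E4z_ne_zero
  have he6 : oZ Kb E6z ≠ 0 := oZ_ne_zero E6z_ne_zero
  have hdd := oZ_Dz_mul Kb
  set h : FN N := hi⁻¹ with hh
  have hhv : ((h : FN N) : LK) * oZ Kb D2z = oZ Kb Dz := by
    rw [hh]
    push_cast
    rw [hhi]
    have := deltaInvL_ne_zero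
    field_simp
    linear_combination (-1 : LK) * hdd
  have hid : oZ Kb E4z ^ 3 * oZ Kb Dz * oZ Kb D2z = (oZ Kb Dz + 256 * oZ Kb D2z) ^ 3 := by
    have := congrArg (oZ Kb) ident_two
    simp only [map_mul, map_pow, map_add, oZ_C] at this
    rw [this]
    norm_num
  -- the relations not involving `f`
  obtain ⟨hR, hj0, hden, hnum, -⟩ := alg_two (f := 0) (y' := 0) (u := 0) hd hd2 he4 he6 rel_j
    rel_1728 hhv hid (by ring)
  rw [← xN_coe N] at hR hj0 hden
  have hR' : xN N * h ^ 2 = (h + 256) ^ 3 := by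
    apply Subtype.ext
    push_cast
    exact hR
  have hj0' : xN N ≠ 0 := fun h0 => hj0 (by rw [h0]; rfl)
  have hden' : (xN N - 1728) * h * (h + 256) ≠ 0 := by
    intro h0
    apply hden
    have := congrArg Subtype.val h0
    push_cast at this
    exact this
  have hnum' : h - 512 ≠ 0 := by
    intro h0
    apply hnum
    have := congrArg Subtype.val h0
    push_cast at this
    exact this
  set κ : FN N := -(h - 512) / ((xN N - 1728) * h * (h + 256)) with hκ
  have hκ0 : κ ≠ 0 := div_ne_zero (neg_ne_zero.mpr hnum') hden'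
  refine ⟨h, W.map (LinearMap.mulLeft Kb κ), inferInstance, (finrank_map_mul N hκ0).trans hW, hR',
    ?_⟩
  rintro _ ⟨y, hy, rfl⟩
  obtain ⟨s, hs, hys, n, hn⟩ := hWp y hy
  rw [LinearMap.mulLeft_apply]
  have hu : κ * y * ((xN N - 1728) * h * (h + 256)) = -(y * (h - 512)) := by
    calc κ * y * ((xN N - 1728) * h * (h + 256))
        = (κ * ((xN N - 1728) * h * (h + 256))) * y := by ring
      _ = -(h - 512) * y := by rw [hκ, div_mul_cancel₀ _ hden']
      _ = -(y * (h - 512)) := by ring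
  constructor
  · -- the certificate
    have hQ : IsQR iota N (12 * ((5 : ℕ) : ℤ)) (s ^ 6 * (D2z.map (Int.castRingHom Kb)) ^ 4) :=
      (hs.toQR.pow 6 (m := 12) (by norm_num)).mul (hQ2.pow 4 (m := 48) (by norm_num))
        (by norm_num)
    obtain ⟨Ψ, hΨ⟩ := hQ.exists_form
    obtain ⟨y1, hy1, hint⟩ := H.mf 5 Ψ _ hΨ
    have e : (κ * y) ^ 6 * (h + 64) ^ 3 = y1 := by
      apply Subtype.ext
      rw [hy1, map_mul, map_pow, map_pow, ← oZ_apply]
      obtain ⟨-, -, -, -, hc⟩ := alg_two (f := oP s) (y' := (y : LK)) (u := ((κ * y : FN N) : LK))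
        hd hd2 he4 he6 rel_j rel_1728 hhv hid (by rw [hys]; exact rel_y s)
      have hu' := congrArg Subtype.val hu
      push_cast at hu'
      rw [xN_coe] at hu'
      have hc' := hc (by push_cast; exact hu')
      push_cast at hc' ⊢
      have e64 : (((64 : FN N)) : LK) = 64 := rfl
      rw [e64]
      have e5 : (oZ Kb Dz) ^ 5 * (FAIg.deltaInvL Kb) ^ 5 = 1 := by rw [← mul_pow, hdd, one_pow]
      linear_combination (FAIg.deltaInvL Kb) ^ 5 * hc' -
        (((κ : LK) * (y : LK)) ^ 6 * ((h : LK) + 64) ^ 3) * e5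
    rw [e]
    exact hint
  · refine ⟨y / xN N, n, hn, ?_⟩
    rw [div_mul_cancel₀ _ hj0']
    linear_combination hu

/-- **auxiliary level `3`, characteristic zero.** -/
theorem cert_zero_three (H : BRHyp N) (h3N : 3 ∣ N) :
    ∃ (h : FN N) (V : Submodule Kb (FN N)), FiniteDimensional Kb V ∧
      Module.finrank Kb V = Module.finrank ℂ (CuspForm (Gamma0 N) 2) ∧
      xN N * h ^ 3 = (h + 27) * (h + 243) ^ 3 ∧
      ∀ u ∈ V, IsIntegral (Algebra.adjoin Kb {xN N}) (u ^ 6 * (h + 27) ^ 4) ∧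
        ∃ (w : FN N) (n : ℕ), IsIntegral (Algebra.adjoin Kb {(xN N)⁻¹}) (w ^ n * xN N) ∧
          w * xN N * (h * (h - 486) - 19683) =
            -(u * h * (xN N - 1728) * ((h + 27) * (h + 243))) := by
  obtain ⟨W, hWfd, hW, hWp⟩ := exists_W N H
  have hQS : IsQR iota N 6 (Sz.map (Int.castRingHom Kb)) := (isQ_S h3N).toR iota
  -- `1/h`
  obtain ⟨Φ, hΦ⟩ := (hQS.pow 2 (m := 12 * ((1 : ℕ) : ℤ)) (by norm_num)).exists_form
  obtain ⟨hi, hhi, -⟩ := H.mf 1 Φ _ hΦ
  rw [pow_one, map_pow, ← oZ_apply] at hhi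
  have hd : oZ Kb Dz ≠ 0 := oZ_ne_zero Dz_ne_zero
  have hS : oZ Kb Sz ≠ 0 := oZ_ne_zero Sz_ne_zero
  have he4 : oZ Kb E4z ≠ 0 := oZ_ne_zero E4z_ne_zero
  have he6 : oZ Kb E6z ≠ 0 := oZ_ne_zero E6z_ne_zero
  have hdd := oZ_Dz_mul Kb
  set h : FN N := hi⁻¹ with hh
  have hhv : ((h : FN N) : LK) * oZ Kb Sz ^ 2 = oZ Kb Dz := by
    rw [hh]
    push_cast
    rw [hhi]
    have := deltaInvL_ne_zero
    field_simp
    linear_combination (-1 : LK) * hdd
  have hid : oZ Kb E4z ^ 3 * oZ Kb Sz ^ 2 * oZ Kb Dz ^ 2 =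
      (oZ Kb Dz + 27 * oZ Kb Sz ^ 2) * (oZ Kb Dz + 243 * oZ Kb Sz ^ 2) ^ 3 := by
    have := congrArg (oZ Kb) ident_three
    simp only [map_mul, map_pow, map_add, oZ_C] at this
    rw [this]
    norm_num
  -- the relations not involving `f`
  obtain ⟨hR, hj0, hden, hnum, -⟩ := alg_three (f := 0) (y' := 0) (u := 0) hd hS he4 he6 rel_j
    rel_1728 hhv hid (by ring)
  rw [← xN_coe N] at hR hj0 hden
  have hR' : xN N * h ^ 3 = (h + 27) * (h + 243) ^ 3 := by
    apply Subtype.ext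
    push_cast
    exact hR
  have hj0' : xN N ≠ 0 := fun h0 => hj0 (by rw [h0]; rfl)
  have hden' : (xN N - 1728) * h * ((h + 27) * (h + 243)) ≠ 0 := by
    intro h0
    apply hden
    have := congrArg Subtype.val h0
    push_cast at this
    exact this
  have hnum' : h * (h - 486) - 19683 ≠ 0 := by
    intro h0
    apply hnum
    have := congrArg Subtype.val h0
    push_cast at this
    exact this
  set κ : FN N := -(h * (h - 486) - 19683) / ((xN N - 1728) * h * ((h + 27) * (h + 243))) with hκ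
  have hκ0 : κ ≠ 0 := div_ne_zero (neg_ne_zero.mpr hnum') hden'
  refine ⟨h, W.map (LinearMap.mulLeft Kb κ), inferInstance, (finrank_map_mul N hκ0).trans hW, hR',
    ?_⟩
  rintro _ ⟨y, hy, rfl⟩
  obtain ⟨s, hs, hys, n, hn⟩ := hWp y hy
  rw [LinearMap.mulLeft_apply]
  have hu : κ * y * ((xN N - 1728) * h * ((h + 27) * (h + 243))) =
      -(y * (h * (h - 486) - 19683)) := by
    calc κ * y * ((xN N - 1728) * h * ((h + 27) * (h + 243)))
        = (κ * ((xN N - 1728) * h * ((h + 27) * (h + 243)))) * y := by ring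
      _ = -(h * (h - 486) - 19683) * y := by rw [hκ, div_mul_cancel₀ _ hden']
      _ = -(y * (h * (h - 486) - 19683)) := by ring
  constructor
  · -- the certificate
    have hQ : IsQR iota N (12 * ((4 : ℕ) : ℤ)) (s ^ 6 * (Sz.map (Int.castRingHom Kb)) ^ 6) :=
      (hs.toQR.pow 6 (m := 12) (by norm_num)).mul (hQS.pow 6 (m := 36) (by norm_num))
        (by norm_num)
    obtain ⟨Ψ, hΨ⟩ := hQ.exists_form
    obtain ⟨y1, hy1, hint⟩ := H.mf 4 Ψ _ hΨ
    have e : (κ * y) ^ 6 * (h + 27) ^ 4 = y1 := by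
      apply Subtype.ext
      rw [hy1, map_mul, map_pow, map_pow, ← oZ_apply]
      obtain ⟨-, -, -, -, hc⟩ := alg_three (f := oP s) (y' := (y : LK))
        (u := ((κ * y : FN N) : LK)) hd hS he4 he6 rel_j rel_1728 hhv hid
        (by rw [hys]; exact rel_y s)
      have hu' := congrArg Subtype.val hu
      push_cast at hu'
      rw [xN_coe] at hu'
      have hc' := hc (by push_cast; exact hu')
      push_cast at hc' ⊢
      have e27 : (((27 : FN N)) : LK) = 27 := rfl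
      rw [e27]
      have e4 : (oZ Kb Dz) ^ 4 * (FAIg.deltaInvL Kb) ^ 4 = 1 := by rw [← mul_pow, hdd, one_pow]
      linear_combination (FAIg.deltaInvL Kb) ^ 4 * hc' -
        (((κ : LK) * (y : LK)) ^ 6 * ((h : LK) + 27) ^ 4) * e4
    rw [e]
    exact hint
  · refine ⟨y / xN N, n, hn, ?_⟩
    rw [div_mul_cancel₀ _ hj0']
    linear_combination hu

/-- **level `1`, characteristic zero.** -/
theorem cert_zero_one (H : BRHyp N) :
    ∃ V : Submodule Kb (FN N), FiniteDimensional Kb V ∧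
      Module.finrank Kb V = Module.finrank ℂ (CuspForm (Gamma0 N) 2) ∧
      ∀ u ∈ V, IsIntegral (Algebra.adjoin Kb {xN N}) (u ^ 6 * (xN N ^ 4 * (xN N - 1728) ^ 3)) ∧
        ∃ (w : FN N) (n : ℕ), IsIntegral (Algebra.adjoin Kb {(xN N)⁻¹}) (w ^ n * xN N) ∧
          w * xN N = -(u * xN N * (xN N - 1728)) := by
  obtain ⟨W, hWfd, hW, hWp⟩ := exists_W N H
  have hd : oZ Kb Dz ≠ 0 := oZ_ne_zero Dz_ne_zero
  have he4 : oZ Kb E4z ≠ 0 := oZ_ne_zero E4z_ne_zero
  have he6 : oZ Kb E6z ≠ 0 := oZ_ne_zero E6z_ne_zero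
  have hdd := oZ_Dz_mul Kb
  obtain ⟨hj0, ha0, -⟩ := alg_one (f := 0) (y' := 0) (u := 0) hd he4 he6 rel_j rel_1728 (by ring)
  rw [← xN_coe N] at hj0 ha0
  have hj0' : xN N ≠ 0 := fun h0 => hj0 (by rw [h0]; rfl)
  have ha0' : xN N - 1728 ≠ 0 := by
    intro h0
    apply ha0
    have := congrArg Subtype.val h0
    push_cast at this
    exact this
  have hden' : xN N * (xN N - 1728) ≠ 0 := mul_ne_zero hj0' ha0'
  set κ : FN N := -1 / (xN N * (xN N - 1728)) with hκ
  have hκ0 : κ ≠ 0 := div_ne_zero (neg_ne_zero.mpr one_ne_zero) hden'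
  refine ⟨W.map (LinearMap.mulLeft Kb κ), inferInstance, (finrank_map_mul N hκ0).trans hW, ?_⟩
  rintro _ ⟨y, hy, rfl⟩
  obtain ⟨s, hs, hys, n, hn⟩ := hWp y hy
  rw [LinearMap.mulLeft_apply]
  have hu : κ * y * (xN N * (xN N - 1728)) = -y := by
    calc κ * y * (xN N * (xN N - 1728)) = (κ * (xN N * (xN N - 1728))) * y := by ring
      _ = -1 * y := by rw [hκ, div_mul_cancel₀ _ hden']
      _ = -y := by ring
  constructor
  · have hQ : IsQR iota N (12 * ((1 : ℕ) : ℤ)) (s ^ 6) := hs.toQR.pow 6 (by norm_num)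
    obtain ⟨Ψ, hΨ⟩ := hQ.exists_form
    obtain ⟨y1, hy1, hint⟩ := H.mf 1 Ψ _ hΨ
    have e : (κ * y) ^ 6 * (xN N ^ 4 * (xN N - 1728) ^ 3) = y1 := by
      apply Subtype.ext
      rw [hy1, map_pow, pow_one]
      obtain ⟨-, -, hc⟩ := alg_one (f := oP s) (y' := (y : LK))
        (u := ((κ * y : FN N) : LK)) hd he4 he6 rel_j rel_1728 (by rw [hys]; exact rel_y s)
      have hu' := congrArg Subtype.val hu
      push_cast at hu'
      rw [xN_coe] at hu'
      have hc' := hc (by push_cast; exact hu')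
      push_cast at hc' ⊢
      have e1728 : (((1728 : FN N)) : LK) = 1728 := rfl
      rw [e1728, xN_coe]
      linear_combination (FAIg.deltaInvL Kb) * hc' -
        (((κ : LK) * (y : LK)) ^ 6 * ((jqModC Kb) ^ 4 * (jqModC Kb - 1728) ^ 3)) * hdd
    rw [e]
    exact hint
  · refine ⟨y / xN N, n, hn, ?_⟩
    rw [div_mul_cancel₀ _ hj0']
    linear_combination hu

end FA18
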