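/-
S18: the final assembly (for an arbitrary residue map `π : A →+* k`).
-/
import Fermat.Agent.Red.FinalA

set_option autoImplicit false

open AlgebraicCurve IntermediateField ModularCurve FA24

namespace FA18

section Main

variable (N : ℕ) [NeZero N] {ℓ : ℕ} [Fact ℓ.Prime] (hℓN : ¬ ℓ ∣ N)
  (A : ValuationSubring Kb) (hA : A.LiesOverPrime ℓ)
  {k : Type} [Field k] (π : A →+* k) (hπ : Function.Surjective π)

include hℓN hA hπ in
theorem main (h : ReductionInputsAlong A π N) (m : ℕ) (hm : ¬ ℓ ∣ m) (z : JZero N)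
    (hmz : m • z = 0) (hz : reductionAlong A π N z = 0) : z = 0 := by
  have hℓ : ℓ.Prime := Fact.out
  have : IsAlgClosed k := isAlgClosed_of_surj A π hπ
  have hm0 : m ≠ 0 := by
    rintro rfl
    exact hm (dvd_zero _)
  obtain ⟨Y₃, Y₄, D', h34, h3, hD', hfin⟩ :=
    step1 hπ (isFF_FbN N hℓN A hA π hπ) h m z hmz hz
  apply hfin
  have h4 : dn Y₄ ≠ 0 := h34 ▸ h3
  have : NeZero (Nat.lcm N (auxLevel ℓ)) :=
    ⟨Nat.lcm_ne_zero (NeZero.ne N) (auxLevel_ne_zero ℓ)⟩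
  obtain ⟨s, hs⟩ := exists_root_aux N A hA π hπ (Nat.lcm N (auxLevel ℓ))
    (not_dvd_lcm_auxLevel hℓ hℓN) (Nat.dvd_lcm_right _ _) (Nat.dvd_lcm_left _ _)
    (bar_mono (Nat.dvd_lcm_left _ _))
    Y₃ Y₄ h34 h3 m hm D' hD'
  have hs' : (s : LaurentSeries Kb) ^ m = ((up Y₃ * (up Y₄)⁻¹ : FN N) : LaurentSeries Kb) := by
    rw [← IntermediateField.coe_pow, hs, coe_incl]
  obtain ⟨t, ht⟩ := St2.descend N hℓN m hm (up Y₃ * (up Y₄)⁻¹) (s : LaurentSeries Kb) s.2 hs'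
  exact principal_of_pow_eq Y₃ Y₄ h3 h4 m hm0 D' hD' t ht

end Main

end FA18
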