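import Mathlib

/-! S18: computing with truncated integral power series (lists of coefficients). -/

set_option autoImplicit false

namespace FA18

open PowerSeries

/-- `L` lists the first `n` coefficients of `F`. -/
def Tr (n : ℕ) (F : PowerSeries ℤ) (L : List ℤ) : Prop :=
  ∀ i < n, coeff i F = L.getD i 0

/-- truncated product -/
def mulL (n : ℕ) (L L' : List ℤ) : List ℤ :=
  (List.range n).map fun i => ((List.range (i + 1)).map fun j => L.getD j 0 * L'.getD (i - j) 0).sum

/-- truncated sum -/
def addL (n : ℕ) (L L' : List ℤ) : List ℤ :=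
  (List.range n).map fun i => L.getD i 0 + L'.getD i 0

/-- truncated difference -/
def subL (n : ℕ) (L L' : List ℤ) : List ℤ :=
  (List.range n).map fun i => L.getD i 0 - L'.getD i 0

/-- scalar multiple -/
def smulL (n : ℕ) (c : ℤ) (L : List ℤ) : List ℤ :=
  (List.range n).map fun i => c * L.getD i 0

/-- `q ↦ q ^ d` -/
def expL (n d : ℕ) (L : List ℤ) : List ℤ :=
  (List.range n).map fun i => if d ∣ i then L.getD (i / d) 0 else 0

lemma getD_map_range (n : ℕ) (f : ℕ → ℤ) {i : ℕ} (hi : i < n) :
    ((List.range n).map f).getD i 0 = f i := by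
  rw [List.getD_eq_getElem _ _ (by simpa using hi)]
  simp

lemma sum_map_range (n : ℕ) (f : ℕ → ℤ) :
    ((List.range n).map f).sum = ∑ i ∈ Finset.range n, f i := by
  induction n with
  | zero => simp
  | succ n ih => rw [List.range_succ, List.map_append, List.sum_append, ih, Finset.sum_range_succ]; simp

variable {n : ℕ} {F G : PowerSeries ℤ} {L L' : List ℤ}

lemma Tr.congr (h : Tr n F L) (e : L = L') : Tr n F L' := e ▸ h

lemma Tr.mul (hF : Tr n F L) (hG : Tr n G L') : Tr n (F * G) (mulL n L L') := by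
  intro i hi
  rw [mulL, getD_map_range _ _ hi, sum_map_range, coeff_mul,
    Finset.Nat.sum_antidiagonal_eq_sum_range_succ_mk]
  refine Finset.sum_congr rfl fun j hj => ?_
  have hj' : j < i + 1 := Finset.mem_range.mp hj
  rw [hF j (by omega), hG (i - j) (by omega)]

lemma Tr.add (hF : Tr n F L) (hG : Tr n G L') : Tr n (F + G) (addL n L L') := by
  intro i hi
  rw [addL, getD_map_range _ _ hi, map_add, hF i hi, hG i hi]

lemma Tr.sub (hF : Tr n F L) (hG : Tr n G L') : Tr n (F - G) (subL n L L') := by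
  intro i hi
  rw [subL, getD_map_range _ _ hi, map_sub, hF i hi, hG i hi]

lemma Tr.smul (hF : Tr n F L) (c : ℤ) : Tr n (C c * F) (smulL n c L) := by
  intro i hi
  rw [smulL, getD_map_range _ _ hi, coeff_C_mul, hF i hi]

lemma Tr.expand (hF : Tr n F L) (d : ℕ) (hd : d ≠ 0) : Tr n (PowerSeries.expand d hd F) (expL n d L) := by
  intro i hi
  rw [expL, getD_map_range _ _ hi, coeff_expand]
  split_ifs with h
  · exact hF _ (lt_of_le_of_lt (Nat.div_le_self _ _) hi)
  · rfl

/-- division by a non-zero scalar -/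
lemma Tr.of_smul {c : ℤ} (hc : c ≠ 0) (h : Tr n (C c * F) (smulL n c L)) : Tr n F L := by
  intro i hi
  have := h i hi
  rw [smulL, getD_map_range _ _ hi, coeff_C_mul] at this
  exact mul_left_cancel₀ hc this

lemma Tr.mk (f : ℕ → ℤ) (h : ∀ i < n, f i = L.getD i 0) : Tr n (PowerSeries.mk f) L := by
  intro i hi
  rw [coeff_mk, h i hi]

lemma Tr.coeff_eq_zero (h : Tr n F L) (h0 : ∀ i < n, L.getD i 0 = 0) {i : ℕ} (hi : i < n) :
    coeff i F = 0 := by
  rw [h i hi, h0 i hi]

example : mulL 5 [1, 2, 3, 4, 5] [1, -1, 1, -1, 1] = [1, 1, 2, 2, 3] := by decide +kernel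

end FA18
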