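import Fermat.Agent.Red.IsQ
import Fermat.Agent.Red.Trunc

/-! S18: the integral `q`-series `E₄, E₆, Δ, Δ(q²), Δ(q³), a, S` and their modularity. -/

set_option autoImplicit false

open UpperHalfPlane ModularForm CongruenceSubgroup Function EisensteinSeries FA_IS
open scoped Manifold MatrixGroups ModularForm Real
open PowerSeries (C X)

noncomputable section

namespace FA18

/-- `E₄` -/
def E4z : PowerSeries ℤ := ModularCurve.eisenstein4

/-- `E₆` -/
def E6z : PowerSeries ℤ :=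
  PowerSeries.mk fun n => if n = 0 then 1 else -504 * ∑ d ∈ n.divisors, (d : ℤ) ^ 5

/-- `Δ` -/
def Dz : PowerSeries ℤ := X * ModularCurve.dedekindEtaUnit

/-- `Δ(q²)` -/
def D2z : PowerSeries ℤ := PowerSeries.expand 2 two_ne_zero Dz

/-- `Δ(q³)` -/
def D3z : PowerSeries ℤ := PowerSeries.expand 3 three_ne_zero Dz

/-- `a = (3 E₂(q³) - E₂(q)) / 2` -/
def az : PowerSeries ℤ :=
  PowerSeries.mk fun n => if n = 0 then 1 else 12 * (FA16.sigmaPrime 3 n : ℤ)

/-- `S = η(q)⁶ η(q³)⁶` -/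
def Sz : PowerSeries ℤ :=
  X * ModularCurve.etaProd ^ 6 * (PowerSeries.expand 3 three_ne_zero ModularCurve.etaProd) ^ 6

/-- `432 S` in terms of Eisenstein series -/
def Tz : PowerSeries ℤ := C (-9) * (az * az * az) + C 7 * (az * E4z) + C 2 * E6z

lemma qExpansion_E4 : qExpansion 1 E₄ = toC E4z := FA24.qExpansion_E₄

lemma qExpansion_E6 : qExpansion 1 E₆ = toC E6z := by
  ext n
  rw [E_qExpansion_coeff _ ⟨3, rfl⟩, PowerSeries.coeff_map, E6z, PowerSeries.coeff_mk]
  split_ifs with h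
  · simp
  · rw [show bernoulli 6 = 1 / 42 by decide +kernel, ArithmeticFunction.sigma_apply]
    simp only [eq_intCast]
    push_cast
    ring

lemma qExpansion_D : qExpansion 1 ModularForm.discriminant = toC Dz := by
  rw [FA24.qExpansion_discriminant, Dz, map_mul, PowerSeries.map_X]

variable {N : ℕ}

lemma isQ_E4 : IsQ N 4 E4z := IsQ.of_levelOne E₄ qExpansion_E4

lemma isQ_E6 : IsQ N 6 E6z := IsQ.of_levelOne E₆ qExpansion_E6

/-- `Δ` as a modular form -/
def discMF : ModularForm 𝒮ℒ 12 := ModularFormClass.modularForm CuspForm.discriminant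

lemma coe_discMF : ⇑discMF = ModularForm.discriminant := rfl

lemma isQ_D : IsQ N 12 Dz := IsQ.of_levelOne discMF qExpansion_D

lemma isQ_D2 (h : 2 ∣ N) : IsQ N 12 D2z := IsQ.expand_levelOne discMF qExpansion_D 2 h

lemma isQ_D3 (h : 3 ∣ N) : IsQ N 12 D3z := IsQ.expand_levelOne discMF qExpansion_D 3 h

lemma isQ_a (h : 3 ∣ N) : IsQ N 2 az := by
  refine IsQ.mono (M := 3) (IsQ.of_smul (c := 2) two_ne_zero ⟨FA16.eisN 3, ?_⟩) h
  ext n
  rw [PowerSeries.coeff_map, PowerSeries.coeff_C_mul, az, PowerSeries.coeff_mk]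
  by_cases hn : n = 0
  · subst hn
    rw [FA16.qExpansion_eisN_coeff_zero]
    norm_num
  · rw [FA16.qExpansion_eisN_coeff_prime 3 Nat.prime_three hn, if_neg hn]
    simp only [eq_intCast]
    push_cast
    ring

lemma isQ_T (h : 3 ∣ N) : IsQ N 6 Tz :=
  (((((isQ_a h).mul (isQ_a h) (k := 4) (by norm_num)).mul (isQ_a h) (k := 6) (by norm_num)).smul
    (-9)).add (((isQ_a h).mul isQ_E4 (k := 6) (by norm_num)).smul 7)).add (isQ_E6.smul 2)

/-- `1728 Δ = E₄³ - E₆²` -/
lemma rel_D : C 1728 * Dz = E4z ^ 3 - E6z ^ 2 := by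
  apply toC_injective
  have h := FA_IS_L1.qExp_disc_mul
  rw [qExpansion_D, qExpansion_E4, qExpansion_E6] at h
  rw [toC_C_mul, map_sub, map_pow, map_pow, ← h]
  norm_num

lemma rel_D' : C 1728 * Dz = E4z * E4z * E4z - E6z * E6z := by
  rw [rel_D]; ring

/-- `S⁴ = Δ(q) Δ(q³)` -/
lemma Sz_pow_four : Sz ^ 4 = Dz * D3z := by
  rw [Sz, D3z, Dz, map_mul, PowerSeries.expand_X, ModularCurve.dedekindEtaUnit, map_pow]
  ring

end FA18
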