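import Fermat.Agent.X0Genus.MN

/-!
# S18, Step 2: the Fricke embedding of `ℚ̄(X₀(N))` into Laurent series (analytic part)
-/

open UpperHalfPlane ModularForm EisensteinSeries Function CongruenceSubgroup FA_IS FA24
open scoped Manifold MatrixGroups Real

set_option autoImplicit false

namespace FA18.St2

variable {N : ℕ} [NeZero N]

local notation "Δ" => ModularForm.discriminant
local notation "oPS" => HahnSeries.ofPowerSeries ℤ ℂ

lemma qExpansion_compAff_inv {G : ℍ → ℂ} (hG : Nice 1 G) :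
    qExpansion N (compAff G 1 N 0) = qExpansion 1 G := by
  have hN : 0 < N := Nat.pos_of_ne_zero (NeZero.ne N)
  apply qExpansion_compAff_aux hG one_pos hN (one_mul N) 0
  intro n
  simp [zetaAff]

theorem meroInf_compAff_inv {F : ℍ → ℂ} (hF : MeroInf 1 F) : MeroInf N (compAff F 1 N 0) := by
  have hN : 0 < N := Nat.pos_of_ne_zero (NeZero.ne N)
  obtain ⟨m, hm⟩ := hF.pole
  refine ⟨compAff_per (by simpa using hF.per) one_pos hN 0 (by simp),
    compAff_mdiff hF.hol one_pos hN 0, ⟨m, ?_⟩⟩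
  have e : compAff F 1 N 0 * Δ ^ m =
      compAff (F * Δ ^ m) 1 N 0 * (Δ ^ 1 / compAff Δ 1 N 0) ^ m := by
    ext τ
    simp only [Pi.mul_apply, Pi.pow_apply, Pi.div_apply, compAff]
    have := discriminant_ne_zero (affPt 1 N 0 τ)
    rw [pow_one, div_pow, mul_assoc, mul_div_cancel₀ _ (pow_ne_zero m this)]
  rw [e]
  have hb : ∀ k : ℕ, IsBoundedAtImInfty ((Δ ^ 1 / compAff Δ 1 N 0) ^ k) := by
    intro k
    induction k with
    | zero => rw [pow_zero]; exact Filter.const_boundedAtFilter atImInfty (1 : ℂ)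
    | succ k ih => rw [pow_succ]; exact ih.mul (bdd_disc_ratio_aff one_pos hN 0)
  have hb' : IsBoundedAtImInfty (compAff (F * Δ ^ m) 1 N 0) :=
    hm.comp_tendsto (tendsto_affPt one_pos hN 0)
  exact hb'.mul (hb m)

theorem lau_compAff_inv {F : ℍ → ℂ} (hF : MeroInf 1 F) : lau N (compAff F 1 N 0) = lau 1 F := by
  have hN : 0 < N := Nat.pos_of_ne_zero (NeZero.ne N)
  obtain ⟨m, hm⟩ := hF.pole
  have e1 : ((1 : ℕ) : ℝ) = 1 := Nat.cast_one
  have h1 : Nice 1 (F * Δ ^ m) := by simpa using hF.nice_mul hm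
  have h2 : Nice 1 (Δ ^ m) := nice_disc_one.pow m
  have n1 : Nice (N : ℝ) (compAff (F * Δ ^ m) 1 N 0) := compAff_nice h1 one_pos hN (one_mul N) 0
  have n2 : Nice (N : ℝ) (compAff (Δ ^ m) 1 N 0) := compAff_nice h2 one_pos hN (one_mul N) 0
  have h3 := lau_mul (meroInf_compAff_inv (N := N) hF) (MeroInf.of_nice n2)
  rw [← compAff_mul, lau_of_nice n1, lau_of_nice n2, qExpansion_compAff_inv h1,
    qExpansion_compAff_inv h2] at h3
  have h4 := lau_mul_disc_pow hF m hm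
  rw [e1] at h4
  rw [← h4, nice_disc_one.qExpansion_pow one_pos, map_pow (oPS)] at h3
  have h7 := oPS_disc_ne_zero 1
  rw [e1] at h7
  exact (mul_right_cancel₀ (pow_ne_zero m h7) h3).symm

/-- the coset of `S⁻¹`. -/
noncomputable def kS (N : ℕ) : XN N := ((ModularGroup.S⁻¹ : SL(2, ℤ)) : XN N)

lemma trn_jd_kS {d c : ℕ} (hdc : d * c = N) :
    trn (jd d) (kS N) = compAff (jd c) 1 N 0 := by
  have hN : 0 < N := Nat.pos_of_ne_zero (NeZero.ne N)
  have hd : 0 < d := Nat.pos_of_ne_zero (by rintro rfl; simp at hdc; omega)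
  have hc : 0 < c := Nat.pos_of_ne_zero (by rintro rfl; simp at hdc; omega)
  rw [kS, trn_eq_of_mk (jd_mem_RN ⟨c, hdc.symm⟩), inv_inv]
  funext τ
  show jf (affPt d 1 0 (ModularGroup.S • τ)) = jf (affPt c 1 0 (affPt 1 N 0 τ))
  have : affPt d 1 0 (ModularGroup.S • τ) = ModularGroup.S • (affPt c 1 0 (affPt 1 N 0 τ)) := by
    ext
    rw [coe_affPt hd one_pos, UpperHalfPlane.modular_S_smul, UpperHalfPlane.modular_S_smul]
    show ((d : ℂ) * (-(τ : ℂ))⁻¹ + ((0 : ℤ) : ℂ)) / ((1 : ℕ) : ℂ)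
      = (-((affPt c 1 0 (affPt 1 N 0 τ) : ℍ) : ℂ))⁻¹
    rw [coe_affPt hc one_pos, coe_affPt one_pos hN, ← hdc]
    have hτ : (τ : ℂ) ≠ 0 := UpperHalfPlane.ne_zero τ
    have hdC : (d : ℂ) ≠ 0 := by exact_mod_cast hd.ne'
    have hcC : (c : ℂ) ≠ 0 := by exact_mod_cast hc.ne'
    push_cast
    simp only [add_zero, div_one, one_mul]
    field_simp
  rw [this, jf_smul]

/-- the Fricke embedding, with complex coefficients. -/
noncomputable def frC (N : ℕ) [NeZero N] : FN N →+* LaurentSeries ℂ := br expInf (kS N)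

lemma frC_algebraMap (a : Kb) : frC N (algebraMap Kb (FN N) a) = HahnSeries.C (iota a) :=
  br_algebraMap _ _ a

lemma frC_Jd {d c : ℕ} [NeZero d] [NeZero c] (hdc : d * c = N) :
    frC N (Jd N ⟨c, hdc.symm⟩) = ModularCurve.qExpand ℂ c
      (ModularCurve.coeffMap (algebraMap ℚ ℂ) ModularCurve.jq) := by
  rw [frC, br_Jd, expInf_apply, trnM_val]
  show lau N (trn (jd d) (kS N)) = _
  rw [trn_jd_kS hdc, lau_compAff_inv, lau_jd]
  rw [jd]
  exact meroInf_jf.level c

end FA18.St2
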