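import Mathlib

/-! S18 / G2: reduction of subspaces, basic layer.

Setting: `K` a field with valuation subring `A` and residue map `π : A →+* k`;
`F/K` a field extension with valuation subring `O`, residue map `ρ : O →+* Fb`,
`O ∩ K = A`, compatible residue maps. -/

namespace FA18

open Module

section Ext0

variable {R S : Type*} [Field R]

/-- Extension by zero of a map defined on a valuation subring. -/
noncomputable def ext0 [Zero S] (B : ValuationSubring R) (f : B → S) (x : R) : S := by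
  classical exact if h : x ∈ B then f ⟨x, h⟩ else 0

theorem ext0_of_mem [Zero S] {B : ValuationSubring R} (f : B → S) {x : R} (h : x ∈ B) :
    ext0 B f x = f ⟨x, h⟩ := by
  simp [ext0, h]

theorem ext0_coe [Zero S] {B : ValuationSubring R} (f : B → S) (x : B) :
    ext0 B f (x : R) = f x := by
  rw [ext0_of_mem f x.2]

variable [Semiring S] {B : ValuationSubring R} (f : B →+* S)

theorem ext0_zero : ext0 B f 0 = 0 := by
  rw [ext0_of_mem f B.zero_mem]; exact map_zero f

theorem ext0_one : ext0 B f 1 = 1 := by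
  rw [ext0_of_mem f B.one_mem]; exact map_one f

theorem ext0_add {x y : R} (hx : x ∈ B) (hy : y ∈ B) :
    ext0 B f (x + y) = ext0 B f x + ext0 B f y := by
  rw [ext0_of_mem f hx, ext0_of_mem f hy, ext0_of_mem f (B.add_mem _ _ hx hy), ← map_add]; rfl

theorem ext0_mul {x y : R} (hx : x ∈ B) (hy : y ∈ B) :
    ext0 B f (x * y) = ext0 B f x * ext0 B f y := by
  rw [ext0_of_mem f hx, ext0_of_mem f hy, ext0_of_mem f (B.mul_mem _ _ hx hy), ← map_mul]; rfl

theorem ext0_pow {x : R} (hx : x ∈ B) (n : ℕ) :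
    ext0 B f (x ^ n) = ext0 B f x ^ n := by
  rw [ext0_of_mem f hx, ext0_of_mem f (pow_mem hx n), ← map_pow]; rfl

theorem ext0_sum {ι : Type*} (s : Finset ι) (g : ι → R) (hg : ∀ i ∈ s, g i ∈ B) :
    ext0 B f (∑ i ∈ s, g i) = ∑ i ∈ s, ext0 B f (g i) := by
  classical
  induction s using Finset.induction_on with
  | empty => simpa using ext0_zero f
  | insert a s ha ih =>
    rw [Finset.sum_insert ha, Finset.sum_insert ha,
      ext0_add f (hg a (Finset.mem_insert_self a s))
        (sum_mem fun i hi => hg i (Finset.mem_insert_of_mem hi)),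
      ih fun i hi => hg i (Finset.mem_insert_of_mem hi)]

end Ext0

section Ext0Ring

variable {R S : Type*} [Field R] [Ring S] {B : ValuationSubring R} (f : B →+* S)

theorem ext0_neg {x : R} (hx : x ∈ B) : ext0 B f (-x) = - ext0 B f x := by
  rw [ext0_of_mem f hx, ext0_of_mem f (B.neg_mem _ hx), ← map_neg]; rfl

theorem ext0_sub {x y : R} (hx : x ∈ B) (hy : y ∈ B) :
    ext0 B f (x - y) = ext0 B f x - ext0 B f y := by
  rw [sub_eq_add_neg, ext0_add f hx (B.neg_mem _ hy), ext0_neg f hy, sub_eq_add_neg]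

end Ext0Ring

variable {K F k Fb : Type*} [Field K] [Field F] [Algebra K F] [Field k] [Field Fb] [Algebra k Fb]

/-- The basic reduction datum. -/
structure RedBase (A : ValuationSubring K) (O : ValuationSubring F) (π : A →+* k)
    (ρ : O →+* Fb) : Prop where
  pi_surj : Function.Surjective π
  rho_surj : Function.Surjective ρ
  mem_iff : ∀ a : K, algebraMap K F a ∈ O ↔ a ∈ A
  compat : ∀ (a : K) (ha : a ∈ A) (h : algebraMap K F a ∈ O),
    ρ ⟨algebraMap K F a, h⟩ = algebraMap k Fb (π ⟨a, ha⟩)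

variable {A : ValuationSubring K} {O : ValuationSubring F} {π : A →+* k} {ρ : O →+* Fb}

/-- A surjection from a valuation subring onto a field kills exactly the non-units. -/
theorem inv_mem_of_ext0_ne_zero {R S : Type*} [Field R] [Field S] {B : ValuationSubring R}
    (f : B →+* S) (hf : Function.Surjective f) {x : R} (h : ext0 B f x ≠ 0) : x⁻¹ ∈ B := by
  by_cases hx : x ∈ B
  · rw [ext0_of_mem f hx] at h
    have hker : RingHom.ker f = IsLocalRing.maximalIdeal B :=
      IsLocalRing.eq_maximalIdeal (RingHom.ker_isMaximal_of_surjective f hf)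
    have hu : IsUnit (⟨x, hx⟩ : B) := by
      by_contra hnu
      have : (⟨x, hx⟩ : B) ∈ IsLocalRing.maximalIdeal B := (IsLocalRing.mem_maximalIdeal _).2 hnu
      rw [← hker] at this
      exact h this
    obtain ⟨u, hu⟩ := hu
    have h1 : x * ((u⁻¹ : Bˣ) : B) = 1 := by
      have : (u : B) * ((u⁻¹ : Bˣ) : B) = 1 := by simp
      have h2 := congrArg (Subtype.val) this
      rw [hu] at h2
      simpa using h2
    have : x⁻¹ = (((u⁻¹ : Bˣ) : B) : R) := by
      exact inv_eq_of_mul_eq_one_right h1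
    rw [this]; exact Subtype.mem _
  · exact (B.mem_or_inv_mem x).resolve_left hx

theorem mem_of_ext0_ne_zero {R S : Type*} [Field R] [Zero S] {B : ValuationSubring R}
    (f : B → S) {x : R} (h : ext0 B f x ≠ 0) : x ∈ B := by
  by_contra hx
  exact h (by simp [ext0, hx])

theorem ext0_ne_zero_of_inv_mem {R S : Type*} [Field R] [Field S] {B : ValuationSubring R}
    (f : B →+* S) {x : R} (hx0 : x ≠ 0) (hx : x ∈ B) (hx' : x⁻¹ ∈ B) : ext0 B f x ≠ 0 := by
  intro h
  have := ext0_mul f hx hx'
  rw [mul_inv_cancel₀ hx0, ext0_one, h, zero_mul] at this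
  exact one_ne_zero this

theorem ext0_inv {R S : Type*} [Field R] [Field S] {B : ValuationSubring R}
    (f : B →+* S) {x : R} (hx0 : x ≠ 0) (hx : x ∈ B) (hx' : x⁻¹ ∈ B) :
    ext0 B f x⁻¹ = (ext0 B f x)⁻¹ := by
  have := ext0_mul f hx hx'
  rw [mul_inv_cancel₀ hx0, ext0_one] at this
  exact (inv_eq_of_mul_eq_one_right this.symm).symm

namespace RedBase

variable (hB : RedBase A O π ρ)
include hB

theorem algebraMap_mem {a : K} (ha : a ∈ A) : algebraMap K F a ∈ O := (hB.mem_iff a).2 ha

theorem ext0_algebraMap {a : K} (ha : a ∈ A) :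
    ext0 O ρ (algebraMap K F a) = algebraMap k Fb (ext0 A π a) := by
  rw [ext0_of_mem ρ (hB.algebraMap_mem ha), ext0_of_mem π ha]
  exact hB.compat a ha _

theorem smul_mem {a : K} (ha : a ∈ A) {x : F} (hx : x ∈ O) : a • x ∈ O := by
  rw [Algebra.smul_def]; exact O.mul_mem _ _ (hB.algebraMap_mem ha) hx

theorem ext0_smul {a : K} (ha : a ∈ A) {x : F} (hx : x ∈ O) :
    ext0 O ρ (a • x) = ext0 A π a • ext0 O ρ x := by
  rw [Algebra.smul_def, ext0_mul ρ (hB.algebraMap_mem ha) hx, hB.ext0_algebraMap ha,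
    Algebra.smul_def]

theorem exists_lift (yb : Fb) : ∃ y : F, y ∈ O ∧ ext0 O ρ y = yb := by
  obtain ⟨y, rfl⟩ := hB.rho_surj yb
  exact ⟨y, y.2, ext0_coe _ _⟩

theorem exists_lift_pi (c : k) : ∃ a : K, a ∈ A ∧ ext0 A π a = c := by
  obtain ⟨y, rfl⟩ := hB.pi_surj c
  exact ⟨y, y.2, ext0_coe _ _⟩

/-- linear combinations with integral coefficients reduce termwise -/
theorem linComb_mem {ι : Type*} {e : ι → F} (he : ∀ i, e i ∈ O) {u : ι →₀ K}
    (hu : ∀ i, u i ∈ A) : Finsupp.linearCombination K e u ∈ O := by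
  rw [Finsupp.linearCombination_apply, Finsupp.sum]
  exact sum_mem fun i _ => hB.smul_mem (hu i) (he i)

theorem ext0_linComb {ι : Type*} {e : ι → F} (he : ∀ i, e i ∈ O) {u : ι →₀ K}
    (hu : ∀ i, u i ∈ A) :
    ext0 O ρ (Finsupp.linearCombination K e u) =
      Finsupp.linearCombination k (fun i => ext0 O ρ (e i))
        (u.mapRange (ext0 A π) (ext0_zero π)) := by
  rw [Finsupp.linearCombination_apply, Finsupp.sum,
    ext0_sum ρ _ _ fun i _ => hB.smul_mem (hu i) (he i),
    Finsupp.linearCombination_apply,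
    Finsupp.sum_mapRange_index (h := fun i a => a • ext0 O ρ (e i)) (fun i => zero_smul _ _),
    Finsupp.sum]
  exact Finset.sum_congr rfl fun i _ => hB.ext0_smul (hu i) (he i)

omit hB in
/-- normalisation of a nonzero coefficient vector -/
theorem exists_normal {ι : Type*} (A : ValuationSubring K) {u : ι →₀ K} (hu : u ≠ 0) :
    ∃ i0, u i0 ≠ 0 ∧ ∀ i, (u i0)⁻¹ * u i ∈ A := by
  have hne : u.support.Nonempty := Finsupp.support_nonempty_iff.2 hu
  obtain ⟨i0, hi0, hmax⟩ := Finset.exists_max_image u.support (fun i => A.valuation (u i)) hne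
  have h0 : u i0 ≠ 0 := Finsupp.mem_support_iff.1 hi0
  refine ⟨i0, h0, fun i => ?_⟩
  by_cases hi : i ∈ u.support
  · rw [← ValuationSubring.valuation_le_one_iff, map_mul, map_inv₀]
    have hv : A.valuation (u i0) ≠ 0 := (Valuation.ne_zero_iff _).2 h0
    rw [inv_mul_le_iff₀ (zero_lt_iff.2 hv), mul_one]
    exact hmax i hi
  · rw [Finsupp.notMem_support_iff.1 hi, mul_zero]; exact A.zero_mem

/-- a normalised combination of an orthonormal family reduces to something nonzero -/
theorem ext0_linComb_ne_zero {ι : Type*} {e : ι → F} (he : ∀ i, e i ∈ O)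
    (hli : LinearIndependent k fun i => ext0 O ρ (e i)) {u : ι →₀ K}
    (hu : ∀ i, u i ∈ A) {i0 : ι} (h1 : u i0 = 1) :
    ext0 O ρ (Finsupp.linearCombination K e u) ≠ 0 := by
  rw [hB.ext0_linComb he hu]
  intro h
  have := (linearIndependent_iff.1 hli) _ h
  have h2 := DFunLike.congr_fun this i0
  rw [Finsupp.mapRange_apply, h1, ext0_one] at h2
  exact one_ne_zero h2

/-- Orthonormality: a combination lies in `O` iff all coefficients lie in `A`. -/
theorem coeff_mem_of_linComb_mem {ι : Type*} {e : ι → F} (he : ∀ i, e i ∈ O)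
    (hli : LinearIndependent k fun i => ext0 O ρ (e i)) {u : ι →₀ K}
    (h : Finsupp.linearCombination K e u ∈ O) (i : ι) : u i ∈ A := by
  by_cases hu : u = 0
  · rw [hu]; exact A.zero_mem
  obtain ⟨i0, h0, hn⟩ := exists_normal A hu
  set u' : ι →₀ K := (u i0)⁻¹ • u with hu'
  have hu'A : ∀ i, u' i ∈ A := fun i => by simpa [hu'] using hn i
  have h1 : u' i0 = 1 := by simp [hu', h0]
  have hne := hB.ext0_linComb_ne_zero he hli hu'A h1
  have hinv := inv_mem_of_ext0_ne_zero ρ hB.rho_surj hne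
  have hT : Finsupp.linearCombination K e u = u i0 • Finsupp.linearCombination K e u' := by
    rw [hu', map_smul, smul_smul, mul_inv_cancel₀ h0, one_smul]
  have hT0 : Finsupp.linearCombination K e u' ≠ 0 := by
    intro h0'; rw [h0'] at hne; exact hne (ext0_zero ρ)
  have hc : algebraMap K F (u i0) ∈ O := by
    have : algebraMap K F (u i0) =
        Finsupp.linearCombination K e u * (Finsupp.linearCombination K e u')⁻¹ := by
      rw [hT, Algebra.smul_def, mul_assoc, mul_inv_cancel₀ hT0, mul_one]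
    rw [this]; exact O.mul_mem _ _ h hinv
  have hcA : u i0 ∈ A := (hB.mem_iff _).1 hc
  have : u i = u i0 * u' i := by simp [hu', h0]
  rw [this]; exact A.mul_mem _ _ hcA (hu'A i)

/-- Lifts of `k`-independent elements are `K`-independent. -/
theorem linearIndependent_of_ext0 {ι : Type*} {e : ι → F} (he : ∀ i, e i ∈ O)
    (hli : LinearIndependent k fun i => ext0 O ρ (e i)) : LinearIndependent K e := by
  rw [linearIndependent_iff]
  intro u h
  by_contra hu
  obtain ⟨i0, h0, hn⟩ := exists_normal A hu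
  set u' : ι →₀ K := (u i0)⁻¹ • u with hu'
  have hu'A : ∀ i, u' i ∈ A := fun i => by simpa [hu'] using hn i
  have h1 : u' i0 = 1 := by simp [hu', h0]
  have hne := hB.ext0_linComb_ne_zero he hli hu'A h1
  rw [hu', map_smul, h, smul_zero] at hne
  exact hne (ext0_zero ρ)

end RedBase

/-- The reduction of a `K`-subspace of `F`. -/
def redSub (hB : RedBase A O π ρ) (V : Submodule K F) : Submodule k Fb where
  carrier := {yb | ∃ y, y ∈ O ∧ y ∈ V ∧ ext0 O ρ y = yb}
  add_mem' := by
    rintro _ _ ⟨y, hy, hyV, rfl⟩ ⟨z, hz, hzV, rfl⟩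
    exact ⟨y + z, O.add_mem _ _ hy hz, V.add_mem hyV hzV, ext0_add ρ hy hz⟩
  zero_mem' := ⟨0, O.zero_mem, V.zero_mem, ext0_zero ρ⟩
  smul_mem' := by
    rintro c _ ⟨y, hy, hyV, rfl⟩
    obtain ⟨a, ha, rfl⟩ := hB.exists_lift_pi c
    exact ⟨a • y, hB.smul_mem ha hy, V.smul_mem a hyV, hB.ext0_smul ha hy⟩

theorem mem_redSub' (hB : RedBase A O π ρ) {V : Submodule K F} {yb : Fb} :
    yb ∈ redSub hB V ↔ ∃ y, y ∈ O ∧ y ∈ V ∧ ext0 O ρ y = yb := Iff.rfl

theorem mem_redSub (hB : RedBase A O π ρ) {V : Submodule K F} {yb : Fb} :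
    yb ∈ redSub hB V ↔ ∃ y, ∃ h : y ∈ O, y ∈ V ∧ ρ ⟨y, h⟩ = yb := by
  rw [mem_redSub']
  constructor
  · rintro ⟨y, h, hV, rfl⟩; exact ⟨y, h, hV, (ext0_of_mem _ h).symm⟩
  · rintro ⟨y, h, hV, rfl⟩; exact ⟨y, h, hV, ext0_of_mem _ h⟩

theorem redSub_mono (hB : RedBase A O π ρ) {V W : Submodule K F} (h : V ≤ W) :
    redSub hB V ≤ redSub hB W := by
  rintro _ ⟨y, hy, hyV, rfl⟩
  exact ⟨y, hy, h hyV, rfl⟩

/-- (f0) upper bound for the rank of the reduction. -/
theorem rank_redSub_le (hB : RedBase A O π ρ) (V : Submodule K F) [FiniteDimensional K V] :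
    Module.rank k (redSub hB V) ≤ finrank K V := by
  apply rank_le
  intro s hs
  have hch : ∀ z : s, ∃ y : F, y ∈ O ∧ y ∈ V ∧ ext0 O ρ y = ((z : redSub hB V) : Fb) :=
    fun z => (z : redSub hB V).2
  choose y hyO hyV hy using hch
  have hli : LinearIndependent k fun z : s => ext0 O ρ (y z) := by
    have h1 : LinearIndependent k fun z : s => (((z : redSub hB V)) : Fb) :=
      hs.map' (redSub hB V).subtype (Submodule.ker_subtype _)
    simpa only [hy] using h1
  have hK := hB.linearIndependent_of_ext0 hyO hli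
  have hK' : LinearIndependent K fun z : s => (⟨y z, hyV z⟩ : V) := by
    apply LinearIndependent.of_comp V.subtype
    exact hK
  have := hK'.fintype_card_le_finrank
  simpa using this

instance finiteDimensional_redSub (hB : RedBase A O π ρ) (V : Submodule K F)
    [FiniteDimensional K V] : FiniteDimensional k (redSub hB V) := by
  rw [FiniteDimensional, ← Module.rank_lt_aleph0_iff]
  exact lt_of_le_of_lt (rank_redSub_le hB V) (Cardinal.natCast_lt_aleph0)

theorem finrank_redSub_le (hB : RedBase A O π ρ) (V : Submodule K F) [FiniteDimensional K V] :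
    finrank k (redSub hB V) ≤ finrank K V := by
  have := rank_redSub_le hB V
  rw [← finrank_eq_rank] at this
  exact_mod_cast this

end FA18
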