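import Fermat.Agent.Red.G2Base

/-! S18 / G2: reduction of subspaces: `finrank (redSub V) = finrank V`, (FI), (scale). -/

namespace FA18

open Module IntermediateField Polynomial

section Tower

theorem linearIndependent_pow_of_transcendental {k E : Type*} [Field k] [Field E] [Algebra k E]
    {t : E} (ht : Transcendental k t) : LinearIndependent k (fun j : ℕ => t ^ j) := by
  have h := (Polynomial.basisMonomials k).linearIndependent.map' (aeval t).toLinearMap
    (LinearMap.ker_eq_bot.2 (transcendental_iff_injective.1 ht))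
  have hfun : (fun j : ℕ => t ^ j) = (aeval t).toLinearMap ∘ (Polynomial.basisMonomials k) := by
    ext j; simp [Polynomial.coe_basisMonomials]
  rw [hfun]; exact h

theorem aeval_eq_linComb {k E : Type*} [Field k] [Field E] [Algebra k E] (t : E) (q : k[X]) :
    aeval t q = Finsupp.linearCombination k (fun j : ℕ => t ^ j)
      ((Polynomial.basisMonomials k).repr q) := by
  have hfun : (fun j : ℕ => t ^ j) = (aeval t).toLinearMap ∘ (Polynomial.basisMonomials k) := by
    ext j; simp [Polynomial.coe_basisMonomials]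
  rw [hfun, ← Finsupp.apply_linearCombination, Basis.linearCombination_repr]
  rfl

theorem linearIndependent_pow_mul {k E : Type*} [Field k] [Field E] [Algebra k E]
    {t : E} (ht : Transcendental k t) {ι : Type*} {y : ι → E}
    (hy : LinearIndependent k⟮t⟯ y) :
    LinearIndependent k (fun p : ℕ × ι => t ^ p.1 * y p.2) := by
  have hb : LinearIndependent k (fun j : ℕ => (AdjoinSimple.gen k t) ^ j) := by
    apply LinearIndependent.of_comp (IntermediateField.val k⟮t⟯).toLinearMap
    have hfun : (IntermediateField.val k⟮t⟯).toLinearMap ∘ (fun j : ℕ => (AdjoinSimple.gen k t) ^ j)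
        = fun j : ℕ => t ^ j := by
      ext j; simp
    rw [hfun]
    exact linearIndependent_pow_of_transcendental ht
  exact linearIndependent_smul hb hy

open scoped IntermediateField.algebraAdjoinAdjoin in
theorem linearIndependent_adjoin_of_pow_mul {K E : Type*} [Field K] [Field E] [Algebra K E]
    {x : E} {ι : Type*} {y : ι → E}
    (h : LinearIndependent K (fun p : ℕ × ι => x ^ p.1 * y p.2)) :
    LinearIndependent K⟮x⟯ y := by
  rw [← LinearIndependent.iff_fractionRing (Algebra.adjoin K {x}) K⟮x⟯]
  set w : ℕ → Algebra.adjoin K {x} :=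
    fun j => ⟨x, Algebra.self_mem_adjoin_singleton K x⟩ ^ j with hw
  have h' : LinearIndependent K (fun p : ι × ℕ => w p.2 • y p.1) := by
    rw [← linearIndependent_equiv' (Equiv.prodComm ..)
      (g := fun p : ι × ℕ => w p.2 • y p.1) rfl] at h
    exact h
  rw [LinearIndependent, Finsupp.linearCombination_smul] at h'
  have hpol : ∀ p : K[X], ∃ u, ((Finsupp.linearCombination K w u : Algebra.adjoin K {x}) : E)
      = aeval x p := by
    intro p
    induction p using Polynomial.induction_on' with
    | add p q hp hq =>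
      obtain ⟨u, hu⟩ := hp
      obtain ⟨v, hv⟩ := hq
      refine ⟨u + v, ?_⟩
      rw [map_add, map_add, ← hu, ← hv]
      simp
    | monomial n a =>
      refine ⟨Finsupp.single n a, ?_⟩
      simp [hw, Algebra.smul_def]
  have hsurj : Function.Surjective (Finsupp.linearCombination K w) := by
    rintro ⟨a, ha⟩
    rw [Algebra.adjoin_singleton_eq_range_aeval] at ha
    obtain ⟨p, rfl⟩ := ha
    obtain ⟨u, hu⟩ := hpol p
    exact ⟨u, Subtype.ext hu⟩
  have hsurj2 : Function.Surjective
      (Finsupp.mapRange.linearMap (α := ι) (Finsupp.linearCombination K w) ∘ₗ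
      (Finsupp.curryLinearEquiv K).toLinearMap) := by
    rw [LinearMap.coe_comp]
    refine Function.Surjective.comp ?_ (LinearEquiv.surjective _)
    exact Finsupp.mapRange_surjective _ (map_zero _) hsurj
  rw [LinearMap.coe_comp] at h'
  exact Function.Injective.of_comp_right h' hsurj2

theorem finrank_map_of_injective {K V W : Type*} [Field K] [AddCommGroup V] [Module K V]
    [AddCommGroup W] [Module K W] (f : V →ₗ[K] W) (hf : Function.Injective f)
    (p : Submodule K V) : finrank K (p.map f) = finrank K p :=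
  (LinearEquiv.finrank_eq (Submodule.equivMapOfInjective f hf p)).symm

end Tower

variable {K F k Fb : Type*} [Field K] [Field F] [Algebra K F] [Field k] [Field Fb] [Algebra k Fb]
variable {A : ValuationSubring K} {O : ValuationSubring F} {π : A →+* k} {ρ : O →+* Fb}

/-- Gaussian elimination: subspaces of the span of an orthonormal family reduce well. -/
theorem le_finrank_redSub_map (hB : RedBase A O π ρ) {ι : Type*} {e : ι → F}
    (he : ∀ i, e i ∈ O) (hli : LinearIndependent k fun i => ext0 O ρ (e i)) :
    ∀ (d : ℕ) (W : Submodule K (ι →₀ K)), FiniteDimensional K W → d ≤ finrank K W →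
      d ≤ finrank k (redSub hB (W.map (Finsupp.linearCombination K e))) := by
  intro d
  induction d with
  | zero => intro W _ _; exact Nat.zero_le _
  | succ d IH =>
    intro W hfd hd
    have hW : W ≠ ⊥ := by
      rintro rfl
      simp at hd
    obtain ⟨w, hwW, hw0⟩ := Submodule.exists_mem_ne_zero_of_ne_bot hW
    obtain ⟨i0, h0, hn⟩ := RedBase.exists_normal A hw0
    set w' : ι →₀ K := (w i0)⁻¹ • w with hw'
    have hw'A : ∀ i, w' i ∈ A := fun i => by simpa [hw'] using hn i
    have h1 : w' i0 = 1 := by simp [hw', h0]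
    have hw'W : w' ∈ W := W.smul_mem _ hwW
    set W' : Submodule K (ι →₀ K) :=
      W ⊓ LinearMap.ker (Finsupp.lapply i0 : (ι →₀ K) →ₗ[K] K) with hW'
    have hfd' : FiniteDimensional K W' := Submodule.finiteDimensional_of_le inf_le_left
    have hle : W ≤ (K ∙ w') ⊔ W' := by
      intro u hu
      rw [Submodule.mem_sup]
      refine ⟨u i0 • w', Submodule.smul_mem _ _ (Submodule.mem_span_singleton_self _),
        u - u i0 • w', ⟨W.sub_mem hu (W.smul_mem _ hw'W), ?_⟩, by abel⟩
      simp [h1]
    have hd' : d ≤ finrank K W' := by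
      have e1 : finrank K W ≤ finrank K ((K ∙ w') ⊔ W' : Submodule K (ι →₀ K)) :=
        Submodule.finrank_mono hle
      have e2 := Submodule.finrank_add_le_finrank_add_finrank (K ∙ w') W'
      have hw'0 : w' ≠ 0 := by
        intro h; rw [h] at h1; simp at h1
      have e3 : finrank K (K ∙ w') = 1 := finrank_span_singleton hw'0
      omega
    have ih := IH W' hfd' hd'
    have hlt : redSub hB (W'.map (Finsupp.linearCombination K e)) <
        redSub hB (W.map (Finsupp.linearCombination K e)) := by
      rw [SetLike.lt_iff_le_and_exists]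
      refine ⟨redSub_mono hB (Submodule.map_mono inf_le_left),
        ext0 O ρ (Finsupp.linearCombination K e w'),
        ⟨_, hB.linComb_mem he hw'A, Submodule.mem_map_of_mem hw'W, rfl⟩, ?_⟩
      rintro ⟨y, hyO, ⟨u, huW', rfl⟩, hy⟩
      have huA : ∀ i, u i ∈ A := hB.coeff_mem_of_linComb_mem he hli hyO
      rw [hB.ext0_linComb he huA, hB.ext0_linComb he hw'A] at hy
      have h2 := DFunLike.congr_fun (hli hy) i0
      have h3 : u i0 = 0 := huW'.2
      rw [Finsupp.mapRange_apply, Finsupp.mapRange_apply, h1, h3, ext0_one, ext0_zero] at h2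
      exact zero_ne_one h2
    have := Submodule.finrank_lt_finrank_of_lt hlt
    omega

/-- multiplying by a unit of `O` does not change the rank of the reduction -/
theorem finrank_redSub_mulLeft_le (hB : RedBase A O π ρ) {d : F} (hd0 : d ≠ 0) (hd : d ∈ O)
    (hd' : d⁻¹ ∈ O) (V : Submodule K F) [FiniteDimensional K V] :
    finrank k (redSub hB (V.map (LinearMap.mulLeft K d))) ≤ finrank k (redSub hB V) := by
  have hne : ext0 O ρ d⁻¹ ≠ 0 :=
    ext0_ne_zero_of_inv_mem ρ (inv_ne_zero hd0) hd' (by rwa [inv_inv])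
  rw [← finrank_map_of_injective (LinearMap.mulLeft k (ext0 O ρ d⁻¹))
    (fun a b hab => mul_left_cancel₀ hne hab)]
  apply Submodule.finrank_mono
  rintro _ ⟨_, ⟨_, hyO, ⟨y, hyV, rfl⟩, rfl⟩, rfl⟩
  have hy : y = d⁻¹ * (d * y) := by rw [← mul_assoc, inv_mul_cancel₀ hd0, one_mul]
  rw [LinearMap.mulLeft_apply] at hyO
  refine ⟨y, ?_, hyV, ?_⟩
  · rw [hy]; exact O.mul_mem _ _ hd' hyO
  · rw [LinearMap.mulLeft_apply, LinearMap.mulLeft_apply, ← ext0_mul ρ hd' hyO, ← hy]

/-- (FI), rank form. -/
theorem rank_adjoin_ext0_le (hB : RedBase A O π ρ) {x : F} (hx : x ∈ O)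
    (ht : Transcendental k (ext0 O ρ x)) [FiniteDimensional K⟮x⟯ F] :
    Module.rank k⟮ext0 O ρ x⟯ Fb ≤ finrank K⟮x⟯ F := by
  apply rank_le
  intro s hs
  have hch : ∀ z : s, ∃ y : F, y ∈ O ∧ ext0 O ρ y = (z : Fb) := fun z => hB.exists_lift _
  choose y hyO hy using hch
  have h1 : LinearIndependent k fun p : ℕ × s => ext0 O ρ (x ^ p.1 * y p.2) := by
    have := linearIndependent_pow_mul ht hs
    have hfun : (fun p : ℕ × s => ext0 O ρ (x ^ p.1 * y p.2)) =
        fun p : ℕ × s => ext0 O ρ x ^ p.1 * (p.2 : Fb) := by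
      ext p
      rw [ext0_mul ρ (pow_mem hx _) (hyO _), ext0_pow ρ hx, hy]
    rw [hfun]; exact this
  have h2 := hB.linearIndependent_of_ext0 (fun p : ℕ × s => O.mul_mem _ _ (pow_mem hx p.1) (hyO p.2)) h1
  have h3 := linearIndependent_adjoin_of_pow_mul h2
  simpa using h3.fintype_card_le_finrank

theorem finiteDimensional_adjoin_ext0 (hB : RedBase A O π ρ) {x : F} (hx : x ∈ O)
    (ht : Transcendental k (ext0 O ρ x)) [FiniteDimensional K⟮x⟯ F] :
    FiniteDimensional k⟮ext0 O ρ x⟯ Fb := by
  rw [FiniteDimensional, ← Module.rank_lt_aleph0_iff]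
  exact lt_of_le_of_lt (rank_adjoin_ext0_le hB hx ht) (Cardinal.natCast_lt_aleph0)

/-- (FI). -/
theorem finrank_adjoin_ext0_le (hB : RedBase A O π ρ) {x : F} (hx : x ∈ O)
    (ht : Transcendental k (ext0 O ρ x)) [FiniteDimensional K⟮x⟯ F] :
    finrank k⟮ext0 O ρ x⟯ Fb ≤ finrank K⟮x⟯ F := by
  have := rank_adjoin_ext0_le hB hx ht
  have _ := finiteDimensional_adjoin_ext0 hB hx ht
  rw [← finrank_eq_rank] at this
  exact_mod_cast this

/-- lifts of transcendental elements are transcendental -/
theorem transcendental_of_ext0 (hB : RedBase A O π ρ) {x : F} (hx : x ∈ O)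
    (ht : Transcendental k (ext0 O ρ x)) : Transcendental K x := by
  have h1 : LinearIndependent k fun j : ℕ => ext0 O ρ (x ^ j) := by
    simp only [ext0_pow ρ hx]
    exact linearIndependent_pow_of_transcendental ht
  have h2 := hB.linearIndependent_of_ext0 (fun j : ℕ => pow_mem hx j) h1
  rw [transcendental_iff]
  intro p hp
  rw [aeval_eq_linComb] at hp
  have := (linearIndependent_iff.1 h2) _ hp
  simpa using this

end FA18
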