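import Mathlib
import Fermat.Prelude.Def_AlgebraicCurve_Repartitions
import Fermat.Agent.FF.Place

/-!
# S18, package G4 (injectivity of reduction on prime-to-`ℓ` torsion): basic tools

* `FA18.Rd O ρ x xb` : `x ∈ O` and `ρ x = xb`;
* elementary lemmas on `Finsupp.mapDomain`;
* elementary lemmas on `Place.ord`.
-/

set_option autoImplicit false

namespace FA18.G4

open AlgebraicCurve

section Rd

variable {F Fb : Type*} [Field F] [Field Fb]

/-- `x` lies in the valuation ring `O` and reduces to `xb`. -/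
def Rd (O : ValuationSubring F) (ρ : O →+* Fb) (x : F) (xb : Fb) : Prop :=
  ∃ h : x ∈ O, ρ ⟨x, h⟩ = xb

namespace Rd

variable {O : ValuationSubring F} {ρ : O →+* Fb} {x y : F} {a b : Fb}

theorem mem (h : Rd O ρ x a) : x ∈ O := h.1

theorem unique (h : Rd O ρ x a) (h' : Rd O ρ x b) : a = b := by
  obtain ⟨h1, rfl⟩ := h
  obtain ⟨h2, rfl⟩ := h'
  rfl

theorem zero : Rd O ρ 0 0 := ⟨O.zero_mem, map_zero ρ⟩

theorem one : Rd O ρ 1 1 := ⟨O.one_mem, map_one ρ⟩

theorem add (h : Rd O ρ x a) (h' : Rd O ρ y b) : Rd O ρ (x + y) (a + b) := by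
  obtain ⟨h1, rfl⟩ := h
  obtain ⟨h2, rfl⟩ := h'
  exact ⟨O.add_mem _ _ h1 h2, map_add ρ ⟨x, h1⟩ ⟨y, h2⟩⟩

theorem mul (h : Rd O ρ x a) (h' : Rd O ρ y b) : Rd O ρ (x * y) (a * b) := by
  obtain ⟨h1, rfl⟩ := h
  obtain ⟨h2, rfl⟩ := h'
  exact ⟨O.mul_mem _ _ h1 h2, map_mul ρ ⟨x, h1⟩ ⟨y, h2⟩⟩

theorem neg (h : Rd O ρ x a) : Rd O ρ (-x) (-a) := by
  obtain ⟨h1, rfl⟩ := h
  exact ⟨O.neg_mem _ h1, map_neg ρ ⟨x, h1⟩⟩

theorem sub (h : Rd O ρ x a) (h' : Rd O ρ y b) : Rd O ρ (x - y) (a - b) := by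
  rw [sub_eq_add_neg, sub_eq_add_neg]
  exact h.add h'.neg

theorem pow (h : Rd O ρ x a) (n : ℕ) : Rd O ρ (x ^ n) (a ^ n) := by
  induction n with
  | zero => simpa using one
  | succ n ih => rw [pow_succ, pow_succ]; exact ih.mul h

theorem sum {ι : Type*} (s : Finset ι) (u : ι → F) (ub : ι → Fb)
    (h : ∀ i ∈ s, Rd O ρ (u i) (ub i)) : Rd O ρ (∑ i ∈ s, u i) (∑ i ∈ s, ub i) := by
  classical
  induction s using Finset.induction_on with
  | empty => simpa using zero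
  | insert i s hi ih =>
    rw [Finset.sum_insert hi, Finset.sum_insert hi]
    exact (h i (Finset.mem_insert_self i s)).add
      (ih fun j hj => h j (Finset.mem_insert_of_mem hj))

theorem congr (h : Rd O ρ x a) (hx : x = y) (ha : a = b) : Rd O ρ y b := by
  subst hx; subst ha; exact h

theorem ker_eq (hρ : Function.Surjective ρ) : RingHom.ker ρ = IsLocalRing.maximalIdeal O :=
  IsLocalRing.eq_maximalIdeal (RingHom.ker_isMaximal_of_surjective ρ hρ)

theorem ne_zero (h : Rd O ρ x a) (ha : a ≠ 0) : x ≠ 0 := by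
  rintro rfl
  exact ha (h.unique zero)

theorem inv (hρ : Function.Surjective ρ) (h : Rd O ρ x a) (ha : a ≠ 0) :
    Rd O ρ x⁻¹ a⁻¹ := by
  obtain ⟨h1, rfl⟩ := h
  have hu : IsUnit (⟨x, h1⟩ : O) := by
    by_contra hnu
    have : (⟨x, h1⟩ : O) ∈ IsLocalRing.maximalIdeal O := (IsLocalRing.mem_maximalIdeal _).2 hnu
    rw [← ker_eq hρ] at this
    exact ha this
  obtain ⟨u, hu⟩ := hu
  have hx : ((u⁻¹ : Oˣ) : O).1 = x⁻¹ := by
    have h2 : ((u : O) * ((u⁻¹ : Oˣ) : O)).1 = 1 := by rw [Units.mul_inv]; rfl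
    rw [hu] at h2
    exact eq_inv_of_mul_eq_one_right h2
  refine ⟨hx ▸ ((u⁻¹ : Oˣ) : O).2, ?_⟩
  have h3 : (⟨x⁻¹, hx ▸ ((u⁻¹ : Oˣ) : O).2⟩ : O) = ((u⁻¹ : Oˣ) : O) := Subtype.ext hx.symm
  rw [h3, ← hu]
  have h4 : ρ (u : O) * ρ ((u⁻¹ : Oˣ) : O) = 1 := by rw [← map_mul, Units.mul_inv, map_one]
  exact eq_inv_of_mul_eq_one_right h4

theorem of_notMem (hρ : Function.Surjective ρ) (hx : x ∉ O) : Rd O ρ x⁻¹ 0 := by
  have h1 : x⁻¹ ∈ O := (O.mem_or_inv_mem x).resolve_left hx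
  refine ⟨h1, ?_⟩
  by_contra hne
  have := (inv hρ ⟨h1, rfl⟩ hne).mem
  rw [inv_inv] at this
  exact hx this

end Rd

end Rd

/-! ### `mapDomain` -/

section MapDomain

variable {α β : Type*}

theorem mapDomain_apply_eq_sum [DecidableEq β] (r : α → β) (D : α →₀ ℤ) (Q : β) :
    Finsupp.mapDomain r D Q = ∑ P ∈ D.support, if r P = Q then D P else 0 := by
  rw [Finsupp.mapDomain, Finsupp.sum_apply, Finsupp.sum]
  refine Finset.sum_congr rfl fun P _ => ?_
  rw [Finsupp.single_apply]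

theorem le_mapDomain_apply (r : α → β) (D : α →₀ ℤ) (Q : β) (h : ∀ P, r P = Q → 0 ≤ D P)
    (P0 : α) (h0 : r P0 = Q) : D P0 ≤ Finsupp.mapDomain r D Q := by
  classical
  rw [mapDomain_apply_eq_sum]
  have hnn : ∀ P ∈ D.support, 0 ≤ if r P = Q then D P else 0 := by
    intro P _
    split_ifs with hP
    · exact h P hP
    · exact le_rfl
  by_cases hP0 : P0 ∈ D.support
  · have := Finset.single_le_sum hnn hP0
    rwa [if_pos h0] at this
  · rw [Finsupp.notMem_support_iff.1 hP0]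
    exact Finset.sum_nonneg hnn

theorem mapDomain_apply_nonneg (r : α → β) (D : α →₀ ℤ) (Q : β) (h : ∀ P, r P = Q → 0 ≤ D P) :
    0 ≤ Finsupp.mapDomain r D Q := by
  classical
  rw [mapDomain_apply_eq_sum]
  refine Finset.sum_nonneg fun P _ => ?_
  split_ifs with hP
  · exact h P hP
  · exact le_rfl

theorem eq_zero_of_mapDomain_apply_eq_zero (r : α → β) (D : α →₀ ℤ) (Q : β)
    (h : ∀ P, r P = Q → 0 ≤ D P) (h0 : Finsupp.mapDomain r D Q = 0) (P0 : α) (hP0 : r P0 = Q) :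
    D P0 = 0 :=
  le_antisymm (h0 ▸ le_mapDomain_apply r D Q h P0 hP0) (h P0 hP0)

theorem mapDomain_apply_eq_zero (r : α → β) (D : α →₀ ℤ) (Q : β) (h : ∀ P, r P = Q → D P = 0) :
    Finsupp.mapDomain r D Q = 0 := by
  classical
  rw [mapDomain_apply_eq_sum]
  refine Finset.sum_eq_zero fun P _ => ?_
  split_ifs with hP
  · exact h P hP
  · rfl

/-- comparison of push-forwards at one point. -/
theorem mapDomain_apply_le (r : α → β) (D' D : α →₀ ℤ) (Q : β) (h : ∀ P, r P = Q → D' P ≤ D P) :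
    Finsupp.mapDomain r D' Q ≤ Finsupp.mapDomain r D Q := by
  have h1 := mapDomain_apply_nonneg r (D - D') Q (fun P hP => by
    rw [Finsupp.sub_apply]; exact sub_nonneg.2 (h P hP))
  rw [Finsupp.mapDomain_sub, Finsupp.sub_apply] at h1
  exact sub_nonneg.1 h1

theorem eq_of_mapDomain_apply_eq (r : α → β) (D' D : α →₀ ℤ) (Q : β)
    (h : ∀ P, r P = Q → D' P ≤ D P) (he : Finsupp.mapDomain r D' Q = Finsupp.mapDomain r D Q)
    (P0 : α) (hP0 : r P0 = Q) : D P0 = D' P0 := by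
  have h1 := eq_zero_of_mapDomain_apply_eq_zero r (D - D') Q (fun P hP => by
    rw [Finsupp.sub_apply]; exact sub_nonneg.2 (h P hP))
    (by rw [Finsupp.mapDomain_sub, Finsupp.sub_apply, he, sub_self]) P0 hP0
  rw [Finsupp.sub_apply] at h1
  exact sub_eq_zero.1 h1

/-- an effective divisor whose push-forward has coefficient one at `Q` is a single point on the
fibre of `Q`. -/
theorem exists_single_of_mapDomain_apply_eq_one (r : α → β) (E : α →₀ ℤ) (Q : β)
    (h : ∀ P, r P = Q → 0 ≤ E P) (h1 : Finsupp.mapDomain r E Q = 1) :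
    ∃ P0, r P0 = Q ∧ ∀ P, r P = Q → E P = Finsupp.single P0 (1 : ℤ) P := by
  classical
  obtain ⟨P0, hP0, hE0⟩ : ∃ P0, r P0 = Q ∧ E P0 ≠ 0 := by
    by_contra hcon
    push Not at hcon
    rw [mapDomain_apply_eq_zero r E Q hcon] at h1
    exact zero_ne_one h1
  refine ⟨P0, hP0, fun P hP => ?_⟩
  refine eq_of_mapDomain_apply_eq r (Finsupp.single P0 1) E Q (fun P' hP' => ?_) ?_ P hP
  · rw [Finsupp.single_apply]
    split_ifs with hPP
    · subst hPP
      have := h P0 hP0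
      omega
    · exact h P' hP'
  · rw [Finsupp.mapDomain_single, hP0, Finsupp.single_eq_same, h1]

end MapDomain

/-! ### `ord` -/

section Ord

variable {K F : Type*} [Field K] [Field F] [Algebra K F]

theorem ord_const_mul (v : Place K F) {c : K} (hc : c ≠ 0) (x : F) :
    v.ord (algebraMap K F c * x) = v.ord x := by
  rcases eq_or_ne x 0 with rfl | hx
  · simp
  · rw [v.ord_mul (by simpa using hc) hx, FAFF.ord_algebraMap, zero_add]

theorem ord_pow (v : Place K F) (x : F) (n : ℕ) : v.ord (x ^ n) = n * v.ord x := by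
  have := v.ord_zpow x n
  rwa [zpow_natCast] at this

/-- for `n ≤ 0`, `{x | n ≤ ord x}` is closed under addition. -/
theorem le_ord_add (v : Place K F) {n : ℤ} (hn : n ≤ 0) {x y : F} (hx : n ≤ v.ord x)
    (hy : n ≤ v.ord y) : n ≤ v.ord (x + y) := by
  rcases eq_or_ne x 0 with rfl | hx0
  · simpa using hy
  rcases eq_or_ne y 0 with rfl | hy0
  · simpa using hx
  rcases eq_or_ne (x + y) 0 with h0 | h0
  · rw [h0]; simpa using hn
  · exact (le_min hx hy).trans (FAFF.min_ord_le_ord_add v hx0 hy0 h0)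

theorem le_ord_const_mul (v : Place K F) {n : ℤ} (hn : n ≤ 0) (c : K) {x : F}
    (hx : n ≤ v.ord x) : n ≤ v.ord (algebraMap K F c * x) := by
  rcases eq_or_ne c 0 with rfl | hc
  · simpa using hn
  · rwa [ord_const_mul v hc]

theorem le_ord_sub_const (v : Place K F) {n : ℤ} (hn : n ≤ 0) (c : K) {x : F}
    (hx : n ≤ v.ord x) : n ≤ v.ord (x - algebraMap K F c) := by
  rw [sub_eq_add_neg]
  refine le_ord_add v hn hx ?_
  rw [FAFF.ord_neg, FAFF.ord_algebraMap]
  exact hn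

end Ord

end FA18.G4
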