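import Fermat.Agent.Red.G4Core

/-!
# S18, package G4: the local analysis on a residue disc
-/

set_option autoImplicit false

namespace FA18.G4

open AlgebraicCurve

variable {K F k Fb : Type*} [Field K] [Field F] [Algebra K F] [Field k] [Field Fb] [Algebra k Fb]
variable {A : ValuationSubring K} {π : A →+* k} {O : ValuationSubring F} {ρ : O →+* Fb}
variable {r : Place K F → Place k Fb}

/-- residue fields of the places of `F` are `K`. -/
def HasValues (K F : Type*) [Field K] [Field F] [Algebra K F] : Prop :=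
  ∀ (P : Place K F) (y : F), 0 ≤ P.ord y →
    ∃ c : K, y = algebraMap K F c ∨ 0 < P.ord (y - algebraMap K F c)

/-- hypothesis (S): at every place `P` of `F` there is an integral function with at most a simple
pole at `P`, no other pole on the residue disc of `P`, whose reduction has a pole at `r P`. -/
def HasInvParam (O : ValuationSubring F) (ρ : O →+* Fb) (r : Place K F → Place k Fb) : Prop :=
  ∀ P : Place K F, ∃ (S : F) (Sb : Fb), Rd O ρ S Sb ∧ -1 ≤ P.ord S ∧
    (∀ P', r P' = r P → P' ≠ P → 0 ≤ P'.ord S) ∧ (r P).ord Sb < 0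

theorem ord_sub_const_of_neg (v : Place K F) {x : F} (c : K) (h : v.ord x < 0) :
    v.ord (x - algebraMap K F c) = v.ord x := by
  rcases eq_or_ne c 0 with rfl | hc
  · simp
  have hx : x ≠ 0 := by rintro rfl; simp at h
  rw [sub_eq_add_neg]
  refine FAFF.ord_add_eq_of_lt v hx (neg_ne_zero.2 (by simpa using hc)) ?_
  rw [FAFF.ord_neg, FAFF.ord_algebraMap]
  exact h

theorem add_ne_zero_of_ord (v : Place K F) {x y : F} (hx : v.ord x < 0) (hy : 0 ≤ v.ord y) :
    x + y ≠ 0 := by
  intro h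
  have : y = -x := by linear_combination h
  rw [this, FAFF.ord_neg] at hy
  omega

theorem mapDomain_single_sub_single (P0 Q : Place K F) (hQ : r Q = r P0) :
    Finsupp.mapDomain r (Finsupp.single Q (1 : ℤ) - Finsupp.single P0 1) (r P0) = 0 := by
  rw [Finsupp.mapDomain_sub, Finsupp.mapDomain_single, Finsupp.mapDomain_single, hQ, sub_self,
    Finsupp.zero_apply]

/-- **Lemma T.** Two distinct points of a residue disc are the zero and the pole on that disc of
a function `1 + a S`, `a ∈ 𝔪`, where the reduction of `S` has a simple pole. -/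
theorem exists_T [HasPrincipalDivisors K F] (hB : GBase A π O ρ) (hR : IsR1 O ρ r)
    (hres : HasValues K F) (hS : HasInvParam O ρ r) (P0 Q : Place K F) (hQ : r Q = r P0)
    (hne : Q ≠ P0) :
    ∃ (a : K) (S : F) (Sb : Fb), a ≠ 0 ∧ Rd O ρ (algebraMap K F a) 0 ∧ Rd O ρ S Sb ∧
      (r P0).ord Sb = -1 ∧
      ∀ P, r P = r P0 → P.ord (1 + algebraMap K F a * S)
        = (Finsupp.single Q (1 : ℤ) - Finsupp.single P0 1 : Divisor K F) P := by
  classical
  obtain ⟨S, Sb, hS1, hS2, hS3, hS4⟩ := hS P0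
  have hSb0 : Sb ≠ 0 := by rintro rfl; simp at hS4
  have hSm1 : -1 ≤ (r P0).ord Sb := by
    have := hR.le_ord hS1 hSb0 (Finsupp.single P0 (-1)) (r P0) (fun P hP => by
      rw [Finsupp.single_apply]
      split_ifs with hPP
      · subst hPP; exact hS2
      · exact hS3 P hP (Ne.symm hPP))
    rwa [Finsupp.mapDomain_single, Finsupp.single_eq_same] at this
  obtain ⟨c, hc | hc⟩ := hres Q S (hS3 Q hQ hne)
  · exfalso
    have hcA : c ∈ A := hB.inter c (hc ▸ hS1.mem)
    have := (hc ▸ hS1).unique (hB.const' hcA)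
    rw [this, FAFF.ord_algebraMap] at hS4
    omega
  have hbd : ∀ P, r P = r P0 →
      (Finsupp.single Q (1 : ℤ) - Finsupp.single P0 1 : Divisor K F) P ≤ P.ord (S - algebraMap K F c) := by
    intro P hP
    rw [Finsupp.sub_apply, Finsupp.single_apply, Finsupp.single_apply]
    by_cases h1 : Q = P
    · subst h1
      rw [if_pos rfl, if_neg (Ne.symm hne)]
      omega
    · rw [if_neg h1]
      by_cases h2 : P0 = P
      · subst h2
        rw [if_pos rfl]
        exact le_ord_sub_const P0 (by norm_num) c hS2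
      · rw [if_neg h2]
        exact le_ord_sub_const P le_rfl c (hS3 P hP (Ne.symm h2))
  have hcA : c ∉ A := by
    intro hcA
    have h1 := hS1.sub (hB.const' hcA)
    have h2 : (r P0).ord (Sb - algebraMap k Fb (π ⟨c, hcA⟩)) = (r P0).ord Sb :=
      ord_sub_const_of_neg _ _ hS4
    have h3 : Sb - algebraMap k Fb (π ⟨c, hcA⟩) ≠ 0 := by
      intro h0
      rw [h0] at h2
      simp at h2
      omega
    have h4 := hR.le_ord h1 h3 _ (r P0) hbd
    rw [mapDomain_single_sub_single P0 Q hQ] at h4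
    omega
  have hc0 : c ≠ 0 := fun h => hcA (h ▸ A.zero_mem)
  have hcF : algebraMap K F c ≠ 0 := by simpa using hc0
  have ha : Rd O ρ (algebraMap K F (-c⁻¹)) 0 := by
    refine (hB.const_inv_of_notMem hcA).neg.congr ?_ (by simp)
    rw [map_neg]
  have hT : 1 + algebraMap K F (-c⁻¹) * S = algebraMap K F (-c⁻¹) * (S - algebraMap K F c) := by
    rw [map_neg, map_inv₀]
    field_simp
    ring
  have hTR : Rd O ρ (1 + algebraMap K F (-c⁻¹) * S) 1 :=
    (Rd.one.add (ha.mul hS1)).congr rfl (by simp)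
  refine ⟨-c⁻¹, S, Sb, neg_ne_zero.2 (inv_ne_zero hc0), ha, hS1, by omega, fun P hP => ?_⟩
  refine hR.ord_eq hTR one_ne_zero _ (r P0) (fun P' hP' => ?_) ?_ P hP
  · rw [hT, ord_const_mul P' (neg_ne_zero.2 (inv_ne_zero hc0))]
    exact hbd P' hP'
  · rw [mapDomain_single_sub_single P0 Q hQ, Place.ord_one]

/-- **The CLAIM.** -/
theorem claim [HasPrincipalDivisors K F] (hB : GBase A π O ρ) (hR : IsR1 O ρ r)
    (hres : HasValues K F) (hS : HasInvParam O ρ r) (m : ℕ) (hm : (m : k) ≠ 0)
    {f' : F} (hf' : Rd O ρ f' 1) {ct : K}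
    {c0 : K} (hc0 : c0 ≠ 0) {φb : Fb}
    (hφ : Rd O ρ (algebraMap K F c0 * (f' - algebraMap K F ct)) φb)
    (P0 Q : Place K F) (hQ : r Q = r P0)
    (hord : ∀ P, r P = r P0 →
      P.ord f' = m * (Finsupp.single Q (1 : ℤ) - Finsupp.single P0 1 : Divisor K F) P) :
    -1 ≤ (r P0).ord φb := by
  classical
  by_cases hne : Q = P0
  · subst hne
    have : 0 ≤ (r Q).ord φb := by
      refine hR.ord_nonneg hφ (r Q) fun P hP => ?_
      rw [ord_const_mul P hc0]
      refine le_ord_sub_const P le_rfl ct ?_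
      rw [hord P hP]
      simp
    omega
  obtain ⟨a, S, Sb, ha0, ha, hS1, hS2, hT⟩ := exists_T hB hR hres hS P0 Q hQ hne
  set T : F := 1 + algebraMap K F a * S with hTdef
  have hTR : Rd O ρ T 1 := (Rd.one.add (ha.mul hS1)).congr rfl (by simp)
  have hT0 : T ≠ 0 := hTR.ne_zero one_ne_zero
  have hf0 : f' ≠ 0 := hf'.ne_zero one_ne_zero
  set Fi : F := f' * (T ^ m)⁻¹ with hFidef
  have hFi : Rd O ρ Fi 1 :=
    (hf'.mul ((hTR.pow m).inv hB.surj (by simp))).congr rfl (by simp)
  have hFiord : ∀ P, r P = r P0 → P.ord Fi = 0 := by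
    intro P hP
    rw [hFidef, P.ord_mul hf0 (inv_ne_zero (pow_ne_zero m hT0)), P.ord_inv, ord_pow, hT P hP,
      hord P hP]
    ring
  set H0 : F := S * ∑ j ∈ Finset.range m, T ^ j with hH0def
  have hH0 : Rd O ρ H0 (algebraMap k Fb (m : k) * Sb) := by
    refine (hS1.mul (Rd.sum (Finset.range m) (fun j => T ^ j) (fun j => (1 : Fb) ^ j)
      (fun j _ => hTR.pow j))).congr rfl ?_
    simp [mul_comm]
  have hgeom : T ^ m - 1 = algebraMap K F a * H0 := by
    rw [← mul_geom_sum T m, hH0def, hTdef]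
    ring
  have hH : Rd O ρ (Fi * H0) (algebraMap k Fb (m : k) * Sb) :=
    (hFi.mul hH0).congr rfl (by simp)
  have hHord : (r P0).ord (algebraMap k Fb (m : k) * Sb) = -1 := by
    rw [ord_const_mul _ hm, hS2]
  have hdecomp : f' - algebraMap K F ct
      = algebraMap K F a * (Fi * H0) + (Fi - algebraMap K F ct) := by
    have h1 : f' = Fi * T ^ m := by
      rw [hFidef, mul_assoc, inv_mul_cancel₀ (pow_ne_zero m hT0), mul_one]
    have h2 : algebraMap K F a * (Fi * H0) = Fi * (T ^ m - 1) := by rw [hgeom]; ring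
    rw [h2]
    conv_lhs => rw [h1]
    ring
  obtain ⟨G1, Gb, β, hG1, hGb0, hGbord, hG⟩ : ∃ (G1 : F) (Gb : Fb) (β : K), Rd O ρ G1 Gb ∧
      Gb ≠ 0 ∧ 0 ≤ (r P0).ord Gb ∧ Fi - algebraMap K F ct = algebraMap K F β * G1 := by
    by_cases hG0 : Fi - algebraMap K F ct = 0
    · exact ⟨1, 1, 0, Rd.one, one_ne_zero, by simp, by simp [hG0]⟩
    · obtain ⟨c, hc, Gb, hGb0, hG1⟩ := hB.scale _ hG0
      refine ⟨_, Gb, c⁻¹, hG1, hGb0, ?_, ?_⟩
      · refine hR.ord_nonneg hG1 (r P0) fun P hP => ?_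
        rw [ord_const_mul P hc]
        exact le_ord_sub_const P le_rfl ct (hFiord P hP).ge
      · have : algebraMap K F c ≠ 0 := by simpa using hc
        rw [map_inv₀]
        field_simp
  have hφ' : Rd O ρ (algebraMap K F (c0 * a) * (Fi * H0) + algebraMap K F (c0 * β) * G1) φb := by
    refine hφ.congr ?_ rfl
    rw [hdecomp, hG, map_mul, map_mul]
    ring
  obtain ⟨hα, hβ, hφb⟩ := hB.mem_of_indep hH hG1
    (fun d => add_ne_zero_of_ord (r P0) (by rw [hHord]; norm_num)
      (le_ord_const_mul _ le_rfl d hGbord))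
    (fun d => by
      rcases eq_or_ne d 0 with rfl | hd
      · simpa using hGb0
      · rw [add_comm]
        refine add_ne_zero_of_ord (r P0) ?_ hGbord
        rw [ord_const_mul _ hd, hHord]
        norm_num) hφ'
  rw [hφb]
  refine le_ord_add _ (by norm_num) (le_ord_const_mul _ (by norm_num) _ hHord.ge)
    (le_ord_const_mul _ (by norm_num) _ (by omega))

end FA18.G4
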