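import Fermat.Agent.Red.G4Claim

/-!
# S18, package G4: injectivity of reduction on prime-to-`ℓ` torsion (abstract form)
-/

set_option autoImplicit false

namespace FA18.G4

open AlgebraicCurve

variable {K F k Fb : Type*} [Field K] [Field F] [Algebra K F] [Field k] [Field Fb] [Algebra k Fb]
variable {A : ValuationSubring K} {π : A →+* k} {O : ValuationSubring F} {ρ : O →+* Fb}
variable {r : Place K F → Place k Fb}

/-- the reduced sum of the points of a finite set. -/
noncomputable def sumPts {α : Type*} (s : Finset α) : α →₀ ℤ := ∑ Q ∈ s, Finsupp.single Q (1 : ℤ)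

theorem sumPts_apply {α : Type*} [DecidableEq α] (s : Finset α) (Q : α) :
    sumPts s Q = if Q ∈ s then 1 else 0 := by
  rw [sumPts, Finsupp.finsetSum_apply]
  simp only [Finsupp.single_apply]
  rw [Finset.sum_ite_eq' s Q]

theorem mapDomain_sumPts_apply {α β : Type*} [DecidableEq α] [DecidableEq β] (s : Finset β)
    (σ : β → α) (r : α → β) (hσ : ∀ Q, r (σ Q) = Q) (P : α) :
    Finsupp.mapDomain σ (sumPts s) P = if r P ∈ s then Finsupp.single (σ (r P)) (1 : ℤ) P else 0 := by
  rw [sumPts, Finsupp.mapDomain_finsetSum, Finsupp.finsetSum_apply]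
  have : ∀ Q ∈ s, Finsupp.mapDomain σ (Finsupp.single Q (1 : ℤ)) P
      = if Q = r P then Finsupp.single (σ (r P)) (1 : ℤ) P else 0 := by
    intro Q _
    rw [Finsupp.mapDomain_single]
    split_ifs with h
    · rw [h]
    · rw [Finsupp.single_apply, if_neg]
      intro h'
      exact h (by rw [← h', hσ])
  rw [Finset.sum_congr rfl this, Finset.sum_ite_eq' s (r P)]

theorem mapDomain_mapDomain_section {α β : Type*} (σ : β → α) (r : α → β) (hσ : ∀ Q, r (σ Q) = Q)
    (B : β →₀ ℤ) : Finsupp.mapDomain r (Finsupp.mapDomain σ B) = B := by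
  rw [← Finsupp.mapDomain_comp]
  have : r ∘ σ = id := funext hσ
  rw [this, Finsupp.mapDomain_id]

/-- **Main lemma.** -/
theorem const_of_div [HasPrincipalDivisors K F] (hB : GBase A π O ρ) (hR : IsR1 O ρ r)
    (hres : HasValues K F) (hS : HasInvParam O ρ r)
    (σ : Place k Fb → Place K F) (hσ : ∀ Q, r (σ Q) = Q) (s : Finset (Place k Fb))
    (hI3 : ∀ y ∈ riemannRochSpace (sumPts s), ∃ c : k, y = algebraMap k Fb c)
    (hout : ∃ Q : Place k Fb, Q ∉ s) (m : ℕ) (hm : (m : k) ≠ 0)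
    {f' : F} (hf' : Rd O ρ f' 1) (E : Divisor K F) (hE : ∀ P, 0 ≤ E P)
    (hrE : Finsupp.mapDomain r E = sumPts s)
    (hord : ∀ P : Place K F, P.ord f' = m * (E P - Finsupp.mapDomain σ (sumPts s) P)) :
    ∃ c : K, f' = algebraMap K F c := by
  classical
  by_contra hcon
  push Not at hcon
  -- the divisor of `f'` on the discs outside `s`
  have hout_ord : ∀ P, r P ∉ s → P.ord f' = 0 := by
    intro P hP
    have h1 : E P = 0 := by
      refine eq_zero_of_mapDomain_apply_eq_zero r E (r P) (fun P' _ => hE P') ?_ P rfl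
      rw [hrE, sumPts_apply, if_neg hP]
    rw [hord, h1, mapDomain_sumPts_apply s σ r hσ, if_neg hP]
    simp
  obtain ⟨Rb, hRb⟩ := hout
  have hrR : r (σ Rb) = Rb := hσ Rb
  obtain ⟨ct, hct | hct⟩ := hres (σ Rb) f' (hout_ord _ (by rwa [hrR])).ge
  · exact hcon ct hct
  have hw0 : f' - algebraMap K F ct ≠ 0 := sub_ne_zero.2 (hcon ct)
  obtain ⟨c0, hc0, φb, hφb0, hφ⟩ := hB.scale _ hw0
  -- `φb` vanishes at `Rb`
  have h1 : 0 < Rb.ord φb := by
    have := hR.ord_le_ord hφ hφb0 (σ Rb) (fun P' hP' => by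
      rw [ord_const_mul P' hc0]
      refine le_ord_sub_const P' le_rfl ct (hout_ord P' ?_).ge
      rw [hP', hrR]; exact hRb)
    rw [ord_const_mul _ hc0, hrR] at this
    omega
  -- `φb ∈ L(sumPts s)`
  have h2 : φb ∈ riemannRochSpace (sumPts s) := by
    rw [mem_riemannRochSpace_iff]
    intro Pb
    right
    rw [sumPts_apply]
    split_ifs with hPb
    · obtain ⟨Q, hQ, hEQ⟩ := exists_single_of_mapDomain_apply_eq_one r E Pb (fun P _ => hE P)
        (by rw [hrE, sumPts_apply, if_pos hPb])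
      have := claim hB hR hres hS m hm hf' (ct := ct) hc0 hφ (σ Pb) Q (by rw [hQ, hσ])
        (fun P hP => by
          rw [hσ] at hP
          rw [hord, hEQ P hP, mapDomain_sumPts_apply s σ r hσ, hP, if_pos hPb, Finsupp.sub_apply])
      rwa [hσ] at this
    · have := hR.ord_nonneg hφ Pb (fun P' hP' => by
        rw [ord_const_mul P' hc0]
        refine le_ord_sub_const P' le_rfl ct (hout_ord P' ?_).ge
        rw [hP']; exact hPb)
      simpa using this
  obtain ⟨c, hc⟩ := hI3 φb h2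
  rw [hc, FAFF.ord_algebraMap] at h1
  exact lt_irrefl _ h1

/-- **Theorem G4** (abstract injectivity): a unit `f` of `O` with reduction `1` whose divisor is
divisible by `m`, `m` invertible in `k`, is an `m`-th power. -/
theorem G4_core [IsAlgClosed K] [hdiv : HasPrincipalDivisors K F] (hB : GBase A π O ρ)
    (hR : IsR1 O ρ r) (hr : Function.Surjective r)
    (hres : HasValues K F) (hS : HasInvParam O ρ r)
    (hdeg : ∀ P : Place K F, P.deg = 1)
    (s : Finset (Place k Fb))
    (hI2 : ∀ B : Divisor K F, (s.card : ℤ) ≤ Divisor.degree B → ∃ x ∈ riemannRochSpace B, x ≠ 0)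
    (hI3 : ∀ y ∈ riemannRochSpace (sumPts s), ∃ c : k, y = algebraMap k Fb c)
    (hout : ∃ Q : Place k Fb, Q ∉ s) (m : ℕ) (hm : (m : k) ≠ 0)
    {f : F} (hf : Rd O ρ f 1) (hmf : ∀ P : Place K F, (m : ℤ) ∣ P.ord f) :
    ∃ t : F, t ^ m = f := by
  classical
  have hm0 : m ≠ 0 := by rintro rfl; simp at hm
  have hmZ : (m : ℤ) ≠ 0 := by exact_mod_cast hm0
  have hf0 : f ≠ 0 := hf.ne_zero one_ne_zero
  set σ : Place k Fb → Place K F := Function.surjInv hr with hσdef
  have hσ : ∀ Q, r (σ Q) = Q := Function.surjInv_eq hr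
  obtain ⟨D, hD, hDdeg⟩ := hdiv.exists_divisor f hf0
  -- `D'' = D / m`
  set D2 : Divisor K F := D.mapRange (fun n => n / (m : ℤ)) (by simp) with hD2def
  have hD2 : ∀ P, (m : ℤ) * D2 P = P.ord f := by
    intro P
    rw [hD2def, Finsupp.mapRange_apply, hD]
    exact Int.mul_ediv_cancel' (hmf P)
  have hD2D : (m : ℤ) • D2 = D := by
    ext P
    rw [Finsupp.smul_apply, smul_eq_mul, hD2, hD]
  have hD2deg : Divisor.degree D2 = 0 := by
    have : (m : ℤ) • Divisor.degree D2 = 0 := by rw [← map_zsmul, hD2D, hDdeg]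
    rw [smul_eq_mul] at this
    exact (mul_eq_zero.1 this).resolve_left hmZ
  have hrD2 : Finsupp.mapDomain r D2 = 0 := by
    have h1 : (m : ℤ) • Finsupp.mapDomain r D2 = 0 := by
      rw [← Finsupp.mapDomain_smul, hD2D]
      ext Q
      rw [hR f 1 hf one_ne_zero D hD Q]
      simp
    exact (smul_eq_zero.1 h1).resolve_left hmZ
  set A0 : Divisor K F := Finsupp.mapDomain σ (sumPts s) with hA0def
  have hA0deg : Divisor.degree A0 = s.card := by
    rw [hA0def, sumPts, Finsupp.mapDomain_finsetSum, map_sum]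
    simp [Finsupp.mapDomain_single, hdeg]
  have hrA0 : Finsupp.mapDomain r A0 = sumPts s := mapDomain_mapDomain_section σ r hσ _
  obtain ⟨x, hxL, hx0⟩ := hI2 (D2 + A0) (by rw [map_add, hD2deg, hA0deg, zero_add])
  rw [mem_riemannRochSpace_iff] at hxL
  obtain ⟨c, hc, xb, hxb0, hx1⟩ := hB.scale x hx0
  have hx1ne : algebraMap K F c * x ≠ 0 := hx1.ne_zero hxb0
  obtain ⟨Dx, hDx, -⟩ := hdiv.exists_divisor _ hx1ne
  have hDx' : ∀ P, Dx P = P.ord x := fun P => by rw [hDx, ord_const_mul P hc]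
  set E : Divisor K F := D2 + A0 + Dx with hEdef
  have hE : ∀ P, 0 ≤ E P := by
    intro P
    have := (hxL P).resolve_left hx0
    rw [hEdef, Finsupp.add_apply, hDx']
    omega
  have hrE : ∀ Q, Finsupp.mapDomain r E Q = sumPts s Q + Q.ord xb := by
    intro Q
    rw [hEdef, Finsupp.mapDomain_add, Finsupp.mapDomain_add, hrD2, hrA0, zero_add,
      Finsupp.add_apply, hR _ xb hx1 hxb0 Dx hDx Q]
  have hxbL : xb ∈ riemannRochSpace (sumPts s) := by
    rw [mem_riemannRochSpace_iff]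
    intro Q
    right
    have h1 := mapDomain_apply_nonneg r E Q (fun P _ => hE P)
    rw [hrE] at h1
    omega
  obtain ⟨cb, hcb⟩ := hI3 xb hxbL
  have hcb0 : cb ≠ 0 := by rintro rfl; exact hxb0 (by simpa using hcb)
  have hrE' : Finsupp.mapDomain r E = sumPts s := by
    ext Q
    rw [hrE, hcb, FAFF.ord_algebraMap, add_zero]
  obtain ⟨a, ha⟩ := hB.surjπ cb⁻¹
  have ha0 : (a : K) ≠ 0 := by
    intro h
    have : a = 0 := Subtype.ext h
    rw [this, map_zero] at ha
    exact inv_ne_zero hcb0 ha.symm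
  set x2 : F := algebraMap K F a * (algebraMap K F c * x) with hx2def
  have hx2 : Rd O ρ x2 1 := by
    refine ((hB.const a).mul hx1).congr rfl ?_
    rw [ha, hcb, ← map_mul, inv_mul_cancel₀ hcb0, map_one]
  have hx20 : x2 ≠ 0 := hx2.ne_zero one_ne_zero
  have hx2ord : ∀ P : Place K F, P.ord x2 = Dx P := by
    intro P
    rw [hx2def, ord_const_mul P ha0, hDx]
  have hf' : Rd O ρ (f * x2 ^ m) 1 := (hf.mul (hx2.pow m)).congr rfl (by simp)
  obtain ⟨c1, hc1⟩ := const_of_div hB hR hres hS σ hσ s hI3 hout m hm hf' E hE hrE' (fun P => by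
    rw [P.ord_mul hf0 (pow_ne_zero m hx20), ord_pow, hx2ord, ← hD2, hEdef, Finsupp.add_apply,
      Finsupp.add_apply]
    ring)
  obtain ⟨s1, hs1⟩ := IsAlgClosed.exists_pow_nat_eq c1 (Nat.pos_of_ne_zero hm0)
  refine ⟨algebraMap K F s1 * x2⁻¹, ?_⟩
  rw [mul_pow, ← map_pow, hs1, ← hc1, inv_pow, mul_assoc, mul_inv_cancel₀ (pow_ne_zero m hx20),
    mul_one]

end FA18.G4
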