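import Fermat.Agent.Red.G4Glue
import Fermat.Agent.Red.Defs

/-!
# S18: Theorem G in terms of `RedData`, relative to the outputs of G1 (`RFacts`) and G2
-/

set_option autoImplicit false

namespace FA18.G4

open AlgebraicCurve IntermediateField

variable {K k : Type*} [Field K] [Field k] {A : ValuationSubring K} {π : A →+* k}
  {F Fb : Type*} [Field F] [Algebra K F] [Field Fb] [Algebra k Fb]

theorem gBase_of_redData (R : RedData A π F Fb) : GBase A π R.O R.ρ where
  surj := R.ρ_surj
  surjπ := R.π_surj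
  const a := ⟨R.algebraMap_mem a, R.ρ_algebraMap a _⟩
  inter c hc := (R.algebraMap_mem_iff c).1 hc
  scale x hx := by
    obtain ⟨c, hc, h, hne⟩ := R.scale x hx
    exact ⟨c, hc, _, hne, h, rfl⟩

theorem sumDiv_eq_sumPts (S : Finset (Place k Fb)) : sumDiv S = sumPts S := rfl

/-- Theorem G, relative to G1 (`HF`, `Hb`) and G2 (`red`, `FI`). -/
theorem thmG_of [IsAlgClosed K] [IsAlgClosed k] (R : RedData A π F Fb)
    {gF cF gb cb : ℤ} (HF : RFacts K F gF cF) (Hb : RFacts k Fb gb cb)
    (red : ∀ V : Submodule K F, FiniteDimensional K V →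
      Module.finrank k (R.redSub V) = Module.finrank K V)
    (FI : ∀ x : R.O, Transcendental k (R.ρ x) → Transcendental K (x : F) ∧
      Module.finrank k⟮R.ρ x⟯ Fb ≤ Module.finrank K⟮(x : F)⟯ F)
    (g : ℕ)
    (I2 : ∀ B : Divisor K F,
      Divisor.degree B + 1 - g ≤ (Module.finrank K (riemannRochSpace B) : ℤ))
    (I3 : ∃ S : Finset (Place k Fb), S.card = g ∧
      Module.finrank k (riemannRochSpace (sumDiv S)) = 1)
    (m : ℕ) (hm : (m : k) ≠ 0) (f : R.O) (hf : R.ρ f = 1)
    (hdiv : ∀ P : Place K F, (m : ℤ) ∣ P.ord (f : F)) :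
    ∃ s : F, s ^ m = (f : F) := by
  obtain ⟨S, hS, hS1⟩ := I3
  have H : DeuringHyp K F k Fb R.O R.ρ g gF cF gb cb :=
    { HF := HF
      Hb := Hb
      I2 := I2
      I3 := by
        have h1 := Hb.riemann (sumDiv S)
        rw [hS1, sumDiv_eq_sumPts, degree_sumPts Hb.deg_one, hS] at h1
        push_cast at h1
        omega
      surj := R.ρ_surj
      red := fun V hV => ⟨R.redSub V, fun _ => R.mem_redSub, red V hV⟩
      FI := FI }
  exact theoremG H (gBase_of_redData R) S (by rw [hS]) hS1 m hm ⟨f.2, hf⟩ hdiv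

end FA18.G4
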