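import Fermat.Agent.Red.I2Fam
import Fermat.Agent.X0Genus.Final
import Fermat.Agent.Igusa.DefsA
import Fermat.Prelude.Def_AlgebraicCurve_Repartitions

/-! S18, package I2: Riemann's inequality `l(B) ≥ deg B + 1 - g` on `ℚ̄(X₀(N))` with
`g = dim S₂(Γ₀(N))`, from the bridge `BR` and Riemann's theorem `G1`. -/

open UpperHalfPlane ModularForm Matrix.SpecialLinearGroup CongruenceSubgroup AlgebraicCurve
open scoped MatrixGroups ModularForm

namespace FA18

open FA24

variable {N : ℕ} [NeZero N]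

/-- the places over `j = ∞`. -/
noncomputable def Pinf (N : ℕ) [NeZero N] : Finset (Place Kb (FN N)) :=
  (finite_poles isFF_FN (xN N) (transcendental_xN N)).toFinset

lemma mem_Pinf (v : Place Kb (FN N)) : v ∈ Pinf N ↔ v.ord (xN N) < 0 := by
  simp [Pinf]

lemma card_Pinf : (Pinf N).card = ModularCurve.cuspCount N := by
  have hinf : {v : Place Kb (FN N) | v.ord (xN N) < 0} = {v | 0 < v.ord (xN N)⁻¹} := by
    ext v
    simp only [Set.mem_ofPred_eq, Place.ord_inv]
    omega
  rw [Pinf, ← Set.ncard_eq_toFinset_card _ (finite_poles isFF_FN (xN N) (transcendental_xN N)),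
    hinf, count_inf.1, FAGenus.card_orbits_T]

lemma sum_Pinf : ∑ v ∈ Pinf N, v.ord (xN N) = -(ModularCurve.dedekindPsi N : ℤ) := by
  rw [Pinf, sum_poles isFF_FN (xN N) (transcendental_xN N), finrank_FN,
    ← Nat.card_eq_fintype_card, FAGenus.card_coset]

/-- the divisor `n (j)_∞ - ∑_{P ∣ ∞} P`. -/
noncomputable def Bn (N : ℕ) [NeZero N] (n : ℕ) : Divisor Kb (FN N) :=
  ∑ v ∈ Pinf N, Finsupp.single v (-(n : ℤ) * v.ord (xN N) - 1)

lemma Bn_apply_of_mem (n : ℕ) {v : Place Kb (FN N)} (hv : v ∈ Pinf N) :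
    Bn N n v = -(n : ℤ) * v.ord (xN N) - 1 := by
  classical
  rw [Bn, Finsupp.finsetSum_apply, Finset.sum_eq_single v]
  · simp
  · intro w _ hw
    simp [hw]
  · intro h
    exact absurd hv h

lemma Bn_apply_of_notMem (n : ℕ) {v : Place Kb (FN N)} (hv : v ∉ Pinf N) : Bn N n v = 0 := by
  classical
  rw [Bn, Finsupp.finsetSum_apply]
  refine Finset.sum_eq_zero fun w hw => ?_
  have : w ≠ v := fun h => hv (h ▸ hw)
  simp [this]

lemma degree_Bn (n : ℕ) : Divisor.degree (Bn N n)
    = (n : ℤ) * ModularCurve.dedekindPsi N - ModularCurve.cuspCount N := by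
  rw [Bn, map_sum]
  simp only [Divisor.degree_single, place_deg_eq_one isFF_FN, Nat.cast_one, mul_one]
  rw [Finset.sum_sub_distrib, ← Finset.mul_sum, sum_Pinf, Finset.sum_const, card_Pinf]
  simp

/-- **I2**.  `hBR` is the bridge (helper8), `hfin`, `hR` are Riemann's theorem (helper5). -/
theorem riemann_ineq_of
    (hBR : ∀ (b : ℕ) (Φ : CuspForm (Gamma0 N) (12 * (b : ℤ))) (s : PowerSeries Kb),
      s.map iota = qExpansion 1 Φ → ∃ y : FN N,
        (y : LaurentSeries Kb) = HahnSeries.ofPowerSeries ℤ Kb s * FAIg.deltaInvL Kb ^ b ∧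
        ∀ v : Place Kb (FN N), y = 0 ∨ ((0 ≤ v.ord (xN N) → 0 ≤ v.ord y) ∧
          (v.ord (xN N) < 0 → (b : ℤ) * v.ord (xN N) < v.ord y)))
    (hfin : ∀ B : Divisor Kb (FN N), FiniteDimensional Kb (riemannRochSpace B))
    (hR : ∃ gR c : ℤ, (∀ B : Divisor Kb (FN N),
        Divisor.degree B + 1 - gR ≤ Module.finrank Kb (riemannRochSpace B)) ∧
      ∀ B : Divisor Kb (FN N), c ≤ Divisor.degree B →
        (Module.finrank Kb (riemannRochSpace B) : ℤ) = Divisor.degree B + 1 - gR)
    (B : Divisor Kb (FN N)) :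
    Divisor.degree B + 1 - (Module.finrank ℂ (CuspForm (Gamma0 N) 2) : ℤ)
      ≤ Module.finrank Kb (riemannRochSpace B) := by
  classical
  obtain ⟨gR, c, hR1, hR2⟩ := hR
  set g := Module.finrank ℂ (CuspForm (Gamma0 N) 2) with hg
  have hψ : 0 < ModularCurve.dedekindPsi N := by
    rw [← FAGenus.card_coset]
    exact Nat.card_pos
  -- choose `n`
  set n : ℕ := (c + ModularCurve.cuspCount N).toNat with hn
  have hdeg : c ≤ Divisor.degree (Bn N (n + 1)) := by
    rw [degree_Bn]
    have h1 : c + ModularCurve.cuspCount N ≤ (n : ℤ) := Int.self_le_toNat _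
    have h2 : ((n + 1 : ℕ) : ℤ) ≤ ((n + 1 : ℕ) : ℤ) * ModularCurve.dedekindPsi N := by
      have : (1 : ℤ) ≤ ModularCurve.dedekindPsi N := by exact_mod_cast hψ
      nlinarith
    push_cast at h2 ⊢
    linarith
  obtain ⟨Φ, a, ha, hli⟩ := exists_int_family N (12 * ((n + 1 : ℕ) : ℤ))
  have hliK := linearIndependent_map_int a hli Kb
  have hy : ∀ i, ∃ y : FN N,
      (y : LaurentSeries Kb) = HahnSeries.ofPowerSeries ℤ Kb ((a i).map (Int.castRingHom Kb))
        * FAIg.deltaInvL Kb ^ (n + 1) ∧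
      ∀ v : Place Kb (FN N), y = 0 ∨ ((0 ≤ v.ord (xN N) → 0 ≤ v.ord y) ∧
        (v.ord (xN N) < 0 → ((n + 1 : ℕ) : ℤ) * v.ord (xN N) < v.ord y)) := fun i =>
    hBR (n + 1) (Φ i) _ (by rw [FAIg.map_map_intCast, ha])
  choose y hy1 hy2 using hy
  have hmem : ∀ i, y i ∈ riemannRochSpace (Bn N (n + 1)) := by
    intro i
    rw [mem_riemannRochSpace_iff]
    intro v
    rcases hy2 i v with h0 | ⟨h1, h2⟩
    · exact Or.inl h0
    · right
      by_cases hv : v ∈ Pinf N
      · rw [Bn_apply_of_mem _ hv]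
        have := h2 ((mem_Pinf v).1 hv)
        linarith
      · rw [Bn_apply_of_notMem _ hv]
        have := h1 (by rw [mem_Pinf] at hv; omega)
        simpa using this
  -- independence
  have hδ : FAIg.deltaInvL Kb ^ (n + 1) ≠ 0 := by
    apply pow_ne_zero
    intro h
    have := FAIg.deltaL_mul_deltaInvL Kb
    rw [h, mul_zero] at this
    exact zero_ne_one this
  have hliF : LinearIndependent Kb y := by
    rw [linearIndependent_iff'] at hliK ⊢
    intro s c' hc' i hi
    refine hliK s c' ?_ i hi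
    have hc'' : ∑ i ∈ s, HahnSeries.C (c' i) * (y i : LaurentSeries Kb) = 0 := by
      have := congrArg (fun z : FN N => (z : LaurentSeries Kb)) hc'
      simp only [Algebra.smul_def] at this
      rw [← (ModularCurve.modularFunctionFieldBar N).coe_val, map_sum] at this
      simp only [map_mul, IntermediateField.coe_val, IntermediateField.coe_algebraMap_apply,
        ZeroMemClass.coe_zero] at this
      rw [← this]
      refine Finset.sum_congr rfl fun i _ => ?_
      rw [ModularCurve.algebraMap_laurentSeries_eq_single]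
      rfl
    simp only [hy1] at hc''
    have h1 : HahnSeries.ofPowerSeries ℤ Kb (∑ i ∈ s, c' i • (a i).map (Int.castRingHom Kb))
        * FAIg.deltaInvL Kb ^ (n + 1) = 0 := by
      rw [← hc'', map_sum, Finset.sum_mul]
      refine Finset.sum_congr rfl fun i _ => ?_
      rw [PowerSeries.smul_eq_C_mul, map_mul, HahnSeries.ofPowerSeries_C, mul_assoc]
    have h2 := (mul_eq_zero.mp h1).resolve_right hδ
    exact (map_eq_zero_iff _ HahnSeries.ofPowerSeries_injective).mp h2
  have hliR : LinearIndependent Kb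
      (fun i => (⟨y i, hmem i⟩ : riemannRochSpace (Bn N (n + 1)))) :=
    LinearIndependent.of_comp (riemannRochSpace (Bn N (n + 1))).subtype hliF
  haveI := hfin (Bn N (n + 1))
  have hcard := hliR.fintype_card_le_finrank
  rw [Fintype.card_fin] at hcard
  have hdim := finrank_cusp_twelve N n
  have h3 := hR2 _ hdeg
  rw [degree_Bn] at h3
  have h4 := hR1 B
  have hcard' : ((Module.finrank ℂ (CuspForm (Gamma0 N) (12 * ((n + 1 : ℕ) : ℤ))) : ℕ) : ℤ)
      ≤ Module.finrank Kb (riemannRochSpace (Bn N (n + 1))) := by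
    exact_mod_cast hcard
  have hdim' : ((Module.finrank ℂ (CuspForm (Gamma0 N) (12 * ((n + 1 : ℕ) : ℤ))) : ℕ) : ℤ) + g
      + ModularCurve.cuspCount N
      = ((n : ℤ) + 1) * ModularCurve.dedekindPsi N + 1 := by exact_mod_cast hdim
  push_cast at h3
  linarith

end FA18
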