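import Fermat.Agent.Red.I2
import Fermat.Agent.Red.RFactsOf

/-! S18, package I2: Riemann's inequality with `g = dim S₂(Γ₀(N))`, relative to the bridge only. -/

open UpperHalfPlane ModularForm Matrix.SpecialLinearGroup CongruenceSubgroup AlgebraicCurve
open scoped MatrixGroups ModularForm

namespace FA18

open FA24

variable {N : ℕ} [NeZero N]

/-- **I2** relative to the bridge `BR`. -/
theorem riemann_ineq_of_bridge
    (hBR : ∀ (b : ℕ) (Φ : CuspForm (Gamma0 N) (12 * (b : ℤ))) (s : PowerSeries Kb),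
      s.map iota = qExpansion 1 Φ → ∃ y : FN N,
        (y : LaurentSeries Kb) = HahnSeries.ofPowerSeries ℤ Kb s * FAIg.deltaInvL Kb ^ b ∧
        ∀ v : Place Kb (FN N), y = 0 ∨ ((0 ≤ v.ord (xN N) → 0 ≤ v.ord y) ∧
          (v.ord (xN N) < 0 → (b : ℤ) * v.ord (xN N) < v.ord y)))
    (B : Divisor Kb (FN N)) :
    Divisor.degree B + 1 - (Module.finrank ℂ (CuspForm (Gamma0 N) 2) : ℤ)
      ≤ Module.finrank Kb (riemannRochSpace B) := by
  obtain ⟨c, hc⟩ := FAR.exists_riemann_eq (isFF_FN (N := N))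
  exact riemann_ineq_of hBR (FAR.L_finiteDimensional isFF_FN)
    ⟨FAR.gR (isFF_FN (N := N)), c, FAR.riemann_ineq isFF_FN, hc⟩ B

end FA18
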