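import Fermat.Agent.Genus.Final

/-! S18, package I2, part 1: `dim S_{12 n}(Γ₀(N)) = n ψ(N) - c(N) + 1 - g`. -/

open UpperHalfPlane ModularForm Matrix.SpecialLinearGroup CongruenceSubgroup
open scoped MatrixGroups ModularForm

namespace FA18

open FA_IS FAGenus

lemma rk_twelve_add (n t : ℕ) (ht : t < 6) :
    rk (12 * ((n + 1 : ℕ) : ℤ) - (12 - 2 * (t : ℤ))) = if t = 1 then n else n + 1 := by
  have h : (12 * ((n + 1 : ℕ) : ℤ) - (12 - 2 * (t : ℤ))) = ((12 * n + 2 * t : ℕ) : ℤ) := by
    push_cast; ring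
  rw [h, rk_nat _ (by exact ⟨6 * n + t, by ring⟩)]
  interval_cases t <;> simp [Nat.ModEq] <;> omega

/-- the dimension of `S_{12 n}(Γ₀(N))`, `n ≥ 1`. -/
theorem finrank_cusp_twelve (N : ℕ) [NeZero N] (n : ℕ) :
    Module.finrank ℂ (CuspForm (Gamma0 N) (12 * ((n + 1 : ℕ) : ℤ)))
      + Module.finrank ℂ (CuspForm (Gamma0 N) 2) + ModularCurve.cuspCount N
      = (n + 1) * ModularCurve.dedekindPsi N + 1 := by
  obtain ⟨B⟩ := exists_freeBasis N
  obtain ⟨ED, hED⟩ := exists_eigenData_card N
  set a0 := B.cnt 0 with ha0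
  set a1 := B.cnt 1 with ha1
  set a2 := B.cnt 2 with ha2
  set a3 := B.cnt 3 with ha3
  set a4 := B.cnt 4 with ha4
  set a5 := B.cnt 5 with ha5
  have E1 : a0 + a1 + a2 + a3 + a4 + a5 = ModularCurve.dedekindPsi N := by
    have := B.sum_by_weight (fun _ => (1 : ℕ))
    simp only [Finset.sum_const, Finset.card_univ, smul_eq_mul, mul_one, Finset.sum_range_succ,
      Finset.sum_range_zero, zero_add] at this
    rw [card_Q] at this
    omega
  have E2 : a0 = 1 := by
    have h1 := B.finrank_M 0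
    rw [finrank_M_zero, B.sum_by_weight (fun m => rk (0 - m))] at h1
    simp only [Finset.sum_range_succ, Finset.sum_range_zero, zero_add, smul_eq_mul] at h1
    norm_num at h1
    rw [rk_0, rk_neg (by norm_num), rk_neg (by norm_num), rk_neg (by norm_num),
      rk_neg (by norm_num), rk_neg (by norm_num)] at h1
    omega
  have E6 : Module.finrank ℂ (CuspForm (GG N) 2) = a5 := by
    rw [← finrank_SFfun, B.finrank_S 2, B.sum_by_weight (fun m => rk (2 - (12 - m)))]
    simp only [Finset.sum_range_succ, Finset.sum_range_zero, zero_add, smul_eq_mul]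
    norm_num
    rw [rk_0, rk_neg (by norm_num), rk_neg (by norm_num), rk_neg (by norm_num),
      rk_neg (by norm_num), rk_neg (by norm_num)]
    omega
  have E5 : a0 + a1 = a5 + ModularCurve.cuspCount N := by
    have h1 := B.finrank_M_eq ED 14 (by decide) le_rfl
    rw [hED, B.sum_by_weight (fun m => rk (14 - m)),
      B.sum_by_weight (fun m => rk (14 - (12 - m)))] at h1
    simp only [Finset.sum_range_succ, Finset.sum_range_zero, zero_add, smul_eq_mul] at h1
    norm_num at h1
    rw [rk_14, rk_12, rk_10, rk_8, rk_6, rk_4, rk_2] at h1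
    omega
  have E7 : Module.finrank ℂ (CuspForm (GG N) (12 * ((n + 1 : ℕ) : ℤ)))
      = (n + 1) * (a0 + a2 + a3 + a4 + a5) + n * a1 := by
    rw [← finrank_SFfun, B.finrank_S, B.sum_by_weight
      (fun m => rk (12 * ((n + 1 : ℕ) : ℤ) - (12 - m)))]
    simp only [Finset.sum_range_succ, Finset.sum_range_zero, zero_add, smul_eq_mul]
    rw [rk_twelve_add n 0 (by norm_num), rk_twelve_add n 1 (by norm_num),
      rk_twelve_add n 2 (by norm_num), rk_twelve_add n 3 (by norm_num),
      rk_twelve_add n 4 (by norm_num), rk_twelve_add n 5 (by norm_num)]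
    simp
    ring
  show Module.finrank ℂ (CuspForm (GG N) (12 * ((n + 1 : ℕ) : ℤ)))
      + Module.finrank ℂ (CuspForm (GG N) 2) + ModularCurve.cuspCount N = _
  rw [E7, E6, ← E1]
  nlinarith [E2, E5]

end FA18
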