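import Fermat.Agent.Red.NSStep
import Fermat.Agent.Red.Defs

/-!
# S18-NS: existence of a non-special effective divisor of degree `g`
-/

set_option autoImplicit false

namespace FAR

open AlgebraicCurve IntermediateField Polynomial FA24

variable {k E : Type*} [Field k] [Field E] [Algebra k E]

/-- the elements of `U` vanishing on `S`. -/
def vanishOn (U : Submodule k E) (S : Finset (Place k E)) : Submodule k E where
  carrier := {u | u ∈ U ∧ ∀ Q ∈ S, OrdGE Q u 1}
  add_mem' := fun ha hb => ⟨U.add_mem ha.1 hb.1, fun Q hQ => (ha.2 Q hQ).add (hb.2 Q hQ)⟩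
  zero_mem' := ⟨U.zero_mem, fun Q _ => OrdGE.zero Q 1⟩
  smul_mem' := fun c _ hu => ⟨U.smul_mem c hu.1, fun Q hQ => (hu.2 Q hQ).smul c⟩

theorem NS_ind [IsAlgClosed k] (h : E) (htr : Transcendental k h) [FiniteDimensional k⟮h⟯ E]
    [Algebra.IsSeparable k⟮h⟯ E] (U : Submodule k E) (g : ℕ) (hU : Module.finrank k U = g)
    (T1 : ∀ u ∈ U, ∀ (P : Place k E) (c : k), 0 < P.ord (h - algebraMap k E c) →
      u = 0 ∨ 0 < P.ord (u * (h - algebraMap k E c)))
    (T2 : ∀ u ∈ U, ∀ P : Place k E, P.ord h < 0 → u = 0 ∨ 0 < P.ord (u * h))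
    (m : ℕ) (hm : m ≤ g) :
    ∃ S : Finset (Place k E), S.card = m ∧ (∀ Q ∈ S, 0 ≤ Q.ord h) ∧
      riemannRochSpace (sumPl S) ≤ riemannRochSpace (0 : Divisor k E) ∧
      g ≤ Module.finrank k (vanishOn U S) + m := by
  classical
  have hFF : IsFF k E := ⟨h, htr, inferInstance⟩
  induction m with
  | zero =>
    refine ⟨∅, rfl, by simp, by simp [sumPl], ?_⟩
    have : vanishOn U ∅ = U := by
      ext u
      simp [vanishOn]
    rw [this, hU, add_zero]
  | succ m ih =>
    obtain ⟨S, hcard, hSh, hL, hrank⟩ := ih (by omega)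
    have hgpos : 0 < Module.finrank k U := by omega
    have : FiniteDimensional k U := Module.finite_of_finrank_pos hgpos
    have hVle : ∀ S, vanishOn U S ≤ U := fun S u hu => hu.1
    have : ∀ S, FiniteDimensional k (vanishOn U S) := fun S =>
      Submodule.finiteDimensional_of_le (hVle S)
    have hpos : 0 < Module.finrank k (vanishOn U S) := by omega
    obtain ⟨⟨u', hu'mem⟩, hu'0'⟩ := Module.finrank_pos_iff_exists_ne_zero.1 hpos
    have hu'0 : u' ≠ 0 := fun h0 => hu'0' (Subtype.ext h0)
    have hu'U : u' ∈ U := hu'mem.1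
    let β := Module.finBasis k U
    let b := Module.finBasis k⟮h⟯ E
    let b' := (Algebra.traceForm k⟮h⟯ E).dualBasis (traceForm_nondegenerate k⟮h⟯ E) b
    let A : Finset E := {u', u'⁻¹} ∪ Finset.univ.image (fun i => (β i : E)) ∪
      Finset.univ.image b ∪ Finset.univ.image b'
    obtain ⟨a, ha⟩ := exists_good_value hFF h S A
    obtain ⟨P, hP⟩ := exists_place_pos hFF (h - algebraMap k E a) (transcendental_sub_const htr a)
    obtain ⟨hPS, hPA⟩ := ha P hP
    have hPinv : OrdGE P u'⁻¹ 0 := hPA u'⁻¹ (by simp [A])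
    have hPu : P.ord u' = 0 := by
      have h1 := (hPA u' (by simp [A])).ord_nonneg
      have h2 := hPinv.ord_nonneg
      rw [P.ord_inv] at h2
      omega
    have hUreg : ∀ u ∈ U, OrdGE P u 0 := by
      intro u hu
      have h1 := congrArg Subtype.val (β.sum_repr ⟨u, hu⟩)
      have h2 : u = ∑ i, β.repr ⟨u, hu⟩ i • (β i : E) := by
        rw [Submodule.coe_sum] at h1
        exact h1.symm
      rw [h2]
      exact OrdGE.sum _ fun i _ => (hPA _ (by simp [A])).smul _
    refine ⟨insert P S, by rw [Finset.card_insert_of_notMem hPS, hcard], ?_, ?_, ?_⟩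
    · intro Q hQ
      rcases Finset.mem_insert.1 hQ with rfl | hQ
      · exact ord_nonneg_of_value hP
      · exact hSh Q hQ
    · intro φ hφ
      apply hL
      rw [sumPl_insert hPS, mem_L_iff] at hφ
      rw [mem_L_iff]
      have hφ1 : ∀ Q, Q ∉ S → Q ≠ P → OrdGE Q φ 0 := by
        intro Q hQS hQP
        have := hφ Q
        rwa [Finsupp.add_apply, sumPl_apply, if_neg hQS, Finsupp.single_apply,
          if_neg (Ne.symm hQP), add_zero, neg_zero] at this
      have hφ2 : ∀ Q ∈ S, OrdGE Q φ (-1) := by
        intro Q hQS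
        have hQP : Q ≠ P := fun h0 => hPS (h0 ▸ hQS)
        have := hφ Q
        rwa [Finsupp.add_apply, sumPl_apply, if_pos hQS, Finsupp.single_apply,
          if_neg (Ne.symm hQP), add_zero] at this
      have hφ3 : OrdGE P φ (-1) := by
        have := hφ P
        rwa [Finsupp.add_apply, sumPl_apply, if_neg hPS, Finsupp.single_apply,
          if_pos rfl, zero_add] at this
      have key : OrdGE P (φ * u') 0 := by
        refine ordGE_of_simple_pole hFF h htr b (φ * u') P a hP ?_ ?_ ?_
          (fun i Q hQ => (ha Q hQ).2 (b i) (by simp [A])) (fun i => hPA (b' i) (by simp [A]))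
        · intro Q c hQP hQ
          by_cases hQS : Q ∈ S
          · exact (((hφ2 Q hQS).mul (hu'mem.2 Q hQS)).mul
              (OrdGE.of_le (show 1 ≤ Q.ord (h - algebraMap k E c) by omega))).mono (by omega)
          · have h1 : 0 < Q.ord (u' * (h - algebraMap k E c)) :=
              (T1 u' hu'U Q c hQ).resolve_left hu'0
            rw [mul_assoc]
            exact ((hφ1 Q hQS hQP).mul (OrdGE.of_le (show 1 ≤ _ by omega))).mono (by omega)
        · intro Q hQ
          have hQS : Q ∉ S := fun hQS => by
            have := hSh Q hQS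
            omega
          have hQP : Q ≠ P := by
            rintro rfl
            have := ord_nonneg_of_value hP
            omega
          have h1 : 0 < Q.ord (u' * h) := (T2 u' hu'U Q hQ).resolve_left hu'0
          rw [mul_assoc]
          exact ((hφ1 Q hQS hQP).mul (OrdGE.of_le (show 1 ≤ _ by omega))).mono (by omega)
        · exact ((hφ3.mul (OrdGE.of_le hPu.ge)).mul
            (OrdGE.of_le (show 1 ≤ P.ord (h - algebraMap k E a) by omega))).mono (by omega)
      have hφP : OrdGE P φ 0 := OrdGE.of_mul hu'0 (by rw [hPu]; simpa using key)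
      intro v
      by_cases hvS : v ∈ S
      · rw [sumPl_apply, if_pos hvS]
        exact hφ2 v hvS
      · rw [sumPl_apply, if_neg hvS, neg_zero]
        by_cases hvP : v = P
        · subst hvP; exact hφP
        · exact hφ1 v hvS hvP
    · have hle : vanishOn U S ≤ vanishOn U (insert P S) ⊔ (k ∙ u') := by
        intro u hu
        have h1 : OrdGE P (u * u'⁻¹) 0 := by simpa using (hUreg u hu.1).mul hPinv
        obtain ⟨c, hc⟩ := exists_const hFF P (u * u'⁻¹) h1.ord_nonneg
        have h2 : OrdGE P (u * u'⁻¹ - algebraMap k E c) 1 := by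
          rcases hc with hc | hc
          · left; rw [hc, sub_self]
          · right; omega
        have h3 : u - c • u' = (u * u'⁻¹ - algebraMap k E c) * u' := by
          rw [Algebra.smul_def]
          field_simp
        have h4 : u - c • u' ∈ vanishOn U (insert P S) := by
          refine ⟨U.sub_mem hu.1 (U.smul_mem c hu'U), fun Q hQ => ?_⟩
          rcases Finset.mem_insert.1 hQ with rfl | hQ
          · rw [h3]
            simpa using h2.mul (OrdGE.of_le hPu.ge)
          · exact (hu.2 Q hQ).sub ((hu'mem.2 Q hQ).smul c)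
        have h5 : u = (u - c • u') + c • u' := by ring
        rw [h5]
        exact Submodule.add_mem_sup h4
          (Submodule.smul_mem _ c (Submodule.mem_span_singleton_self u'))
      have h5 : Module.finrank k (vanishOn U S) ≤
          Module.finrank k (vanishOn U (insert P S)) + 1 := by
        calc Module.finrank k (vanishOn U S)
            ≤ Module.finrank k ↥(vanishOn U (insert P S) ⊔ (k ∙ u')) := Submodule.finrank_mono hle
          _ ≤ Module.finrank k (vanishOn U (insert P S)) + Module.finrank k (k ∙ u') :=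
              Submodule.finrank_add_le_finrank_add_finrank _ _
          _ = _ := by rw [finrank_span_singleton hu'0]
      omega

end FAR

namespace FA18

open AlgebraicCurve IntermediateField

theorem NS {k Fb : Type*} [Field k] [IsAlgClosed k] [Field Fb] [Algebra k Fb]
    (h : Fb) (htr : Transcendental k h) [FiniteDimensional k⟮h⟯ Fb] [Algebra.IsSeparable k⟮h⟯ Fb]
    (U : Submodule k Fb) (g : ℕ) (hU : Module.finrank k U = g)
    (T1 : ∀ u ∈ U, ∀ (P : Place k Fb) (c : k), 0 < P.ord (h - algebraMap k Fb c) →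
      u = 0 ∨ 0 < P.ord (u * (h - algebraMap k Fb c)))
    (T2 : ∀ u ∈ U, ∀ P : Place k Fb, P.ord h < 0 → u = 0 ∨ 0 < P.ord (u * h)) :
    ∃ S : Finset (Place k Fb), S.card = g ∧
      Module.finrank k (riemannRochSpace (sumDiv S)) = 1 := by
  have hFF : FA24.IsFF k Fb := ⟨h, htr, inferInstance⟩
  obtain ⟨S, hcard, -, hL, -⟩ := FAR.NS_ind h htr U g hU T1 T2 g le_rfl
  refine ⟨S, hcard, ?_⟩
  have h1 : riemannRochSpace (sumDiv S) = riemannRochSpace (0 : Divisor k Fb) :=
    le_antisymm hL (FAR.L_mono (FAR.sumPl_nonneg S))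
  rw [h1]
  exact FAR.ell_zero hFF

end FA18

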