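import Fermat.Agent.Red.I3Of
import Fermat.Agent.Red.NS

/-! S18: I3 relative to M1 only. -/

set_option autoImplicit false

open AlgebraicCurve IntermediateField ModularCurve FA24

namespace FA18

theorem nsStatement (k Fb : Type*) [Field k] [IsAlgClosed k] [Field Fb] [Algebra k Fb] :
    NSStatement k Fb := fun h htr _ _ U g hU T1 T2 => NS h htr U g hU T1 T2

/-- **I3**, relative to the output of M1. -/
theorem I3_of_M1 (N : ℕ) [NeZero N] {ℓ : ℕ} [Fact ℓ.Prime]
    (A : ValuationSubring Kb) (hA : A.LiesOverPrime ℓ)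
    {k : Type} [Field k] (π : A →+* k) (hπ : Function.Surjective π)
    (hM : auxLevel ℓ ∣ N) (hFb : IsFF k (FbN k N))
    (R : RedData A π (FN N) (FbN k N))
    (hR : ∀ (y : LaurentSeries A) (hy : coeffMap A.subtype y ∈ modularFunctionFieldBar N),
      ∃ h : (⟨coeffMap A.subtype y, hy⟩ : FN N) ∈ R.O,
        ((R.ρ ⟨_, h⟩ : FbN k N) : LaurentSeries k) = coeffMap π y)
    (hdeg : ∀ jO : R.O, (jO : FN N) = xN N →
      Module.finrank Kb⟮xN N⟯ (FN N) ≤ Module.finrank k⟮R.ρ jO⟯ (FbN k N)) :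
    ∃ S : Finset (Place k (FbN k N)), S.card = gN N ∧
      Module.finrank k (riemannRochSpace (sumDiv S)) = 1 := by
  have : IsAlgClosed k := isAlgClosed_of_surj_gen A π hπ
  exact I3_of N A hA π hπ hM hFb (nsStatement k (FbN k N)) R hR hdeg

end FA18
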