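import Fermat.Agent.Red.Forms

/-! S18: the modular identities (2i), (3i) (Sturm bound + explicit coefficients).
The numerical part of this file is machine generated. -/

set_option autoImplicit false

open PowerSeries (C X)

namespace FA18

lemma psi_two : ModularCurve.dedekindPsi 2 = 3 := by decide +kernel

lemma psi_three : ModularCurve.dedekindPsi 3 = 4 := by decide +kernel

lemma tr_E4 : Tr 17 (E4z) [1, 240, 2160, 6720, 17520, 30240, 60480, 82560, 140400, 181680, 272160, 319680, 490560, 527520, 743040, 846720, 1123440] := by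
  unfold E4z ModularCurve.eisenstein4
  exact Tr.mk _ (by decide +kernel)

lemma iq_E4 {N : ℕ} : IsQ N 4 (E4z) :=
  isQ_E4

lemma tr_E6 : Tr 17 (E6z) [1, -504, -16632, -122976, -532728, -1575504, -4058208, -8471232, -17047800, -29883672, -51991632, -81170208, -129985632, -187132176, -279550656, -384422976, -545530104] := by
  unfold E6z
  exact Tr.mk _ (by decide +kernel)

lemma iq_E6 {N : ℕ} : IsQ N 6 (E6z) :=
  isQ_E6

lemma tr_a : Tr 17 (az) [1, 12, 36, 12, 84, 72, 36, 96, 180, 12, 216, 144, 84, 168, 288, 72, 372] := by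
  unfold az
  exact Tr.mk _ (by decide +kernel)

lemma iq_a {N : ℕ} (h3 : 3 ∣ N) : IsQ N 2 (az) :=
  isQ_a h3

lemma tr_E4_2 : Tr 17 ((E4z) * (E4z)) [1, 480, 61920, 1050240, 7926240, 37500480, 135480960, 395301120, 1014559200, 2296875360, 4837561920, 9353842560, 17342613120, 30119288640, 50993844480, 82051050240, 129863578080] :=
  (tr_E4.mul tr_E4).congr (by decide +kernel)

lemma iq_E4_2 {N : ℕ} : IsQ N 8 ((E4z) * (E4z)) :=
  (iq_E4).mul (iq_E4) (by norm_num)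

lemma tr_E4_3 : Tr 17 (((E4z) * (E4z)) * (E4z)) [1, 720, 179280, 16954560, 396974160, 4632858720, 34413301440, 187477879680, 814940600400, 2975469665040, 9486467837280, 27053330840640, 70485969919680, 169930679355360, 384163875688320, 820167497170560, 1668890801059920] :=
  (tr_E4_2.mul tr_E4).congr (by decide +kernel)

lemma iq_E4_3 {N : ℕ} : IsQ N 12 (((E4z) * (E4z)) * (E4z)) :=
  (iq_E4_2).mul (iq_E4) (by norm_num)

lemma tr_E6_2 : Tr 17 ((E6z) * (E6z)) [1, -1008, 220752, 16519104, 399517776, 4624512480, 34423752384, 187506813312, 814794618960, 2975666040144, 9486668147040, 27052407031104, 70486610910912, 169931677686624, 384163181281152, 820165393918080, 1668889095288912] :=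
  (tr_E6.mul tr_E6).congr (by decide +kernel)

lemma iq_E6_2 {N : ℕ} : IsQ N 12 ((E6z) * (E6z)) :=
  (iq_E6).mul (iq_E6) (by norm_num)

lemma tr_D1728 : Tr 17 ((((E4z) * (E4z)) * (E4z)) - ((E6z) * (E6z))) [0, 1728, -41472, 435456, -2543616, 8346240, -10450944, -28933632, 145981440, -196375104, -200309760, 923809536, -640991232, -998331264, 694407168, 2103252480, 1705771008] :=
  (tr_E4_3.sub tr_E6_2).congr (by decide +kernel)

lemma iq_D1728 {N : ℕ} : IsQ N 12 ((((E4z) * (E4z)) * (E4z)) - ((E6z) * (E6z))) :=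
  (iq_E4_3).sub (iq_E6_2)

lemma tr_D : Tr 17 Dz [0, 1, -24, 252, -1472, 4830, -6048, -16744, 84480, -113643, -115920, 534612, -370944, -577738, 401856, 1217160, 987136] := by
  apply Tr.of_smul (c := 1728) (by norm_num)
  rw [rel_D']
  exact tr_D1728.congr (by decide +kernel)

lemma iq_D {N : ℕ} : IsQ N 12 (Dz) :=
  isQ_D

lemma tr_D2 : Tr 17 D2z [0, 0, 1, 0, -24, 0, 252, 0, -1472, 0, 4830, 0, -6048, 0, -16744, 0, 84480] :=
  (tr_D.expand 2 two_ne_zero).congr (by decide +kernel)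

lemma iq_D2 {N : ℕ} (h2 : 2 ∣ N) : IsQ N 12 (D2z) :=
  isQ_D2 h2

lemma tr_D3 : Tr 17 D3z [0, 0, 0, 1, 0, 0, -24, 0, 0, 252, 0, 0, -1472, 0, 0, 4830, 0] :=
  (tr_D.expand 3 three_ne_zero).congr (by decide +kernel)

lemma iq_D3 {N : ℕ} (h3 : 3 ∣ N) : IsQ N 12 (D3z) :=
  isQ_D3 h3

lemma tr_E43D : Tr 17 ((((E4z) * (E4z)) * (E4z)) * (Dz)) [0, 1, 696, 162252, 12831808, 34188270, -882400608, -833380744, 25487347200, -20041723323, -288074404080, 434433753732, 1007032271616, 2385917303462, -21022079461824, 20516848304040, 10832015527936] :=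
  (tr_E4_3.mul tr_D).congr (by decide +kernel)

lemma iq_E43D {N : ℕ} : IsQ N 24 ((((E4z) * (E4z)) * (E4z)) * (Dz)) :=
  (iq_E4_3).mul (iq_D) (by norm_num)

lemma tr_E43DD2 : Tr 17 (((((E4z) * (E4z)) * (E4z)) * (Dz)) * (D2z)) [0, 0, 0, 1, 696, 162228, 12815104, 30294474, -1190188608, -1613013192, 49897552896, 8336028459, -1141020749792, 655881703668, 15704496582144, -11700122581074, -159642592252416] :=
  (tr_E43D.mul tr_D2).congr (by decide +kernel)

lemma iq_E43DD2 {N : ℕ} (h2 : 2 ∣ N) : IsQ N 36 (((((E4z) * (E4z)) * (E4z)) * (Dz)) * (D2z)) :=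
  (iq_E43D).mul (iq_D2 h2) (by norm_num)

lemma tr_c256D2 : Tr 17 (C 256 * (D2z)) [0, 0, 256, 0, -6144, 0, 64512, 0, -376832, 0, 1236480, 0, -1548288, 0, -4286464, 0, 21626880] :=
  (tr_D2.smul 256).congr (by decide +kernel)

lemma iq_c256D2 {N : ℕ} (h2 : 2 ∣ N) : IsQ N 12 (C 256 * (D2z)) :=
  (iq_D2 h2).smul 256

lemma tr_u2 : Tr 17 ((Dz) + (C 256 * (D2z))) [0, 1, 232, 252, -7616, 4830, 58464, -16744, -292352, -113643, 1120560, 534612, -1919232, -577738, -3884608, 1217160, 22614016] :=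
  (tr_D.add tr_c256D2).congr (by decide +kernel)

lemma iq_u2 {N : ℕ} (h2 : 2 ∣ N) : IsQ N 12 ((Dz) + (C 256 * (D2z))) :=
  (iq_D).add (iq_c256D2 h2)

lemma tr_u2_2 : Tr 17 (((Dz) + (C 256 * (D2z))) * ((Dz) + (C 256 * (D2z)))) [0, 0, 1, 464, 54328, 101696, -3460660, -1480416, 87531584, -52458624, -1011512338, 621972208, 8173130912, -2241968832, -52692169096, -2059497888, 252607098368] :=
  (tr_u2.mul tr_u2).congr (by decide +kernel)

lemma iq_u2_2 {N : ℕ} (h2 : 2 ∣ N) : IsQ N 24 (((Dz) + (C 256 * (D2z))) * ((Dz) + (C 256 * (D2z)))) :=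
  (iq_u2 h2).mul (iq_u2 h2) (by norm_num)

lemma tr_u2_3 : Tr 17 ((((Dz) + (C 256 * (D2z))) * ((Dz) + (C 256 * (D2z)))) * ((Dz) + (C 256 * (D2z)))) [0, 0, 0, 1, 696, 162228, 12815104, 30294474, -1190188608, -1613013192, 49897552896, 8336028459, -1141020749792, 655881703668, 15704496582144, -11700122581074, -159642592252416] :=
  (tr_u2_2.mul tr_u2).congr (by decide +kernel)

lemma iq_u2_3 {N : ℕ} (h2 : 2 ∣ N) : IsQ N 36 ((((Dz) + (C 256 * (D2z))) * ((Dz) + (C 256 * (D2z)))) * ((Dz) + (C 256 * (D2z)))) :=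
  (iq_u2_2 h2).mul (iq_u2 h2) (by norm_num)

lemma tr_P2 : Tr 17 ((((((E4z) * (E4z)) * (E4z)) * (Dz)) * (D2z)) - ((((Dz) + (C 256 * (D2z))) * ((Dz) + (C 256 * (D2z)))) * ((Dz) + (C 256 * (D2z))))) [0, 0, 0, 0, 0, 0, 0, 0, 0, 0, 0, 0, 0, 0, 0, 0, 0] :=
  (tr_E43DD2.sub tr_u2_3).congr (by decide +kernel)

lemma iq_P2 {N : ℕ} (h2 : 2 ∣ N) : IsQ N 36 ((((((E4z) * (E4z)) * (E4z)) * (Dz)) * (D2z)) - ((((Dz) + (C 256 * (D2z))) * ((Dz) + (C 256 * (D2z)))) * ((Dz) + (C 256 * (D2z))))) :=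
  (iq_E43DD2 h2).sub (iq_u2_3 h2)

lemma tr_a2 : Tr 17 ((az) * (az)) [1, 24, 216, 888, 1752, 3024, 7992, 8256, 14040, 24216, 27216, 31968, 64824, 52752, 74304, 111888, 112344] :=
  (tr_a.mul tr_a).congr (by decide +kernel)

lemma iq_a2 {N : ℕ} (h3 : 3 ∣ N) : IsQ N 4 ((az) * (az)) :=
  (iq_a h3).mul (iq_a h3) (by norm_num)

lemma tr_a3 : Tr 17 (((az) * (az)) * (az)) [1, 36, 540, 4356, 20556, 60696, 137916, 325152, 658476, 1023012, 1999080, 3112560, 4446828, 7207992, 10755936, 13150296, 20963052] :=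
  (tr_a2.mul tr_a).congr (by decide +kernel)

lemma iq_a3 {N : ℕ} (h3 : 3 ∣ N) : IsQ N 6 (((az) * (az)) * (az)) :=
  (iq_a2 h3).mul (iq_a h3) (by norm_num)

lemma tr_aE4 : Tr 17 ((az) * (E4z)) [1, 252, 5076, 41292, 178884, 528552, 1333476, 2835936, 5727780, 9858492, 17422776, 27158544, 42858324, 62773128, 93715488, 126745992, 182748132] :=
  (tr_a.mul tr_E4).congr (by decide +kernel)

lemma iq_aE4 {N : ℕ} (h3 : 3 ∣ N) : IsQ N 6 ((az) * (E4z)) :=
  (iq_a h3).mul (iq_E4) (by norm_num)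

lemma tr_t1 : Tr 17 (C (-9) * (((az) * (az)) * (az))) [-9, -324, -4860, -39204, -185004, -546264, -1241244, -2926368, -5926284, -9207108, -17991720, -28013040, -40021452, -64871928, -96803424, -118352664, -188667468] :=
  (tr_a3.smul (-9)).congr (by decide +kernel)

lemma iq_t1 {N : ℕ} (h3 : 3 ∣ N) : IsQ N 6 (C (-9) * (((az) * (az)) * (az))) :=
  (iq_a3 h3).smul (-9)

lemma tr_t2 : Tr 17 (C 7 * ((az) * (E4z))) [7, 1764, 35532, 289044, 1252188, 3699864, 9334332, 19851552, 40094460, 69009444, 121959432, 190109808, 300008268, 439411896, 656008416, 887221944, 1279236924] :=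
  (tr_aE4.smul 7).congr (by decide +kernel)

lemma iq_t2 {N : ℕ} (h3 : 3 ∣ N) : IsQ N 6 (C 7 * ((az) * (E4z))) :=
  (iq_aE4 h3).smul 7

lemma tr_t3 : Tr 17 (C 2 * (E6z)) [2, -1008, -33264, -245952, -1065456, -3151008, -8116416, -16942464, -34095600, -59767344, -103983264, -162340416, -259971264, -374264352, -559101312, -768845952, -1091060208] :=
  (tr_E6.smul 2).congr (by decide +kernel)

lemma iq_t3 {N : ℕ} : IsQ N 6 (C 2 * (E6z)) :=
  (iq_E6).smul 2

lemma tr_t12 : Tr 17 ((C (-9) * (((az) * (az)) * (az))) + (C 7 * ((az) * (E4z)))) [-2, 1440, 30672, 249840, 1067184, 3153600, 8093088, 16925184, 34168176, 59802336, 103967712, 162096768, 259986816, 374539968, 559204992, 768869280, 1090569456] :=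
  (tr_t1.add tr_t2).congr (by decide +kernel)

lemma iq_t12 {N : ℕ} (h3 : 3 ∣ N) : IsQ N 6 ((C (-9) * (((az) * (az)) * (az))) + (C 7 * ((az) * (E4z)))) :=
  (iq_t1 h3).add (iq_t2 h3)

lemma tr_T : Tr 17 (Tz) [0, 432, -2592, 3888, 1728, 2592, -23328, -17280, 72576, 34992, -15552, -243648, 15552, 275616, 103680, 23328, -490752] :=
  (tr_t12.add tr_t3).congr (by decide +kernel)

lemma iq_T {N : ℕ} (h3 : 3 ∣ N) : IsQ N 6 (Tz) :=
  (iq_t12 h3).add (iq_t3)

lemma tr_T2 : Tr 17 ((Tz) * (Tz)) [0, 0, 186624, -2239488, 10077696, -18662400, 8398080, -20155392, 129143808, -20155392, -554273280, 188863488, 847646208, 2458957824, -4696952832, -6281763840, 5200091136] :=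
  (tr_T.mul tr_T).congr (by decide +kernel)

lemma iq_T2 {N : ℕ} (h3 : 3 ∣ N) : IsQ N 12 ((Tz) * (Tz)) :=
  (iq_T h3).mul (iq_T h3) (by norm_num)

lemma tr_T4 : Tr 17 (((Tz) * (Tz)) * ((Tz) * (Tz))) [0, 0, 0, 0, 34828517376, -835884417024, 8776786378752, -52103461994496, 188282964934656, -421285746180096, 656029953294336, -1305651459391488, 3309161921445888, -3011970182676480, -8373472147537920, 16071549686120448, 5449548456787968] :=
  (tr_T2.mul tr_T2).congr (by decide +kernel)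

lemma iq_T4 {N : ℕ} (h3 : 3 ∣ N) : IsQ N 24 (((Tz) * (Tz)) * ((Tz) * (Tz))) :=
  (iq_T2 h3).mul (iq_T2 h3) (by norm_num)

lemma tr_DD3 : Tr 17 ((Dz) * (D3z)) [0, 0, 0, 0, 1, -24, 252, -1496, 5406, -12096, 18836, -37488, 95013, -86480, -240420, 461448, 156468] :=
  (tr_D.mul tr_D3).congr (by decide +kernel)

lemma iq_DD3 {N : ℕ} (h3 : 3 ∣ N) : IsQ N 24 ((Dz) * (D3z)) :=
  (iq_D).mul (iq_D3 h3) (by norm_num)

lemma tr_cDD3 : Tr 17 (C 34828517376 * ((Dz) * (D3z))) [0, 0, 0, 0, 34828517376, -835884417024, 8776786378752, -52103461994496, 188282964934656, -421285746180096, 656029953294336, -1305651459391488, 3309161921445888, -3011970182676480, -8373472147537920, 16071549686120448, 5449548456787968] :=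
  (tr_DD3.smul 34828517376).congr (by decide +kernel)

lemma iq_cDD3 {N : ℕ} (h3 : 3 ∣ N) : IsQ N 24 (C 34828517376 * ((Dz) * (D3z))) :=
  (iq_DD3 h3).smul 34828517376

lemma tr_PT : Tr 17 ((((Tz) * (Tz)) * ((Tz) * (Tz))) - (C 34828517376 * ((Dz) * (D3z)))) [0, 0, 0, 0, 0, 0, 0, 0, 0, 0, 0, 0, 0, 0, 0, 0, 0] :=
  (tr_T4.sub tr_cDD3).congr (by decide +kernel)

lemma iq_PT {N : ℕ} (h3 : 3 ∣ N) : IsQ N 24 ((((Tz) * (Tz)) * ((Tz) * (Tz))) - (C 34828517376 * ((Dz) * (D3z)))) :=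
  (iq_T4 h3).sub (iq_cDD3 h3)

/-- **(2i)** `E₄³ Δ Δ₂ = (Δ + 256 Δ₂)³`. -/
theorem ident_two : E4z ^ 3 * Dz * D2z = (Dz + C 256 * D2z) ^ 3 := by
  have h := (iq_P2 (dvd_refl 2)).sturm (B := 17) (by rw [psi_two]; decide)
    (fun i hi => tr_P2.coeff_eq_zero (by decide +kernel) hi)
  linear_combination h

theorem T_pow_four : Tz ^ 4 = (C 432 * Sz) ^ 4 := by
  have h := (iq_PT (dvd_refl 3)).sturm (B := 17) (by rw [psi_three]; decide)
    (fun i hi => tr_PT.coeff_eq_zero (by decide +kernel) hi)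
  have e : (C 432 : PowerSeries ℤ) ^ 4 = C 34828517376 := by rw [← map_pow]; norm_num
  rw [mul_pow, Sz_pow_four, e]
  linear_combination h

lemma coeff_Sz_one : PowerSeries.coeff 1 Sz = 1 := by
  have e : Sz = X * (ModularCurve.etaProd ^ 6 *
      (PowerSeries.expand 3 three_ne_zero ModularCurve.etaProd) ^ 6) := by rw [Sz]; ring
  rw [e, PowerSeries.coeff_succ_X_mul, PowerSeries.coeff_zero_eq_constantCoeff_apply, map_mul,
    map_pow, map_pow, PowerSeries.constantCoeff_expand, ModularCurve.constantCoeff_etaProd]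
  norm_num

lemma coeff_Sz_zero : PowerSeries.coeff 0 Sz = 0 := by
  have e : Sz = X * (ModularCurve.etaProd ^ 6 *
      (PowerSeries.expand 3 three_ne_zero ModularCurve.etaProd) ^ 6) := by rw [Sz]; ring
  rw [e, PowerSeries.coeff_zero_X_mul]

/-- `-9a³ + 7aE₄ + 2E₆ = 432 η(q)⁶η(q³)⁶` -/
theorem T_eq : Tz = C 432 * Sz := by
  have h := T_pow_four
  set Y := C 432 * Sz with hY
  have hY0 : PowerSeries.coeff 0 Y = 0 := by rw [hY, PowerSeries.coeff_C_mul, coeff_Sz_zero]; rfl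
  have hY1 : PowerSeries.coeff 1 Y = 432 := by rw [hY, PowerSeries.coeff_C_mul, coeff_Sz_one]; rfl
  have hT0 : PowerSeries.coeff 0 Tz = 0 := tr_T 0 (by norm_num)
  have hT1 : PowerSeries.coeff 1 Tz = 432 := tr_T 1 (by norm_num)
  have h3 : (Tz - Y) * ((Tz + Y) * (Tz ^ 2 + Y ^ 2)) = 0 := by linear_combination h
  rcases mul_eq_zero.mp h3 with h4 | h4
  · exact sub_eq_zero.mp h4
  exfalso
  rcases mul_eq_zero.mp h4 with h5 | h5
  · have := congrArg (PowerSeries.coeff 1) h5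
    rw [map_add, hT1, hY1] at this
    norm_num at this
  · have := congrArg (PowerSeries.coeff 2) h5
    rw [map_add, pow_two, pow_two, PowerSeries.coeff_mul, PowerSeries.coeff_mul] at this
    simp only [Finset.Nat.antidiagonal_succ, Finset.Nat.antidiagonal_zero, Finset.map_singleton,
      Finset.sum_cons, Finset.sum_map, Finset.sum_singleton] at this
    simp [hT0, hT1, hY0, hY1] at this

lemma isQ_S {N : ℕ} (h : 3 ∣ N) : IsQ N 6 Sz :=
  IsQ.of_smul (c := 432) (by norm_num) (T_eq ▸ isQ_T h)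

lemma tr_S : Tr 17 Sz [0, 1, -6, 9, 4, 6, -54, -40, 168, 81, -36, -564, 36, 638, 240, 54, -1136] := by
  apply Tr.of_smul (c := 432) (by norm_num)
  rw [← T_eq]
  exact tr_T.congr (by decide +kernel)

lemma iq_S {N : ℕ} (h3 : 3 ∣ N) : IsQ N 6 (Sz) :=
  isQ_S h3

lemma tr_S2 : Tr 17 ((Sz) * (Sz)) [0, 0, 1, -12, 54, -100, 45, -108, 692, -108, -2970, 1012, 4542, 13176, -25168, -33660, 27864] :=
  (tr_S.mul tr_S).congr (by decide +kernel)

lemma iq_S2 {N : ℕ} (h3 : 3 ∣ N) : IsQ N 12 ((Sz) * (Sz)) :=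
  (iq_S h3).mul (iq_S h3) (by norm_num)

lemma tr_D_2 : Tr 17 ((Dz) * (Dz)) [0, 0, 1, -48, 1080, -15040, 143820, -985824, 4857920, -16295040, 28412910, 38671600, -424520544, 1268350272, -1211937160, -4306546080, 18293091840] :=
  (tr_D.mul tr_D).congr (by decide +kernel)

lemma iq_D_2 {N : ℕ} : IsQ N 24 ((Dz) * (Dz)) :=
  (iq_D).mul (iq_D) (by norm_num)

lemma tr_E43S2 : Tr 17 ((((E4z) * (E4z)) * (E4z)) * ((Sz) * (Sz))) [0, 0, 1, 708, 170694, 14841980, 203128605, 766819332, -1431864028, -14260691628, -23604824250, 55974307972, 360429431262, 229781392056, -854363080768, -5045772645900, -360510313896] :=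
  (tr_E4_3.mul tr_S2).congr (by decide +kernel)

lemma iq_E43S2 {N : ℕ} (h3 : 3 ∣ N) : IsQ N 24 ((((E4z) * (E4z)) * (E4z)) * ((Sz) * (Sz))) :=
  (iq_E4_3).mul (iq_S2 h3) (by norm_num)

lemma tr_lhs3 : Tr 17 (((((E4z) * (E4z)) * (E4z)) * ((Sz) * (Sz))) * ((Dz) * (Dz))) [0, 0, 0, 0, 1, 660, 137790, 7398268, -335441415, 4579585668, -18227572156, -202698124860, 2981617671024, -13302562736708, -25409607858606, 602155017168912, -2978148466427514] :=
  (tr_E43S2.mul tr_D_2).congr (by decide +kernel)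

lemma iq_lhs3 {N : ℕ} (h3 : 3 ∣ N) : IsQ N 48 (((((E4z) * (E4z)) * (E4z)) * ((Sz) * (Sz))) * ((Dz) * (Dz))) :=
  (iq_E43S2 h3).mul (iq_D_2) (by norm_num)

lemma tr_c27 : Tr 17 (C 27 * ((Sz) * (Sz))) [0, 0, 27, -324, 1458, -2700, 1215, -2916, 18684, -2916, -80190, 27324, 122634, 355752, -679536, -908820, 752328] :=
  (tr_S2.smul 27).congr (by decide +kernel)

lemma iq_c27 {N : ℕ} (h3 : 3 ∣ N) : IsQ N 12 (C 27 * ((Sz) * (Sz))) :=
  (iq_S2 h3).smul 27

lemma tr_c243 : Tr 17 (C 243 * ((Sz) * (Sz))) [0, 0, 243, -2916, 13122, -24300, 10935, -26244, 168156, -26244, -721710, 245916, 1103706, 3201768, -6115824, -8179380, 6770952] :=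
  (tr_S2.smul 243).congr (by decide +kernel)

lemma iq_c243 {N : ℕ} (h3 : 3 ∣ N) : IsQ N 12 (C 243 * ((Sz) * (Sz))) :=
  (iq_S2 h3).smul 243

lemma tr_v1 : Tr 17 ((Dz) + (C 27 * ((Sz) * (Sz)))) [0, 1, 3, -72, -14, 2130, -4833, -19660, 103164, -116559, -196110, 561936, -248310, -221986, -277680, 308340, 1739464] :=
  (tr_D.add tr_c27).congr (by decide +kernel)

lemma iq_v1 {N : ℕ} (h3 : 3 ∣ N) : IsQ N 12 ((Dz) + (C 27 * ((Sz) * (Sz)))) :=
  (iq_D).add (iq_c27 h3)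

lemma tr_v2 : Tr 17 ((Dz) + (C 243 * ((Sz) * (Sz)))) [0, 1, 219, -2664, 11650, -19470, 4887, -42988, 252636, -139887, -837630, 780528, 732762, 2624030, -5713968, -6962220, 7758088] :=
  (tr_D.add tr_c243).congr (by decide +kernel)

lemma iq_v2 {N : ℕ} (h3 : 3 ∣ N) : IsQ N 12 ((Dz) + (C 243 * ((Sz) * (Sz)))) :=
  (iq_D).add (iq_c243 h3)

lemma tr_v2_2 : Tr 17 (((Dz) + (C 243 * ((Sz) * (Sz)))) * ((Dz) + (C 243 * ((Sz) * (Sz))))) [0, 0, 1, 438, 42633, -1143532, 12160656, -70589286, 241513190, -498012408, 832362858, -2600910554, 7964251341, -8710948224, -13584802180, 24949467594, 37846997604] :=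
  (tr_v2.mul tr_v2).congr (by decide +kernel)

lemma iq_v2_2 {N : ℕ} (h3 : 3 ∣ N) : IsQ N 24 (((Dz) + (C 243 * ((Sz) * (Sz)))) * ((Dz) + (C 243 * ((Sz) * (Sz))))) :=
  (iq_v2 h3).mul (iq_v2 h3) (by norm_num)

lemma tr_v2_3 : Tr 17 ((((Dz) + (C 243 * ((Sz) * (Sz)))) * ((Dz) + (C 243 * ((Sz) * (Sz))))) * ((Dz) + (C 243 * ((Sz) * (Sz))))) [0, 0, 0, 1, 657, 135891, 7037913, -346763934, 6127115103, -61763642820, 404569215909, -1818067280481, 5813689474120, -14446115551242, 35469198551205, -101003772495234, 248998559292954] :=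
  (tr_v2_2.mul tr_v2).congr (by decide +kernel)

lemma iq_v2_3 {N : ℕ} (h3 : 3 ∣ N) : IsQ N 36 ((((Dz) + (C 243 * ((Sz) * (Sz)))) * ((Dz) + (C 243 * ((Sz) * (Sz))))) * ((Dz) + (C 243 * ((Sz) * (Sz))))) :=
  (iq_v2_2 h3).mul (iq_v2 h3) (by norm_num)

lemma tr_rhs3 : Tr 17 (((Dz) + (C 27 * ((Sz) * (Sz)))) * ((((Dz) + (C 243 * ((Sz) * (Sz)))) * ((Dz) + (C 243 * ((Sz) * (Sz))))) * ((Dz) + (C 243 * ((Sz) * (Sz)))))) [0, 0, 0, 0, 1, 660, 137790, 7398268, -335441415, 4579585668, -18227572156, -202698124860, 2981617671024, -13302562736708, -25409607858606, 602155017168912, -2978148466427514] :=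
  (tr_v1.mul tr_v2_3).congr (by decide +kernel)

lemma iq_rhs3 {N : ℕ} (h3 : 3 ∣ N) : IsQ N 48 (((Dz) + (C 27 * ((Sz) * (Sz)))) * ((((Dz) + (C 243 * ((Sz) * (Sz)))) * ((Dz) + (C 243 * ((Sz) * (Sz))))) * ((Dz) + (C 243 * ((Sz) * (Sz)))))) :=
  (iq_v1 h3).mul (iq_v2_3 h3) (by norm_num)

lemma tr_P3 : Tr 17 ((((((E4z) * (E4z)) * (E4z)) * ((Sz) * (Sz))) * ((Dz) * (Dz))) - (((Dz) + (C 27 * ((Sz) * (Sz)))) * ((((Dz) + (C 243 * ((Sz) * (Sz)))) * ((Dz) + (C 243 * ((Sz) * (Sz))))) * ((Dz) + (C 243 * ((Sz) * (Sz))))))) [0, 0, 0, 0, 0, 0, 0, 0, 0, 0, 0, 0, 0, 0, 0, 0, 0] :=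
  (tr_lhs3.sub tr_rhs3).congr (by decide +kernel)

lemma iq_P3 {N : ℕ} (h3 : 3 ∣ N) : IsQ N 48 ((((((E4z) * (E4z)) * (E4z)) * ((Sz) * (Sz))) * ((Dz) * (Dz))) - (((Dz) + (C 27 * ((Sz) * (Sz)))) * ((((Dz) + (C 243 * ((Sz) * (Sz)))) * ((Dz) + (C 243 * ((Sz) * (Sz))))) * ((Dz) + (C 243 * ((Sz) * (Sz))))))) :=
  (iq_lhs3 h3).sub (iq_rhs3 h3)

/-- **(3i)** `E₄³ S² Δ² = (Δ + 27 S²)(Δ + 243 S²)³`. -/
theorem ident_three :
    E4z ^ 3 * Sz ^ 2 * Dz ^ 2 = (Dz + C 27 * Sz ^ 2) * (Dz + C 243 * Sz ^ 2) ^ 3 := by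
  have h := (iq_P3 (dvd_refl 3)).sturm (B := 17) (by rw [psi_three]; decide)
    (fun i hi => tr_P3.coeff_eq_zero (by decide +kernel) hi)
  linear_combination h

end FA18
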