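import Fermat.Agent.Red.M1W
import Fermat.Agent.Red.G2Glue

/-!
# S18 / M1, part 2: abstract construction of the reduction data for subfields of `K((q))`
-/

set_option autoImplicit false

open ModularCurve Module IntermediateField Polynomial

noncomputable section

namespace FA18.M1

attribute [-instance] HahnSeries.instModule HahnSeries.instSMul HahnSeries.instSMulZeroClass
  HahnSeries.instDistribMulAction

variable {K : Type*} [Field K] {A : ValuationSubring K} {k : Type*} [Field k] {π : A →+* k}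

lemma algebraMap_eq_C' {k : Type*} [Field k] (c : k) :
    algebraMap k (LaurentSeries k) c = HahnSeries.C c := by
  rw [algebraMap_laurentSeries_eq_single]
  rfl

lemma C_mul_eq_smul' {k : Type*} [Field k] (c : k) (x : LaurentSeries k) :
    HahnSeries.C c * x = c • x := by
  rw [Algebra.smul_def, algebraMap_eq_C']

/-- scaling: a nonzero `K`-combination of integral series with `k`-independent reductions. -/
lemma exists_scale_linComb {ι : Type*} (e : ι → LaurentSeries A)
    (hli : LinearIndependent k fun i => redA A π (e i)) {u : ι →₀ K} (hu : u ≠ 0) :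
    ∃ (c : K) (Y : LaurentSeries A), c ≠ 0 ∧ redA A π Y ≠ 0 ∧
      redA A π Y ∈ Submodule.span k (Set.range fun i => redA A π (e i)) ∧
      HahnSeries.C c * Finsupp.linearCombination K (fun i => iotaA A (e i)) u = iotaA A Y := by
  obtain ⟨i0, h0, hn⟩ := RedBase.exists_normal A hu
  refine ⟨(u i0)⁻¹, ∑ i ∈ u.support, HahnSeries.C (⟨(u i0)⁻¹ * u i, hn i⟩ : A) * e i,
    inv_ne_zero h0, ?_, ?_, ?_⟩
  · rw [map_sum]
    intro h
    rw [Finset.sum_congr rfl (g := fun i => π ⟨(u i0)⁻¹ * u i, hn i⟩ • redA A π (e i))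
      (fun i _ => by rw [map_mul, redA_C, C_mul_eq_smul'])] at h
    have := (linearIndependent_iff'.1 hli) u.support (fun i => π ⟨(u i0)⁻¹ * u i, hn i⟩) h i0
      (Finsupp.mem_support_iff.2 h0)
    have h1 : (⟨(u i0)⁻¹ * u i0, hn i0⟩ : A) = 1 := Subtype.ext (inv_mul_cancel₀ h0)
    simp only [h1, map_one] at this
    exact one_ne_zero this
  · rw [map_sum]
    refine Submodule.sum_mem _ fun i _ => ?_
    rw [map_mul, redA_C, C_mul_eq_smul']
    exact Submodule.smul_mem _ _ (Submodule.subset_span ⟨i, rfl⟩)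
  · rw [Finsupp.linearCombination_apply, Finsupp.sum, Finset.mul_sum, map_sum]
    refine Finset.sum_congr rfl fun i _ => ?_
    rw [map_mul, iotaA_C, ← C_mul_eq_smul', ← mul_assoc, ← map_mul]

/-- lifts of `k`-independent series are `K`-independent -/
lemma linearIndependent_iotaA {ι : Type*} (e : ι → LaurentSeries A)
    (hli : LinearIndependent k fun i => redA A π (e i)) :
    LinearIndependent K fun i => iotaA A (e i) := by
  rw [linearIndependent_iff]
  intro u h
  by_contra hu
  obtain ⟨c, Y, -, hY, -, hc⟩ := exists_scale_linComb e hli hu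
  rw [h, mul_zero] at hc
  have : Y = 0 := iotaA_injective (by rw [← hc, map_zero])
  exact hY (by rw [this, map_zero])

lemma exists_scale_span {ι : Type*} (e : ι → LaurentSeries A)
    (hli : LinearIndependent k fun i => redA A π (e i)) {m : LaurentSeries K}
    (hm : m ∈ Submodule.span K (Set.range fun i => iotaA A (e i))) (hm0 : m ≠ 0) :
    ∃ (c : K) (Y : LaurentSeries A), c ≠ 0 ∧ redA A π Y ≠ 0 ∧
      redA A π Y ∈ Submodule.span k (Set.range fun i => redA A π (e i)) ∧
      HahnSeries.C c * m = iotaA A Y := by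
  obtain ⟨u, rfl⟩ := (Finsupp.mem_span_range_iff_exists_finsupp).1 hm
  have hu : u ≠ 0 := by
    rintro rfl
    simp at hm0
  have := exists_scale_linComb e hli hu
  rwa [Finsupp.linearCombination_apply] at this

lemma C_mem {k : Type*} [Field k] (E : IntermediateField k (LaurentSeries k)) (c : k) :
    (HahnSeries.C c : LaurentSeries k) ∈ E := by
  rw [← algebraMap_eq_C']
  exact E.algebraMap_mem c

/-- a surjection onto a field kills the nonunits -/
lemma map_eq_zero_of_not_isUnit (hπ : Function.Surjective π) (a : A) (ha : ¬ IsUnit a) :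
    π a = 0 := by
  have hker : RingHom.ker π = IsLocalRing.maximalIdeal A :=
    IsLocalRing.eq_maximalIdeal (RingHom.ker_isMaximal_of_surjective π hπ)
  have : a ∈ IsLocalRing.maximalIdeal A := (IsLocalRing.mem_maximalIdeal _).2 ha
  rw [← hker] at this
  exact this

lemma inv_mem_of_map_ne_zero (hπ : Function.Surjective π) {c : K} (hc : c ∈ A)
    (h : π ⟨c, hc⟩ ≠ 0) : c⁻¹ ∈ A := by
  have hu : IsUnit (⟨c, hc⟩ : A) := by
    by_contra hnu
    exact h (map_eq_zero_of_not_isUnit hπ _ hnu)
  obtain ⟨u, hu⟩ := hu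
  have h1 : c * (((u⁻¹ : Aˣ) : A) : K) = 1 := by
    have : (u : A) * ((u⁻¹ : Aˣ) : A) = 1 := by simp
    rw [hu] at this
    exact congrArg Subtype.val this
  rw [inv_eq_of_mul_eq_one_right h1]
  exact Subtype.mem _

/-- the hypotheses of the abstract construction -/
structure Hyp1 (π : A →+* k) (F : IntermediateField K (LaurentSeries K))
    (E : IntermediateField k (LaurentSeries k)) (n : ℕ) (y : LaurentSeries A)
    (B : Fin n → LaurentSeries A) : Prop where
  π_surj : Function.Surjective π
  y_mem : iotaA A y ∈ F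
  B_mem : ∀ i, iotaA A (B i) ∈ F
  ry_mem : redA A π y ∈ E
  rB_mem : ∀ i, redA A π (B i) ∈ E
  tr : Transcendental k (redA A π y)
  li : LinearIndependent k⟮redA A π y⟯ (fun i => redA A π (B i))
  fd : FiniteDimensional K⟮(⟨iotaA A y, y_mem⟩ : F)⟯ F
  deg : finrank K⟮(⟨iotaA A y, y_mem⟩ : F)⟯ F ≤ n
  gen : ∃ S : Set (LaurentSeries k), E = adjoin k S ∧
    ∀ s ∈ S, ∃ a : LaurentSeries A, iotaA A a ∈ F ∧ redA A π a = s

/-- the family `y ^ j * B i` -/
def eFam {n : ℕ} (y : LaurentSeries A) (B : Fin n → LaurentSeries A) :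
    ℕ × Fin n → LaurentSeries A := fun p => y ^ p.1 * B p.2

namespace Hyp1

variable {F : IntermediateField K (LaurentSeries K)} {E : IntermediateField k (LaurentSeries k)}
  {n : ℕ} {y : LaurentSeries A} {B : Fin n → LaurentSeries A} (H : Hyp1 π F E n y B)

/-- `y` as an element of `F` -/
def yF : F := ⟨iotaA A y, H.y_mem⟩

/-- `B i` as an element of `F` -/
def BF (i : Fin n) : F := ⟨iotaA A (B i), H.B_mem i⟩

include H in
lemma li_red : LinearIndependent k fun p => redA A π (eFam y B p) := by
  have := linearIndependent_pow_mul H.tr H.li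
  simpa only [eFam, map_mul, map_pow] using this

lemma li_F : LinearIndependent K fun p : ℕ × Fin n => H.yF ^ p.1 * H.BF p.2 := by
  have h1 := linearIndependent_iotaA _ H.li_red
  apply LinearIndependent.of_comp F.val.toLinearMap
  have : (F.val.toLinearMap ∘ fun p : ℕ × Fin n => H.yF ^ p.1 * H.BF p.2) =
      fun p => iotaA A (eFam y B p) := by
    ext1 p
    simp [eFam, yF, BF]
  rw [this]
  exact h1

lemma li_adj : LinearIndependent K⟮H.yF⟯ H.BF := linearIndependent_adjoin_of_pow_mul H.li_F

lemma fd' : FiniteDimensional K⟮H.yF⟯ F := H.fd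

lemma card_eq : Fintype.card (Fin n) = finrank K⟮H.yF⟯ F := by
  have := H.fd'
  have h1 := H.li_adj.fintype_card_le_finrank
  have h2 : finrank K⟮H.yF⟯ F ≤ n := H.deg
  rw [Fintype.card_fin] at h1 ⊢
  omega

/-- the `K(y)`-basis `B` of `F` -/
def basis : Basis (Fin n) K⟮H.yF⟯ F :=
  haveI := H.fd'
  basisOfLI H.li_adj H.card_eq

lemma basis_apply (i : Fin n) : H.basis i = H.BF i := by
  have := H.fd'
  exact basisOfLI_apply H.li_adj H.card_eq i

include H in
lemma span_le_E : Submodule.span k (Set.range fun p => redA A π (eFam y B p)) ≤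
    E.toSubalgebra.toSubmodule := by
  rw [Submodule.span_le]
  rintro _ ⟨p, rfl⟩
  show redA A π (eFam y B p) ∈ E
  rw [eFam, map_mul, map_pow]
  exact mul_mem (pow_mem H.ry_mem _) (H.rB_mem _)

include H in
lemma exists_scale_aeval {q : K[X]} (hq : q ≠ 0) :
    ∃ (c : K) (Y : LaurentSeries A), c ≠ 0 ∧ redA A π Y ≠ 0 ∧ redA A π Y ∈ E ∧
      HahnSeries.C c * aeval (iotaA A y) q = iotaA A Y := by
  have hpow : LinearIndependent k fun j : ℕ => redA A π (y ^ j) := by
    simpa only [map_pow] using linearIndependent_pow_of_transcendental H.tr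
  have hu : (Polynomial.basisMonomials K).repr q ≠ 0 := by simpa using hq
  obtain ⟨c, Y, hc, hY, hYs, h⟩ := exists_scale_linComb (fun j : ℕ => y ^ j) hpow hu
  refine ⟨c, Y, hc, hY, ?_, ?_⟩
  · have hle : Submodule.span k (Set.range fun j : ℕ => redA A π (y ^ j)) ≤
        E.toSubalgebra.toSubmodule := by
      rw [Submodule.span_le]
      rintro _ ⟨j, rfl⟩
      show redA A π (y ^ j) ∈ E
      rw [map_pow]
      exact pow_mem H.ry_mem _
    exact hle hYs
  · rw [aeval_eq_linComb, ← h]
    simp only [map_pow]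

include H in
/-- every nonzero element of `F` is a constant times a quotient of integral series with nonzero
reductions in `E`. -/
lemma exists_frac (f : F) (hf : f ≠ 0) :
    ∃ (c : K) (Y1 Y2 : LaurentSeries A), c ≠ 0 ∧ redA A π Y1 ≠ 0 ∧ redA A π Y2 ≠ 0 ∧
      redA A π Y1 ∈ E ∧ redA A π Y2 ∈ E ∧
      HahnSeries.C c * (f : LaurentSeries K) * iotaA A Y2 = iotaA A Y1 := by
  obtain ⟨q, hq, hm⟩ := exists_denominator H.basis f
  obtain ⟨c2, Y2, hc2, hY2, hY2E, h2⟩ := H.exists_scale_aeval hq
  have hcoe : ((aeval H.yF q : F) : LaurentSeries K) = aeval (iotaA A y) q :=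
    (IntermediateField.aeval_coe F H.yF q).symm
  have hq0 : (aeval H.yF q : F) ≠ 0 := by
    intro h0
    rw [h0] at hcoe
    rw [← hcoe] at h2
    have : Y2 = 0 := iotaA_injective (by rw [← h2]; simp)
    exact hY2 (by rw [this, map_zero])
  have hm1 : ((aeval H.yF q * f : F) : LaurentSeries K) ∈
      Submodule.span K (Set.range fun p => iotaA A (eFam y B p)) := by
    have h3 := Submodule.mem_map_of_mem (f := F.val.toLinearMap) hm
    rw [polySpan, Submodule.map_span, ← Set.range_comp] at h3
    have : (F.val.toLinearMap ∘ fun p : ℕ × Fin n => H.yF ^ p.1 * H.basis p.2) =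
        fun p => iotaA A (eFam y B p) := by
      ext1 p
      rw [Function.comp_apply, H.basis_apply]
      simp [eFam, yF, BF]
    rw [this] at h3
    exact h3
  have hm0 : ((aeval H.yF q * f : F) : LaurentSeries K) ≠ 0 := by
    intro h0
    exact mul_ne_zero hq0 hf (Subtype.ext h0)
  obtain ⟨c1, Y1, hc1, hY1, hY1s, h1⟩ := exists_scale_span _ H.li_red hm1 hm0
  refine ⟨c1 / c2, Y1, Y2, div_ne_zero hc1 hc2, hY1, hY2, H.span_le_E hY1s, hY2E, ?_⟩
  rw [← h1, ← h2, ← hcoe]
  have hC : (HahnSeries.C c2 : LaurentSeries K) ≠ 0 := by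
    rw [Ne, map_eq_zero]; exact hc2
  rw [map_div₀]
  push_cast
  field_simp

end Hyp1

end FA18.M1
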