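import Fermat.Agent.Red.M1B

/-!
# S18 / M1, part 3: the valuation ring, the reduction map and the reduction data
-/

set_option autoImplicit false

open ModularCurve Module IntermediateField Polynomial

noncomputable section

namespace FA18.M1

attribute [-instance] HahnSeries.instModule HahnSeries.instSMul HahnSeries.instSMulZeroClass
  HahnSeries.instDistribMulAction

variable {K : Type*} [Field K] {A : ValuationSubring K} {k : Type*} [Field k] {π : A →+* k}

namespace Hyp1

variable {F : IntermediateField K (LaurentSeries K)} {E : IntermediateField k (LaurentSeries k)}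
  {n : ℕ} {y : LaurentSeries A} {B : Fin n → LaurentSeries A} (H : Hyp1 π F E n y B)

/-- the valuation ring -/
def O : ValuationSubring F :=
  { (WS A π).comap (algebraMap F (LaurentSeries K)) with
    mem_or_inv_mem' := by
      intro f
      by_cases hf : f = 0
      · left
        rw [hf]
        exact Subring.zero_mem _
      obtain ⟨c, Y1, Y2, hc, hY1, hY2, -, -, h⟩ := H.exists_frac f hf
      have hf' : (f : LaurentSeries K) ≠ 0 := fun h0 => hf (Subtype.ext h0)
      have hC : (HahnSeries.C c : LaurentSeries K) ≠ 0 := by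
        rw [Ne, map_eq_zero]; exact hc
      rcases A.mem_or_inv_mem c with hcA | hcA
      · right
        refine ⟨HahnSeries.C (⟨c, hcA⟩ : A) * Y2, Y1, hY1, ?_⟩
        show ((f⁻¹ : F) : LaurentSeries K) * _ = _
        rw [← h, map_mul, iotaA_C]
        push_cast
        field_simp
      · left
        refine ⟨HahnSeries.C (⟨c⁻¹, hcA⟩ : A) * Y1, Y2, hY2, ?_⟩
        show (f : LaurentSeries K) * _ = _
        rw [map_mul, iotaA_C, ← h, map_inv₀]
        field_simp }

lemma mem_O_iff {f : F} : f ∈ H.O ↔ (f : LaurentSeries K) ∈ WS A π := Iff.rfl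

/-- the reduction map with values in `k((q))` -/
def ρL : H.O →+* LaurentSeries k :=
  (redW A π).comp (((algebraMap F (LaurentSeries K)).comp H.O.subtype).codRestrict (WS A π)
    (fun f => f.2))

lemma ρL_apply (f : H.O) : H.ρL f = redFun A π ((f : F) : LaurentSeries K) := rfl

lemma ρL_mem (f : H.O) : H.ρL f ∈ E := by
  by_cases hf : (f : F) = 0
  · have : f = 0 := Subtype.ext hf
    rw [this, map_zero]
    exact zero_mem _
  obtain ⟨c, Y1, Y2, hc, hY1, hY2, hE1, hE2, h⟩ := H.exists_frac f hf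
  have hC : (HahnSeries.C c : LaurentSeries K) ≠ 0 := by
    rw [Ne, map_eq_zero]; exact hc
  have hcA : c⁻¹ ∈ A := by
    rcases A.mem_or_inv_mem c with hcA | hcA
    · apply inv_mem_of_map_ne_zero H.π_surj hcA
      intro h0
      have h1 : (⟨_, C_mem_WS (π := π) hcA⟩ * ⟨_, f.2⟩ * ⟨_, iotaA_mem_WS (π := π) Y2⟩ : WS A π) =
          ⟨_, iotaA_mem_WS (π := π) Y1⟩ := Subtype.ext h
      have h2 := congrArg (redW A π) h1
      rw [map_mul, map_mul, redW_apply, redW_apply, redW_apply, redW_apply] at h2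
      simp only [redFun_C hcA, h0, map_zero, zero_mul, redFun_iotaA] at h2
      exact hY1 h2.symm
    · exact hcA
  have h3 : ((f : F) : LaurentSeries K) * iotaA A Y2 =
      iotaA A (HahnSeries.C (⟨c⁻¹, hcA⟩ : A) * Y1) := by
    rw [map_mul, iotaA_C, ← h, map_inv₀]
    field_simp
  rw [ρL_apply, redFun_eq hY2 h3, map_mul, redA_C]
  exact div_mem (mul_mem (C_mem E _) hE1) hE2

/-- the reduction map -/
def ρ : H.O →+* E := H.ρL.codRestrict E H.ρL_mem

lemma coe_ρ (f : H.O) : ((H.ρ f : E) : LaurentSeries k) = redFun A π ((f : F) : LaurentSeries K) :=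
  rfl

lemma iotaA_mem_O (Y : LaurentSeries A) (hY : iotaA A Y ∈ F) : (⟨iotaA A Y, hY⟩ : F) ∈ H.O :=
  iotaA_mem_WS Y

lemma coe_ρ_iotaA (Y : LaurentSeries A) (hY : iotaA A Y ∈ F) :
    ((H.ρ ⟨⟨iotaA A Y, hY⟩, H.iotaA_mem_O Y hY⟩ : E) : LaurentSeries k) = redA A π Y := by
  rw [coe_ρ]
  exact redFun_iotaA Y

lemma inv_mem_O {f : H.O} (hf : H.ρ f ≠ 0) : ((f : F))⁻¹ ∈ H.O := by
  have h1 : redFun A π ((f : F) : LaurentSeries K) ≠ 0 := by
    intro h0
    exact hf (Subtype.ext h0)
  have := inv_mem_of_redFun_ne_zero f.2 h1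
  rw [mem_O_iff]
  push_cast
  exact this

lemma ρ_surj : Function.Surjective H.ρ := by
  obtain ⟨S, hS, hgen⟩ := H.gen
  rintro ⟨z, hz⟩
  suffices h : ∃ f : H.O, H.ρL f = z by
    obtain ⟨f, hf⟩ := h
    exact ⟨f, Subtype.ext hf⟩
  rw [hS] at hz
  induction hz using adjoin_induction with
  | mem x hx =>
    obtain ⟨a, ha, rfl⟩ := hgen x hx
    exact ⟨⟨⟨iotaA A a, ha⟩, H.iotaA_mem_O a ha⟩, redFun_iotaA a⟩
  | algebraMap c =>
    obtain ⟨a, rfl⟩ := H.π_surj c
    refine ⟨⟨algebraMap K F a, ?_⟩, ?_⟩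
    · rw [mem_O_iff]
      show algebraMap K (LaurentSeries K) a ∈ _
      rw [algebraMap_eq_C']
      exact C_mem_WS a.2
    · rw [ρL_apply]
      show redFun A π (algebraMap K (LaurentSeries K) a) = _
      rw [algebraMap_eq_C', algebraMap_eq_C', redFun_C a.2]
  | add x y _ _ hx hy =>
    obtain ⟨f, rfl⟩ := hx
    obtain ⟨g, rfl⟩ := hy
    exact ⟨f + g, map_add _ _ _⟩
  | inv x _ hx =>
    obtain ⟨f, rfl⟩ := hx
    by_cases h0 : H.ρL f = 0
    · exact ⟨0, by rw [h0, map_zero, inv_zero]⟩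
    · have h1 : H.ρ f ≠ 0 := fun h => h0 (congrArg Subtype.val h)
      refine ⟨⟨_, H.inv_mem_O h1⟩, ?_⟩
      have hf0 : (f : F) ≠ 0 := by
        intro h
        apply h0
        have : f = 0 := Subtype.ext h
        rw [this, map_zero]
      have h2 : f * ⟨_, H.inv_mem_O h1⟩ = 1 := Subtype.ext (mul_inv_cancel₀ hf0)
      have h3 := congrArg H.ρL h2
      rw [map_mul, map_one] at h3
      exact (inv_eq_of_mul_eq_one_right h3).symm
  | mul x y _ _ hx hy =>
    obtain ⟨f, rfl⟩ := hx
    obtain ⟨g, rfl⟩ := hy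
    exact ⟨f * g, map_mul _ _ _⟩

lemma redBase : RedBase A H.O π H.ρ where
  pi_surj := H.π_surj
  rho_surj := H.ρ_surj
  mem_iff := by
    intro a
    rw [mem_O_iff]
    show algebraMap K (LaurentSeries K) a ∈ _ ↔ _
    rw [algebraMap_eq_C']
    exact ⟨mem_of_C_mem_WS (map_eq_zero_of_not_isUnit H.π_surj), C_mem_WS⟩
  compat := by
    intro a ha h
    apply Subtype.ext
    rw [coe_ρ]
    show redFun A π (algebraMap K (LaurentSeries K) a) = algebraMap k (LaurentSeries k) _
    rw [algebraMap_eq_C', algebraMap_eq_C', redFun_C ha]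

lemma yF_mem_O : H.yF ∈ H.O := H.iotaA_mem_O y H.y_mem

/-- the reduction of `y` as an element of `E` -/
def yE : E := ⟨redA A π y, H.ry_mem⟩

lemma ext0_yF : ext0 H.O H.ρ H.yF = H.yE := by
  rw [ext0_of_mem _ H.yF_mem_O]
  exact Subtype.ext (H.coe_ρ_iotaA y H.y_mem)

lemma tr_yE : Transcendental k H.yE := by
  intro h
  exact H.tr (h.algebraMap (A := LaurentSeries k))

lemma fd_yE : FiniteDimensional k⟮H.yE⟯ E := by
  have := H.fd'
  have h := finiteDimensional_adjoin_ext0 H.redBase H.yF_mem_O (by rw [ext0_yF]; exact H.tr_yE)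
  rwa [ext0_yF] at h

lemma le_finrank_yE : n ≤ finrank k⟮H.yE⟯ E := by
  have := H.fd_yE
  have hli : LinearIndependent k⟮H.yE⟯ (fun i => (⟨redA A π (B i), H.rB_mem i⟩ : E)) := by
    apply linearIndependent_adjoin_of_pow_mul
    apply LinearIndependent.of_comp E.val.toLinearMap
    have : (E.val.toLinearMap ∘ fun p : ℕ × Fin n =>
        H.yE ^ p.1 * (⟨redA A π (B p.2), H.rB_mem p.2⟩ : E)) =
        fun p => redA A π (eFam y B p) := by
      ext1 p
      simp [eFam, yE]
    rw [this]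
    exact H.li_red
  simpa using hli.fintype_card_le_finrank

lemma hasDeg_yF : HasDeg K k H.ρ H.yF := by
  refine ⟨H.yF_mem_O, ?_, H.fd', ?_⟩
  · rw [ext0_yF]; exact H.tr_yE
  · rw [ext0_yF]
    exact le_trans H.deg H.le_finrank_yE

end Hyp1

end FA18.M1

namespace FA18.M1

variable {K : Type*} [Field K] {A : ValuationSubring K} {k : Type*} [Field k] {π : A →+* k}

namespace Hyp1

variable {F : IntermediateField K (LaurentSeries K)} {E : IntermediateField k (LaurentSeries k)}
  {n : ℕ} {y : LaurentSeries A} {B : Fin n → LaurentSeries A} (H : Hyp1 π F E n y B)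

/-- the reduction data -/
def redData : RedData A π F E where
  π_surj := H.π_surj
  O := H.O
  ρ := H.ρ
  ρ_surj := H.ρ_surj
  algebraMap_mem_iff := H.redBase.mem_iff
  ρ_algebraMap := fun a h => H.redBase.compat a a.2 h
  scale := by
    intro x hx
    obtain ⟨c, hc, h⟩ := exists_scale H.redBase H.hasDeg_yF hx
    have hm := mem_of_ext0_ne_zero _ h
    rw [ext0_of_mem _ hm] at h
    rw [Algebra.smul_def] at hm
    exact ⟨c, hc, hm, h⟩
  deg := by
    obtain ⟨h1, h2, -, h4⟩ := H.hasDeg_yF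
    rw [ext0_of_mem _ h1] at h2 h4
    exact ⟨⟨H.yF, h1⟩, h2, h4⟩

end Hyp1

end FA18.M1
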