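import Mathlib

/-!
# S18-NS (N1), (N5 algebra): traces of integral elements; recovering an element from its traces
-/

set_option autoImplicit false

namespace FA18

section N1

variable {R L E : Type*} [CommRing R] [IsDomain R] [IsIntegrallyClosed R] [Field L] [Algebra R L]
  [IsFractionRing R L] [Field E] [Algebra L E] [Algebra R E] [IsScalarTower R L E]

omit [IsDomain R] in
/-- (N1a) the trace of an integral element lies in the base ring. -/
theorem exists_trace_eq_of_isIntegral [FiniteDimensional L E] {Y : E} (hY : IsIntegral R Y) :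
    ∃ w : R, Algebra.trace L E Y = algebraMap R L w := by
  obtain ⟨w, hw⟩ := IsIntegrallyClosed.isIntegral_iff.mp (Algebra.isIntegral_trace (L := L) hY)
  exact ⟨w, hw.symm⟩

/-- (N1b) if a power of the integral element `Y` is divisible by the prime `p` (in the integral
closure) then the trace of `Y` is divisible by `p`. -/
theorem exists_trace_eq_mul_of_pow_eq [FiniteDimensional L E] [Algebra.IsSeparable L E]
    {p : R} (hp : Prime p) {Y Z : E} (hY : IsIntegral R Y) (hZ : IsIntegral R Z) {n : ℕ}
    (h : Y ^ n = algebraMap R E p * Z) :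
    ∃ w : R, Algebra.trace L E Y = algebraMap R L (p * w) := by
  classical
  obtain ⟨t, ht⟩ := exists_trace_eq_of_isIntegral (L := L) hY
  let Ω := AlgebraicClosure L
  let O : Subalgebra R Ω := integralClosure R Ω
  let I : Ideal O := Ideal.span {algebraMap R O p}
  have hmem : ∀ (σ : E →ₐ[L] Ω) (X : E), IsIntegral R X → σ X ∈ O := fun σ X hX =>
    hX.map (σ.restrictScalars R)
  have hrad : ∀ σ : E →ₐ[L] Ω, (⟨σ Y, hmem σ Y hY⟩ : O) ∈ I.radical := by
    intro σ
    refine ⟨n, Ideal.mem_span_singleton.mpr ⟨⟨σ Z, hmem σ Z hZ⟩, ?_⟩⟩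
    apply Subtype.ext
    change (σ Y) ^ n = algebraMap R Ω p * σ Z
    rw [← map_pow, h, map_mul]
    congr 1
    rw [IsScalarTower.algebraMap_apply R L E, AlgHom.commutes,
      ← IsScalarTower.algebraMap_apply R L Ω]
  have hsum : (∑ σ : E →ₐ[L] Ω, (⟨σ Y, hmem σ Y hY⟩ : O)) ∈ I.radical :=
    Ideal.sum_mem _ fun σ _ => hrad σ
  obtain ⟨M, hM⟩ := hsum
  obtain ⟨w', hw'⟩ := Ideal.mem_span_singleton.mp hM
  have hval : ((∑ σ : E →ₐ[L] Ω, (⟨σ Y, hmem σ Y hY⟩ : O) : O) : Ω) = algebraMap R Ω t := by
    rw [IsScalarTower.algebraMap_apply R L Ω, ← ht, trace_eq_sum_embeddings Ω]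
    simp
  have hw2 : algebraMap R Ω (t ^ M) = algebraMap R Ω p * (w' : Ω) := by
    have := congrArg (Subtype.val : O → Ω) hw'
    rw [map_pow, ← hval]
    exact this
  have hp0 : algebraMap R L p ≠ 0 := by
    rw [Ne, map_eq_zero_iff _ (IsFractionRing.injective R L)]
    exact hp.ne_zero
  have hw3 : (w' : Ω) = algebraMap L Ω (algebraMap R L (t ^ M) / algebraMap R L p) := by
    rw [map_div₀, ← IsScalarTower.algebraMap_apply R L Ω, ← IsScalarTower.algebraMap_apply R L Ω,
      hw2, mul_div_cancel_left₀]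
    rw [IsScalarTower.algebraMap_apply R L Ω]
    exact (map_ne_zero _).mpr hp0
  have hint : IsIntegral R (algebraMap R L (t ^ M) / algebraMap R L p) := by
    have h1 : IsIntegral R (w' : Ω) := w'.2
    rw [hw3] at h1
    exact (isIntegral_algebraMap_iff (algebraMap L Ω).injective).mp h1
  obtain ⟨w'', hw''⟩ := IsIntegrallyClosed.isIntegral_iff.mp hint
  have hdvd : p ∣ t ^ M := by
    refine ⟨w'', ?_⟩
    apply IsFractionRing.injective R L
    rw [map_mul, hw'', mul_div_cancel₀ _ hp0]
  obtain ⟨w, rfl⟩ := hp.dvd_of_dvd_pow hdvd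
  exact ⟨w, ht⟩

end N1

section N5

variable {L E : Type*} [Field L] [Field E] [Algebra L E] {ι : Type*} [Fintype ι] [DecidableEq ι]

omit [DecidableEq ι] in
/-- the traces `tr (y b_i)` in terms of the coordinates of `y`. -/
theorem trace_mul_basis_eq (b : Module.Basis ι L E) (y : E) (i : ι) :
    Algebra.trace L E (y * b i) = ((Algebra.traceMatrix L b).mulVec (b.repr y)) i := by
  conv_lhs => rw [← b.sum_repr y]
  rw [Finset.sum_mul, map_sum, Matrix.mulVec, dotProduct]
  refine Finset.sum_congr rfl fun j _ => ?_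
  rw [smul_mul_assoc, map_smul, smul_eq_mul, Algebra.traceMatrix_apply, Algebra.traceForm_apply,
    mul_comm (b j) (b i), mul_comm]

/-- (N5, Cramer) `det D • y = ∑_j (∑_i adj(D)_{ji} tr (y b_i)) b_j`. -/
theorem det_traceMatrix_smul_eq (b : Module.Basis ι L E) (y : E) :
    (Algebra.traceMatrix L b).det • y =
      ∑ j, (∑ i, (Algebra.traceMatrix L b).adjugate j i * Algebra.trace L E (y * b i)) • b j := by
  set D := Algebra.traceMatrix L b with hD
  have h1 : ∀ j, ∑ i, D.adjugate j i * Algebra.trace L E (y * b i) = D.det * b.repr y j := by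
    intro j
    have : (D.adjugate.mulVec (D.mulVec (b.repr y))) j = D.det * b.repr y j := by
      rw [Matrix.mulVec_mulVec, Matrix.adjugate_mul, Matrix.smul_mulVec, Matrix.one_mulVec]
      rfl
    rw [← this, Matrix.mulVec, dotProduct]
    exact Finset.sum_congr rfl fun i _ => by rw [trace_mul_basis_eq]
  simp_rw [h1, mul_smul]
  rw [← Finset.smul_sum, b.sum_repr]

/-- (N5, abstract form) `O` a subring of `E` containing the basis, the traces `tr (b_i b_j)` and the
inverse of the discriminant; `I` an `O`-submodule of `E`.  If all `tr (y b_i)` lie in `I`, so does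
`y`. -/
theorem mem_of_trace_mul_basis_mem (b : Module.Basis ι L E) (O : Subring E) (I : Submodule O E)
    (hb : ∀ i, b i ∈ O) (hD : ∀ i j, algebraMap L E (Algebra.trace L E (b i * b j)) ∈ O)
    (hd : (algebraMap L E (Algebra.traceMatrix L b).det)⁻¹ ∈ O)
    (hd0 : (Algebra.traceMatrix L b).det ≠ 0) (y : E)
    (hy : ∀ i, algebraMap L E (Algebra.trace L E (y * b i)) ∈ I) : y ∈ I := by
  set D := Algebra.traceMatrix L b with hDdef
  have hsm : ∀ (a x : E), a ∈ O → x ∈ I → a * x ∈ I := fun a x ha hx =>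
    I.smul_mem (⟨a, ha⟩ : O) hx
  have hadj : ∀ j i, algebraMap L E (D.adjugate j i) ∈ O := by
    intro j i
    rw [Matrix.adjugate_apply, Matrix.det_apply, map_sum]
    refine Subring.sum_mem _ fun σ _ => ?_
    rw [Units.smul_def, zsmul_eq_mul, map_mul, map_intCast, map_prod]
    refine O.mul_mem (intCast_mem O _) (Subring.prod_mem _ fun l _ => ?_)
    rw [Matrix.updateRow_apply]
    split_ifs with hl
    · rw [Pi.single_apply]
      split_ifs
      · rw [map_one]; exact O.one_mem
      · rw [map_zero]; exact O.zero_mem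
    · exact hD _ _
  have key := det_traceMatrix_smul_eq b y
  have hy' : y = (algebraMap L E D.det)⁻¹ *
      ∑ j, (∑ i, algebraMap L E (D.adjugate j i) * algebraMap L E (Algebra.trace L E (y * b i))) *
        b j := by
    have h0 : algebraMap L E D.det ≠ 0 := (map_ne_zero _).mpr hd0
    rw [eq_inv_mul_iff_mul_eq₀ h0, ← Algebra.smul_def, key]
    refine Finset.sum_congr rfl fun j _ => ?_
    rw [Algebra.smul_def, map_sum]
    simp_rw [map_mul]
    rfl
  rw [hy']
  refine hsm _ _ hd (Submodule.sum_mem _ fun j _ => ?_)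
  rw [mul_comm]
  refine hsm _ _ (hb j) (Submodule.sum_mem _ fun i _ => ?_)
  exact hsm _ _ (hadj j i) (hy i)

end N5

end FA18
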