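import Fermat.Agent.Red.NSTrace

/-!
# S18-NS (b): the residue-theorem step, via traces
-/

set_option autoImplicit false

namespace FAR

open AlgebraicCurve IntermediateField Polynomial FA24

variable {k E : Type*} [Field k] [Field E] [Algebra k E]

theorem OrdGE.of_mul {v : Place k E} {f t : E} {n : ℤ} (ht : t ≠ 0)
    (h : OrdGE v (f * t) (n + v.ord t)) : OrdGE v f n := by
  rcases eq_or_ne f 0 with rfl | hf
  · exact OrdGE.zero v n
  · have h1 := h.le (mul_ne_zero hf ht)
    rw [v.ord_mul hf ht] at h1
    exact Or.inr (by omega)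

theorem OrdGE.ord_nonneg {v : Place k E} {f : E} (h : OrdGE v f 0) : 0 ≤ v.ord f := by
  rcases h with rfl | h
  · simp
  · exact h

theorem transcendental_sub_const {h : E} (htr : Transcendental k h) (c : k) :
    Transcendental k (h - algebraMap k E c) := by
  intro halg
  apply htr
  have := halg.add (isAlgebraic_algebraMap (A := E) c)
  simpa using this

theorem adjoin_sub_const_eq (h : E) (c : k) : k⟮h - algebraMap k E c⟯ = k⟮h⟯ := by
  apply le_antisymm
  · rw [adjoin_simple_le_iff]
    exact sub_mem (mem_adjoin_simple_self k h) (IntermediateField.algebraMap_mem _ c)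
  · rw [adjoin_simple_le_iff]
    have := add_mem (mem_adjoin_simple_self k (h - algebraMap k E c))
      (IntermediateField.algebraMap_mem k⟮h - algebraMap k E c⟯ c)
    simpa using this

/-- a place lies over at most one value of `h`. -/
theorem value_unique {h : E} {Q : Place k E} {a c : k} (ha : 0 < Q.ord (h - algebraMap k E a))
    (hc : 0 < Q.ord (h - algebraMap k E c)) : a = c := by
  by_contra hac
  have h1 : OrdGE Q ((h - algebraMap k E c) - (h - algebraMap k E a)) 1 :=
    (OrdGE.of_le (by omega)).sub (OrdGE.of_le (by omega))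
  have h2 : (h - algebraMap k E c) - (h - algebraMap k E a) = algebraMap k E (a - c) := by
    rw [map_sub]; ring
  rw [h2] at h1
  rcases h1 with h1 | h1
  · exact hac (sub_eq_zero.1 ((map_eq_zero _).1 h1))
  · rw [FAFF.ord_algebraMap] at h1
    omega

theorem ord_nonneg_of_value {h : E} {Q : Place k E} {a : k}
    (ha : 0 < Q.ord (h - algebraMap k E a)) : 0 ≤ Q.ord h := by
  have h1 : OrdGE Q ((h - algebraMap k E a) + algebraMap k E a) 0 :=
    (OrdGE.of_le (by omega)).add (OrdGE.algebraMap Q a)
  rw [sub_add_cancel] at h1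
  exact h1.ord_nonneg

section tr

variable (h : E)

theorem trace_mul_of_mem {r : E} (hr : r ∈ k⟮h⟯) (y : E) :
    algebraMap k⟮h⟯ E (Algebra.trace k⟮h⟯ E (y * r)) =
      r * algebraMap k⟮h⟯ E (Algebra.trace k⟮h⟯ E y) := by
  have h1 : y * r = (⟨r, hr⟩ : k⟮h⟯) • y := by
    rw [Algebra.smul_def, mul_comm]; rfl
  rw [h1, map_smul, smul_eq_mul, map_mul]
  rfl

end tr

variable [IsAlgClosed k]

/-- avoiding finitely many places and the poles of finitely many functions. -/
theorem exists_good_value (hFF : IsFF k E) (h : E) (S : Finset (Place k E)) (A : Finset E) :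
    ∃ a : k, ∀ Q : Place k E, 0 < Q.ord (h - algebraMap k E a) →
      Q ∉ S ∧ ∀ f ∈ A, OrdGE Q f 0 := by
  classical
  let Z : Set (Place k E) := ↑S ∪ ⋃ f ∈ A, {Q : Place k E | Q.ord f ≠ 0}
  have hZ : Z.Finite :=
    S.finite_toSet.union (A.finite_toSet.biUnion fun f _ => finite_support_ord hFF f)
  let Bad : Set k := ⋃ Q ∈ Z, {a : k | 0 < Q.ord (h - algebraMap k E a)}
  have hBad : Bad.Finite := by
    refine hZ.biUnion fun Q _ => Set.Subsingleton.finite ?_
    intro a ha c hc
    exact value_unique ha hc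
  obtain ⟨a, ha⟩ := hBad.infinite_compl.nonempty
  refine ⟨a, fun Q hQ => ?_⟩
  have hQZ : Q ∉ Z := by
    intro hQZ
    apply ha
    simp only [Bad, Set.mem_iUnion]
    exact ⟨Q, hQZ, hQ⟩
  simp only [Z, Set.mem_union, Set.mem_iUnion, not_or, not_exists] at hQZ
  refine ⟨by simpa using hQZ.1, fun f hf => Or.inr ?_⟩
  have := hQZ.2 f hf
  simp only [Set.mem_ofPred_eq, not_not] at this
  omega

section step

variable (hFF : IsFF k E) (h : E) (htr : Transcendental k h)
  [FiniteDimensional k⟮h⟯ E] [Algebra.IsSeparable k⟮h⟯ E]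

local notation "tr" => fun y : E => algebraMap k⟮h⟯ E (Algebra.trace k⟮h⟯ E y)

include hFF htr in
/-- a "differential" `w dh` with at most one simple pole, at `P` over `a`, has trace zero. -/
theorem trace_eq_zero_of_simple_pole (w : E) (P : Place k E) (a : k)
    (hPa : 0 < P.ord (h - algebraMap k E a))
    (hfin : ∀ (Q : Place k E) (c : k), Q ≠ P → 0 < Q.ord (h - algebraMap k E c) →
      OrdGE Q (w * (h - algebraMap k E c)) 1)
    (hinf : ∀ Q : Place k E, Q.ord h < 0 → OrdGE Q (w * h) 1)
    (hP : OrdGE P (w * (h - algebraMap k E a)) 0) :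
    algebraMap k⟮h⟯ E (Algebra.trace k⟮h⟯ E w) = 0 := by
  set T := algebraMap k⟮h⟯ E (Algebra.trace k⟮h⟯ E w) with hT
  have hh0 : h ≠ 0 := fun h0 => htr (h0 ▸ isAlgebraic_zero)
  have hmem : ∀ c : k, h - algebraMap k E c ∈ k⟮h⟯ := fun c =>
    sub_mem (mem_adjoin_simple_self k h) (IntermediateField.algebraMap_mem _ c)
  have hne : ∀ c : k, h - algebraMap k E c ≠ 0 := fun c h0 =>
    transcendental_sub_const htr c (h0 ▸ isAlgebraic_zero)
  set R := (h - algebraMap k E a) * T with hR
  -- poles of `h`
  have hRinf : ∀ v : Place k E, v.ord h < 0 → OrdGE v R 1 := by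
    intro v hv
    have h1 : OrdGE v (algebraMap k⟮h⟯ E (Algebra.trace k⟮h⟯ E (w * h))) (v.ord h⁻¹) := by
      refine trace_ordGE_one hFF h h⁻¹ (transcendental_inv htr) (adjoin_inv_eq h) (w * h) ?_ v
        (by rw [v.ord_inv]; omega)
      intro Q hQ
      exact hinf Q (by rw [Q.ord_inv] at hQ; omega)
    rw [trace_mul_of_mem h (mem_adjoin_simple_self k h), ← hT, v.ord_inv, mul_comm] at h1
    have h2 : OrdGE v T (-2 * v.ord h) := OrdGE.of_mul hh0 (h1.mono (by omega))
    have h3 : OrdGE v (h - algebraMap k E a) (v.ord h) :=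
      (OrdGE.of_le le_rfl).sub ((OrdGE.algebraMap v a).mono (by omega))
    exact (h3.mul h2).mono (by omega)
  have hRall : ∀ v : Place k E, OrdGE v R 0 := by
    intro v
    rcases lt_or_ge (v.ord h) 0 with hv | hv
    · exact (hRinf v hv).mono (by omega)
    obtain ⟨c, hc | hc⟩ := exists_const hFF v h hv
    · exact absurd (hc ▸ isAlgebraic_algebraMap (A := E) c) htr
    by_cases hca : c = a
    · subst hca
      have h1 := trace_ordGE_zero hFF h (h - algebraMap k E c) (transcendental_sub_const htr c)
        (adjoin_sub_const_eq h c) (w * (h - algebraMap k E c)) (by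
          intro Q hQ
          by_cases hQP : Q = P
          · subst hQP; exact hP
          · exact (hfin Q c hQP hQ).mono (by omega)) v hc
      rwa [trace_mul_of_mem h (hmem c)] at h1
    · have hvP : v ≠ P := by
        rintro rfl
        exact hca (value_unique hc hPa)
      have h1 := trace_ordGE_one hFF h (h - algebraMap k E c) (transcendental_sub_const htr c)
        (adjoin_sub_const_eq h c) (w * (h - algebraMap k E c)) (by
          intro Q hQ
          have hQP : Q ≠ P := by
            rintro rfl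
            exact hca (value_unique hQ hPa)
          exact hfin Q c hQP hQ) v hc
      rw [trace_mul_of_mem h (hmem c), ← hT, mul_comm] at h1
      have h2 : OrdGE v T 0 := OrdGE.of_mul (hne c) (h1.mono (by omega))
      have h3 : OrdGE v (h - algebraMap k E a) 0 :=
        (OrdGE.of_le hv).sub (OrdGE.algebraMap v a)
      simpa using h3.mul h2
  have hR0 : R = 0 := by
    have h1 : R ∈ riemannRochSpace (0 : Divisor k E) := by
      rw [mem_L_iff]
      intro v
      simpa using hRall v
    obtain ⟨c, hc⟩ := (mem_L_zero_iff hFF).1 h1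
    obtain ⟨v, hv⟩ := exists_place_neg hFF h htr
    rcases hRinf v hv with h2 | h2
    · exact h2
    · rw [← hc, FAFF.ord_algebraMap] at h2
      omega
  exact (mul_eq_zero.1 hR0).resolve_left (hne a)

include hFF htr in
/-- if moreover `a` is good for a basis `b` and its trace-dual, then `w dh` is regular at `P`. -/
theorem ordGE_of_simple_pole {ι : Type*} [Fintype ι] [DecidableEq ι]
    (b : Module.Basis ι k⟮h⟯ E) (w : E) (P : Place k E) (a : k)
    (hPa : 0 < P.ord (h - algebraMap k E a))
    (hfin : ∀ (Q : Place k E) (c : k), Q ≠ P → 0 < Q.ord (h - algebraMap k E c) →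
      OrdGE Q (w * (h - algebraMap k E c)) 1)
    (hinf : ∀ Q : Place k E, Q.ord h < 0 → OrdGE Q (w * h) 1)
    (hP : OrdGE P (w * (h - algebraMap k E a)) 0)
    (hb : ∀ (i : ι) (Q : Place k E), 0 < Q.ord (h - algebraMap k E a) → OrdGE Q (b i) 0)
    (hb' : ∀ i : ι, OrdGE P ((Algebra.traceForm k⟮h⟯ E).dualBasis
      (traceForm_nondegenerate k⟮h⟯ E) b i) 0) :
    OrdGE P w 0 := by
  have hT := trace_eq_zero_of_simple_pole hFF h htr w P a hPa hfin hinf hP
  have hmem : ∀ c : k, h - algebraMap k E c ∈ k⟮h⟯ := fun c =>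
    sub_mem (mem_adjoin_simple_self k h) (IntermediateField.algebraMap_mem _ c)
  have hne : ∀ c : k, h - algebraMap k E c ≠ 0 := fun c h0 =>
    transcendental_sub_const htr c (h0 ▸ isAlgebraic_zero)
  set y := w * (h - algebraMap k E a) with hy
  have hTy : algebraMap k⟮h⟯ E (Algebra.trace k⟮h⟯ E y) = 0 := by
    rw [hy, trace_mul_of_mem h (hmem a), hT, mul_zero]
  have hcoef : ∀ i : ι, OrdGE P (algebraMap k⟮h⟯ E (Algebra.trace k⟮h⟯ E (y * b i)))
      (P.ord (h - algebraMap k E a)) := by
    intro i
    obtain ⟨c, hc⟩ := exists_const hFF P (b i) (hb i P hPa).ord_nonneg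
    have hc' : OrdGE P (b i - algebraMap k E c) 1 := by
      rcases hc with hc | hc
      · left; rw [hc, sub_self]
      · right; omega
    have h1 := trace_ordGE_one hFF h (h - algebraMap k E a) (transcendental_sub_const htr a)
      (adjoin_sub_const_eq h a) (y * (b i - algebraMap k E c)) (by
        intro Q hQ
        by_cases hQP : Q = P
        · subst hQP
          simpa using hP.mul hc'
        · have h2 : OrdGE Q (b i - algebraMap k E c) 0 := (hb i Q hQ).sub (OrdGE.algebraMap Q c)
          simpa using (hfin Q a hQP hQ).mul h2) P hPa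
    have h3 : algebraMap k⟮h⟯ E (Algebra.trace k⟮h⟯ E (y * (b i - algebraMap k E c))) =
        algebraMap k⟮h⟯ E (Algebra.trace k⟮h⟯ E (y * b i)) := by
      rw [mul_sub, map_sub, map_sub, trace_mul_of_mem h (IntermediateField.algebraMap_mem _ c),
        hTy, mul_zero, sub_zero]
    rwa [h3] at h1
  have hsum : y = ∑ i, algebraMap k⟮h⟯ E (Algebra.trace k⟮h⟯ E (y * b i)) *
      (Algebra.traceForm k⟮h⟯ E).dualBasis (traceForm_nondegenerate k⟮h⟯ E) b i := by
    conv_lhs => rw [← ((Algebra.traceForm k⟮h⟯ E).dualBasis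
      (traceForm_nondegenerate k⟮h⟯ E) b).sum_repr y]
    refine Finset.sum_congr rfl fun i _ => ?_
    rw [LinearMap.BilinForm.dualBasis_repr_apply, Algebra.traceForm_apply, Algebra.smul_def]
  have hyP : OrdGE P y (0 + P.ord (h - algebraMap k E a)) := by
    rw [hsum]
    refine OrdGE.sum _ fun i _ => ?_
    have := (hcoef i).mul (hb' i)
    rwa [add_zero, ← zero_add (P.ord (h - algebraMap k E a))] at this
  exact OrdGE.of_mul (hne a) hyP

end step

end FAR
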