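import Fermat.Agent.Red.RPlace

/-!
# S18-G1 (c): the predicate `OrdGE` and the weak approximation theorem
(no hypothesis on `K`, `F`)
-/

set_option autoImplicit false

namespace FAR

open AlgebraicCurve

variable {K F : Type*} [Field K] [Field F] [Algebra K F]

/-- `ord_v f ≥ n`, with the convention `ord_v 0 = ∞`. -/
def OrdGE (v : Place K F) (f : F) (n : ℤ) : Prop := f = 0 ∨ n ≤ v.ord f

theorem OrdGE.zero (v : Place K F) (n : ℤ) : OrdGE v 0 n := Or.inl rfl

theorem OrdGE.of_le {v : Place K F} {f : F} {n : ℤ} (h : n ≤ v.ord f) : OrdGE v f n := Or.inr h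

theorem OrdGE.le {v : Place K F} {f : F} {n : ℤ} (h : OrdGE v f n) (hf : f ≠ 0) : n ≤ v.ord f :=
  h.resolve_left hf

theorem OrdGE.mono {v : Place K F} {f : F} {m n : ℤ} (h : OrdGE v f n) (hmn : m ≤ n) :
    OrdGE v f m := h.imp id fun h' => hmn.trans h'

theorem OrdGE.add {v : Place K F} {f g : F} {n : ℤ} (hf : OrdGE v f n) (hg : OrdGE v g n) :
    OrdGE v (f + g) n := by
  rcases eq_or_ne f 0 with rfl | hf0
  · simpa using hg
  rcases eq_or_ne g 0 with rfl | hg0
  · simpa using hf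
  rcases eq_or_ne (f + g) 0 with h0 | h0
  · exact Or.inl h0
  · exact Or.inr ((le_min (hf.le hf0) (hg.le hg0)).trans (FAFF.min_ord_le_ord_add v hf0 hg0 h0))

theorem OrdGE.neg {v : Place K F} {f : F} {n : ℤ} (hf : OrdGE v f n) : OrdGE v (-f) n := by
  rcases hf with rfl | h
  · simp [OrdGE]
  · exact Or.inr (by rwa [FAFF.ord_neg])

theorem OrdGE.sub {v : Place K F} {f g : F} {n : ℤ} (hf : OrdGE v f n) (hg : OrdGE v g n) :
    OrdGE v (f - g) n := by
  rw [sub_eq_add_neg]
  exact hf.add hg.neg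

theorem OrdGE.mul {v : Place K F} {f g : F} {m n : ℤ} (hf : OrdGE v f m) (hg : OrdGE v g n) :
    OrdGE v (f * g) (m + n) := by
  rcases eq_or_ne f 0 with rfl | hf0
  · simp [OrdGE]
  rcases eq_or_ne g 0 with rfl | hg0
  · simp [OrdGE]
  · exact Or.inr (by rw [v.ord_mul hf0 hg0]; exact add_le_add (hf.le hf0) (hg.le hg0))

theorem OrdGE.sum {v : Place K F} {ι : Type*} (s : Finset ι) {f : ι → F} {n : ℤ}
    (h : ∀ i ∈ s, OrdGE v (f i) n) : OrdGE v (∑ i ∈ s, f i) n := by
  classical
  induction s using Finset.induction_on with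
  | empty => simp [OrdGE]
  | insert a s ha ih =>
    rw [Finset.sum_insert ha]
    exact (h a (Finset.mem_insert_self a s)).add
      (ih fun i hi => h i (Finset.mem_insert_of_mem hi))

theorem OrdGE.algebraMap (v : Place K F) (a : K) : OrdGE v (algebraMap K F a) 0 :=
  Or.inr (FAFF.ord_algebraMap v a).ge

theorem OrdGE.smul {v : Place K F} {f : F} {n : ℤ} (a : K) (hf : OrdGE v f n) :
    OrdGE v (a • f) n := by
  rw [Algebra.smul_def]
  simpa using (OrdGE.algebraMap v a).mul hf

theorem OrdGE.pow {v : Place K F} {f : F} {n : ℤ} (hf : OrdGE v f n) (k : ℕ) :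
    OrdGE v (f ^ k) (k * n) := by
  induction k with
  | zero => exact Or.inr (by simp)
  | succ k ih =>
    rw [pow_succ]
    have := ih.mul hf
    convert this using 1
    push_cast
    ring

theorem OrdGE.aeval {v : Place K F} {x : F} (hx : OrdGE v x 0) (p : Polynomial K) :
    OrdGE v (Polynomial.aeval x p) 0 := by
  rw [Polynomial.aeval_eq_sum_range]
  refine OrdGE.sum _ fun i _ => OrdGE.smul _ ?_
  simpa using hx.pow i

theorem ord_pow (v : Place K F) (f : F) (k : ℕ) : v.ord (f ^ k) = k * v.ord f := by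
  have := v.ord_zpow f k
  simpa using this

/-- a dominant term determines the order. -/
theorem ord_add_of_ordGE {v : Place K F} {f g : F} (hf : f ≠ 0) (hg : OrdGE v g (v.ord f + 1)) :
    f + g ≠ 0 ∧ v.ord (f + g) = v.ord f := by
  rcases eq_or_ne g 0 with rfl | hg0
  · simpa using hf
  have hlt : v.ord f < v.ord g := by have := hg.le hg0; omega
  refine ⟨?_, FAFF.ord_add_eq_of_lt v hf hg0 hlt⟩
  intro h0
  have : g = -f := by linear_combination h0
  rw [this, FAFF.ord_neg] at hlt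
  omega

theorem exists_uniformizer (v : Place K F) : ∃ t : F, t ≠ 0 ∧ v.ord t = 1 := by
  obtain ⟨π, hπ⟩ := FAFF.exists_irreducible v
  exact ⟨π, FAFF.coe_ne_zero_of_irreducible v hπ, v.ord_coe_irreducible hπ⟩

/-- W1 -/
theorem exists_pos_neg {v w : Place K F} (hvw : v ≠ w) :
    ∃ u : F, u ≠ 0 ∧ 0 < v.ord u ∧ w.ord u < 0 := by
  have h1 : ∃ y : F, y ≠ 0 ∧ 0 ≤ v.ord y ∧ w.ord y < 0 := by
    by_contra hcon
    push Not at hcon
    exact hvw (FAFF.place_ext hcon)
  have h2 : ∃ y : F, y ≠ 0 ∧ 0 ≤ w.ord y ∧ v.ord y < 0 := by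
    by_contra hcon
    push Not at hcon
    exact hvw (FAFF.place_ext hcon).symm
  obtain ⟨y1, h10, h11, h12⟩ := h1
  obtain ⟨y2, h20, h21, h22⟩ := h2
  refine ⟨y1 * y2⁻¹, mul_ne_zero h10 (inv_ne_zero h20), ?_, ?_⟩
  · rw [v.ord_mul h10 (inv_ne_zero h20), v.ord_inv]; omega
  · rw [w.ord_mul h10 (inv_ne_zero h20), w.ord_inv]; omega

/-- W2 -/
theorem exists_pos_neg_finset (v : Place K F) (s : Finset (Place K F)) (hv : v ∉ s) :
    ∃ u : F, u ≠ 0 ∧ 0 < v.ord u ∧ ∀ w ∈ s, w.ord u < 0 := by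
  classical
  induction s using Finset.induction_on with
  | empty =>
    obtain ⟨t, ht0, ht⟩ := exists_uniformizer v
    exact ⟨t, ht0, by omega, by simp⟩
  | insert w s hw ih =>
    have hvs : v ∉ s := fun h => hv (Finset.mem_insert_of_mem h)
    have hvw : v ≠ w := fun h => hv (h ▸ Finset.mem_insert_self _ _)
    obtain ⟨y, hy0, hyv, hys⟩ := ih hvs
    by_cases hwy : w.ord y < 0
    · refine ⟨y, hy0, hyv, ?_⟩
      intro w' hw'
      rcases Finset.mem_insert.1 hw' with rfl | h
      · exact hwy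
      · exact hys w' h
    push Not at hwy
    obtain ⟨z, hz0, hzv, hzw⟩ := exists_pos_neg hvw
    -- a large exponent
    let r : ℕ := 1 + ∑ w' ∈ s, (w'.ord y).natAbs
    have hr : ∀ w' ∈ s, (w'.ord y).natAbs < r := by
      intro w' hw'
      have := Finset.single_le_sum (f := fun w' : Place K F => (w'.ord y).natAbs)
        (fun _ _ => Nat.zero_le _) hw'
      simp only [r]
      omega
    have hr1 : 1 ≤ r := by simp only [r]; omega
    have hzr0 : z ^ r ≠ 0 := pow_ne_zero _ hz0
    have hw1 : w.ord (z ^ r) < 0 := by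
      rw [ord_pow]
      have : (1 : ℤ) ≤ r := by exact_mod_cast hr1
      nlinarith
    have hsum_w := ord_add_of_ordGE (v := w) (f := z ^ r) (g := y) hzr0 (Or.inr (by omega))
    have hu0 : y + z ^ r ≠ 0 := by rw [add_comm]; exact hsum_w.1
    refine ⟨y + z ^ r, hu0, ?_, ?_⟩
    · have h1 : OrdGE v (y + z ^ r) 1 := by
        refine OrdGE.add (Or.inr (by omega)) (Or.inr ?_)
        rw [ord_pow]
        have : (1 : ℤ) ≤ r := by exact_mod_cast hr1
        nlinarith
      have := h1.le hu0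
      omega
    · intro w' hw'
      rcases Finset.mem_insert.1 hw' with rfl | h
      · rw [add_comm, hsum_w.2]; exact hw1
      · have hy' := hys w' h
        have hr' := hr w' h
        rcases lt_trichotomy (w'.ord (z ^ r)) (w'.ord y) with hlt | heq | hgt
        · rw [add_comm, FAFF.ord_add_eq_of_lt w' hzr0 hy0 hlt]; omega
        · exfalso
          rw [ord_pow] at heq
          have h3 : (w'.ord y).natAbs = r * (w'.ord z).natAbs := by
            rw [← heq, Int.natAbs_mul, Int.natAbs_natCast]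
          rcases Nat.eq_zero_or_pos (w'.ord z).natAbs with h4 | h4
          · rw [h4, mul_zero] at h3
            omega
          · have : r ≤ r * (w'.ord z).natAbs := Nat.le_mul_of_pos_right r h4
            omega
        · rw [FAFF.ord_add_eq_of_lt w' hy0 hzr0 hgt]; exact hy'

/-- W3 : an approximate idempotent. -/
theorem exists_approx_idem (v : Place K F) (s : Finset (Place K F)) (hv : v ∉ s) (N : ℤ) :
    ∃ a : F, a ≠ 0 ∧ OrdGE v (a - 1) N ∧ ∀ w ∈ s, N ≤ w.ord a := by
  obtain ⟨u, hu0, huv, hus⟩ := exists_pos_neg_finset v s hv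
  let m : ℕ := N.toNat + 1
  have hm : N ≤ m := by simp only [m]; push_cast; omega
  have hm1 : (1 : ℤ) ≤ m := by simp only [m]; push_cast; omega
  have hum0 : u ^ m ≠ 0 := pow_ne_zero _ hu0
  have hv1 : (m : ℤ) ≤ v.ord (u ^ m) := by rw [ord_pow]; nlinarith
  have h1 := ord_add_of_ordGE (v := v) (f := (1 : F)) (g := u ^ m) one_ne_zero
    (Or.inr (by rw [v.ord_one]; omega))
  refine ⟨(1 + u ^ m)⁻¹, inv_ne_zero h1.1, Or.inr ?_, ?_⟩
  · have h2 : (1 + u ^ m)⁻¹ - 1 = -(u ^ m) * (1 + u ^ m)⁻¹ := by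
      have := h1.1
      field_simp
      ring
    rw [h2, v.ord_mul (neg_ne_zero.2 hum0) (inv_ne_zero h1.1), FAFF.ord_neg, v.ord_inv, h1.2,
      v.ord_one]
    omega
  · intro w hw
    have hw1 : w.ord (u ^ m) ≤ -(m : ℤ) := by
      rw [ord_pow]
      have := hus w hw
      nlinarith
    have h3 := ord_add_of_ordGE (v := w) (f := u ^ m) (g := (1 : F)) hum0
      (Or.inr (by rw [w.ord_one]; omega))
    rw [w.ord_inv, add_comm, h3.2]
    omega

/-- an element with prescribed order at `v` and large order on `s`. -/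
theorem exists_ord_eq_and_le (v : Place K F) (s : Finset (Place K F)) (hv : v ∉ s) (a N : ℤ) :
    ∃ y : F, y ≠ 0 ∧ v.ord y = a ∧ ∀ w ∈ s, N ≤ w.ord y := by
  classical
  obtain ⟨t, ht0, ht⟩ := exists_uniformizer v
  let M : ℤ := 1 + |N| + ∑ w ∈ s, |a * w.ord t|
  have hM : ∀ w ∈ s, N - a * w.ord t ≤ M := by
    intro w hw
    have h1 := Finset.single_le_sum (f := fun w : Place K F => |a * w.ord t|)
      (fun _ _ => abs_nonneg _) hw
    have h2 := neg_abs_le (a * w.ord t)
    have h3 := le_abs_self N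
    simp only [M]
    linarith
  have hM1 : 1 ≤ M := by
    have h1 : 0 ≤ ∑ w ∈ s, |a * w.ord t| := Finset.sum_nonneg fun _ _ => abs_nonneg _
    have h2 := abs_nonneg N
    simp only [M]
    linarith
  obtain ⟨A, hA0, hAv, hAs⟩ := exists_approx_idem v s hv M
  have hAv0 : v.ord A = 0 := by
    have h1 := ord_add_of_ordGE (v := v) (f := (1 : F)) (g := A - 1) one_ne_zero
      (hAv.mono (by rw [v.ord_one]; omega))
    have h2 : (1 : F) + (A - 1) = A := by ring
    rw [h2, v.ord_one] at h1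
    exact h1.2
  have hta : t ^ a ≠ 0 := zpow_ne_zero _ ht0
  refine ⟨t ^ a * A, mul_ne_zero hta hA0, ?_, ?_⟩
  · rw [v.ord_mul hta hA0, v.ord_zpow, ht, hAv0]; ring
  · intro w hw
    rw [w.ord_mul hta hA0, w.ord_zpow]
    have := hM w hw
    have := hAs w hw
    linarith

/-- Weak approximation theorem. -/
theorem weak_approximation (s : Finset (Place K F)) (x : Place K F → F) (N : ℤ) :
    ∃ z : F, ∀ v ∈ s, OrdGE v (z - x v) N := by
  classical
  -- a bound for the pole orders of the `x w` at the places of `s`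
  let M : ℤ := |N| + ∑ v ∈ s, ∑ w ∈ s, |v.ord (x w)|
  have hM : ∀ v ∈ s, ∀ w ∈ s, N - v.ord (x w) ≤ M := by
    intro v hv w hw
    have h1 := Finset.single_le_sum (f := fun w : Place K F => |v.ord (x w)|)
      (fun _ _ => abs_nonneg _) hw
    have h2 := Finset.single_le_sum (f := fun v : Place K F => ∑ w ∈ s, |v.ord (x w)|)
      (fun _ _ => Finset.sum_nonneg fun _ _ => abs_nonneg _) hv
    have h3 := neg_abs_le (v.ord (x w))
    have h4 := le_abs_self N
    simp only [M]
    linarith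
  have hex : ∀ v : Place K F, ∃ a : F, a ≠ 0 ∧ OrdGE v (a - 1) M ∧ ∀ w ∈ s.erase v, M ≤ w.ord a :=
    fun v => exists_approx_idem v (s.erase v) (Finset.notMem_erase v s) M
  choose A hA0 hAv hAs using hex
  refine ⟨∑ w ∈ s, A w * x w, fun v hv => ?_⟩
  have h1 : ∑ w ∈ s, A w * x w - x v = (A v - 1) * x v + ∑ w ∈ s.erase v, A w * x w := by
    rw [← Finset.add_sum_erase s _ hv]
    ring
  rw [h1]
  refine OrdGE.add ?_ (OrdGE.sum _ fun w hw => ?_)
  · have h2 : OrdGE v ((A v - 1) * x v) (M + v.ord (x v)) := (hAv v).mul (Or.inr le_rfl)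
    exact h2.mono (by have := hM v hv v hv; linarith)
  · have hw' : w ∈ s := Finset.mem_of_mem_erase hw
    have hvw : v ∈ s.erase w := Finset.mem_erase.2 ⟨(Finset.ne_of_mem_erase hw).symm, hv⟩
    have h2 : OrdGE v (A w * x w) (M + v.ord (x w)) :=
      OrdGE.mul (Or.inr (hAs w v hvw)) (Or.inr le_rfl)
    exact h2.mono (by have := hM v hv w hw'; linarith)

end FAR
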