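import Fermat.Agent.X0Genus.Places

/-!
# S18-G1 (a): a criterion for linear independence over `K(x)`
-/

set_option autoImplicit false

namespace FAR

open AlgebraicCurve IntermediateField Polynomial
open scoped IntermediateField.algebraAdjoinAdjoin

variable {K F : Type*} [Field K] [Field F] [Algebra K F]

theorem rel_zero_of_aeval_ne_zero {ι : Type*} [Fintype ι] (x : F) (hx0 : x ≠ 0) (y : ι → F)
    (H : ∀ c : ι → K[X], (∃ i, (c i).coeff 0 ≠ 0) → ∑ i, aeval x (c i) * y i ≠ 0) (N : ℕ) :
    ∀ c : ι → K[X], (∀ i, (c i).natDegree ≤ N) → ∑ i, aeval x (c i) * y i = 0 → ∀ i, c i = 0 := by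
  induction N with
  | zero =>
    intro c hc hrel i
    have h0 : ∀ i, (c i).coeff 0 = 0 := by
      by_contra hcon
      push Not at hcon
      exact H c hcon hrel
    rw [eq_C_of_natDegree_le_zero (hc i), h0 i, C_0]
  | succ N ih =>
    intro c hc hrel
    have h0 : ∀ i, (c i).coeff 0 = 0 := by
      by_contra hcon
      push Not at hcon
      exact H c hcon hrel
    have hd : ∀ i, c i = divX (c i) * X := by
      intro i
      conv_lhs => rw [← divX_mul_X_add (c i), h0 i, C_0, add_zero]
    have hrel' : ∑ i, aeval x (divX (c i)) * y i = 0 := by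
      have h1 : x * ∑ i, aeval x (divX (c i)) * y i = 0 := by
        rw [← hrel, Finset.mul_sum]
        refine Finset.sum_congr rfl fun i _ => ?_
        conv_rhs => rw [hd i, map_mul, aeval_X]
        ring
      exact (mul_eq_zero.1 h1).resolve_left hx0
    have h2 := ih (fun i => divX (c i)) (fun i => by
      rw [natDegree_divX_eq_natDegree_tsub_one]
      have := hc i
      omega) hrel'
    intro i
    rw [hd i, h2 i, zero_mul]

/-- Tool T: a family `y` such that no polynomial relation with some nonzero constant term exists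
is linearly independent over `K(x)`. -/
theorem linearIndependent_of_aeval_ne_zero {ι : Type*} [Fintype ι] (x : F) (hx0 : x ≠ 0)
    (y : ι → F)
    (H : ∀ c : ι → K[X], (∃ i, (c i).coeff 0 ≠ 0) → ∑ i, aeval x (c i) * y i ≠ 0) :
    LinearIndependent K⟮x⟯ y := by
  rw [← LinearIndependent.iff_fractionRing (Algebra.adjoin K {x}) K⟮x⟯, Fintype.linearIndependent_iff]
  intro g hg
  have hex : ∀ i, ∃ p : K[X], aeval x p = (g i : F) := by
    intro i
    have h1 : ∀ z : F, z ∈ Algebra.adjoin K {x} → ∃ p : K[X], aeval x p = z := by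
      intro z hz
      rw [Algebra.adjoin_singleton_eq_range_aeval] at hz
      exact hz
    exact h1 _ (g i).2
  choose c hc using hex
  have hrel : ∑ i, aeval x (c i) * y i = 0 := by
    rw [← hg]
    refine Finset.sum_congr rfl fun i _ => ?_
    rw [hc i]
    rfl
  have h0 := rel_zero_of_aeval_ne_zero x hx0 y H (Finset.univ.sup fun i => (c i).natDegree) c
    (fun i => Finset.le_sup (f := fun i => (c i).natDegree) (Finset.mem_univ i)) hrel
  intro i
  apply Subtype.ext
  rw [← hc i, h0 i]
  simp

theorem card_le_finrank_of_aeval_ne_zero {ι : Type*} [Fintype ι] (x : F) (hx0 : x ≠ 0)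
    [FiniteDimensional K⟮x⟯ F] (y : ι → F)
    (H : ∀ c : ι → K[X], (∃ i, (c i).coeff 0 ≠ 0) → ∑ i, aeval x (c i) * y i ≠ 0) :
    Fintype.card ι ≤ Module.finrank K⟮x⟯ F :=
  (linearIndependent_of_aeval_ne_zero x hx0 y H).fintype_card_le_finrank

end FAR
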