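import Fermat.Agent.Red.RZeros
import Fermat.Prelude.Def_AlgebraicCurve_Repartitions

/-!
# S18-G1 (e): the spaces `L(B)`: finite dimension, `l(B+P) ≤ l(B)+1`, `L(0) = K`
-/

set_option autoImplicit false

namespace FAR

open AlgebraicCurve IntermediateField Polynomial FA24

variable {K F : Type*} [Field K] [Field F] [Algebra K F]

/-- `l(B)`. -/
noncomputable def ell (B : Divisor K F) : ℕ := Module.finrank K (riemannRochSpace B)

theorem mem_L_iff {B : Divisor K F} {f : F} :
    f ∈ riemannRochSpace B ↔ ∀ v : Place K F, OrdGE v f (-B v) :=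
  mem_riemannRochSpace_iff

theorem L_mono {B B' : Divisor K F} (h : B ≤ B') : riemannRochSpace B ≤ riemannRochSpace B' := by
  intro f hf
  rw [mem_L_iff] at hf ⊢
  exact fun v => (hf v).mono (by have := h v; omega)

variable [IsAlgClosed K]

theorem exists_sub_smul_mem (h : IsFF K F) (B : Divisor K F) (P : Place K F) {g : F}
    (hg : g ∈ riemannRochSpace (B + Finsupp.single P 1)) (hgB : g ∉ riemannRochSpace B)
    {f : F} (hf : f ∈ riemannRochSpace (B + Finsupp.single P 1)) :
    ∃ c : K, f - c • g ∈ riemannRochSpace B := by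
  classical
  rw [mem_L_iff] at hg hf
  have hg0 : g ≠ 0 := by
    rintro rfl
    exact hgB (Submodule.zero_mem _)
  have hne : ∀ v : Place K F, v ≠ P → (B + Finsupp.single P 1 : Divisor K F) v = B v := by
    intro v hv
    rw [Finsupp.add_apply, Finsupp.single_apply, if_neg (Ne.symm hv), add_zero]
  have hP : (B + Finsupp.single P 1 : Divisor K F) P = B P + 1 := by
    rw [Finsupp.add_apply, Finsupp.single_apply, if_pos rfl]
  have hgP : P.ord g = -B P - 1 := by
    have h1 := (hg P).le hg0
    rw [hP] at h1
    by_contra hcon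
    apply hgB
    rw [mem_L_iff]
    intro v
    by_cases hv : v = P
    · subst hv
      exact Or.inr (by omega)
    · have := hg v
      rwa [hne v hv] at this
  rcases eq_or_ne f 0 with rfl | hf0
  · exact ⟨0, by simp⟩
  have hfP := (hf P).le hf0
  rw [hP] at hfP
  have hq : 0 ≤ P.ord (f * g⁻¹) := by
    rw [P.ord_mul hf0 (inv_ne_zero hg0), P.ord_inv]
    omega
  obtain ⟨c, hc⟩ := exists_const h P (f * g⁻¹) hq
  refine ⟨c, ?_⟩
  have hfac : f - c • g = g * (f * g⁻¹ - algebraMap K F c) := by
    rw [Algebra.smul_def]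
    field_simp
  rw [mem_L_iff]
  intro v
  by_cases hv : v = P
  · subst hv
    rcases hc with hc | hc
    · left
      rw [hfac, hc, sub_self, mul_zero]
    · rw [hfac]
      have := (OrdGE.of_le (v := v) (f := g) (n := -B v - 1) hgP.ge).mul
        (OrdGE.of_le (v := v) (f := f * g⁻¹ - algebraMap K F c) (n := 1) (by omega))
      exact this.mono (by omega)
  · have h1 := hf v
    have h2 := hg v
    rw [hne v hv] at h1 h2
    exact h1.sub (h2.smul c)

theorem L_add_single (h : IsFF K F) (B : Divisor K F) (P : Place K F)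
    (hfd : FiniteDimensional K (riemannRochSpace B)) :
    FiniteDimensional K (riemannRochSpace (B + Finsupp.single P 1)) ∧
      ell (B + Finsupp.single P 1) ≤ ell B + 1 := by
  by_cases hle : riemannRochSpace (B + Finsupp.single P 1) ≤ riemannRochSpace B
  · have h1 : FiniteDimensional K (riemannRochSpace (B + Finsupp.single P 1)) :=
      Submodule.finiteDimensional_of_le hle
    exact ⟨h1, (Submodule.finrank_mono hle).trans (Nat.le_succ _)⟩
  · obtain ⟨g, hg, hgB⟩ := SetLike.not_le_iff_exists.1 hle
    have hle' : riemannRochSpace (B + Finsupp.single P 1) ≤ riemannRochSpace B ⊔ K ∙ g := by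
      intro f hf
      obtain ⟨c, hc⟩ := exists_sub_smul_mem h B P hg hgB hf
      have : f = (f - c • g) + c • g := by ring
      rw [this]
      exact Submodule.add_mem_sup hc (Submodule.smul_mem _ _ (Submodule.mem_span_singleton_self g))
    have h1 : FiniteDimensional K (riemannRochSpace (B + Finsupp.single P 1)) :=
      Submodule.finiteDimensional_of_le hle'
    refine ⟨h1, (Submodule.finrank_mono hle').trans ?_⟩
    refine (Submodule.finrank_add_le_finrank_add_finrank _ _).trans ?_
    have hg0 : g ≠ 0 := by
      rintro rfl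
      exact hgB (Submodule.zero_mem _)
    rw [finrank_span_singleton hg0]
    rfl

theorem mem_L_zero_iff (h : IsFF K F) {f : F} :
    f ∈ riemannRochSpace (0 : Divisor K F) ↔ f ∈ Set.range (algebraMap K F) := by
  constructor
  · intro hf
    by_contra hfK
    obtain ⟨v, hv⟩ := exists_place_neg h f (FAFF.transcendental_of_notMem_range hfK)
    rw [mem_L_iff] at hf
    have hf0 : f ≠ 0 := by
      rintro rfl
      simp at hv
    have := (hf v).le hf0
    simp at this
    omega
  · rintro ⟨a, rfl⟩
    rw [mem_L_iff]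
    intro v
    simpa using OrdGE.algebraMap v a

theorem L_zero (h : IsFF K F) : riemannRochSpace (0 : Divisor K F) = K ∙ (1 : F) := by
  ext f
  rw [mem_L_zero_iff h, Submodule.mem_span_singleton]
  constructor
  · rintro ⟨a, rfl⟩
    exact ⟨a, by rw [Algebra.smul_def, mul_one]⟩
  · rintro ⟨a, rfl⟩
    exact ⟨a, by rw [Algebra.smul_def, mul_one]⟩

theorem ell_zero (h : IsFF K F) : ell (0 : Divisor K F) = 1 := by
  rw [ell, L_zero h]
  exact finrank_span_singleton one_ne_zero

/-- induction on effective divisors. -/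
theorem L_add_effective (h : IsFF K F) (n : ℕ) : ∀ (B E : Divisor K F), 0 ≤ E →
    Divisor.degree E = n → FiniteDimensional K (riemannRochSpace B) →
    FiniteDimensional K (riemannRochSpace (B + E)) ∧ ell (B + E) ≤ ell B + n := by
  classical
  induction n with
  | zero =>
    intro B E hE hdeg hfd
    have hE0 : E = 0 := by
      rw [degree_eq_sum' h] at hdeg
      ext v
      by_cases hv : v ∈ E.support
      · have := (Finset.sum_eq_zero_iff_of_nonneg (fun w _ => hE w)).1 (by simpa using hdeg) v hv
        simpa using this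
      · simpa using hv
    rw [hE0, add_zero]
    exact ⟨hfd, le_rfl⟩
  | succ n ih =>
    intro B E hE hdeg hfd
    have hex : ∃ P, 0 < E P := by
      by_contra hcon
      push Not at hcon
      have hE0 : E = 0 := by
        ext v
        exact le_antisymm (hcon v) (hE v)
      rw [hE0, map_zero] at hdeg
      push_cast at hdeg
      omega
    obtain ⟨P, hP⟩ := hex
    have hE' : 0 ≤ E - Finsupp.single P 1 := by
      intro v
      rw [Finsupp.sub_apply, Finsupp.single_apply]
      have := hE v
      simp only [Finsupp.coe_zero, Pi.zero_apply] at this ⊢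
      split_ifs with hv
      · subst hv; omega
      · omega
    have hdeg' : Divisor.degree (E - Finsupp.single P 1) = n := by
      rw [map_sub, hdeg, degree_single' h]
      push_cast
      ring
    obtain ⟨h1, h2⟩ := ih B _ hE' hdeg' hfd
    obtain ⟨h3, h4⟩ := L_add_single h (B + (E - Finsupp.single P 1)) P h1
    have he : B + (E - Finsupp.single P 1) + Finsupp.single P 1 = B + E := by abel
    rw [he] at h3 h4
    exact ⟨h3, by omega⟩

theorem L_finiteDimensional (h : IsFF K F) (B : Divisor K F) :
    FiniteDimensional K (riemannRochSpace B) := by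
  have h0 : FiniteDimensional K (riemannRochSpace (0 : Divisor K F)) := by
    rw [L_zero h]
    infer_instance
  have hE : (0 : Divisor K F) ≤ B ⊔ 0 := le_sup_right
  have h1 := (L_add_effective h (Divisor.degree (B ⊔ 0)).toNat 0 (B ⊔ 0) hE
    (Int.toNat_of_nonneg (degree_nonneg h hE)).symm h0).1
  rw [zero_add] at h1
  exact Submodule.finiteDimensional_of_le (L_mono (le_sup_left : B ≤ B ⊔ 0))

theorem ell_mono (h : IsFF K F) {B B' : Divisor K F} (hB : B ≤ B') : ell B ≤ ell B' := by
  have := L_finiteDimensional h B'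
  exact Submodule.finrank_mono (L_mono hB)

/-- `l(B + E) ≤ l(B) + deg E` for `E ≥ 0`. -/
theorem ell_add_le (h : IsFF K F) (B E : Divisor K F) (hE : 0 ≤ E) :
    (ell (B + E) : ℤ) ≤ ell B + Divisor.degree E := by
  have h1 := (L_add_effective h (Divisor.degree E).toNat B E hE
    (Int.toNat_of_nonneg (degree_nonneg h hE)).symm (L_finiteDimensional h B)).2
  have h2 := Int.toNat_of_nonneg (degree_nonneg h hE)
  omega

/-- `deg B - l(B)` is monotone. -/
theorem degree_sub_ell_mono (h : IsFF K F) {B B' : Divisor K F} (hB : B ≤ B') :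
    Divisor.degree B - ell B ≤ Divisor.degree B' - ell B' := by
  have h1 := ell_add_le h B (B' - B) (sub_nonneg.2 hB)
  rw [add_sub_cancel, map_sub] at h1
  omega

theorem ell_le_degree_add_one (h : IsFF K F) {B : Divisor K F} (hB : 0 ≤ B) :
    (ell B : ℤ) ≤ Divisor.degree B + 1 := by
  have h1 := ell_add_le h 0 B hB
  rw [zero_add, ell_zero h] at h1
  push_cast at h1
  omega

theorem ell_add_single_le (h : IsFF K F) (B : Divisor K F) (P : Place K F) :
    ell (B + Finsupp.single P 1) ≤ ell B + 1 :=
  (L_add_single h B P (L_finiteDimensional h B)).2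

/-- multiplication by `z` maps `L(B + (z))` onto `L(B)`. -/
theorem map_mul_L (h : IsFF K F) (B : Divisor K F) {z : F} (hz : z ≠ 0) :
    (riemannRochSpace (B + divOf h z)).map (LinearMap.mulLeft K z) = riemannRochSpace B := by
  ext f
  rw [Submodule.mem_map]
  constructor
  · rintro ⟨g, hg, rfl⟩
    rw [mem_L_iff] at hg ⊢
    intro v
    have := (OrdGE.of_le (v := v) (f := z) (n := v.ord z) le_rfl).mul (hg v)
    rw [LinearMap.mulLeft_apply]
    exact this.mono (by simp)
  · intro hf
    refine ⟨z⁻¹ * f, ?_, by rw [LinearMap.mulLeft_apply]; field_simp⟩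
    rw [mem_L_iff] at hf ⊢
    intro v
    have := (OrdGE.of_le (v := v) (f := z⁻¹) (n := -v.ord z) (v.ord_inv z).ge).mul (hf v)
    exact this.mono (by simp)

theorem ell_add_divOf (h : IsFF K F) (B : Divisor K F) {z : F} (hz : z ≠ 0) :
    ell (B + divOf h z) = ell B := by
  have hinj : Function.Injective (LinearMap.mulLeft K z) := fun a b hab => by
    simpa [hz] using hab
  rw [ell, ell, ← map_mul_L h B hz]
  exact (Submodule.equivMapOfInjective _ hinj _).finrank_eq

theorem ell_pos_iff (h : IsFF K F) (B : Divisor K F) :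
    0 < ell B ↔ ∃ z : F, z ≠ 0 ∧ z ∈ riemannRochSpace B := by
  have := L_finiteDimensional h B
  rw [ell, Module.finrank_pos_iff_exists_ne_zero]
  constructor
  · rintro ⟨⟨z, hz⟩, hz0⟩
    exact ⟨z, fun h0 => hz0 (Subtype.ext h0), hz⟩
  · rintro ⟨z, hz0, hz⟩
    exact ⟨⟨z, hz⟩, fun h0 => hz0 (congrArg Subtype.val h0)⟩

theorem mem_L_iff_divOf (h : IsFF K F) (B : Divisor K F) {z : F} (hz : z ≠ 0) :
    z ∈ riemannRochSpace B ↔ 0 ≤ B + divOf h z := by
  rw [mem_L_iff]
  constructor
  · intro hv v
    have := (hv v).le hz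
    simp only [Finsupp.coe_zero, Pi.zero_apply, Finsupp.add_apply, divOf_apply]
    omega
  · intro hv v
    have := hv v
    simp only [Finsupp.coe_zero, Pi.zero_apply, Finsupp.add_apply, divOf_apply] at this
    exact Or.inr (by omega)

end FAR
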