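import Fermat.Agent.Red.RApprox

/-!
# S18-G1 (d): zeros of a function: `∑ ord ≤ [F : K(x)]`, finiteness, the divisor of a function
-/

set_option autoImplicit false

namespace FAR

open AlgebraicCurve IntermediateField Polynomial FA24

variable {K F : Type*} [Field K] [Field F] [Algebra K F]

theorem aeval_ord_eq_zero {v : Place K F} {x : F} (hx : 0 < v.ord x) (p : K[X])
    (hp : p.coeff 0 ≠ 0) : aeval x p ≠ 0 ∧ v.ord (aeval x p) = 0 := by
  have h1 : aeval x p = algebraMap K F (p.coeff 0) + x * aeval x (divX p) := by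
    conv_lhs => rw [← divX_mul_X_add p, map_add, aeval_C, map_mul, aeval_X]
    ring
  have h0 : algebraMap K F (p.coeff 0) ≠ 0 := by simpa using hp
  have h2 : OrdGE v (x * aeval x (divX p)) (v.ord (algebraMap K F (p.coeff 0)) + 1) := by
    rw [FAFF.ord_algebraMap]
    have := (OrdGE.of_le (v := v) (f := x) (n := 1) (by omega)).mul
      (OrdGE.aeval (v := v) (x := x) (Or.inr hx.le) (divX p))
    simpa using this
  have h3 := ord_add_of_ordGE h0 h2
  rw [← h1, FAFF.ord_algebraMap] at h3
  exact h3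

theorem aeval_ordGE {v : Place K F} {x : F} (hx : 0 ≤ v.ord x) (p : K[X])
    (hp : p.coeff 0 = 0) : OrdGE v (aeval x p) (v.ord x) := by
  have h1 : aeval x p = x * aeval x (divX p) := by
    conv_lhs => rw [← divX_mul_X_add p, hp, C_0, add_zero, map_mul, aeval_X]
    ring
  rw [h1]
  have := (OrdGE.of_le (v := v) (f := x) (n := v.ord x) le_rfl).mul
    (OrdGE.aeval (v := v) (x := x) (Or.inr hx) (divX p))
  simpa using this

/-- Stichtenoth 1.3.3 (all residue degrees counted as `1`). -/
theorem sum_ord_le_finrank (x : F) (hx0 : x ≠ 0) [FiniteDimensional K⟮x⟯ F]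
    (s : Finset (Place K F)) (hs : ∀ v ∈ s, 0 < v.ord x) :
    ∑ v ∈ s, v.ord x ≤ (Module.finrank K⟮x⟯ F : ℤ) := by
  classical
  let e : Place K F → ℕ := fun v => (v.ord x).toNat
  have he : ∀ v ∈ s, (e v : ℤ) = v.ord x := fun v hv => Int.toNat_of_nonneg (hs v hv).le
  let N : ℤ := ∑ w ∈ s, w.ord x
  have hN : ∀ w ∈ s, w.ord x ≤ N := fun w hw =>
    Finset.single_le_sum (f := fun w : Place K F => w.ord x) (fun w hw => (hs w hw).le) hw
  have hex : ∀ (v : Place K F) (a : ℕ), ∃ y : F, y ≠ 0 ∧ v.ord y = a ∧ ∀ w ∈ s.erase v, N ≤ w.ord y :=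
    fun v a => exists_ord_eq_and_le v (s.erase v) (Finset.notMem_erase v s) a N
  choose Y hY0 hYv hYs using hex
  have hcard := card_le_finrank_of_aeval_ne_zero (K := K) (ι := Σ v : s, Fin (e v)) x hx0
    (fun i => Y i.1 i.2) (by
      rintro c ⟨⟨⟨v, hv⟩, a0⟩, ha0⟩
      let T : Finset (Fin (e v)) := Finset.univ.filter fun a => (c ⟨⟨v, hv⟩, a⟩).coeff 0 ≠ 0
      have hT : T.Nonempty := ⟨a0, by simp [T, ha0]⟩
      set a := T.min' hT with ha
      have haT : a ∈ T := Finset.min'_mem T hT
      have hac : (c ⟨⟨v, hv⟩, a⟩).coeff 0 ≠ 0 := by simpa [T] using haT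
      have hmin : ∀ b : Fin (e v), b < a → (c ⟨⟨v, hv⟩, b⟩).coeff 0 = 0 := by
        intro b hb
        by_contra hne
        have : a ≤ b := Finset.min'_le T b (by simp [T, hne])
        exact absurd hb (not_lt.2 this)
      have hae : (a : ℤ) < v.ord x := by
        rw [← he v hv]
        exact_mod_cast a.2
      set j : Σ v : s, Fin (e v) := ⟨⟨v, hv⟩, a⟩ with hj
      rw [← Finset.add_sum_erase Finset.univ _ (Finset.mem_univ j)]
      have h1 := aeval_ord_eq_zero (hs v hv) _ hac
      have hfj0 : aeval x (c j) * Y j.1 j.2 ≠ 0 := mul_ne_zero h1.1 (hY0 _ _)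
      have hfj : v.ord (aeval x (c j) * Y j.1 j.2) = a := by
        rw [v.ord_mul h1.1 (hY0 _ _), h1.2, zero_add]
        exact hYv v a
      refine (ord_add_of_ordGE (v := v) hfj0 (OrdGE.sum _ ?_)).1
      rintro ⟨⟨w, hw⟩, b⟩ hi
      have hij : (⟨⟨w, hw⟩, b⟩ : Σ v : s, Fin (e v)) ≠ j := Finset.ne_of_mem_erase hi
      rw [hfj]
      show OrdGE v (aeval x (c ⟨⟨w, hw⟩, b⟩) * Y w b) (a + 1)
      by_cases hwv : w = v
      · subst hwv
        have hba : b ≠ a := by
          rintro rfl
          exact hij rfl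
        rcases lt_or_gt_of_ne hba with hlt | hgt
        · have h2 := (aeval_ordGE (hs w hv).le _ (hmin b hlt)).mul
            (OrdGE.of_le (v := w) (f := Y w b) (n := b) (hYv w b).ge)
          exact h2.mono (by
            have : (0 : ℤ) ≤ (b : ℕ) := Int.natCast_nonneg _
            omega)
        · have h2 := (OrdGE.aeval (v := w) (x := x) (Or.inr (hs w hv).le) (c ⟨⟨w, hw⟩, b⟩)).mul
            (OrdGE.of_le (v := w) (f := Y w b) (n := b) (hYv w b).ge)
          exact h2.mono (by
            have : ((a : ℕ) : ℤ) < (b : ℕ) := by exact_mod_cast hgt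
            omega)
      · have hvw : v ∈ s.erase w := Finset.mem_erase.2 ⟨fun h => hwv h.symm, hv⟩
        have h2 := (OrdGE.aeval (v := v) (x := x) (Or.inr (hs v hv).le) (c ⟨⟨w, hw⟩, b⟩)).mul
          (OrdGE.of_le (v := v) (f := Y w b) (n := N) (hYs w b v hvw))
        exact h2.mono (by have := hN v hv; omega))
  rw [Fintype.card_sigma] at hcard
  simp only [Fintype.card_fin] at hcard
  rw [Finset.sum_coe_sort s e] at hcard
  calc ∑ v ∈ s, v.ord x = ∑ v ∈ s, (e v : ℤ) := Finset.sum_congr rfl fun v hv => (he v hv).symm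
    _ = ((∑ v ∈ s, e v : ℕ) : ℤ) := by push_cast; rfl
    _ ≤ _ := by exact_mod_cast hcard

theorem finite_zeros_of_finiteDimensional (x : F) (hx0 : x ≠ 0) [FiniteDimensional K⟮x⟯ F] :
    {v : Place K F | 0 < v.ord x}.Finite := by
  by_contra hinf
  obtain ⟨t, ht, hcard⟩ := Set.Infinite.exists_subset_card_eq hinf (Module.finrank K⟮x⟯ F + 1)
  have h1 := sum_ord_le_finrank (K := K) x hx0 t (fun v hv => ht hv)
  have h2 : (t.card : ℤ) ≤ ∑ v ∈ t, v.ord x := by
    have : ∑ v ∈ t, (1 : ℤ) ≤ ∑ v ∈ t, v.ord x := Finset.sum_le_sum fun v hv => by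
      have : 0 < v.ord x := ht hv
      omega
    simpa using this
  rw [hcard] at h2
  push_cast at h2
  omega

variable [IsAlgClosed K]

theorem finite_zeros' (h : IsFF K F) (x : F) (hx : Transcendental K x) :
    {v : Place K F | 0 < v.ord x}.Finite := by
  have := finDim_of_transcendental h x hx
  exact finite_zeros_of_finiteDimensional x (fun h0 => hx (h0 ▸ isAlgebraic_zero))

theorem finite_poles' (h : IsFF K F) (x : F) (hx : Transcendental K x) :
    {v : Place K F | v.ord x < 0}.Finite := by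
  have h1 := finite_zeros' h x⁻¹ (transcendental_inv hx)
  simpa [Place.ord_inv] using h1

theorem finite_support_ord (h : IsFF K F) (f : F) : {v : Place K F | v.ord f ≠ 0}.Finite := by
  by_cases hfK : f ∈ Set.range (algebraMap K F)
  · obtain ⟨c, rfl⟩ := hfK
    simp [FAFF.ord_algebraMap]
  have hft : Transcendental K f := FAFF.transcendental_of_notMem_range hfK
  refine ((finite_zeros' h f hft).union (finite_poles' h f hft)).subset ?_
  intro v hv
  simp only [Set.mem_setOf_eq] at hv
  simp only [Set.mem_union, Set.mem_setOf_eq]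
  omega

/-- The divisor of a function (`0` for `f = 0`). -/
noncomputable def divOf (h : IsFF K F) (f : F) : Divisor K F :=
  Finsupp.ofSupportFinite (fun v => v.ord f) (finite_support_ord h f)

@[simp]
theorem divOf_apply (h : IsFF K F) (f : F) (v : Place K F) : divOf h f v = v.ord f := rfl

theorem divOf_mul (h : IsFF K F) {f g : F} (hf : f ≠ 0) (hg : g ≠ 0) :
    divOf h (f * g) = divOf h f + divOf h g := by
  ext v
  simp [v.ord_mul hf hg]

theorem divOf_inv (h : IsFF K F) (f : F) : divOf h f⁻¹ = -divOf h f := by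
  ext v
  simp [v.ord_inv]

theorem divOf_algebraMap (h : IsFF K F) (a : K) : divOf h (algebraMap K F a) = 0 := by
  ext v
  simp [FAFF.ord_algebraMap]

theorem divOf_one (h : IsFF K F) : divOf h (1 : F) = 0 := by
  ext v
  simp

theorem divOf_pow (h : IsFF K F) (f : F) (n : ℕ) : divOf h (f ^ n) = n • divOf h f := by
  ext v
  simp [ord_pow]

/-- The pole divisor of a function. -/
noncomputable def poleDiv (h : IsFF K F) (f : F) : Divisor K F := (-divOf h f) ⊔ 0

/-- The zero divisor of a function. -/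
noncomputable def zeroDiv (h : IsFF K F) (f : F) : Divisor K F := divOf h f ⊔ 0

@[simp]
theorem poleDiv_apply (h : IsFF K F) (f : F) (v : Place K F) :
    poleDiv h f v = max (-v.ord f) 0 := by
  simp [poleDiv, Finsupp.sup_apply]

@[simp]
theorem zeroDiv_apply (h : IsFF K F) (f : F) (v : Place K F) :
    zeroDiv h f v = max (v.ord f) 0 := by
  simp [zeroDiv, Finsupp.sup_apply]

theorem divOf_eq_sub (h : IsFF K F) (f : F) : divOf h f = zeroDiv h f - poleDiv h f := by
  ext v
  simp only [divOf_apply, Finsupp.sub_apply, zeroDiv_apply, poleDiv_apply]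
  omega

theorem poleDiv_nonneg (h : IsFF K F) (f : F) : 0 ≤ poleDiv h f := le_sup_right

theorem zeroDiv_nonneg (h : IsFF K F) (f : F) : 0 ≤ zeroDiv h f := le_sup_right

theorem zeroDiv_inv (h : IsFF K F) (f : F) : zeroDiv h f⁻¹ = poleDiv h f := by
  ext v
  simp [v.ord_inv]

/-- The degree of a divisor is the sum of its coefficients. -/
theorem degree_eq_sum' (h : IsFF K F) (D : Divisor K F) :
    Divisor.degree D = ∑ v ∈ D.support, D v := by
  have h1 : Divisor.degree D = D.sum fun v n => n * (v.deg : ℤ) := by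
    simp [Divisor.degree, Finsupp.liftAddHom_apply]
  rw [h1, Finsupp.sum]
  refine Finset.sum_congr rfl fun v _ => ?_
  rw [place_deg h v]
  simp

theorem degree_eq_sum_of_subset' (h : IsFF K F) (D : Divisor K F) (s : Finset (Place K F))
    (hs : D.support ⊆ s) : Divisor.degree D = ∑ v ∈ s, D v := by
  rw [degree_eq_sum' h]
  exact Finset.sum_subset hs fun v _ hv => by simpa using hv

theorem degree_single' (h : IsFF K F) (v : Place K F) (n : ℤ) :
    Divisor.degree (Finsupp.single v n) = n := by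
  rw [Divisor.degree_single, place_deg h v]
  simp

theorem degree_nonneg (h : IsFF K F) {D : Divisor K F} (hD : 0 ≤ D) : 0 ≤ Divisor.degree D := by
  rw [degree_eq_sum' h]
  exact Finset.sum_nonneg fun v _ => hD v

theorem degree_mono (h : IsFF K F) {D D' : Divisor K F} (hD : D ≤ D') :
    Divisor.degree D ≤ Divisor.degree D' := by
  have := degree_nonneg h (sub_nonneg.2 hD)
  rw [map_sub] at this
  omega

/-- `deg (x)_0 ≤ [F : K(x)]`. -/
theorem degree_zeroDiv_le (h : IsFF K F) (x : F) (hx : Transcendental K x) :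
    Divisor.degree (zeroDiv h x) ≤ (Module.finrank K⟮x⟯ F : ℤ) := by
  have := finDim_of_transcendental h x hx
  have hx0 : x ≠ 0 := fun h0 => hx (h0 ▸ isAlgebraic_zero)
  rw [degree_eq_sum' h]
  have h1 : ∀ v ∈ (zeroDiv h x).support, 0 < v.ord x := by
    intro v hv
    rw [Finsupp.mem_support_iff, zeroDiv_apply] at hv
    by_contra hcon
    exact hv (max_eq_right (not_lt.1 hcon))
  calc ∑ v ∈ (zeroDiv h x).support, zeroDiv h x v = ∑ v ∈ (zeroDiv h x).support, v.ord x :=
        Finset.sum_congr rfl fun v hv => by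
          rw [zeroDiv_apply]; exact max_eq_left (h1 v hv).le
    _ ≤ _ := sum_ord_le_finrank x hx0 _ h1

theorem degree_poleDiv_le (h : IsFF K F) (x : F) (hx : Transcendental K x) :
    Divisor.degree (poleDiv h x) ≤ (Module.finrank K⟮x⟯ F : ℤ) := by
  rw [← zeroDiv_inv, ← adjoin_inv_eq]
  exact degree_zeroDiv_le h x⁻¹ (transcendental_inv hx)

end FAR
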