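import Mathlib

/-!
# S18-SEP: a separability criterion via derivations

`k` perfect of characteristic `p`, `E/k` a field, `φ : E → L` an embedding, `D` a `k`-derivation of
`L`, `x : E` with `D (φ x) ≠ 0`.  Then every element of `E` algebraic over `k(x)` is separable
over `k(x)`.
-/

set_option autoImplicit false

namespace FAR

open Polynomial IntermediateField

variable {k E L : Type*} [Field k] [Field E] [Field L] [Algebra k E] [Algebra k L]
variable (p : ℕ) [hp : Fact p.Prime] [hchar : CharP k p] [PerfectField k]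
variable (φ : E →ₐ[k] L) (D : Derivation k L L) (x : E)

omit hp hchar in
theorem sep_transcendental (hx : D (φ x) ≠ 0) : Transcendental k x := by
  intro halg
  have hint : IsIntegral k x := halg.isIntegral
  have hsep : (minpoly k x).Separable := PerfectField.separable_of_irreducible (minpoly.irreducible hint)
  have h1 : aeval x (derivative (minpoly k x)) ≠ 0 :=
    hsep.aeval_derivative_ne_zero (minpoly.aeval k x)
  have h2 : D (aeval (φ x) (minpoly k x)) = 0 := by
    rw [aeval_algHom_apply, minpoly.aeval, map_zero, map_zero]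
  rw [Derivation.map_aeval, smul_eq_mul, aeval_algHom_apply] at h2
  rcases mul_eq_zero.1 h2 with h3 | h3
  · exact h1 ((map_eq_zero φ).1 h3)
  · exact hx h3

omit hp hchar [PerfectField k] in
/-- `D ∘ φ` maps `k(x)` into `φ (k(x)) · D (φ x)`. -/
theorem sep_exists_coeff (a : k⟮x⟯) : ∃ c : k⟮x⟯, D (φ (a : E)) = φ (c : E) * D (φ x) := by
  obtain ⟨a, ha⟩ := a
  obtain ⟨P, Q, rfl⟩ := (mem_adjoin_simple_iff k a).1 ha
  have hmem : ∀ R : k[X], aeval x R ∈ k⟮x⟯ := fun R =>
    (mem_adjoin_simple_iff k _).2 ⟨R, 1, by simp⟩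
  refine ⟨⟨(aeval x Q)⁻¹ ^ 2 * (aeval x Q * aeval x (derivative P)
    - aeval x P * aeval x (derivative Q)), ?_⟩, ?_⟩
  · exact mul_mem (pow_mem (inv_mem (hmem Q)) 2)
      (sub_mem (mul_mem (hmem Q) (hmem _)) (mul_mem (hmem P) (hmem _)))
  · show D (φ (aeval x P / aeval x Q)) = φ ((aeval x Q)⁻¹ ^ 2 * (aeval x Q * aeval x (derivative P)
      - aeval x P * aeval x (derivative Q))) * D (φ x)
    rw [map_div₀, ← aeval_algHom_apply, ← aeval_algHom_apply, Derivation.leibniz_div,
      Derivation.map_aeval, Derivation.map_aeval]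
    simp only [smul_eq_mul, map_mul, map_sub, map_pow, map_inv₀, ← aeval_algHom_apply]
    ring

/-- the constants of `D ∘ φ` in `k(x)` are the `p`-th powers. -/
theorem sep_exists_pow (hx : D (φ x) ≠ 0) (a : k⟮x⟯) (ha : D (φ (a : E)) = 0) :
    ∃ b : k⟮x⟯, b ^ p = a := by
  have hxt := sep_transcendental φ D x hx
  have hL : CharP L p := charP_of_injective_algebraMap (algebraMap k L).injective p
  obtain ⟨a, ha'⟩ := a
  obtain ⟨P, Q, rfl⟩ := (mem_adjoin_simple_iff k a).1 ha'
  have hmem : ∀ R : k[X], aeval x R ∈ k⟮x⟯ := fun R =>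
    (mem_adjoin_simple_iff k _).2 ⟨R, 1, by simp⟩
  by_cases hv : aeval x Q = 0
  · refine ⟨0, ?_⟩
    apply Subtype.ext
    show ((0 : k⟮x⟯) ^ p : k⟮x⟯).1 = aeval x P / aeval x Q
    rw [hv, div_zero, zero_pow hp.out.ne_zero]
    rfl
  set R : k[X] := P * Q ^ (p - 1) with hR
  have hp1 : p - 1 + 1 = p := Nat.sub_add_cancel hp.out.one_le
  have hRa : aeval x R = (aeval x P / aeval x Q) * (aeval x Q) ^ p := by
    rw [hR, map_mul, map_pow]
    conv_rhs => rw [← hp1, pow_succ]
    field_simp
  have hDR : D (φ (aeval x R)) = 0 := by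
    rw [hRa, map_mul, Derivation.leibniz, map_pow, Derivation.leibniz_pow]
    have ha2 : D (φ (aeval x P / aeval x Q)) = 0 := ha
    rw [ha2, smul_zero, add_zero, ← Nat.cast_smul_eq_nsmul L, CharP.cast_eq_zero L p, zero_smul,
      smul_zero]
  rw [← aeval_algHom_apply, Derivation.map_aeval, smul_eq_mul, aeval_algHom_apply] at hDR
  have hR' : derivative R = 0 := by
    rcases mul_eq_zero.1 hDR with h3 | h3
    · exact transcendental_iff.1 hxt _ ((map_eq_zero φ).1 h3)
    · exact absurd h3 hx
  have hexp : expand k p (contract p R) = R := expand_contract p hR' hp.out.ne_zero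
  set T : k[X] := (contract p R).map ((frobeniusEquiv k p).symm : k →+* k) with hT
  have hTp : T ^ p = R := by
    rw [← map_frobenius_expand p T, map_expand, hT, Polynomial.map_map]
    have : (frobenius k p).comp ((frobeniusEquiv k p).symm : k →+* k) = RingHom.id k := by
      ext z
      simp
    rw [this, Polynomial.map_id, hexp]
  refine ⟨⟨aeval x T / aeval x Q, div_mem (hmem T) (hmem Q)⟩, ?_⟩
  apply Subtype.ext
  show (aeval x T / aeval x Q) ^ p = aeval x P / aeval x Q
  rw [div_pow, ← map_pow, hTp, hRa]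
  field_simp

include p hp hchar in
/-- **SEP**. -/
theorem sep_isSeparable_of_derivation (hx : D (φ x) ≠ 0) (y : E) (hy : IsIntegral k⟮x⟯ y) :
    IsSeparable k⟮x⟯ y := by
  have hM : CharP k⟮x⟯ p := charP_of_injective_algebraMap (algebraMap k k⟮x⟯).injective p
  have hL : CharP L p := charP_of_injective_algebraMap (algebraMap k L).injective p
  set f := minpoly k⟮x⟯ y with hf
  have hirr : Irreducible f := minpoly.irreducible hy
  show f.Separable
  rw [separable_iff_derivative_ne_zero hirr]
  intro hder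
  choose c hc using sep_exists_coeff φ D x
  set n := f.natDegree with hn
  -- (i) differentiate the relation
  have hrel : ∑ i ∈ Finset.range (n + 1), φ ((f.coeff i : k⟮x⟯) : E) * φ y ^ i = 0 := by
    have h1 : aeval y f = 0 := minpoly.aeval _ _
    rw [aeval_eq_sum_range] at h1
    have h2 := congrArg φ h1
    rw [map_sum, map_zero] at h2
    rw [← h2]
    refine Finset.sum_congr rfl fun i _ => ?_
    rw [Algebra.smul_def, map_mul, map_pow]
    rfl
  have hcoef : ∀ i : ℕ, (i : L) * φ ((f.coeff i : k⟮x⟯) : E) = 0 := by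
    intro i
    rcases i with _ | i
    · simp
    have h1 := coeff_derivative f i
    rw [hder, coeff_zero] at h1
    have h2 : ((f.coeff (i + 1) * ((i : k⟮x⟯) + 1) : k⟮x⟯) : E) = 0 := by rw [← h1]; rfl
    have h3 := congrArg φ h2
    push_cast at h3 ⊢
    rw [map_zero, map_mul, map_add, map_natCast, map_one] at h3
    rw [mul_comm]
    exact h3
  have hrel2 : ∑ i ∈ Finset.range (n + 1), φ ((c (f.coeff i) : k⟮x⟯) : E) * φ y ^ i = 0 := by
    have h1 := congrArg D hrel
    rw [map_sum, map_zero] at h1
    have h2 : ∀ i ∈ Finset.range (n + 1), D (φ ((f.coeff i : k⟮x⟯) : E) * φ y ^ i)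
        = (φ ((c (f.coeff i) : k⟮x⟯) : E) * φ y ^ i) * D (φ x) := by
      intro i _
      rw [Derivation.leibniz, Derivation.leibniz_pow, hc, ← Nat.cast_smul_eq_nsmul L]
      simp only [smul_eq_mul]
      have := hcoef i
      linear_combination (φ y ^ (i - 1) * D (φ y)) * this
    rw [Finset.sum_congr rfl h2, ← Finset.sum_mul] at h1
    exact (mul_eq_zero.1 h1).resolve_right hx
  -- (ii) the polynomial with coefficients `c a_i` vanishes
  have hcn : c (f.coeff n) = 0 := by
    have h1 : f.coeff n = 1 := (minpoly.monic hy).coeff_natDegree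
    have h2 := hc (f.coeff n)
    rw [h1] at h2
    have h3 : D (φ ((1 : k⟮x⟯) : E)) = 0 := by
      have : ((1 : k⟮x⟯) : E) = 1 := rfl
      rw [this, map_one, Derivation.map_one_eq_zero]
    rw [h3] at h2
    have h4 := (mul_eq_zero.1 h2.symm).resolve_right hx
    rw [h1]
    exact Subtype.ext ((map_eq_zero φ).1 h4)
  set g : (k⟮x⟯)[X] := ∑ i ∈ Finset.range n, monomial i (c (f.coeff i)) with hg
  have hgy : aeval y g = 0 := by
    rw [Finset.sum_range_succ, hcn] at hrel2
    have h0 : φ (((0 : k⟮x⟯) : k⟮x⟯) : E) = 0 := by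
      have : ((0 : k⟮x⟯) : E) = 0 := rfl
      rw [this, map_zero]
    rw [h0, zero_mul, add_zero] at hrel2
    apply (map_eq_zero φ).1
    rw [hg, map_sum, map_sum, ← hrel2]
    refine Finset.sum_congr rfl fun i _ => ?_
    rw [aeval_monomial, map_mul, map_pow]
    rfl
  have hg0 : g = 0 := by
    by_contra hne
    have h1 := minpoly.degree_le_of_ne_zero k⟮x⟯ y hne hgy
    have h2 : g.degree < n := by
      rw [degree_lt_iff_coeff_zero]
      intro m hm
      rw [hg, finsetSum_coeff]
      refine Finset.sum_eq_zero fun i hi => ?_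
      rw [coeff_monomial, if_neg]
      have := Finset.mem_range.1 hi
      omega
    have h3 : f.degree = n := degree_eq_natDegree hirr.ne_zero
    rw [← hf, h3] at h1
    exact absurd h2 (not_lt.2 h1)
  have hc0 : ∀ i, c (f.coeff i) = 0 ∨ f.coeff i = 0 := by
    intro i
    rcases lt_trichotomy i n with hlt | heq | hgt
    · left
      have h1 := congrArg (fun q => q.coeff i) hg0
      simp only [hg, finsetSum_coeff, coeff_monomial, coeff_zero] at h1
      rw [Finset.sum_ite_eq' (Finset.range n) i, if_pos (Finset.mem_range.2 hlt)] at h1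
      exact h1
    · left; rw [heq]; exact hcn
    · right; exact coeff_eq_zero_of_natDegree_lt hgt
  -- (iii) all coefficients are `p`-th powers
  have hpow : ∀ i, f.coeff i ∈ Set.range (frobenius k⟮x⟯ p) := by
    intro i
    rcases hc0 i with h1 | h1
    · obtain ⟨b, hb⟩ := sep_exists_pow p φ D x hx (f.coeff i) (by
        rw [hc, h1]
        have : ((0 : k⟮x⟯) : E) = 0 := rfl
        rw [this, map_zero, zero_mul])
      exact ⟨b, hb⟩
    · exact ⟨0, by rw [h1, map_zero]⟩
  -- (iv) `f` is a `p`-th power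
  have hexp : expand k⟮x⟯ p (contract p f) = f := expand_contract p hder hp.out.ne_zero
  have hlift : contract p f ∈ lifts (frobenius k⟮x⟯ p) := by
    rw [lifts_iff_coeff_lifts]
    intro j
    rw [coeff_contract hp.out.ne_zero]
    exact hpow _
  obtain ⟨h0, hh0⟩ := (mem_lifts _).1 hlift
  have hfp : f = h0 ^ p := by
    rw [← map_frobenius_expand p h0, map_expand, hh0, hexp]
  rw [hfp] at hirr
  exact not_irreducible_pow hp.out.ne_one hirr

include p hp hchar in
theorem sep_algebra_isSeparable (hx : D (φ x) ≠ 0) [Algebra.IsAlgebraic k⟮x⟯ E] :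
    Algebra.IsSeparable k⟮x⟯ E :=
  ⟨fun y => sep_isSeparable_of_derivation p φ D x hx y (Algebra.IsIntegral.isIntegral y)⟩

end FAR
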